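/-
S14 (Ext-vanishing), class-field-theory route: shared definitions.

Setting: `K ⊆ L` number fields (`[Algebra K L]`), `𝓞 K ⊆ 𝓞 L` their rings of integers.
* `cft_Unram K L`      : every nonzero prime of `𝓞 L` is unramified over `𝓞 K`;
* `cft_normClasses K L`: the subgroup of `ClassGroup (𝓞 K)` generated by the classes of the relative
                         norms of the nonzero ideals of `𝓞 L`;
* `cft_IsFrobAt`, `cft_IsFrob`, `cft_frob`: Frobenius elements of `Gal(L/K)`;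
* `cft_artin K L I`    : the Artin symbol of an ideal `I` of `𝓞 K` (abelian case).
-/
import Mathlib

set_option autoImplicit false

namespace Fermat.Agent.Lib.CFT

open NumberField
open scoped nonZeroDivisors

variable (K L : Type*) [Field K] [NumberField K] [Field L] [NumberField L] [Algebra K L]

/-- Every nonzero prime of `𝓞 L` is unramified over `𝓞 K`. -/
def cft_Unram : Prop :=
  ∀ (Q : Ideal (𝓞 L)) [Q.IsPrime], Q ≠ ⊥ → Algebra.IsUnramifiedAt (𝓞 K) Q

/-- The relative norm of a nonzero ideal is nonzero. -/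
lemma cft_relNorm_mem_nonZeroDivisors (J : (Ideal (𝓞 L))⁰) :
    Ideal.relNorm (𝓞 K) (J : Ideal (𝓞 L)) ∈ (Ideal (𝓞 K))⁰ := by
  rw [mem_nonZeroDivisors_iff_ne_zero, Ideal.zero_eq_bot, Ne, Ideal.relNorm_eq_bot_iff]
  exact mem_nonZeroDivisors_iff_ne_zero.mp J.2

/-- The relative norm on nonzero ideals. -/
noncomputable def cft_relNorm0 (J : (Ideal (𝓞 L))⁰) : (Ideal (𝓞 K))⁰ :=
  ⟨Ideal.relNorm (𝓞 K) (J : Ideal (𝓞 L)), cft_relNorm_mem_nonZeroDivisors K L J⟩

/-- The subgroup of the class group of `K` generated by the classes of relative norms of nonzero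
ideals of `𝓞 L`. -/
noncomputable def cft_normClasses : Subgroup (ClassGroup (𝓞 K)) :=
  Subgroup.closure {c | ∃ J : (Ideal (𝓞 L))⁰, c = ClassGroup.mk0 (cft_relNorm0 K L J)}

variable {K L}

/-- `σ ∈ Gal(L/K)` is an arithmetic Frobenius at the prime `Q` of `𝓞 L`:
`σ x ≡ x ^ #(𝓞 K / Q ∩ 𝓞 K) (mod Q)` for all `x ∈ 𝓞 L`. -/
def cft_IsFrobAt (σ : L ≃ₐ[K] L) (Q : Ideal (𝓞 L)) : Prop :=
  ((galRestrict (𝓞 K) K L (𝓞 L) σ : 𝓞 L ≃ₐ[𝓞 K] 𝓞 L) : 𝓞 L →ₐ[𝓞 K] 𝓞 L).IsArithFrobAt Q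

lemma cft_isFrobAt_iff (σ : L ≃ₐ[K] L) (Q : Ideal (𝓞 L)) :
    cft_IsFrobAt σ Q ↔
      ∀ x : 𝓞 L, galRestrict (𝓞 K) K L (𝓞 L) σ x - x ^ Nat.card (𝓞 K ⧸ Q.under (𝓞 K)) ∈ Q :=
  Iff.rfl

/-- `σ` is a Frobenius at every prime of `𝓞 L` above the ideal `q` of `𝓞 K`. -/
def cft_IsFrob (q : Ideal (𝓞 K)) (σ : L ≃ₐ[K] L) : Prop :=
  ∀ (Q : Ideal (𝓞 L)), Q.IsPrime → Q.LiesOver q → cft_IsFrobAt σ Q

variable (K L)

open Classical in
/-- A choice of Frobenius element for the ideal `q` of `𝓞 K` (junk value `1` if there is none). It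
is *the* Frobenius when `L/K` is abelian and unramified above the nonzero prime `q`. -/
noncomputable def cft_frob (q : Ideal (𝓞 K)) : L ≃ₐ[K] L :=
  if h : ∃ σ : L ≃ₐ[K] L, cft_IsFrob q σ then h.choose else 1

variable {K L} in
lemma cft_frob_spec {q : Ideal (𝓞 K)} (h : ∃ σ : L ≃ₐ[K] L, cft_IsFrob q σ) :
    cft_IsFrob q (cft_frob K L q) := by
  classical
  rw [cft_frob, dif_pos h]
  exact h.choose_spec

/-- The exponent of the prime `v` in the ideal `I`. -/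
noncomputable def cft_count (v : IsDedekindDomain.HeightOneSpectrum (𝓞 K)) (I : Ideal (𝓞 K)) : ℕ :=
  (Associates.mk v.asIdeal).count (Associates.mk I).factors

open scoped IsMulCommutative in
/-- The Artin symbol of the ideal `I` of `𝓞 K` in the abelian extension `L/K`:
`∏ Frob_v ^ (v-adic exponent of I)`. -/
noncomputable def cft_artin [IsMulCommutative (L ≃ₐ[K] L)] (I : Ideal (𝓞 K)) : L ≃ₐ[K] L :=
  ∏ᶠ v : IsDedekindDomain.HeightOneSpectrum (𝓞 K), cft_frob K L v.asIdeal ^ cft_count K v I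

end Fermat.Agent.Lib.CFT
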