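/-
S14 (CFT route): Frobenius elements and the Artin symbol of an abelian extension of number fields,
basic API on top of `Lib/CFT/Defs.lean` and Mathlib's `RingTheory/Frobenius`.
-/
import Mathlib
import Fermat.Agent.Lib.CFT.Defs

set_option autoImplicit false
set_option linter.unusedSectionVars false

namespace Fermat.Agent.Lib.CFT

open NumberField
open scoped nonZeroDivisors Pointwise

variable (K L : Type*) [Field K] [NumberField K] [Field L] [NumberField L] [Algebra K L]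

section galois

variable [IsGalois K L]

/-- `Gal(L/K)` is a Galois group for `𝓞 L / 𝓞 K`. -/
lemma cft_isGaloisGroup : IsGaloisGroup Gal(L/K) (𝓞 K) (𝓞 L) :=
  IsGaloisGroup.of_isFractionRing Gal(L/K) (𝓞 K) (𝓞 L) K L

variable {K L}

lemma cft_galRestrict_apply (σ : Gal(L/K)) (x : 𝓞 L) :
    galRestrict (𝓞 K) K L (𝓞 L) σ x = σ • x := by
  apply RingOfIntegers.ext
  exact algebraMap_galRestrict_apply (𝓞 K) σ x

lemma cft_isFrobAt_iff' (σ : Gal(L/K)) (Q : Ideal (𝓞 L)) :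
    cft_IsFrobAt σ Q ↔ ∀ x : 𝓞 L, σ • x - x ^ Nat.card (𝓞 K ⧸ Q.under (𝓞 K)) ∈ Q := by
  rw [cft_isFrobAt_iff]
  simp only [cft_galRestrict_apply]

/-- Existence of a Frobenius element at a nonzero prime of `𝓞 L`. -/
lemma cft_exists_isFrobAt (Q : Ideal (𝓞 L)) [Q.IsPrime] (hQ : Q ≠ ⊥) :
    ∃ σ : Gal(L/K), cft_IsFrobAt σ Q := by
  have hG := cft_isGaloisGroup K L
  have := hG.commutes
  have := hG.isInvariant
  have : Finite (𝓞 L ⧸ Q) := Q.finiteQuotientOfFreeOfNeBot hQ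
  obtain ⟨σ, hσ⟩ := IsArithFrobAt.exists_of_isInvariant (𝓞 K) Gal(L/K) Q
  exact ⟨σ, (cft_isFrobAt_iff' σ Q).mpr fun x => hσ x⟩

/-- Uniqueness of the Frobenius element at an unramified prime. -/
lemma cft_isFrobAt_unique {σ τ : Gal(L/K)} {Q : Ideal (𝓞 L)} [Q.IsPrime]
    [Algebra.IsUnramifiedAt (𝓞 K) Q] (hσ : cft_IsFrobAt σ Q) (hτ : cft_IsFrobAt τ Q) : σ = τ := by
  have h := AlgHom.IsArithFrobAt.eq_of_isUnramifiedAt hσ hτ
    (fun x hx => mem_nonZeroDivisors_of_ne_zero (by rintro rfl; exact hx (zero_mem _)))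
  apply (galRestrict (𝓞 K) K L (𝓞 L)).injective
  ext x
  exact congrArg (fun f : 𝓞 L →ₐ[𝓞 K] 𝓞 L => ((f x : 𝓞 L) : L)) h

/-- Conjugation: if `σ` is a Frobenius at `Q`, then `τ σ τ⁻¹` is a Frobenius at `τ • Q`. -/
lemma cft_isFrobAt_conj {σ : Gal(L/K)} {Q : Ideal (𝓞 L)} (hσ : cft_IsFrobAt σ Q) (τ : Gal(L/K)) :
    cft_IsFrobAt (τ * σ * τ⁻¹) (τ • Q) := by
  have hG := cft_isGaloisGroup K L
  have := hG.commutes
  have h1 : IsArithFrobAt (𝓞 K) σ Q := fun x => (cft_isFrobAt_iff' σ Q).mp hσ x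
  exact (cft_isFrobAt_iff' _ _).mpr fun x => h1.conj τ x

/-- In an abelian extension a Frobenius at one prime above `q` is a Frobenius at all of them. -/
lemma cft_isFrob_of_isFrobAt [IsMulCommutative Gal(L/K)] {σ : Gal(L/K)} {Q : Ideal (𝓞 L)}
    [Q.IsPrime] (hσ : cft_IsFrobAt σ Q) : cft_IsFrob (Q.under (𝓞 K)) σ := by
  intro Q' hQ' hlo
  have hG := cft_isGaloisGroup K L
  have : Q.LiesOver (Q.under (𝓞 K)) := ⟨rfl⟩
  obtain ⟨τ, rfl⟩ := Ideal.exists_smul_eq_of_isGaloisGroup (Q.under (𝓞 K)) Q Q' Gal(L/K)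
  have h := cft_isFrobAt_conj hσ τ
  rwa [mul_comm' τ σ, mul_inv_cancel_right] at h

/-- Existence of the Frobenius of a nonzero prime of `𝓞 K` in an abelian extension. -/
lemma cft_exists_isFrob [IsMulCommutative Gal(L/K)] (q : Ideal (𝓞 K)) [q.IsPrime] (hq : q ≠ ⊥) :
    ∃ σ : Gal(L/K), cft_IsFrob q σ := by
  obtain ⟨Q, hQ, hlo⟩ := (Ideal.nonempty_primesOver (S := 𝓞 L) q).some
  have hQ0 : Q ≠ ⊥ := Ideal.ne_bot_of_liesOver_of_ne_bot hq Q
  obtain ⟨σ, hσ⟩ := cft_exists_isFrobAt (K := K) Q hQ0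
  refine ⟨σ, ?_⟩
  have := cft_isFrob_of_isFrobAt hσ
  rwa [← hlo.over] at this

/-- Uniqueness of the Frobenius of a nonzero prime of `𝓞 K` in an unramified extension. -/
lemma cft_isFrob_unique (hun : cft_Unram K L) (q : Ideal (𝓞 K)) [q.IsPrime] (hq : q ≠ ⊥)
    {σ τ : Gal(L/K)} (hσ : cft_IsFrob q σ) (hτ : cft_IsFrob q τ) : σ = τ := by
  obtain ⟨Q, hQ, hlo⟩ := (Ideal.nonempty_primesOver (S := 𝓞 L) q).some
  have hQ0 : Q ≠ ⊥ := Ideal.ne_bot_of_liesOver_of_ne_bot hq Q
  have := hun Q hQ0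
  exact cft_isFrobAt_unique (hσ Q hQ hlo) (hτ Q hQ hlo)

variable (K L) in
lemma cft_isFrob_frob [IsMulCommutative Gal(L/K)] (q : Ideal (𝓞 K)) [q.IsPrime] (hq : q ≠ ⊥) :
    cft_IsFrob q (cft_frob K L q) :=
  cft_frob_spec (cft_exists_isFrob q hq)

lemma cft_frob_eq [IsMulCommutative Gal(L/K)] (hun : cft_Unram K L) (q : Ideal (𝓞 K)) [q.IsPrime]
    (hq : q ≠ ⊥) {σ : Gal(L/K)} (hσ : cft_IsFrob q σ) : cft_frob K L q = σ :=
  cft_isFrob_unique hun q hq (cft_isFrob_frob K L q hq) hσ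

end galois

/-! ### The exponent function -/

section count

open IsDedekindDomain

variable {K}

lemma cft_count_mul (v : HeightOneSpectrum (𝓞 K)) {I J : Ideal (𝓞 K)} (hI : I ≠ ⊥) (hJ : J ≠ ⊥) :
    cft_count K v (I * J) = cft_count K v I + cft_count K v J := by
  unfold cft_count
  rw [← Associates.mk_mul_mk]
  exact Associates.count_mul (Associates.mk_ne_zero.mpr hI) (Associates.mk_ne_zero.mpr hJ)
    v.associates_irreducible

lemma cft_count_self (v : HeightOneSpectrum (𝓞 K)) : cft_count K v v.asIdeal = 1 :=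
  Associates.count_self v.associates_irreducible

lemma cft_count_of_ne {v w : HeightOneSpectrum (𝓞 K)} (h : v ≠ w) :
    cft_count K v w.asIdeal = 0 := by
  refine Associates.count_eq_zero_of_ne v.associates_irreducible w.associates_irreducible ?_
  intro h'
  exact h (HeightOneSpectrum.ext (Associates.mk_injective h'))

lemma cft_count_top (v : HeightOneSpectrum (𝓞 K)) : cft_count K v ⊤ = 0 := by
  unfold cft_count
  rw [← Ideal.one_eq_top, Associates.mk_one, Associates.factors_one]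
  exact Associates.count_zero v.associates_irreducible

lemma cft_count_ne_zero_iff (v : HeightOneSpectrum (𝓞 K)) {I : Ideal (𝓞 K)} (hI : I ≠ ⊥) :
    cft_count K v I ≠ 0 ↔ v.asIdeal ∣ I :=
  Associates.count_ne_zero_iff_dvd hI v.irreducible

lemma cft_finite_count_ne_zero {I : Ideal (𝓞 K)} (hI : I ≠ ⊥) :
    {v : HeightOneSpectrum (𝓞 K) | cft_count K v I ≠ 0}.Finite := by
  have : {v : HeightOneSpectrum (𝓞 K) | cft_count K v I ≠ 0} =
      {v : HeightOneSpectrum (𝓞 K) | v.asIdeal ∣ I} := by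
    ext v; exact cft_count_ne_zero_iff v hI
  rw [this]
  exact Ideal.finite_factors hI

end count

/-! ### The Artin symbol -/

section artin

open IsDedekindDomain
open scoped IsMulCommutative

variable [IsMulCommutative Gal(L/K)]

lemma cft_artin_hasFiniteMulSupport {I : Ideal (𝓞 K)} (hI : I ≠ ⊥) :
    (Function.mulSupport fun v : HeightOneSpectrum (𝓞 K) =>
      cft_frob K L v.asIdeal ^ cft_count K v I).Finite := by
  refine (cft_finite_count_ne_zero hI).subset fun v hv => ?_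
  simp only [Function.mem_mulSupport, ne_eq] at hv
  intro h0
  exact hv (by rw [h0, pow_zero])

lemma cft_artin_mul {I J : Ideal (𝓞 K)} (hI : I ≠ ⊥) (hJ : J ≠ ⊥) :
    cft_artin K L (I * J) = cft_artin K L I * cft_artin K L J := by
  unfold cft_artin
  rw [← finprod_mul_distrib (cft_artin_hasFiniteMulSupport K L hI)
    (cft_artin_hasFiniteMulSupport K L hJ)]
  refine finprod_congr fun v => ?_
  rw [cft_count_mul v hI hJ, pow_add]

lemma cft_artin_top : cft_artin K L ⊤ = 1 := by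
  unfold cft_artin
  simp only [cft_count_top, pow_zero, finprod_one]

lemma cft_artin_prime (v : HeightOneSpectrum (𝓞 K)) :
    cft_artin K L v.asIdeal = cft_frob K L v.asIdeal := by
  unfold cft_artin
  rw [finprod_eq_single _ v]
  · rw [cft_count_self, pow_one]
  · intro w hw
    rw [cft_count_of_ne hw, pow_zero]

lemma cft_artin_pow {I : Ideal (𝓞 K)} (hI : I ≠ ⊥) (n : ℕ) :
    cft_artin K L (I ^ n) = cft_artin K L I ^ n := by
  induction n with
  | zero => rw [pow_zero, pow_zero, Ideal.one_eq_top, cft_artin_top]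
  | succ n ih => rw [pow_succ, pow_succ, cft_artin_mul K L (pow_ne_zero n hI) hI, ih]

end artin

end Fermat.Agent.Lib.CFT
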