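/-
S14 / Artin's lemma, arithmetic part (pure `ZMod` statements, no field theory).

For `a ≥ 2`, `p` an odd prime and `k ≥ 1` there is a prime `r` with `ord_r(a) = p ^ k`
(a prime factor `r ≠ p` of `T = 1 + A + ⋯ + A^(p-1)`, `A = a^(p^(k-1))`; no Zsigmondy).
Consequently, for every `N ≠ 0` there is `m = r₁ r₂` prime to `N` and `a`, and
`τ = a mod m`, `τ' = (a mod r₁, 1 mod r₂)` in `(ZMod m)ˣ` with
`τ' ^ x * τ ^ y = 1 → p ∣ x ∧ p ∣ y`.
-/
import Mathlib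

namespace Fermat.Agent.Lib.CFT

open Finset

/-- For `p` an odd prime and `A ≥ 2`, `p ^ 2` does not divide `1 + A + ⋯ + A ^ (p - 1)`. -/
theorem cfc_geom_not_sq_dvd {p : ℕ} (hp : p.Prime) (hp2 : p ≠ 2) (A : ℕ) :
    ¬ p ^ 2 ∣ ∑ i ∈ range p, A ^ i := by
  intro h
  have : Fact p.Prime := ⟨hp⟩
  have hodd : Odd p := hp.odd_of_ne_two hp2
  have hpT : p ∣ ∑ i ∈ range p, A ^ i := dvd_trans (dvd_pow_self p two_ne_zero) h
  -- in `ZMod p`
  have h1 : (A : ZMod p) - 1 = 0 := by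
    have hgs : (∑ i ∈ range p, (A : ZMod p) ^ i) * ((A : ZMod p) - 1) = (A : ZMod p) ^ p - 1 :=
      geom_sum_mul _ _
    have hT0 : (∑ i ∈ range p, (A : ZMod p) ^ i) = 0 := by
      have := (ZMod.natCast_eq_zero_iff (∑ i ∈ range p, A ^ i) p).mpr hpT
      push_cast at this
      exact this
    rw [hT0, zero_mul, ZMod.pow_card] at hgs
    exact hgs.symm
  have hxy : (p : ℤ) ∣ (A : ℤ) - 1 := by
    have : (((A : ℤ) - 1 : ℤ) : ZMod p) = 0 := by push_cast; exact h1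
    exact (ZMod.intCast_zmod_eq_zero_iff_dvd _ _).mp this
  have hx : ¬ (p : ℤ) ∣ (A : ℤ) := by
    intro hd
    have h3 := Int.dvd_sub hd hxy
    rw [sub_sub_cancel] at h3
    have h4 := Int.eq_one_of_dvd_one (by positivity) h3
    exact hp.one_lt.ne' (by exact_mod_cast h4)
  have hm := emultiplicity_geom_sum₂_eq_one (Nat.prime_iff_prime_int.mp hp) hodd hxy hx
  have hm' : emultiplicity (p : ℤ) ((∑ i ∈ range p, A ^ i : ℕ) : ℤ) = 1 := by
    push_cast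
    simpa using hm
  have h5 := (emultiplicity_eq_coe (n := 1)).mp (by exact_mod_cast hm')
  exact h5.2 h

/-- **Existence of primes with prescribed `p`-power order** (Zsigmondy-free): for `a ≥ 2`,
`p` an odd prime and `k ≥ 1` there is a prime `r ≠ p` such that `a` has multiplicative order
exactly `p ^ k` modulo `r`. -/
theorem cfc_exists_prime_orderOf {p : ℕ} (hp : p.Prime) (hp2 : p ≠ 2) {a : ℕ} (ha : 2 ≤ a)
    {k : ℕ} (hk : 0 < k) :
    ∃ r : ℕ, r.Prime ∧ r ≠ p ∧ orderOf (a : ZMod r) = p ^ k := by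
  have : Fact p.Prime := ⟨hp⟩
  obtain ⟨n, rfl⟩ : ∃ n, k = n + 1 := ⟨k - 1, by omega⟩
  set A : ℕ := a ^ p ^ n with hA
  have hA2 : 2 ≤ A := le_trans ha (Nat.le_self_pow (pow_ne_zero _ hp.ne_zero) a)
  set T : ℕ := ∑ i ∈ range p, A ^ i with hT
  have hnsq : ¬ p ^ 2 ∣ T := cfc_geom_not_sq_dvd hp hp2 A
  have hp3 : 3 ≤ p := by
    have := hp.two_le
    omega
  have hTgt : p < T := by
    have h0 : (0 : ℕ) ∈ range p := mem_range.mpr hp.pos
    have h1 : p - 1 ∈ range p := mem_range.mpr (by omega)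
    have hsub : ({0, p - 1} : Finset ℕ) ⊆ range p := by
      intro x hx
      rcases mem_insert.mp hx with rfl | hx
      · exact h0
      · rw [mem_singleton.mp hx]; exact h1
    have hle : ∑ i ∈ ({0, p - 1} : Finset ℕ), A ^ i ≤ T :=
      sum_le_sum_of_subset hsub
    rw [sum_pair (by omega : (0 : ℕ) ≠ p - 1), pow_zero] at hle
    have h2 : 2 ^ (p - 1) ≤ A ^ (p - 1) := Nat.pow_le_pow_left hA2 _
    have h3 : p - 1 < 2 ^ (p - 1) := Nat.lt_two_pow_self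
    omega
  -- a prime factor `r ≠ p` of `T`
  have hex : ∃ r : ℕ, r.Prime ∧ r ∣ T ∧ r ≠ p := by
    by_contra hcon
    push Not at hcon
    have hT0 : T ≠ 0 := by omega
    have hpow := Nat.eq_prime_pow_of_unique_prime_dvd hT0 (fun {d} hd hdT => hcon d hd hdT)
    have hj : 2 ≤ T.primeFactorsList.length := by
      by_contra hj
      push Not at hj
      have : T ≤ p := by
        rw [hpow]
        calc p ^ T.primeFactorsList.length ≤ p ^ 1 := Nat.pow_le_pow_right hp.pos (by omega)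
          _ = p := pow_one p
      omega
    apply hnsq
    rw [hpow]
    exact pow_dvd_pow p hj
  obtain ⟨r, hr, hrT, hrp⟩ := hex
  refine ⟨r, hr, hrp, ?_⟩
  have : Fact r.Prime := ⟨hr⟩
  have hT0 : (∑ i ∈ range p, (A : ZMod r) ^ i) = 0 := by
    have := (ZMod.natCast_eq_zero_iff T r).mpr hrT
    rw [hT] at this
    push_cast at this
    exact this
  have hAp : (A : ZMod r) ^ p = 1 := by
    have hgs := geom_sum_mul (A : ZMod r) p
    rw [hT0, zero_mul] at hgs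
    exact sub_eq_zero.mp hgs.symm
  have hA1 : (A : ZMod r) ≠ 1 := by
    intro h1
    rw [h1] at hT0
    simp only [one_pow, sum_const, card_range, nsmul_eq_mul, mul_one] at hT0
    have := (ZMod.natCast_eq_zero_iff p r).mp hT0
    exact hrp ((Nat.prime_dvd_prime_iff_eq hr hp).mp this)
  have hcast : (A : ZMod r) = (a : ZMod r) ^ p ^ n := by
    rw [hA]; push_cast; rfl
  apply orderOf_eq_prime_pow
  · rw [← hcast]; exact hA1
  · rw [pow_succ, pow_mul, ← hcast]; exact hAp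

/-- If `a` has order `p ^ k` modulo the prime `r` (`k ≥ 1`) then `r ∤ a` and `p ^ k < r`. -/
theorem cfc_orderOf_facts {p r a k : ℕ} (hp : p.Prime) (hr : r.Prime)
    (h : orderOf (a : ZMod r) = p ^ k) : ¬ r ∣ a ∧ p ^ k < r := by
  have : Fact r.Prime := ⟨hr⟩
  have hne : (a : ZMod r) ≠ 0 := by
    intro h0
    have h1 := pow_orderOf_eq_one (a : ZMod r)
    rw [h, h0, zero_pow (pow_ne_zero _ hp.ne_zero)] at h1
    exact zero_ne_one h1
  refine ⟨fun hd => hne ((ZMod.natCast_eq_zero_iff a r).mpr hd), ?_⟩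
  have h1 := ZMod.orderOf_dvd_card_sub_one hne
  rw [h] at h1
  have h2 := Nat.le_of_dvd (by have := hr.two_le; omega) h1
  have := hr.two_le
  omega

/-- **Artin's lemma, arithmetic part.** For `a ≥ 2`, an odd prime `p` and any `N ≠ 0` there are
distinct primes `r₁, r₂` with `m = r₁ r₂` prime to `N` and to `a`, and units `τ = a mod m`,
`τ'` of `ZMod m` such that `τ' ^ x * τ ^ y = 1` forces `p ∣ x` and `p ∣ y`. -/
theorem cfc_artin_lemma_arith {p : ℕ} (hp : p.Prime) (hp2 : p ≠ 2) {a : ℕ} (ha : 2 ≤ a)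
    (N : ℕ) (hN : N ≠ 0) :
    ∃ r₁ r₂ : ℕ, r₁.Prime ∧ r₂.Prime ∧ r₁ ≠ r₂ ∧ Nat.Coprime (r₁ * r₂) N ∧
      Nat.Coprime a (r₁ * r₂) ∧
      ∃ τ τ' : (ZMod (r₁ * r₂))ˣ, (τ : ZMod (r₁ * r₂)) = (a : ZMod (r₁ * r₂)) ∧
        ∀ x y : ℤ, τ' ^ x * τ ^ y = 1 → (p : ℤ) ∣ x ∧ (p : ℤ) ∣ y := by
  have hNpos : 0 < N := Nat.pos_of_ne_zero hN
  obtain ⟨r₁, hr₁, -, ho₁⟩ := cfc_exists_prime_orderOf hp hp2 ha hNpos
  obtain ⟨r₂, hr₂, -, ho₂⟩ := cfc_exists_prime_orderOf hp hp2 ha (k := N + 1) (by omega)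
  obtain ⟨hd₁, hlt₁⟩ := cfc_orderOf_facts hp hr₁ ho₁
  obtain ⟨hd₂, hlt₂⟩ := cfc_orderOf_facts hp hr₂ ho₂
  have hNlt : N < p ^ N := Nat.lt_pow_self hp.one_lt
  have hNlt' : N < p ^ (N + 1) := lt_of_lt_of_le hNlt (Nat.pow_le_pow_right hp.pos (by omega))
  have hne : r₁ ≠ r₂ := by
    rintro rfl
    rw [ho₁] at ho₂
    have := Nat.pow_right_injective hp.two_le ho₂
    omega
  have hcop : Nat.Coprime r₁ r₂ := (Nat.coprime_primes hr₁ hr₂).mpr hne
  have hc₁N : Nat.Coprime r₁ N :=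
    (Nat.Prime.coprime_iff_not_dvd hr₁).mpr fun hd => by
      have := Nat.le_of_dvd hNpos hd
      omega
  have hc₂N : Nat.Coprime r₂ N :=
    (Nat.Prime.coprime_iff_not_dvd hr₂).mpr fun hd => by
      have := Nat.le_of_dvd hNpos hd
      omega
  have hca₁ : Nat.Coprime a r₁ := ((Nat.Prime.coprime_iff_not_dvd hr₁).mpr hd₁).symm
  have hca₂ : Nat.Coprime a r₂ := ((Nat.Prime.coprime_iff_not_dvd hr₂).mpr hd₂).symm
  have hcam : Nat.Coprime a (r₁ * r₂) := Nat.Coprime.mul_right hca₁ hca₂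
  refine ⟨r₁, r₂, hr₁, hr₂, hne, Nat.Coprime.mul_left hc₁N hc₂N, hcam, ?_⟩
  -- `τ'`
  obtain ⟨b, hb₁, hb₂⟩ := Nat.chineseRemainder hcop a 1
  have hcb₁ : Nat.Coprime b r₁ := by
    have := hb₁.gcd_eq
    rw [Nat.Coprime, this]
    exact hca₁
  have hcb₂ : Nat.Coprime b r₂ := by
    have := hb₂.gcd_eq
    rw [Nat.Coprime, this]
    exact Nat.gcd_one_left _
  have hcbm : Nat.Coprime b (r₁ * r₂) := Nat.Coprime.mul_right hcb₁ hcb₂
  refine ⟨ZMod.unitOfCoprime a hcam, ZMod.unitOfCoprime b hcbm, ZMod.coe_unitOfCoprime a hcam, ?_⟩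
  intro x y hxy
  have : Fact r₁.Prime := ⟨hr₁⟩
  have : Fact r₂.Prime := ⟨hr₂⟩
  have hdvd₁ : r₁ ∣ r₁ * r₂ := dvd_mul_right r₁ r₂
  have hdvd₂ : r₂ ∣ r₁ * r₂ := dvd_mul_left r₂ r₁
  -- images of the units modulo `r₁` and `r₂`
  have hval : ∀ (r c : ℕ) (hd : r ∣ r₁ * r₂) (hc : Nat.Coprime c (r₁ * r₂)),
      ((ZMod.unitsMap hd (ZMod.unitOfCoprime c hc) : (ZMod r)ˣ) : ZMod r) = (c : ZMod r) := by
    intro r c hd hc
    rw [ZMod.unitsMap_def, Units.coe_map, ZMod.coe_unitOfCoprime]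
    exact ZMod.cast_natCast hd c
  have ho : ∀ (r : ℕ) (u : (ZMod r)ˣ) (j : ℕ), (u : ZMod r) = (a : ZMod r) →
      orderOf (a : ZMod r) = p ^ j → ∀ z : ℤ, u ^ z = 1 → ((p ^ j : ℕ) : ℤ) ∣ z := by
    intro r u j hu hj z hz
    have h1 : orderOf u = p ^ j := by rw [← orderOf_units, hu, hj]
    rw [← h1]
    exact orderOf_dvd_iff_zpow_eq_one.mpr hz
  -- modulo `r₂`
  have hy : ((p ^ (N + 1) : ℕ) : ℤ) ∣ y := by
    have h1 := congrArg (ZMod.unitsMap hdvd₂) hxy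
    rw [map_mul, map_zpow, map_zpow, map_one] at h1
    have hb1 : ZMod.unitsMap hdvd₂ (ZMod.unitOfCoprime b hcbm) = 1 := by
      apply Units.ext
      rw [hval r₂ b hdvd₂ hcbm, Units.val_one]
      have := (ZMod.natCast_eq_natCast_iff b 1 r₂).mpr hb₂
      simpa using this
    rw [hb1, one_zpow, one_mul] at h1
    exact ho r₂ _ (N + 1) (hval r₂ a hdvd₂ hcam) ho₂ y h1
  have hxy' : ((p ^ N : ℕ) : ℤ) ∣ x + y := by
    have h1 := congrArg (ZMod.unitsMap hdvd₁) hxy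
    rw [map_mul, map_zpow, map_zpow, map_one] at h1
    have hb1 : ZMod.unitsMap hdvd₁ (ZMod.unitOfCoprime b hcbm) =
        ZMod.unitsMap hdvd₁ (ZMod.unitOfCoprime a hcam) := by
      apply Units.ext
      rw [hval r₁ b hdvd₁ hcbm, hval r₁ a hdvd₁ hcam]
      exact (ZMod.natCast_eq_natCast_iff b a r₁).mpr hb₁
    rw [hb1, ← zpow_add] at h1
    exact ho r₁ _ N (hval r₁ a hdvd₁ hcam) ho₁ (x + y) h1
  have hpy : (p : ℤ) ∣ y := by
    refine dvd_trans ?_ hy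
    rw [Nat.cast_pow]
    exact dvd_pow_self _ (Nat.succ_ne_zero N)
  have hpxy : (p : ℤ) ∣ x + y := by
    refine dvd_trans ?_ hxy'
    rw [Nat.cast_pow]
    exact dvd_pow_self _ hN
  exact ⟨(Int.dvd_add_left hpy).mp hpxy, hpy⟩

/-- Group-theoretic form used for the field `E = Fix ⟨(σ, τ'), (σ ^ d, τ)⟩` in Artin's lemma:
an element `(σ, τ') ^ x * (σ ^ d, τ) ^ y` of `G × (ZMod m)ˣ` with trivial second component has
trivial first component, as soon as `σ ^ p = 1`. -/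
theorem cfc_artin_lemma_group {G U : Type*} [Group G] [Group U] {p : ℕ} {σ : G}
    (hσ : σ ^ p = 1) {τ τ' : U}
    (h : ∀ x y : ℤ, τ' ^ x * τ ^ y = 1 → (p : ℤ) ∣ x ∧ (p : ℤ) ∣ y) (d : ℤ) (x y : ℤ)
    (hxy : τ' ^ x * τ ^ y = 1) : σ ^ x * (σ ^ d) ^ y = 1 := by
  obtain ⟨⟨u, rfl⟩, ⟨v, rfl⟩⟩ := h x y hxy
  have h1 : σ ^ ((p : ℤ) * u) = 1 := by
    rw [zpow_mul, zpow_natCast, hσ, one_zpow]
  have h2 : (σ ^ d) ^ ((p : ℤ) * v) = 1 := by
    rw [← zpow_mul, mul_comm d, mul_assoc, zpow_mul, zpow_natCast, hσ, one_zpow]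
  rw [h1, h2, one_mul]

/-- Version avoiding a finite set of primes (the shape consumed by the crossing argument):
for `a ≥ 2` and an odd prime `p` there is a prime `ℓ ∉ S`, `ℓ ≠ p`, `ℓ ∤ a`, such that `p` divides
the multiplicative order of `a` modulo `ℓ`. -/
theorem cfc_exists_prime_dvd_orderOf (p : ℕ) [hp : Fact p.Prime] (hp2 : p ≠ 2) (a : ℕ)
    (ha : 2 ≤ a) (S : Finset ℕ) :
    ∃ ℓ : ℕ, ℓ.Prime ∧ ℓ ∉ S ∧ ℓ ≠ p ∧ ¬ ℓ ∣ a ∧ p ∣ orderOf ((a : ℕ) : ZMod ℓ) := by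
  set B : ℕ := S.sup id with hB
  obtain ⟨ℓ, hℓ, hℓp, ho⟩ := cfc_exists_prime_orderOf hp.1 hp2 ha (k := B + 1) (by omega)
  obtain ⟨hd, hlt⟩ := cfc_orderOf_facts hp.1 hℓ ho
  refine ⟨ℓ, hℓ, ?_, hℓp, hd, ?_⟩
  · intro hmem
    have h1 : ℓ ≤ B := Finset.le_sup (f := id) hmem
    have h2 : B + 1 < p ^ (B + 1) := Nat.lt_pow_self hp.1.one_lt
    omega
  · rw [ho]
    exact dvd_pow_self p (Nat.succ_ne_zero B)

end Fermat.Agent.Lib.CFT
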