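/-
S14 (CFT route): the Artin symbol in a tower.  `K ⊆ L`, `K ⊆ E`, `L ⊆ M`, `E ⊆ M` number fields,
`L/K` and `M/E` abelian; restriction `cft_res : Gal(M/E) → Gal(L/K)`;
`cft_res_artin : cft_res (artin_{M/E} A) = artin_{L/K} (N_{E/K} A)`.
-/
import Mathlib
import Fermat.Agent.Lib.CFT.Artin

set_option autoImplicit false
set_option linter.unusedSectionVars false

namespace Fermat.Agent.Lib.CFT

open NumberField
open scoped nonZeroDivisors Pointwise

section basic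

variable {K L : Type*} [Field K] [NumberField K] [Field L] [NumberField L] [Algebra K L]
  [IsGalois K L]

/-- An element of the Galois group acting trivially modulo an unramified prime is trivial. -/
lemma cft_eq_one_of_forall_sub_mem {Q : Ideal (𝓞 L)} [Q.IsPrime] (hQ : Q ≠ ⊥)
    [Algebra.IsUnramifiedAt (𝓞 K) Q] (ρ : Gal(L/K)) (h : ∀ x : 𝓞 L, ρ • x - x ∈ Q) : ρ = 1 := by
  obtain ⟨σ, hσ⟩ := cft_exists_isFrobAt (K := K) Q hQ
  have h2 : cft_IsFrobAt (ρ * σ) Q := by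
    rw [cft_isFrobAt_iff'] at hσ ⊢
    intro x
    have e : (ρ * σ) • x - x ^ Nat.card (𝓞 K ⧸ Q.under (𝓞 K)) =
        (ρ • (σ • x) - σ • x) + (σ • x - x ^ Nat.card (𝓞 K ⧸ Q.under (𝓞 K))) := by
      rw [mul_smul]; ring
    rw [e]
    exact add_mem (h _) (hσ x)
  have := cft_isFrobAt_unique h2 hσ
  exact mul_eq_right.mp this

lemma cft_eq_of_forall_sub_mem {Q : Ideal (𝓞 L)} [Q.IsPrime] (hQ : Q ≠ ⊥)
    [Algebra.IsUnramifiedAt (𝓞 K) Q] (ρ τ : Gal(L/K)) (h : ∀ x : 𝓞 L, ρ • x - τ • x ∈ Q) :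
    ρ = τ := by
  have : ρ * τ⁻¹ = 1 := by
    apply cft_eq_one_of_forall_sub_mem (K := K) hQ
    intro x
    have := h (τ⁻¹ • x)
    rwa [smul_inv_smul, ← mul_smul] at this
  exact mul_inv_eq_one.mp this

/-- Powers of a Frobenius. -/
lemma cft_isFrobAt_pow {σ : Gal(L/K)} {Q : Ideal (𝓞 L)} [Q.IsPrime] (hσ : cft_IsFrobAt σ Q)
    (f : ℕ) (x : 𝓞 L) :
    (σ ^ f) • x - x ^ (Nat.card (𝓞 K ⧸ Q.under (𝓞 K)) ^ f) ∈ Q := by
  rw [cft_isFrobAt_iff'] at hσ
  induction f generalizing x with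
  | zero => simp
  | succ f ih =>
    have e : (σ ^ (f + 1)) • x - x ^ (Nat.card (𝓞 K ⧸ Q.under (𝓞 K)) ^ (f + 1)) =
        ((σ ^ f) • (σ • x) - (σ • x) ^ (Nat.card (𝓞 K ⧸ Q.under (𝓞 K)) ^ f)) +
        ((σ • x) ^ (Nat.card (𝓞 K ⧸ Q.under (𝓞 K)) ^ f) -
          (x ^ Nat.card (𝓞 K ⧸ Q.under (𝓞 K))) ^ (Nat.card (𝓞 K ⧸ Q.under (𝓞 K)) ^ f)) := by
      rw [pow_succ, mul_smul, ← pow_mul, pow_succ, mul_comm (Nat.card _ ^ f)]
      ring
    rw [e]
    refine add_mem (ih _) ?_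
    exact Ideal.mem_of_dvd _ (sub_dvd_pow_sub_pow _ _ _) (hσ x)


end basic

section tower

variable {K L E M : Type*} [Field K] [NumberField K] [Field L] [NumberField L]
  [Field E] [NumberField E] [Field M] [NumberField M]
  [Algebra K L] [Algebra K E] [Algebra L M] [Algebra E M] [Algebra K M]
  [IsScalarTower K L M] [IsScalarTower K E M]


variable [IsGalois K L] [IsGalois E M]

variable (K L E M) in
/-- The restriction map `Gal(M/E) → Gal(L/K)`. -/
noncomputable def cft_res : Gal(M/E) →* Gal(L/K) :=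
  (AlgEquiv.restrictNormalHom L).comp (AlgEquiv.restrictScalarsHom K)

lemma cft_res_commutes (σ : Gal(M/E)) (x : L) :
    algebraMap L M (cft_res K L E M σ x) = σ (algebraMap L M x) := by
  simp only [cft_res, MonoidHom.coe_comp, Function.comp_apply, AlgEquiv.restrictScalarsHom_apply]
  exact AlgEquiv.restrictNormal_commutes (σ.restrictScalars K) L x

lemma cft_res_smul (σ : Gal(M/E)) (x : 𝓞 L) :
    algebraMap (𝓞 L) (𝓞 M) (cft_res K L E M σ • x) = σ • algebraMap (𝓞 L) (𝓞 M) x := by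
  apply RingOfIntegers.ext
  exact cft_res_commutes σ (x : L)

/-- Functoriality of Frobenius elements in a tower, at the level of primes. -/
lemma cft_res_isFrobAt {σ : Gal(M/E)} {P' : Ideal (𝓞 M)} [P'.IsPrime] (hP' : P' ≠ ⊥)
    (hσ : cft_IsFrobAt σ P') {τ : Gal(L/K)} (hτ : cft_IsFrobAt τ (P'.under (𝓞 L)))
    [Algebra.IsUnramifiedAt (𝓞 K) (P'.under (𝓞 L))] (f : ℕ)
    (hf : Nat.card (𝓞 E ⧸ P'.under (𝓞 E)) =
      Nat.card (𝓞 K ⧸ (P'.under (𝓞 L)).under (𝓞 K)) ^ f) :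
    cft_res K L E M σ = τ ^ f := by
  have hQ0 : P'.under (𝓞 L) ≠ ⊥ := by
    have : P'.LiesOver (P'.under (𝓞 L)) := ⟨rfl⟩
    intro h
    exact hP' (Ideal.eq_bot_of_liesOver_bot (𝓞 L) P' (h := h ▸ this))
  apply cft_eq_of_forall_sub_mem (K := K) hQ0
  intro x
  have h1 : cft_res K L E M σ • x - x ^ Nat.card (𝓞 E ⧸ P'.under (𝓞 E)) ∈ P'.under (𝓞 L) := by
    rw [Ideal.under_def, Ideal.mem_comap, map_sub, map_pow, cft_res_smul]
    exact (cft_isFrobAt_iff' σ P').mp hσ _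
  have h2 := cft_isFrobAt_pow hτ f x
  rw [← hf] at h2
  have := sub_mem h1 h2
  rwa [sub_sub_sub_cancel_right] at this

open IsDedekindDomain in
/-- Functoriality of Frobenius elements in a tower: primes of the base `E`. -/
lemma cft_res_frob [IsMulCommutative Gal(L/K)] [IsMulCommutative Gal(M/E)]
    (hunL : cft_Unram K L) (v : HeightOneSpectrum (𝓞 E)) :
    cft_res K L E M (cft_frob E M v.asIdeal) =
      cft_artin K L (Ideal.relNorm (𝓞 K) v.asIdeal) := by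
  obtain ⟨P', hP', hlo⟩ := (Ideal.nonempty_primesOver (S := 𝓞 M) v.asIdeal).some
  have hP'0 : P' ≠ ⊥ := Ideal.ne_bot_of_liesOver_of_ne_bot v.ne_bot P'
  set Q := P'.under (𝓞 L) with hQ
  have hQ0 : Q ≠ ⊥ := by
    have : P'.LiesOver Q := ⟨rfl⟩
    intro h
    exact hP'0 (Ideal.eq_bot_of_liesOver_bot (𝓞 L) P' (h := h ▸ this))
  set q := v.asIdeal.under (𝓞 K) with hq
  have hq0 : q ≠ ⊥ := by
    have : v.asIdeal.LiesOver q := ⟨rfl⟩
    intro h
    exact v.ne_bot (Ideal.eq_bot_of_liesOver_bot (𝓞 K) v.asIdeal (h := h ▸ this))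
  have hqQ : Q.under (𝓞 K) = q := by
    rw [hQ, hq, hlo.over, Ideal.under_under, Ideal.under_under]
  have : q.IsMaximal := Ring.DimensionLEOne.maximalOfPrime hq0 inferInstance
  have : v.asIdeal.LiesOver q := ⟨rfl⟩
  have hun := hunL Q hQ0
  -- the two Frobenius elements
  have h1 : cft_IsFrobAt (cft_frob E M v.asIdeal) P' :=
    cft_isFrob_frob E M v.asIdeal v.ne_bot P' hP' hlo
  have h2 : cft_IsFrobAt (cft_frob K L q) Q :=
    cft_isFrob_frob K L q hq0 Q inferInstance ⟨hqQ.symm⟩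
  -- norms
  have hN : Ideal.relNorm (𝓞 K) v.asIdeal = q ^ v.asIdeal.inertiaDeg (𝓞 K) :=
    Ideal.relNorm_eq_pow_of_isMaximal v.asIdeal q
  have hcard : Nat.card (𝓞 E ⧸ P'.under (𝓞 E)) =
      Nat.card (𝓞 K ⧸ Q.under (𝓞 K)) ^ v.asIdeal.inertiaDeg (𝓞 K) := by
    rw [hqQ, ← hlo.over]
    have := Ideal.absNorm_relNorm (R := 𝓞 K) (S := 𝓞 E) v.asIdeal
    rw [hN, map_pow, Ideal.absNorm_apply, Ideal.absNorm_apply, Submodule.cardQuot_apply,
      Submodule.cardQuot_apply] at this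
    exact this.symm
  rw [cft_res_isFrobAt hP'0 h1 h2 _ hcard, hN, cft_artin_pow K L hq0]
  congr 1
  exact (cft_artin_prime K L ⟨q, inferInstance, hq0⟩).symm

/-- **Functoriality of the Artin symbol**: restriction corresponds to the relative norm. -/
theorem cft_res_artin [IsMulCommutative Gal(L/K)] [IsMulCommutative Gal(M/E)]
    (hunL : cft_Unram K L) {A : Ideal (𝓞 E)} (hA : A ≠ ⊥) :
    cft_res K L E M (cft_artin E M A) = cft_artin K L (Ideal.relNorm (𝓞 K) A) := by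
  revert hA
  refine UniqueFactorizationMonoid.induction_on_prime A (fun h => absurd rfl h) ?_ ?_
  · intro A hA _
    rw [Ideal.isUnit_iff] at hA
    rw [hA, cft_artin_top, map_one, ← Ideal.one_eq_top, map_one, Ideal.one_eq_top, cft_artin_top]
  · intro A P hA0 hP ih _
    have hP0 : P ≠ ⊥ := hP.ne_zero
    have : P.IsPrime := Ideal.isPrime_of_prime hP
    rw [cft_artin_mul E M hP0 hA0, map_mul, map_mul,
      cft_artin_mul K L ((Ideal.relNorm_eq_bot_iff (R := 𝓞 K)).not.mpr hP0)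
        ((Ideal.relNorm_eq_bot_iff (R := 𝓞 K)).not.mpr hA0), ih hA0]
    congr 1
    have := cft_res_frob (K := K) (L := L) (M := M) hunL ⟨P, inferInstance, hP0⟩
    rwa [← cft_artin_prime E M ⟨P, inferInstance, hP0⟩] at this

end tower


end Fermat.Agent.Lib.CFT
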