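/-
S14 (CFT route), WP-FT2: the cyclotomic tower  K ⊂ L ⊂ Ω₀ = L(ζ_{ℓ₀}) ⊂ Ω = Ω₀(ζ_{ℓ₁}).
Generic one-step lemmas (extensionality of algebra homs out of a cyclotomic extension, Galois and
abelian over the small field) and their two-step versions for Mathlib's `CyclotomicField`.
-/
import Mathlib

set_option autoImplicit false
set_option linter.unusedSectionVars false

namespace Fermat.Agent.Lib.CFT

open Polynomial IntermediateField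

section OneStep

variable {K L Ω X : Type*} [Field K] [Field L] [Field Ω] [Field X] [Algebra K L] [Algebra L Ω]
  [Algebra K Ω] [IsScalarTower K L Ω] [Algebra K X]
  {n : ℕ} [NeZero n] [IsCyclotomicExtension {n} L Ω]

/-- Two `K`-algebra homs out of a cyclotomic extension `Ω = L(ζ)` which agree on `L` and on `ζ`
are equal. -/
theorem cfa_algHom_ext_cyclo {ζ : Ω} (hζ : IsPrimitiveRoot ζ n) (f g : Ω →ₐ[K] X)
    (hL : ∀ x : L, f (algebraMap L Ω x) = g (algebraMap L Ω x)) (hz : f ζ = g ζ) : f = g := by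
  have htop : Algebra.adjoin L {ζ} = ⊤ :=
    IsCyclotomicExtension.adjoin_primitive_root_eq_top hζ
  have key : ∀ x ∈ Algebra.adjoin L {ζ}, f x = g x := by
    intro x hx
    induction hx using Algebra.adjoin_induction with
    | mem y hy =>
      rw [Set.mem_singleton_iff] at hy
      rw [hy]
      exact hz
    | algebraMap r => exact hL r
    | add x y _ _ h1 h2 => rw [map_add, map_add, h1, h2]
    | mul x y _ _ h1 h2 => rw [map_mul, map_mul, h1, h2]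
  ext x
  exact key x (htop ▸ Algebra.mem_top)

variable (K L Ω) in
/-- A cyclotomic extension of a Galois extension of `K` is Galois over `K`. -/
theorem cfa_isGalois_cyclo [CharZero K] [FiniteDimensional K L] [IsGalois K L]
    (n : ℕ) [NeZero n] [IsCyclotomicExtension {n} L Ω] : IsGalois K Ω := by
  have : NeZero (n : L) := ⟨by
    have := NeZero.ne n
    have hc : CharZero L := charZero_of_injective_algebraMap (algebraMap K L).injective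
    exact_mod_cast this⟩
  obtain ⟨ζ, hζ⟩ := IsCyclotomicExtension.exists_isPrimitiveRoot L Ω (Set.mem_singleton n)
    (NeZero.ne n)
  have hfin : FiniteDimensional L Ω := IsCyclotomicExtension.finiteDimensional {n} L Ω
  have hfinK : FiniteDimensional K Ω := FiniteDimensional.trans K L Ω
  let L' : IntermediateField K Ω := (IsScalarTower.toAlgHom K L Ω).fieldRange
  let Z : IntermediateField K Ω := K⟮ζ⟯
  have hnL' : Normal K L' :=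
    Normal.of_algEquiv (AlgEquiv.ofInjectiveField (IsScalarTower.toAlgHom K L Ω))
  have hcy : IsCyclotomicExtension {n} K Z :=
    hζ.intermediateField_adjoin_isCyclotomicExtension K
  have hnZ : Normal K Z := (IsCyclotomicExtension.isGalois {n} K Z).to_normal
  have key : ∀ x ∈ Algebra.adjoin L {ζ}, x ∈ L' ⊔ Z := by
    intro x hx
    induction hx using Algebra.adjoin_induction with
    | mem y hy =>
      rw [Set.mem_singleton_iff] at hy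
      rw [hy]
      exact (le_sup_right : Z ≤ L' ⊔ Z) (IntermediateField.mem_adjoin_simple_self K ζ)
    | algebraMap r => exact (le_sup_left : L' ≤ L' ⊔ Z) ⟨r, rfl⟩
    | add x y _ _ h1 h2 => exact add_mem h1 h2
    | mul x y _ _ h1 h2 => exact mul_mem h1 h2
  have hsup : L' ⊔ Z = ⊤ := by
    rw [eq_top_iff]
    intro x _
    have htop : Algebra.adjoin L {ζ} = ⊤ :=
      IsCyclotomicExtension.adjoin_primitive_root_eq_top hζ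
    exact key x (htop ▸ Algebra.mem_top)
  have hn : Normal K ↥(L' ⊔ Z) := IntermediateField.normal_sup K Ω L' Z
  rw [hsup] at hn
  have : Normal K Ω := Normal.of_algEquiv (IntermediateField.topEquiv (F := K) (E := Ω))
  exact ⟨⟩





omit [NeZero n] [IsCyclotomicExtension {n} L Ω] in
theorem cfa_apply_algebraMap [Normal K L] (g : Ω ≃ₐ[K] Ω) (x : L) :
    g (algebraMap L Ω x) = algebraMap L Ω (g.restrictNormal L x) :=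
  (AlgEquiv.restrictNormal_commutes g L x).symm

omit [NeZero n] [IsCyclotomicExtension {n} L Ω] in
/-- A cyclotomic extension of an abelian extension of `K` is abelian over `K`. -/
theorem cfa_comm_cyclo [Normal K L] (n : ℕ) [NeZero n] [IsCyclotomicExtension {n} L Ω]
    (hcomm : ∀ a b : L ≃ₐ[K] L, a * b = b * a)
    (g h : Ω ≃ₐ[K] Ω) : g * h = h * g := by
  obtain ⟨ζ, hζ⟩ := IsCyclotomicExtension.exists_isPrimitiveRoot L Ω (Set.mem_singleton n)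
    (NeZero.ne n)
  apply AlgEquiv.coe_toAlgHom_injective
  apply cfa_algHom_ext_cyclo (L := L) hζ
  · intro x
    show g (h (algebraMap L Ω x)) = h (g (algebraMap L Ω x))
    rw [cfa_apply_algebraMap h, cfa_apply_algebraMap g, cfa_apply_algebraMap g,
      cfa_apply_algebraMap h]
    congr 1
    have := hcomm (g.restrictNormal L) (h.restrictNormal L)
    exact congrArg (fun e : L ≃ₐ[K] L => e x) this
  · show g (h ζ) = h (g ζ)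
    obtain ⟨a, -, ha⟩ := hζ.eq_pow_of_pow_eq_one (ξ := h ζ) (by rw [← map_pow, hζ.pow_eq_one, map_one])
    obtain ⟨b, -, hb⟩ := hζ.eq_pow_of_pow_eq_one (ξ := g ζ) (by rw [← map_pow, hζ.pow_eq_one, map_one])
    rw [← ha, ← hb, map_pow, map_pow, ← ha, ← hb, ← pow_mul, ← pow_mul, mul_comm]





end OneStep

section Tower

open NumberField

variable (K L : Type*) [Field K] [NumberField K] [Field L] [NumberField L] [Algebra K L]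
  (ℓ₀ ℓ₁ : ℕ) [NeZero ℓ₀] [NeZero ℓ₁]

/-- `Ω₀ = L(ζ_{ℓ₀})` -/
abbrev cfa_Om0 : Type _ := CyclotomicField ℓ₀ L

/-- `Ω = L(ζ_{ℓ₀}, ζ_{ℓ₁})` -/
abbrev cfa_Om : Type _ := CyclotomicField ℓ₁ (CyclotomicField ℓ₀ L)

instance cfa_isScalarTower_Om : IsScalarTower K L (cfa_Om L ℓ₀ ℓ₁) :=
  IsScalarTower.of_algebraMap_eq (fun x => by
    rw [IsScalarTower.algebraMap_apply K (cfa_Om0 L ℓ₀) (cfa_Om L ℓ₀ ℓ₁),
      IsScalarTower.algebraMap_apply K L (cfa_Om0 L ℓ₀),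
      ← IsScalarTower.algebraMap_apply L (cfa_Om0 L ℓ₀) (cfa_Om L ℓ₀ ℓ₁)])

/-- the distinguished primitive `ℓ₀`-th root of unity of `Ω` -/
noncomputable def cfa_zeta0 : cfa_Om L ℓ₀ ℓ₁ :=
  algebraMap (cfa_Om0 L ℓ₀) (cfa_Om L ℓ₀ ℓ₁) (IsCyclotomicExtension.zeta ℓ₀ L (cfa_Om0 L ℓ₀))

/-- the distinguished primitive `ℓ₁`-th root of unity of `Ω` -/
noncomputable def cfa_zeta1 : cfa_Om L ℓ₀ ℓ₁ :=
  IsCyclotomicExtension.zeta ℓ₁ (cfa_Om0 L ℓ₀) (cfa_Om L ℓ₀ ℓ₁)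

theorem cfa_zeta0_spec : IsPrimitiveRoot (cfa_zeta0 L ℓ₀ ℓ₁) ℓ₀ :=
  (IsCyclotomicExtension.zeta_spec ℓ₀ L (cfa_Om0 L ℓ₀)).map_of_injective
    (algebraMap (cfa_Om0 L ℓ₀) (cfa_Om L ℓ₀ ℓ₁)).injective

theorem cfa_zeta1_spec : IsPrimitiveRoot (cfa_zeta1 L ℓ₀ ℓ₁) ℓ₁ :=
  IsCyclotomicExtension.zeta_spec ℓ₁ (cfa_Om0 L ℓ₀) (cfa_Om L ℓ₀ ℓ₁)

instance cfa_isGalois_Om0 [IsGalois K L] : IsGalois K (cfa_Om0 L ℓ₀) :=
  cfa_isGalois_cyclo K L (cfa_Om0 L ℓ₀) ℓ₀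

instance cfa_isGalois_Om [IsGalois K L] : IsGalois K (cfa_Om L ℓ₀ ℓ₁) :=
  cfa_isGalois_cyclo K (cfa_Om0 L ℓ₀) (cfa_Om L ℓ₀ ℓ₁) ℓ₁

variable {K L ℓ₀ ℓ₁}

/-- (i) `Gal(Ω/K)` is commutative when `Gal(L/K)` is. -/
theorem cfa_comm_Om [IsGalois K L] (hcomm : ∀ a b : L ≃ₐ[K] L, a * b = b * a)
    (g h : cfa_Om L ℓ₀ ℓ₁ ≃ₐ[K] cfa_Om L ℓ₀ ℓ₁) : g * h = h * g :=
  cfa_comm_cyclo (L := cfa_Om0 L ℓ₀) ℓ₁ (cfa_comm_cyclo (L := L) ℓ₀ hcomm) g h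

/-- (iii), extensionality form: two `K`-algebra homs out of `Ω` agreeing on `L`, `ζ₀`, `ζ₁` are
equal. -/
theorem cfa_algHom_ext_Om {X : Type*} [Field X] [Algebra K X] (f g : cfa_Om L ℓ₀ ℓ₁ →ₐ[K] X)
    (hL : ∀ x : L, f (algebraMap L _ x) = g (algebraMap L _ x))
    (h0 : f (cfa_zeta0 L ℓ₀ ℓ₁) = g (cfa_zeta0 L ℓ₀ ℓ₁))
    (h1 : f (cfa_zeta1 L ℓ₀ ℓ₁) = g (cfa_zeta1 L ℓ₀ ℓ₁)) : f = g := by
  apply cfa_algHom_ext_cyclo (L := cfa_Om0 L ℓ₀) (cfa_zeta1_spec L ℓ₀ ℓ₁) f g _ h1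
  have key : f.comp (IsScalarTower.toAlgHom K (cfa_Om0 L ℓ₀) (cfa_Om L ℓ₀ ℓ₁)) =
      g.comp (IsScalarTower.toAlgHom K (cfa_Om0 L ℓ₀) (cfa_Om L ℓ₀ ℓ₁)) := by
    apply cfa_algHom_ext_cyclo (L := L) (IsCyclotomicExtension.zeta_spec ℓ₀ L (cfa_Om0 L ℓ₀))
    · intro x
      show f (algebraMap (cfa_Om0 L ℓ₀) (cfa_Om L ℓ₀ ℓ₁) (algebraMap L (cfa_Om0 L ℓ₀) x)) =
        g (algebraMap (cfa_Om0 L ℓ₀) (cfa_Om L ℓ₀ ℓ₁) (algebraMap L (cfa_Om0 L ℓ₀) x))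
      rw [← IsScalarTower.algebraMap_apply]
      exact hL x
    · exact h0
  intro x
  exact congrArg (fun e : cfa_Om0 L ℓ₀ →ₐ[K] X => e x) key

/-- (iii) an automorphism of `Ω/K` fixing `L`, `ζ₀` and `ζ₁` is trivial. -/
theorem cfa_eq_one_of_fix (g : cfa_Om L ℓ₀ ℓ₁ ≃ₐ[K] cfa_Om L ℓ₀ ℓ₁)
    (hL : ∀ x : L, g (algebraMap L _ x) = algebraMap L _ x)
    (h0 : g (cfa_zeta0 L ℓ₀ ℓ₁) = cfa_zeta0 L ℓ₀ ℓ₁)
    (h1 : g (cfa_zeta1 L ℓ₀ ℓ₁) = cfa_zeta1 L ℓ₀ ℓ₁) : g = 1 := by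
  apply AlgEquiv.coe_toAlgHom_injective
  exact cfa_algHom_ext_Om (g : cfa_Om L ℓ₀ ℓ₁ →ₐ[K] cfa_Om L ℓ₀ ℓ₁) (AlgHom.id K _) hL h0 h1

/-- (iv) independence: the action on `ζ₁` can be prescribed freely without changing the action on
`L(ζ₀)`, provided the `ℓ₁`-th cyclotomic polynomial is irreducible over `Ω₀ = L(ζ₀)`. -/
theorem cfa_independence (h : Irreducible (cyclotomic ℓ₁ (cfa_Om0 L ℓ₀)))
    (g : cfa_Om L ℓ₀ ℓ₁ ≃ₐ[K] cfa_Om L ℓ₀ ℓ₁) (t : ℕ) (ht : Nat.Coprime t ℓ₁) :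
    ∃ g' : cfa_Om L ℓ₀ ℓ₁ ≃ₐ[K] cfa_Om L ℓ₀ ℓ₁,
      (∀ x : cfa_Om0 L ℓ₀, g' (algebraMap _ _ x) = g (algebraMap _ _ x)) ∧
      (∀ x : L, g' (algebraMap L _ x) = g (algebraMap L _ x)) ∧
      g' (cfa_zeta0 L ℓ₀ ℓ₁) = g (cfa_zeta0 L ℓ₀ ℓ₁) ∧
      g' (cfa_zeta1 L ℓ₀ ℓ₁) = cfa_zeta1 L ℓ₀ ℓ₁ ^ t := by
  have hζ₁ := cfa_zeta1_spec L ℓ₀ ℓ₁
  have hμ : IsPrimitiveRoot (g.symm (cfa_zeta1 L ℓ₀ ℓ₁ ^ t)) ℓ₁ :=
    (hζ₁.pow_of_coprime t ht).map_of_injective g.symm.injective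
  let u : cfa_Om L ℓ₀ ℓ₁ ≃ₐ[cfa_Om0 L ℓ₀] cfa_Om L ℓ₀ ℓ₁ :=
    IsCyclotomicExtension.fromZetaAut hμ h
  have hu : u (cfa_zeta1 L ℓ₀ ℓ₁) = g.symm (cfa_zeta1 L ℓ₀ ℓ₁ ^ t) :=
    IsCyclotomicExtension.fromZetaAut_spec hμ h
  have h0 : ∀ x : cfa_Om0 L ℓ₀, (g * u.restrictScalars K) (algebraMap _ _ x) =
      g (algebraMap _ _ x) := by
    intro x
    show g (u (algebraMap _ _ x)) = _
    rw [u.commutes]
  refine ⟨g * u.restrictScalars K, h0, ?_, h0 _, ?_⟩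
  · intro x
    rw [IsScalarTower.algebraMap_apply L (cfa_Om0 L ℓ₀) (cfa_Om L ℓ₀ ℓ₁)]
    exact h0 _
  · show g (u (cfa_zeta1 L ℓ₀ ℓ₁)) = _
    rw [hu, AlgEquiv.apply_symm_apply]

/-- (iv) for a prime `ℓ₁`, in the shape `¬ ℓ₁ ∣ t`. -/
theorem cfa_independence' (hℓ₁ : ℓ₁.Prime) (h : Irreducible (cyclotomic ℓ₁ (cfa_Om0 L ℓ₀)))
    (g : cfa_Om L ℓ₀ ℓ₁ ≃ₐ[K] cfa_Om L ℓ₀ ℓ₁) (t : ℕ) (ht : ¬ ℓ₁ ∣ t) :
    ∃ g' : cfa_Om L ℓ₀ ℓ₁ ≃ₐ[K] cfa_Om L ℓ₀ ℓ₁,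
      (∀ x : L, g' (algebraMap L _ x) = g (algebraMap L _ x)) ∧
      g' (cfa_zeta0 L ℓ₀ ℓ₁) = g (cfa_zeta0 L ℓ₀ ℓ₁) ∧
      g' (cfa_zeta1 L ℓ₀ ℓ₁) = cfa_zeta1 L ℓ₀ ℓ₁ ^ t := by
  obtain ⟨g', -, h1, h2, h3⟩ :=
    cfa_independence h g t ((Nat.Prime.coprime_iff_not_dvd hℓ₁).mpr ht).symm
  exact ⟨g', h1, h2, h3⟩

/-- every automorphism of `Ω/K` raises `ζ₀` to a power prime to `ℓ₀` -/
theorem cfa_apply_zeta0 (g : cfa_Om L ℓ₀ ℓ₁ ≃ₐ[K] cfa_Om L ℓ₀ ℓ₁) :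
    ∃ a : ℕ, a < ℓ₀ ∧ Nat.Coprime a ℓ₀ ∧ g (cfa_zeta0 L ℓ₀ ℓ₁) = cfa_zeta0 L ℓ₀ ℓ₁ ^ a := by
  have hζ := cfa_zeta0_spec L ℓ₀ ℓ₁
  have hg : IsPrimitiveRoot (g (cfa_zeta0 L ℓ₀ ℓ₁)) ℓ₀ := hζ.map_of_injective g.injective
  obtain ⟨a, ha, hpow⟩ := hζ.eq_pow_of_pow_eq_one hg.pow_eq_one
  refine ⟨a, ha, ?_, hpow.symm⟩
  rw [← hpow] at hg
  exact (hζ.pow_iff_coprime (NeZero.pos ℓ₀) a).mp hg

/-- every automorphism of `Ω/K` raises `ζ₁` to a power prime to `ℓ₁` -/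
theorem cfa_apply_zeta1 (g : cfa_Om L ℓ₀ ℓ₁ ≃ₐ[K] cfa_Om L ℓ₀ ℓ₁) :
    ∃ a : ℕ, a < ℓ₁ ∧ Nat.Coprime a ℓ₁ ∧ g (cfa_zeta1 L ℓ₀ ℓ₁) = cfa_zeta1 L ℓ₀ ℓ₁ ^ a := by
  have hζ := cfa_zeta1_spec L ℓ₀ ℓ₁
  have hg : IsPrimitiveRoot (g (cfa_zeta1 L ℓ₀ ℓ₁)) ℓ₁ := hζ.map_of_injective g.injective
  obtain ⟨a, ha, hpow⟩ := hζ.eq_pow_of_pow_eq_one hg.pow_eq_one
  refine ⟨a, ha, ?_, hpow.symm⟩
  rw [← hpow] at hg
  exact (hζ.pow_iff_coprime (NeZero.pos ℓ₁) a).mp hg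

end Tower

end Fermat.Agent.Lib.CFT
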