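/-
S14 (CFT route), crossing argument, (Asm0): the subgroup `H = ⟨φ⟩ · {g | g = id on L, g ζ = ζ}` of
`Gal(Ω/K)` whose fixed field is the auxiliary field `E` attached to a Frobenius `φ` and a root of
unity `ζ` ("decomposition field of `𝔮` in `L(ζ)`").
-/
import Mathlib

set_option autoImplicit false
set_option linter.unusedSectionVars false

namespace Fermat.Agent.Lib.CFT

section

variable (K L : Type*) {Ω : Type*} [Field K] [Field L] [Field Ω] [Algebra K L] [Algebra K Ω]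
  [Algebra L Ω] [IsScalarTower K L Ω]

/-- The automorphisms of `Ω/K` fixing `L` pointwise and fixing `ζ`. -/
def cft_fixLZ (ζ : Ω) : Subgroup (Ω ≃ₐ[K] Ω) where
  carrier := {g | (∀ x : L, g (algebraMap L Ω x) = algebraMap L Ω x) ∧ g ζ = ζ}
  mul_mem' := by
    rintro g h ⟨hg1, hg2⟩ ⟨hh1, hh2⟩
    refine ⟨fun x => ?_, ?_⟩
    · rw [AlgEquiv.mul_apply, hh1, hg1]
    · rw [AlgEquiv.mul_apply, hh2, hg2]
  one_mem' := ⟨fun _ => rfl, rfl⟩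
  inv_mem' := by
    rintro g ⟨hg1, hg2⟩
    refine ⟨fun x => ?_, ?_⟩
    · show g.symm _ = _
      rw [AlgEquiv.symm_apply_eq, hg1]
    · show g.symm _ = _
      rw [AlgEquiv.symm_apply_eq, hg2]

variable {K L} in
lemma cft_mem_fixLZ {ζ : Ω} {g : Ω ≃ₐ[K] Ω} :
    g ∈ cft_fixLZ K L ζ ↔ (∀ x : L, g (algebraMap L Ω x) = algebraMap L Ω x) ∧ g ζ = ζ :=
  Iff.rfl

/-- `H = ⟨φ⟩ · cft_fixLZ ζ`. -/
def cft_decompH (φ : Ω ≃ₐ[K] Ω) (ζ : Ω) : Subgroup (Ω ≃ₐ[K] Ω) :=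
  Subgroup.zpowers φ ⊔ cft_fixLZ K L ζ

variable {K L}

lemma cft_self_mem_decompH (φ : Ω ≃ₐ[K] Ω) (ζ : Ω) : φ ∈ cft_decompH K L φ ζ :=
  (le_sup_left : Subgroup.zpowers φ ≤ _) (Subgroup.mem_zpowers φ)

lemma cft_fixLZ_le_decompH (φ : Ω ≃ₐ[K] Ω) (ζ : Ω) : cft_fixLZ K L ζ ≤ cft_decompH K L φ ζ :=
  le_sup_right

lemma cft_pow_mul_mem_decompH (φ : Ω ≃ₐ[K] Ω) (ζ : Ω) (k : ℕ) {u : Ω ≃ₐ[K] Ω}
    (hu : u ∈ cft_fixLZ K L ζ) : φ ^ k * u ∈ cft_decompH K L φ ζ :=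
  (cft_decompH K L φ ζ).mul_mem ((cft_decompH K L φ ζ).pow_mem (cft_self_mem_decompH φ ζ) k)
    (cft_fixLZ_le_decompH φ ζ hu)

/-- An automorphism agreeing with `φ ^ k` on `L` and on `ζ` lies in `H`. -/
lemma cft_mem_decompH_of_agree {φ g : Ω ≃ₐ[K] Ω} {ζ : Ω} (k : ℕ)
    (h1 : ∀ x : L, g (algebraMap L Ω x) = (φ ^ k) (algebraMap L Ω x))
    (h2 : g ζ = (φ ^ k) ζ) : g ∈ cft_decompH K L φ ζ := by
  have hu : (φ ^ k)⁻¹ * g ∈ cft_fixLZ K L ζ := by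
    refine ⟨fun x => ?_, ?_⟩
    · rw [AlgEquiv.mul_apply, h1]
      exact (φ ^ k).symm_apply_apply _
    · rw [AlgEquiv.mul_apply, h2]
      exact (φ ^ k).symm_apply_apply _
  have := cft_pow_mul_mem_decompH φ ζ k hu
  rwa [mul_inv_cancel_left] at this

/-- Elements of `H` (abelian case). -/
lemma cft_mem_decompH_iff [Finite (Ω ≃ₐ[K] Ω)] (hcomm : ∀ g h : Ω ≃ₐ[K] Ω, g * h = h * g)
    {φ g : Ω ≃ₐ[K] Ω} {ζ : Ω} :
    g ∈ cft_decompH K L φ ζ ↔ ∃ k : ℕ, ∃ u ∈ cft_fixLZ K L ζ, g = φ ^ k * u := by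
  constructor
  · intro hg
    have hN : (cft_fixLZ K L ζ).Normal := by
      refine ⟨fun n hn g => ?_⟩
      rw [hcomm g n, mul_inv_cancel_right]
      exact hn
    have hset := Subgroup.mul_normal (Subgroup.zpowers φ) (cft_fixLZ K L ζ)
    have hg' : g ∈ ((Subgroup.zpowers φ ⊔ cft_fixLZ K L ζ : Subgroup (Ω ≃ₐ[K] Ω)) :
        Set (Ω ≃ₐ[K] Ω)) := hg
    rw [hset] at hg'
    obtain ⟨a, ha, u, hu, rfl⟩ := Set.mem_mul.mp hg'
    have ha' : a ∈ Submonoid.powers φ := mem_powers_iff_mem_zpowers.mpr ha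
    obtain ⟨k, rfl⟩ := ha'
    exact ⟨k, u, hu, rfl⟩
  · rintro ⟨k, u, hu, rfl⟩
    exact cft_pow_mul_mem_decompH φ ζ k hu

lemma cft_pow_apply_zeta {φ : Ω ≃ₐ[K] Ω} {ζ : Ω} {a : ℕ} (hφ : φ ζ = ζ ^ a) (k : ℕ) :
    (φ ^ k) ζ = ζ ^ (a ^ k) := by
  induction k with
  | zero => simp
  | succ k ih =>
    rw [pow_succ', AlgEquiv.mul_apply, ih, map_pow, hφ, ← pow_mul, pow_succ']

/-- **Containment**: if `p ∣ ord_ℓ(a)`, where `φ ζ = ζ ^ a`, and `Gal(L/K)` has exponent `p`, then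
every element of `H` fixing `ζ` is trivial on `L`. -/
theorem cft_decompH_cont [Finite (Ω ≃ₐ[K] Ω)] [Normal K L]
    (hcomm : ∀ g h : Ω ≃ₐ[K] Ω, g * h = h * g)
    {p : ℕ} (hexp : ∀ σ : L ≃ₐ[K] L, σ ^ p = 1)
    {φ : Ω ≃ₐ[K] Ω} {ζ : Ω} {ℓ a : ℕ} (hℓ : ℓ ≠ 0) (hζ : IsPrimitiveRoot ζ ℓ)
    (hφ : φ ζ = ζ ^ a)
    (hord : p ∣ orderOf ((a : ℕ) : ZMod ℓ))
    {g : Ω ≃ₐ[K] Ω} (hg : g ∈ cft_decompH K L φ ζ) (hgζ : g ζ = ζ) (x : L) :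
    g (algebraMap L Ω x) = algebraMap L Ω x := by
  obtain ⟨k, u, hu, rfl⟩ := (cft_mem_decompH_iff hcomm).mp hg
  -- `a ^ k ≡ 1 mod ℓ`
  have h1 : ζ ^ (a ^ k) = ζ := by
    rw [AlgEquiv.mul_apply, hu.2, cft_pow_apply_zeta hφ k] at hgζ
    exact hgζ
  have h2 : ((a : ℕ) : ZMod ℓ) ^ k = 1 := by
    have h3 : ζ ^ (((a ^ k : ℕ) : ℤ) - 1) = 1 := by
      have hζ0 : ζ ≠ 0 := by
        rintro rfl
        have := hζ.pow_eq_one
        rw [zero_pow hℓ] at this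
        exact zero_ne_one this
      rw [zpow_sub₀ hζ0, zpow_natCast, zpow_one, h1, div_self hζ0]
    have h4 := (hζ.zpow_eq_one_iff_dvd _).mp h3
    have h5 : (((a ^ k : ℕ) : ℤ) : ZMod ℓ) = ((1 : ℤ) : ZMod ℓ) := by
      rw [ZMod.intCast_eq_intCast_iff_dvd_sub]
      have : (1 : ℤ) - ((a ^ k : ℕ) : ℤ) = -(((a ^ k : ℕ) : ℤ) - 1) := by ring
      rw [this]
      exact (dvd_neg).mpr h4
    push_cast at h5
    exact h5
  have h6 : p ∣ k := hord.trans (orderOf_dvd_of_pow_eq_one h2)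
  obtain ⟨j, rfl⟩ := h6
  -- restriction to `L`
  have hr : (φ ^ (p * j) * u).restrictNormal L = 1 := by
    have e1 : (φ ^ (p * j) * u).restrictNormal L =
        AlgEquiv.restrictNormalHom L (φ ^ (p * j) * u) := rfl
    rw [e1, map_mul, map_pow, pow_mul, hexp, one_pow, one_mul]
    ext y
    apply (algebraMap L Ω).injective
    show algebraMap L Ω (u.restrictNormal L y) = _
    rw [AlgEquiv.restrictNormal_commutes, hu.1]
    rfl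
  have := AlgEquiv.restrictNormal_commutes (φ ^ (p * j) * u) L x
  rw [hr] at this
  exact this.symm

end

end Fermat.Agent.Lib.CFT
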