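/-
S14 (CFT route), crossing argument: the containment lemma of `DecompGroup.lean` in the form consumed
by `FixedGood.cfn_fixed_cont` (`cft_res K L K Ω g = 1`).
-/
import Mathlib
import Fermat.Agent.Lib.CFT.ArtinTower
import Fermat.Agent.Lib.CFT.DecompGroup

set_option autoImplicit false
set_option linter.unusedSectionVars false

namespace Fermat.Agent.Lib.CFT

open NumberField

variable {K L Ω : Type*} [Field K] [NumberField K] [Field L] [NumberField L] [Field Ω]
  [NumberField Ω] [Algebra K L] [Algebra K Ω] [Algebra L Ω] [IsScalarTower K L Ω]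
  [IsGalois K L] [IsGalois K Ω]

/-- An automorphism of `Ω/K` fixing `L` pointwise restricts to the identity of `L`. -/
lemma cft_res_eq_one_of_fixes {g : Ω ≃ₐ[K] Ω}
    (h : ∀ x : L, g (algebraMap L Ω x) = algebraMap L Ω x) : cft_res K L K Ω g = 1 := by
  ext x
  apply (algebraMap L Ω).injective
  rw [cft_res_commutes, h]
  rfl

lemma cft_fixes_of_res_eq_one {g : Ω ≃ₐ[K] Ω} (h : cft_res K L K Ω g = 1) (x : L) :
    g (algebraMap L Ω x) = algebraMap L Ω x := by
  rw [← cft_res_commutes (K := K) (E := K), h]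
  rfl

/-- `cft_decompH_cont` in `cft_res` form. -/
theorem cft_decompH_res_eq_one (hcomm : ∀ g h : Ω ≃ₐ[K] Ω, g * h = h * g)
    {p : ℕ} (hdeg : Module.finrank K L = p)
    {φ : Ω ≃ₐ[K] Ω} {ζ : Ω} {ℓ a : ℕ} (hℓ : ℓ ≠ 0) (hζ : IsPrimitiveRoot ζ ℓ)
    (hφ : φ ζ = ζ ^ a) (hord : p ∣ orderOf ((a : ℕ) : ZMod ℓ)) :
    ∀ g ∈ cft_decompH K L φ ζ, g ζ = ζ → cft_res K L K Ω g = 1 := by
  intro g hg hgζ
  apply cft_res_eq_one_of_fixes
  have hexp : ∀ σ : L ≃ₐ[K] L, σ ^ p = 1 := by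
    intro σ
    rw [← hdeg, ← IsGalois.card_aut_eq_finrank]
    exact pow_card_eq_one'
  exact cft_decompH_cont hcomm hexp hℓ hζ hφ hord hg hgζ

/-- Membership in `H` through `cft_res` and the action on `ζ`. -/
lemma cft_mem_decompH_of_res {φ g : Ω ≃ₐ[K] Ω} {ζ : Ω} (k : ℕ)
    (h1 : cft_res K L K Ω g = cft_res K L K Ω φ ^ k) (h2 : g ζ = (φ ^ k) ζ) :
    g ∈ cft_decompH K L φ ζ := by
  apply cft_mem_decompH_of_agree k _ h2
  intro x
  rw [← cft_res_commutes (K := K) (E := K), ← cft_res_commutes (K := K) (E := K), h1, map_pow]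

end Fermat.Agent.Lib.CFT
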