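/-
S14 (CFT route), slice of (Asm3): on the concrete carrier `Ω = cfa_Om L ℓ₀ ℓ₁`, the element
`g' ∈ H₀ ⊓ H₁` with `g'|_L = φ₁|_L`, where `H_i = cft_decompH K L φ_i ζ_i`; and, combined with
(Asm2), the ideal `𝔅` of the composite field `fixedField (H₀ ⊓ H₁)`.
-/
import Mathlib
import Fermat.Agent.Lib.CFT.CycloTower
import Fermat.Agent.Lib.CFT.DecompGroupB
import Fermat.Agent.Lib.CFT.AsmTwo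

set_option autoImplicit false
set_option linter.unusedSectionVars false

namespace Fermat.Agent.Lib.CFT

open Polynomial NumberField
open scoped nonZeroDivisors

section meet

variable (K L : Type*) [Field K] [NumberField K] [Field L] [NumberField L] [Algebra K L]
  [IsGalois K L] (ℓ₀ ℓ₁ : ℕ) [NeZero ℓ₀] [NeZero ℓ₁]

/-- The crossing element: if `φ₁|_L = (φ₀|_L)^d` and `φ₁ ζ₁ = ζ₁ ^ a₁` with `ℓ₁ ∤ a₁`, there is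
`g' ∈ H₀ ⊓ H₁` with `g'|_L = φ₁|_L`. -/
theorem cfa_asmMeet (hℓ₁ : ℓ₁.Prime) (h : Irreducible (cyclotomic ℓ₁ (cfa_Om0 L ℓ₀)))
    (φ₀ φ₁ : Gal((cfa_Om L ℓ₀ ℓ₁)/K)) (a₁ : ℕ) (ha₁ : ¬ ℓ₁ ∣ a₁)
    (hφ₁ : φ₁ (cfa_zeta1 L ℓ₀ ℓ₁) = cfa_zeta1 L ℓ₀ ℓ₁ ^ a₁) (d : ℕ)
    (hd : cft_res K L K (cfa_Om L ℓ₀ ℓ₁) φ₁ = cft_res K L K (cfa_Om L ℓ₀ ℓ₁) φ₀ ^ d) :
    ∃ g' ∈ cft_decompH K L φ₀ (cfa_zeta0 L ℓ₀ ℓ₁) ⊓ cft_decompH K L φ₁ (cfa_zeta1 L ℓ₀ ℓ₁),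
      cft_res K L K (cfa_Om L ℓ₀ ℓ₁) g' = cft_res K L K (cfa_Om L ℓ₀ ℓ₁) φ₁ := by
  obtain ⟨g', hL, h0, h1⟩ := cfa_independence' (K := K) hℓ₁ h (φ₀ ^ d) a₁ ha₁
  have hres : cft_res K L K (cfa_Om L ℓ₀ ℓ₁) g' = cft_res K L K (cfa_Om L ℓ₀ ℓ₁) φ₁ := by
    rw [hd, ← map_pow]
    apply AlgEquiv.ext
    intro x
    apply (algebraMap L (cfa_Om L ℓ₀ ℓ₁)).injective
    rw [cft_res_commutes, cft_res_commutes]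
    exact hL x
  refine ⟨g', ?_, hres⟩
  rw [Subgroup.mem_inf]
  constructor
  · exact cft_mem_decompH_of_agree d hL h0
  · apply cft_mem_decompH_of_res 1
    · rw [pow_one, hres]
    · rw [pow_one, h1, hφ₁]

variable [IsMulCommutative (L ≃ₐ[K] L)]

/-- (Asm2) for the composite field `fixedField (H₀ ⊓ H₁)` of the crossing. -/
theorem cfa_asmMeet_ideal {p : ℕ} (hp : p.Prime) (hdeg : Module.finrank K L = p)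
    (hunL : cft_Unram K L) (hℓ₁ : ℓ₁.Prime) (h : Irreducible (cyclotomic ℓ₁ (cfa_Om0 L ℓ₀)))
    (φ₀ φ₁ : Gal((cfa_Om L ℓ₀ ℓ₁)/K)) (a₁ : ℕ) (ha₁ : ¬ ℓ₁ ∣ a₁)
    (hφ₁ : φ₁ (cfa_zeta1 L ℓ₀ ℓ₁) = cfa_zeta1 L ℓ₀ ℓ₁ ^ a₁) (d : ℕ)
    (hd : cft_res K L K (cfa_Om L ℓ₀ ℓ₁) φ₁ = cft_res K L K (cfa_Om L ℓ₀ ℓ₁) φ₀ ^ d)
    (hne : cft_res K L K (cfa_Om L ℓ₀ ℓ₁) φ₁ ≠ 1) (m : ℕ) (hm : m ≠ 0) :
    ∃ 𝔅 : (Ideal (𝓞 (IntermediateField.fixedField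
        (cft_decompH K L φ₀ (cfa_zeta0 L ℓ₀ ℓ₁) ⊓ cft_decompH K L φ₁ (cfa_zeta1 L ℓ₀ ℓ₁)))))⁰,
      (Ideal.absNorm (𝔅 : Ideal (𝓞 (IntermediateField.fixedField
        (cft_decompH K L φ₀ (cfa_zeta0 L ℓ₀ ℓ₁) ⊓
          cft_decompH K L φ₁ (cfa_zeta1 L ℓ₀ ℓ₁)))))).Coprime m ∧
      cft_artin K L (Ideal.relNorm (𝓞 K) (𝔅 : Ideal (𝓞 (IntermediateField.fixedField
        (cft_decompH K L φ₀ (cfa_zeta0 L ℓ₀ ℓ₁) ⊓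
          cft_decompH K L φ₁ (cfa_zeta1 L ℓ₀ ℓ₁)))))) ≠ 1 := by
  obtain ⟨g', hg', hres⟩ := cfa_asmMeet K L ℓ₀ ℓ₁ hℓ₁ h φ₀ φ₁ a₁ ha₁ hφ₁ d hd
  exact cfa_asmTwo_res hp hdeg hunL _ ⟨g', hg', by rw [hres]; exact hne⟩ m hm

end meet

end Fermat.Agent.Lib.CFT
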