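/-
S14 (class field theory route), (C1) lemma pack: Frobenius elements and Artin symbols act on roots
of unity of order prime to the ideal by raising to the absolute norm; the absolute norm of a
generator `≡ 1 mod m` is `≡ 1 mod m` in a field without real places; hence the Artin symbol of
such a principal ideal is trivial on `m`-th roots of unity (cyclotomic reciprocity).
-/
import Mathlib
import Fermat.Agent.Lib.CFT.Artin

set_option autoImplicit false
set_option linter.unusedSectionVars false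

namespace Fermat.Agent.Lib.CFT

open NumberField Ideal IsDedekindDomain
open scoped nonZeroDivisors

section roots

variable {M : Type*} [Field M] [NumberField M]

/-- Two `m`-th roots of unity of `𝓞 M` that are congruent modulo an ideal of norm prime to `m`
are equal. -/
theorem cfi_eq_of_pow_eq_one_of_sub_mem {m : ℕ} [NeZero m] (Q : Ideal (𝓞 M))
    (hQ1 : absNorm Q ≠ 1) (hm : (absNorm Q).Coprime m) {x y : 𝓞 M} (hx : x ^ m = 1)
    (hy : y ^ m = 1) (hxy : x - y ∈ Q) : x = y := by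
  have hinj := Ideal.rootsOfUnityMapQuot_injective (I := Q) m hQ1 hm
  have hux : Units.ofPowEqOne x m hx (NeZero.ne m) ∈ rootsOfUnity m (𝓞 M) := by
    rw [mem_rootsOfUnity]; exact Units.ext (by simp)
  have huy : Units.ofPowEqOne y m hy (NeZero.ne m) ∈ rootsOfUnity m (𝓞 M) := by
    rw [mem_rootsOfUnity]; exact Units.ext (by simp)
  have h : (⟨_, hux⟩ : rootsOfUnity m (𝓞 M)) = ⟨_, huy⟩ := by
    apply hinj
    ext
    rw [Ideal.rootsOfUnityMapQuot_apply, Ideal.rootsOfUnityMapQuot_apply]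
    exact Ideal.Quotient.eq.mpr hxy
  have h' := congrArg (fun t : rootsOfUnity m (𝓞 M) => ((t : (𝓞 M)ˣ) : 𝓞 M)) h
  simpa using h'

end roots

variable {E M : Type*} [Field E] [NumberField E] [Field M] [NumberField M] [Algebra E M]
  [IsGalois E M]

/-- (F1) A Frobenius at a prime `Q` of norm prime to `m` raises `m`-th roots of unity to the power
`N(Q ∩ 𝓞 E)`. -/
theorem cfi_isFrobAt_apply_root {m : ℕ} [NeZero m] (σ : Gal(M/E)) (Q : Ideal (𝓞 M)) [Q.IsPrime]
    (hσ : cft_IsFrobAt σ Q) (hm : (absNorm Q).Coprime m) (ζ : M) (hζ : ζ ^ m = 1) :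
    σ ζ = ζ ^ absNorm (Q.under (𝓞 E)) := by
  have hint : IsIntegral ℤ ζ :=
    IsIntegral.of_pow (NeZero.pos m) (by rw [hζ]; exact isIntegral_one)
  set z : 𝓞 M := ⟨ζ, hint⟩ with hz
  have hzc : (z : M) = ζ := rfl
  have hzm : z ^ m = 1 := by
    apply RingOfIntegers.ext
    rw [RingOfIntegers.coe_eq_algebraMap, RingOfIntegers.coe_eq_algebraMap, map_pow, map_one]
    exact hζ
  have hQ1 : absNorm Q ≠ 1 := by
    rw [Ne, Ideal.absNorm_eq_one_iff]
    exact Ideal.IsPrime.ne_top'
  have hfrob := (cft_isFrobAt_iff' σ Q).mp hσ z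
  have hN : Nat.card (𝓞 E ⧸ Q.under (𝓞 E)) = absNorm (Q.under (𝓞 E)) := rfl
  rw [hN] at hfrob
  have h1 : (σ • z) ^ m = 1 := by rw [← smul_pow', hzm, smul_one]
  have h2 : (z ^ absNorm (Q.under (𝓞 E))) ^ m = 1 := by
    rw [← pow_mul, mul_comm, pow_mul, hzm, one_pow]
  have h := cfi_eq_of_pow_eq_one_of_sub_mem Q hQ1 hm h1 h2 hfrob
  have h' : ((σ • z : 𝓞 M) : M) = ((z ^ absNorm (Q.under (𝓞 E)) : 𝓞 M) : M) :=
    congrArg (fun t : 𝓞 M => (t : M)) h
  rw [RingOfIntegers.coe_eq_algebraMap (z ^ _), map_pow] at h'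
  exact h'

open scoped IsMulCommutative in
/-- (F2) The Frobenius of a prime `q` of norm prime to `m` raises `m`-th roots of unity to the
power `N q`. -/
theorem cfi_frob_apply_root [IsMulCommutative Gal(M/E)] {m : ℕ} [NeZero m] (q : Ideal (𝓞 E))
    [q.IsPrime] (hq : q ≠ ⊥) (hm : (absNorm q).Coprime m) (ζ : M) (hζ : ζ ^ m = 1) :
    cft_frob E M q ζ = ζ ^ absNorm q := by
  obtain ⟨Q, hQ, hlo⟩ := (Ideal.nonempty_primesOver (S := 𝓞 M) q).some
  have hfr := cft_isFrob_frob E M q hq Q hQ hlo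
  have hQm : (absNorm Q).Coprime m := by
    rw [← Ideal.absNorm_pow_inertiaDeg q Q]
    exact Nat.Coprime.pow_left _ hm
  have := cfi_isFrobAt_apply_root (cft_frob E M q) Q hfr hQm ζ hζ
  rwa [← hlo.over] at this

open scoped IsMulCommutative in
/-- (F3) The Artin symbol of an ideal `I` of norm prime to `m` raises `m`-th roots of unity to
the power `N I`. No unramifiedness is needed. -/
theorem cfi_artin_apply_root [IsMulCommutative Gal(M/E)] {m : ℕ} [NeZero m] (I : Ideal (𝓞 E))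
    (hI : I ≠ ⊥) (hm : (absNorm I).Coprime m) (ζ : M) (hζ : ζ ^ m = 1) :
    cft_artin E M I ζ = ζ ^ absNorm I := by
  revert hI hm ζ
  refine UniqueFactorizationMonoid.induction_on_prime (P := fun I : Ideal (𝓞 E) => I ≠ ⊥ →
    (absNorm I).Coprime m → ∀ ζ : M, ζ ^ m = 1 → cft_artin E M I ζ = ζ ^ absNorm I) I ?_ ?_ ?_
  · intro h
    exact absurd Ideal.zero_eq_bot h
  · intro J hJ _ _ ζ _
    rw [Ideal.isUnit_iff] at hJ
    subst hJ
    rw [cft_artin_top, Ideal.absNorm_top, pow_one]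
    rfl
  · intro J P hJ hP ih _ hm ζ hζ
    have hJ' : J ≠ ⊥ := hJ
    have hPp : P.IsPrime := Ideal.isPrime_of_prime hP
    have hP0 : P ≠ ⊥ := hP.ne_zero
    rw [map_mul] at hm
    have hmP := Nat.Coprime.coprime_mul_right hm
    have hmJ := Nat.Coprime.coprime_mul_left hm
    have hPa : cft_artin E M P = cft_frob E M P := cft_artin_prime E M ⟨P, hPp, hP0⟩
    rw [cft_artin_mul E M hP0 hJ', map_mul, AlgEquiv.mul_apply, ih hJ' hmJ ζ hζ, map_pow, hPa,
      cfi_frob_apply_root P hP0 hmP ζ hζ, ← pow_mul]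

end Fermat.Agent.Lib.CFT
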