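/-
S14 (CFT route): unramifiedness utilities.

* `cfh_isUnramifiedAt_of_inertia`: trivial inertia group at `Q` implies `Algebra.IsUnramifiedAt`.
* `cfh_unram_of_inertia`: the same for all primes (`cft_Unram`).
* `cfh_unram_baseChange`: `cft_Unram K L` and injectivity of restriction `Gal(M/E) → Gal(L/K)`
  (i.e. `M = LE`) imply `cft_Unram E M`.
* `cfh_res_injective_of_adjoin`, `cfh_res_injective_of_fieldAdjoin`: injectivity of restriction from
  `M = E[L]` resp. `M = E(L)`.
* `cfh_mul_comm_of_res_injective`: `Gal(M/E)` is commutative if `Gal(L/K)` is and restriction is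
  injective.
-/
import Mathlib
import Fermat.Agent.Lib.CFT.ArtinTower

set_option autoImplicit false
set_option linter.unusedSectionVars false

namespace Fermat.Agent.Lib.CFT

open NumberField
open scoped nonZeroDivisors Pointwise

section u1

variable {K L : Type*} [Field K] [NumberField K] [Field L] [NumberField L] [Algebra K L]
variable [IsGalois K L]

/-- Trivial inertia group implies unramified. -/
theorem cfh_isUnramifiedAt_of_inertia (Q : Ideal (𝓞 L)) [Q.IsPrime] (_hQ : Q ≠ ⊥)
    (h : ∀ σ : Gal(L/K), (∀ x : 𝓞 L, σ • x - x ∈ Q) → σ = 1) :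
    Algebra.IsUnramifiedAt (𝓞 K) Q := by
  have hG := cft_isGaloisGroup K L
  have : (Q.under (𝓞 K)).IsPrime := inferInstance
  have hlo : Q.LiesOver (Q.under (𝓞 K)) := ⟨rfl⟩
  have hcard := Ideal.card_inertia_eq_ramificationIdxIn (G := Gal(L/K)) (Q.under (𝓞 K)) Q
  rw [Ideal.ramificationIdxIn_eq_ramificationIdx (Q.under (𝓞 K)) Q Gal(L/K)] at hcard
  rw [← Ideal.ramificationIdx_eq_one_iff, ← hcard]
  have : Q.inertia Gal(L/K) = ⊥ := by
    rw [eq_bot_iff]
    intro σ hσ
    rw [Subgroup.mem_bot]
    exact h σ hσ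
  rw [this]
  simp

/-- Trivial inertia groups at all nonzero primes imply `cft_Unram`. -/
theorem cfh_unram_of_inertia
    (h : ∀ (Q : Ideal (𝓞 L)) [Q.IsPrime], Q ≠ ⊥ →
      ∀ σ : Gal(L/K), (∀ x : 𝓞 L, σ • x - x ∈ Q) → σ = 1) : cft_Unram K L :=
  fun Q _ hQ => cfh_isUnramifiedAt_of_inertia Q hQ (h Q hQ)

end u1

section tower

variable {K L E M : Type*} [Field K] [NumberField K] [Field L] [NumberField L]
  [Field E] [NumberField E] [Field M] [NumberField M]
  [Algebra K L] [Algebra K E] [Algebra L M] [Algebra E M] [Algebra K M]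
  [IsScalarTower K L M] [IsScalarTower K E M]
variable [IsGalois K L] [IsGalois E M]

/-- Base change of unramifiedness: if `L/K` is unramified and restriction
`Gal(M/E) → Gal(L/K)` is injective (i.e. `M = LE`), then `M/E` is unramified. -/
theorem cfh_unram_baseChange (hun : cft_Unram K L)
    (hinj : Function.Injective (cft_res K L E M)) : cft_Unram E M := by
  intro Q' _ hQ'
  apply cfh_isUnramifiedAt_of_inertia (K := E) Q' hQ'
  intro σ hσ
  apply hinj
  rw [map_one]
  have hlo : Q'.LiesOver (Q'.under (𝓞 L)) := ⟨rfl⟩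
  have hQ0 : Q'.under (𝓞 L) ≠ ⊥ := by
    intro h
    exact hQ' (Ideal.eq_bot_of_liesOver_bot (𝓞 L) Q' (h := h ▸ hlo))
  have := hun (Q'.under (𝓞 L)) hQ0
  apply cft_eq_one_of_forall_sub_mem (K := K) hQ0
  intro x
  rw [Ideal.under_def, Ideal.mem_comap, map_sub, cft_res_smul]
  exact hσ _

/-- Restriction is injective when `M` is generated over `E` by the image of `L`. -/
theorem cfh_res_injective_of_adjoin
    (h : Algebra.adjoin E (Set.range (algebraMap L M)) = ⊤) :
    Function.Injective (cft_res K L E M) := by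
  rw [injective_iff_map_eq_one]
  intro σ hσ
  have hfix : ∀ x : L, σ (algebraMap L M x) = algebraMap L M x := by
    intro x
    rw [← cft_res_commutes (K := K) σ x, hσ]
    rfl
  have : (σ : M →ₐ[E] M) = AlgHom.id E M := by
    apply AlgHom.ext_of_adjoin_eq_top h
    rintro _ ⟨x, rfl⟩
    exact hfix x
  ext y
  exact DFunLike.congr_fun this y

/-- Restriction is injective when `M = E(L)` as fields. -/
theorem cfh_res_injective_of_fieldAdjoin
    (h : IntermediateField.adjoin E (Set.range (algebraMap L M)) = ⊤) :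
    Function.Injective (cft_res K L E M) := by
  apply cfh_res_injective_of_adjoin
  have halg : Algebra.IsAlgebraic E M := Algebra.IsAlgebraic.of_finite E M
  rw [← IntermediateField.adjoin_toSubalgebra (F := E) (Set.range (algebraMap L M)), h]
  rfl

/-- Commutativity passes to `Gal(M/E)` along an injective restriction map. -/
theorem cfh_mul_comm_of_res_injective (hinj : Function.Injective (cft_res K L E M))
    (hcomm : ∀ a b : Gal(L/K), a * b = b * a) (g h : Gal(M/E)) : g * h = h * g := by
  apply hinj
  rw [map_mul, map_mul, hcomm]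

end tower

end Fermat.Agent.Lib.CFT
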