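/-
S14 (CFT route), WP-FT1: the generic "fixed setting".  `K ⊆ L ⊆ Ω`, `K ⊆ E ⊆ Ω` number fields,
`L/K` and `Ω/E` Galois.  `cfn_M K L E Ω` is the fixed field of the kernel of the restriction
`cft_res K L E Ω : Gal(Ω/E) → Gal(L/K)`, i.e. the compositum `L E` inside `Ω`.
-/
import Mathlib
import Fermat.Agent.Lib.CFT.ArtinTower
import Fermat.Agent.Lib.CFT.UnramBase

set_option autoImplicit false
set_option linter.unusedSectionVars false

namespace Fermat.Agent.Lib.CFT

open NumberField
open scoped nonZeroDivisors Pointwise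

section setting

variable (K L E Ω : Type*) [Field K] [NumberField K] [Field L] [NumberField L]
  [Field E] [NumberField E] [Field Ω] [NumberField Ω]
  [Algebra K L] [Algebra K E] [Algebra L Ω] [Algebra E Ω] [Algebra K Ω]
  [IsScalarTower K L Ω] [IsScalarTower K E Ω] [IsGalois K L] [IsGalois E Ω]

/-- The compositum `L E` inside `Ω`, as the fixed field of the kernel of the restriction
`Gal(Ω/E) → Gal(L/K)`. -/
noncomputable def cfn_M : IntermediateField E Ω :=
  IntermediateField.fixedField (cft_res K L E Ω).ker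

variable {K L E Ω}

lemma cfn_mem_M_iff (x : Ω) :
    x ∈ cfn_M K L E Ω ↔ ∀ g : Gal(Ω/E), cft_res K L E Ω g = 1 → g x = x := by
  unfold cfn_M
  rw [IntermediateField.mem_fixedField_iff]
  simp only [MonoidHom.mem_ker]

lemma cfn_algebraMap_mem_M (x : L) : algebraMap L Ω x ∈ cfn_M K L E Ω := by
  rw [cfn_mem_M_iff]
  intro g hg
  rw [← cft_res_commutes (K := K) (L := L) g x, hg]
  rfl

variable (K L E Ω)

/-- The embedding `L → L E`. -/
noncomputable def cfn_LtoM : L →+* cfn_M K L E Ω where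
  toFun x := ⟨algebraMap L Ω x, cfn_algebraMap_mem_M x⟩
  map_one' := by ext; simp
  map_mul' x y := by ext; simp
  map_zero' := by ext; simp
  map_add' x y := by ext; simp

noncomputable instance cfn_algebraLM : Algebra L (cfn_M K L E Ω) :=
  (cfn_LtoM K L E Ω).toAlgebra

variable {K L E Ω}

lemma cfn_algebraMap_LM_coe (x : L) :
    ((algebraMap L (cfn_M K L E Ω) x : cfn_M K L E Ω) : Ω) = algebraMap L Ω x := rfl

instance cfn_towerLMΩ : IsScalarTower L (cfn_M K L E Ω) Ω :=
  IsScalarTower.of_algebraMap_eq fun _ => rfl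

instance cfn_towerKLM : IsScalarTower K L (cfn_M K L E Ω) :=
  IsScalarTower.of_algebraMap_eq fun x => by
    apply Subtype.ext
    rw [cfn_algebraMap_LM_coe, ← IsScalarTower.algebraMap_apply K L Ω]
    rfl

noncomputable example : IsScalarTower K E (cfn_M K L E Ω) := inferInstance
noncomputable example : IsScalarTower E (cfn_M K L E Ω) Ω := inferInstance
noncomputable example : Algebra K (cfn_M K L E Ω) := inferInstance

instance cfn_towerKMΩ : IsScalarTower K (cfn_M K L E Ω) Ω :=
  IsScalarTower.of_algebraMap_eq fun _ => rfl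

instance cfn_isGalois_M : IsGalois E (cfn_M K L E Ω) := by
  unfold cfn_M
  exact IsGalois.of_fixedField_normal_subgroup (cft_res K L E Ω).ker

/-- (c) an element of `Gal(Ω/E)` restricting trivially to `L` fixes `L E` pointwise. -/
lemma cfn_apply_eq_of_res_eq_one {g : Gal(Ω/E)} (hg : cft_res K L E Ω g = 1)
    (x : cfn_M K L E Ω) : g (x : Ω) = x :=
  (cfn_mem_M_iff (x : Ω)).mp x.2 g hg

/-- Compatibility of the two restriction maps. -/
lemma cfn_res_restrictNormal (g : Gal(Ω/E)) :
    cft_res K L E (cfn_M K L E Ω) (AlgEquiv.restrictNormalHom (cfn_M K L E Ω) g) =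
      cft_res K L E Ω g := by
  apply AlgEquiv.ext
  intro x
  apply (algebraMap L Ω).injective
  rw [cft_res_commutes, IsScalarTower.algebraMap_apply L (cfn_M K L E Ω) Ω,
    cft_res_commutes]
  have := AlgEquiv.restrictNormal_commutes g (cfn_M K L E Ω) (algebraMap L (cfn_M K L E Ω) x)
  rw [← IsScalarTower.algebraMap_apply L (cfn_M K L E Ω) Ω] at this
  exact this

/-- (a) `Gal(L E / E) → Gal(L / K)` is injective. -/
theorem cfn_res_injective : Function.Injective (cft_res K L E (cfn_M K L E Ω)) := by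
  rw [injective_iff_map_eq_one]
  intro g hg
  obtain ⟨g', rfl⟩ := AlgEquiv.restrictNormalHom_surjective (F := E) (K₁ := cfn_M K L E Ω) Ω g
  rw [cfn_res_restrictNormal] at hg
  apply AlgEquiv.ext
  intro x
  apply Subtype.ext
  rw [AlgEquiv.restrictNormalHom_apply]
  exact cfn_apply_eq_of_res_eq_one hg x

/-- (b) if `[L:K] = p` is prime and some element of `Gal(Ω/E)` acts non-trivially on `L`, then
`[L E : E] = p`. -/
theorem cfn_finrank_M {p : ℕ} (hp : p.Prime) (hdeg : Module.finrank K L = p)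
    (hg : ∃ g : Gal(Ω/E), cft_res K L E Ω g ≠ 1) :
    Module.finrank E (cfn_M K L E Ω) = p := by
  obtain ⟨g, hg⟩ := hg
  rw [← IsGalois.card_aut_eq_finrank]
  have h1 : Nat.card Gal((cfn_M K L E Ω)/E) ∣ p := by
    have := Subgroup.card_dvd_of_injective (cft_res K L E (cfn_M K L E Ω)) cfn_res_injective
    rwa [IsGalois.card_aut_eq_finrank K L, hdeg] at this
  rcases (Nat.dvd_prime hp).mp h1 with h | h
  · exfalso
    apply hg
    rw [← cfn_res_restrictNormal]
    have hsub : Subsingleton Gal((cfn_M K L E Ω)/E) := (Nat.card_eq_one_iff_unique.mp h).1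
    rw [Subsingleton.elim (AlgEquiv.restrictNormalHom (cfn_M K L E Ω) g) 1, map_one]
  · exact h

/-- (d) base change of unramifiedness to `L E / E`. -/
theorem cfn_unram_M (hun : cft_Unram K L) : cft_Unram E (cfn_M K L E Ω) :=
  cfh_unram_baseChange hun cfn_res_injective

/-- `Gal(L E / E)` is commutative when `Gal(L/K)` is. -/
theorem cfn_mul_comm_M (hcomm : ∀ a b : Gal(L/K), a * b = b * a)
    (g h : Gal((cfn_M K L E Ω)/E)) : g * h = h * g :=
  cfh_mul_comm_of_res_injective cfn_res_injective hcomm g h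

end setting

lemma cfn_card_le_of_pow_eq {F : Type*} [Field F] [Fintype F] {q : ℕ} (hq : 1 < q)
    (h : ∀ x : F, x ^ q = x) : Fintype.card F ≤ q := by
  classical
  have hne : (Polynomial.X ^ q - Polynomial.X : Polynomial F) ≠ 0 :=
    FiniteField.X_pow_card_sub_X_ne_zero F hq
  have hsub : (Finset.univ : Finset F) ⊆ (Polynomial.X ^ q - Polynomial.X : Polynomial F).roots.toFinset := by
    intro x _
    rw [Multiset.mem_toFinset, Polynomial.mem_roots hne]
    simp [h x]
  calc Fintype.card F = (Finset.univ : Finset F).card := rfl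
    _ ≤ (Polynomial.X ^ q - Polynomial.X : Polynomial F).roots.toFinset.card := Finset.card_le_card hsub
    _ ≤ Multiset.card (Polynomial.X ^ q - Polynomial.X : Polynomial F).roots := Multiset.toFinset_card_le _
    _ ≤ (Polynomial.X ^ q - Polynomial.X : Polynomial F).natDegree := Polynomial.card_roots' _
    _ = q := FiniteField.X_pow_card_sub_X_natDegree_eq F hq

section degone

variable {K E Ω : Type*} [Field K] [NumberField K] [Field E] [NumberField E]
  [Field Ω] [NumberField Ω] [Algebra K E] [Algebra E Ω] [Algebra K Ω] [IsScalarTower K E Ω]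

/-- (e) If a Frobenius element at `𝔓` (for `Ω/K`) fixes `E` pointwise, then the prime of `E` below
`𝔓` has relative norm the prime of `K` below `𝔓` (residue degree one). -/
theorem cfn_relNorm_under_of_fixes (𝔓 : Ideal (𝓞 Ω)) [𝔓.IsPrime] (h𝔓 : 𝔓 ≠ ⊥) (φ : Gal(Ω/K))
    (hφ : cft_IsFrobAt φ 𝔓) (hfix : ∀ x : E, φ (algebraMap E Ω x) = algebraMap E Ω x) :
    Ideal.relNorm (𝓞 K) (𝔓.under (𝓞 E)) = 𝔓.under (𝓞 K) := by
  set 𝔔 := 𝔓.under (𝓞 E) with h𝔔
  set 𝔭 := 𝔓.under (𝓞 K) with h𝔭
  have hlo : 𝔔.LiesOver 𝔭 := by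
    constructor
    rw [h𝔔, h𝔭, Ideal.under_under]
  have h𝔔0 : 𝔔 ≠ ⊥ := Ideal.under_ne_bot (𝓞 E) h𝔓
  have h𝔭0 : 𝔭 ≠ ⊥ := Ideal.under_ne_bot (𝓞 K) h𝔓
  have h𝔔max : 𝔔.IsMaximal := Ring.DimensionLEOne.maximalOfPrime h𝔔0 inferInstance
  have h𝔭max : 𝔭.IsMaximal := Ring.DimensionLEOne.maximalOfPrime h𝔭0 inferInstance
  obtain ⟨s, hs⟩ := Ideal.exists_relNorm_eq_pow_of_isPrime 𝔔 𝔭
  set q := Nat.card (𝓞 K ⧸ 𝔭) with hq
  have hqabs : Ideal.absNorm 𝔭 = q := by
    rw [Ideal.absNorm_apply, Submodule.cardQuot_apply]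
  have hq1 : 1 < q := by
    have h0 : Ideal.absNorm 𝔭 ≠ 0 := by
      rw [Ne, Ideal.absNorm_eq_zero_iff]; exact h𝔭0
    have h1 : Ideal.absNorm 𝔭 ≠ 1 := by
      rw [Ne, Ideal.absNorm_eq_one_iff]; exact h𝔭max.ne_top
    omega
  -- every element of the residue field of `𝔔` is fixed by `x ↦ x ^ q`
  have hpow : ∀ y : 𝓞 E, y ^ q - y ∈ 𝔔 := by
    intro y
    have h1 := (cft_isFrobAt_iff φ 𝔓).mp hφ (algebraMap (𝓞 E) (𝓞 Ω) y)
    have h2 : galRestrict (𝓞 K) K Ω (𝓞 Ω) φ (algebraMap (𝓞 E) (𝓞 Ω) y) =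
        algebraMap (𝓞 E) (𝓞 Ω) y := by
      apply RingOfIntegers.ext
      exact (algebraMap_galRestrict_apply (𝓞 K) φ _).trans (hfix (y : E))
    rw [h2, ← map_pow, ← map_sub] at h1
    have h3 : y - y ^ q ∈ 𝔔 := h1
    have := 𝔔.neg_mem h3
    rwa [neg_sub] at this
  have hcard : Ideal.absNorm 𝔔 ≤ q := by
    let _ := Ideal.Quotient.field 𝔔
    have : Finite (𝓞 E ⧸ 𝔔) := Ideal.finiteQuotientOfFreeOfNeBot 𝔔 h𝔔0
    let _ := Fintype.ofFinite (𝓞 E ⧸ 𝔔)
    rw [Ideal.absNorm_apply, Submodule.cardQuot_apply, Nat.card_eq_fintype_card]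
    apply cfn_card_le_of_pow_eq hq1
    intro x
    obtain ⟨y, rfl⟩ := Ideal.Quotient.mk_surjective x
    rw [← map_pow, ← sub_eq_zero, ← map_sub, Ideal.Quotient.eq_zero_iff_mem]
    exact hpow y
  have habs : Ideal.absNorm 𝔔 = q ^ s := by
    rw [← Ideal.absNorm_relNorm (R := 𝓞 K), hs, map_pow, hqabs]
  have hs1 : s = 1 := by
    have h1 : Ideal.absNorm 𝔔 ≠ 1 := by
      rw [Ne, Ideal.absNorm_eq_one_iff]; exact h𝔔max.ne_top
    have hs0 : s ≠ 0 := by
      rintro rfl
      rw [pow_zero] at habs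
      exact h1 habs
    have hle : q ^ s ≤ q ^ 1 := by rw [pow_one, ← habs]; exact hcard
    have := (Nat.pow_le_pow_iff_right hq1).mp hle
    omega
  rw [hs, hs1, pow_one]

end degone

section fixed

variable {K Ω : Type*} [Field K] [Field Ω] [Algebra K Ω] [FiniteDimensional K Ω]

/-- The algebra structure `F → F'` for intermediate fields `F ≤ F'`. Not an instance: use
`letI := cfn_algebraOfLE h`. -/
@[reducible] noncomputable def cfn_algebraOfLE {F F' : IntermediateField K Ω} (h : F ≤ F') :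
    Algebra F F' :=
  (IntermediateField.inclusion h).toRingHom.toAlgebra

lemma cfn_algebraOfLE_algebraMap_coe {F F' : IntermediateField K Ω} (h : F ≤ F') (x : F) :
    ((@algebraMap F F' _ _ (cfn_algebraOfLE h) x : F') : Ω) = (x : Ω) := rfl

lemma cfn_isScalarTower_bot {F F' : IntermediateField K Ω} (h : F ≤ F') :
    @IsScalarTower K F F' _ (cfn_algebraOfLE h).toSMul _ :=
  letI := cfn_algebraOfLE h
  IsScalarTower.of_algebraMap_eq fun _ => rfl

lemma cfn_isScalarTower_top {F F' : IntermediateField K Ω} (h : F ≤ F') :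
    @IsScalarTower F F' Ω (cfn_algebraOfLE h).toSMul _ _ :=
  letI := cfn_algebraOfLE h
  IsScalarTower.of_algebraMap_eq fun _ => rfl

/-- For subgroups `H' ≤ H` of `Gal(Ω/K)`, `fixedField H ≤ fixedField H'`. -/
lemma cfn_fixedField_le {H H' : Subgroup Gal(Ω/K)} (h : H' ≤ H) :
    IntermediateField.fixedField H ≤ IntermediateField.fixedField H' := by
  intro x hx
  rw [IntermediateField.mem_fixedField_iff] at hx ⊢
  exact fun g hg => hx g (h hg)

/-- Dictionary, part 1: an automorphism of `Ω` over `fixedField H` lies in `H`. -/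
lemma cfn_restrictScalars_mem (H : Subgroup Gal(Ω/K))
    (g : Gal(Ω/(IntermediateField.fixedField H))) : g.restrictScalars K ∈ H := by
  have h := IntermediateField.fixingSubgroup_fixedField H
  have hmem : g.restrictScalars K ∈ (IntermediateField.fixedField H).fixingSubgroup := by
    rw [IntermediateField.mem_fixingSubgroup_iff]
    intro x hx
    exact g.commutes ⟨x, hx⟩
  rwa [h] at hmem

/-- Dictionary, part 2: every element of `H` is an automorphism of `Ω` over `fixedField H`. -/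
lemma cfn_exists_restrictScalars_eq (H : Subgroup Gal(Ω/K)) {h : Gal(Ω/K)} (hh : h ∈ H) :
    ∃ g : Gal(Ω/(IntermediateField.fixedField H)), g.restrictScalars K = h := by
  refine ⟨{ h with commutes' := ?_ }, ?_⟩
  · intro x
    exact (IntermediateField.mem_fixedField_iff H x.1).mp x.2 h hh
  · ext x
    rfl

end fixed

end Fermat.Agent.Lib.CFT
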