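/-
S14 (CFT route), data for Artin's crossing: a Frobenius element `φ ∈ Gal(Ω/K)` above a prime `𝔮`
of `K`, in a tower `K ⊆ L ⊆ Ω` with `L/K` abelian unramified and `Ω/K` Galois: `φ` restricts to
`cft_frob K L 𝔮` on `L` and raises roots of unity of order prime to `N𝔮` to the power `N𝔮`.
-/
import Mathlib
import Fermat.Agent.Lib.CFT.ArtinTower
import Fermat.Agent.Lib.CFT.CycloFrob
import Fermat.Agent.Lib.CFT.FixedSetting

set_option autoImplicit false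
set_option linter.unusedSectionVars false

namespace Fermat.Agent.Lib.CFT

open NumberField IsDedekindDomain
open scoped nonZeroDivisors

section absnorm

variable {K Ω : Type*} [Field K] [NumberField K] [Field Ω] [NumberField Ω] [Algebra K Ω]

/-- The absolute norm of a nonzero prime of `𝓞 Ω` is a power of the absolute norm of the prime
below it. -/
theorem cfc_absNorm_eq_pow_under (𝔓 : Ideal (𝓞 Ω)) [𝔓.IsPrime] (h𝔓 : 𝔓 ≠ ⊥) :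
    Ideal.absNorm 𝔓 = Ideal.absNorm (𝔓.under (𝓞 K)) ^ 𝔓.inertiaDeg (𝓞 K) := by
  set q := 𝔓.under (𝓞 K) with hq
  have hlo : 𝔓.LiesOver q := ⟨rfl⟩
  have hq0 : q ≠ ⊥ := Ideal.under_ne_bot (𝓞 K) h𝔓
  have hqmax : q.IsMaximal := Ring.DimensionLEOne.maximalOfPrime hq0 inferInstance
  have h𝔓max : 𝔓.IsMaximal := Ring.DimensionLEOne.maximalOfPrime h𝔓 inferInstance
  have hN : Ideal.relNorm (𝓞 K) 𝔓 = q ^ 𝔓.inertiaDeg (𝓞 K) :=
    Ideal.relNorm_eq_pow_of_isMaximal 𝔓 q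
  have := Ideal.absNorm_relNorm (R := 𝓞 K) (S := 𝓞 Ω) 𝔓
  rw [hN, map_pow] at this
  exact this.symm

end absnorm

variable {K L Ω : Type*} [Field K] [NumberField K] [Field L] [NumberField L]
  [Field Ω] [NumberField Ω] [Algebra K L] [Algebra K Ω] [Algebra L Ω] [IsScalarTower K L Ω]
  [IsGalois K L] [IsGalois K Ω]

/-- A Frobenius element of `Ω/K` at `𝔓` restricts on `L` to the Frobenius of `𝔓 ∩ 𝓞 K` in the
abelian unramified extension `L/K`. -/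
theorem cfc_res_eq_frob_of_isFrobAt [IsMulCommutative Gal(L/K)] (hun : cft_Unram K L)
    (𝔓 : Ideal (𝓞 Ω)) [𝔓.IsPrime] (h𝔓 : 𝔓 ≠ ⊥) (φ : Gal(Ω/K)) (hφ : cft_IsFrobAt φ 𝔓) :
    cft_res K L K Ω φ = cft_frob K L (𝔓.under (𝓞 K)) := by
  set Q := 𝔓.under (𝓞 L) with hQ
  have hQ0 : Q ≠ ⊥ := Ideal.under_ne_bot (𝓞 L) h𝔓
  set q := 𝔓.under (𝓞 K) with hq
  have hq0 : q ≠ ⊥ := Ideal.under_ne_bot (𝓞 K) h𝔓
  have hqQ : Q.under (𝓞 K) = q := by rw [hQ, hq, Ideal.under_under]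
  have hun' := hun Q hQ0
  have hτ : cft_IsFrobAt (cft_frob K L q) Q :=
    cft_isFrob_frob K L q hq0 Q inferInstance ⟨hqQ.symm⟩
  have h := cft_res_isFrobAt (K := K) (L := L) (E := K) (M := Ω) h𝔓 hφ hτ 1 (by
    rw [pow_one, hqQ])
  rw [h, pow_one]

/-- **Frobenius data for the crossing.** For a nonzero prime `𝔮` of `K` and `m` prime to `N𝔮` there
are a prime `𝔓` of `Ω` above `𝔮` and a Frobenius `φ ∈ Gal(Ω/K)` at `𝔓` which acts on `L` as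
`cft_frob K L 𝔮` and raises every `m`-th root of unity to the power `N𝔮`. -/
theorem cfc_exists_frob_data [IsMulCommutative Gal(L/K)] (hun : cft_Unram K L)
    (𝔮 : HeightOneSpectrum (𝓞 K)) {m : ℕ} [NeZero m]
    (hm : (Ideal.absNorm 𝔮.asIdeal).Coprime m) :
    ∃ (𝔓 : Ideal (𝓞 Ω)) (φ : Gal(Ω/K)), 𝔓.IsPrime ∧ 𝔓 ≠ ⊥ ∧ 𝔓.under (𝓞 K) = 𝔮.asIdeal ∧
      cft_IsFrobAt φ 𝔓 ∧ cft_res K L K Ω φ = cft_frob K L 𝔮.asIdeal ∧
      (∀ x : L, φ (algebraMap L Ω x) = algebraMap L Ω (cft_frob K L 𝔮.asIdeal x)) ∧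
      (Ideal.absNorm 𝔓).Coprime m ∧
      ∀ ζ : Ω, ζ ^ m = 1 → φ ζ = ζ ^ Ideal.absNorm 𝔮.asIdeal := by
  obtain ⟨𝔓, h𝔓prime, hlo⟩ := (Ideal.nonempty_primesOver (S := 𝓞 Ω) 𝔮.asIdeal).some
  have h𝔓0 : 𝔓 ≠ ⊥ := Ideal.ne_bot_of_liesOver_of_ne_bot 𝔮.ne_bot 𝔓
  obtain ⟨φ, hφ⟩ := cft_exists_isFrobAt (K := K) 𝔓 h𝔓0
  have hunder : 𝔓.under (𝓞 K) = 𝔮.asIdeal := hlo.over.symm
  have hres : cft_res K L K Ω φ = cft_frob K L 𝔮.asIdeal := by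
    rw [cfc_res_eq_frob_of_isFrobAt hun 𝔓 h𝔓0 φ hφ, hunder]
  have hcop : (Ideal.absNorm 𝔓).Coprime m := by
    rw [cfc_absNorm_eq_pow_under (K := K) 𝔓 h𝔓0, hunder]
    exact Nat.Coprime.pow_left _ hm
  refine ⟨𝔓, φ, h𝔓prime, h𝔓0, hunder, hφ, hres, ?_, hcop, ?_⟩
  · intro x
    rw [← hres]
    exact (cft_res_commutes (K := K) (L := L) (E := K) (M := Ω) φ x).symm
  · intro ζ hζ
    have := cfi_isFrobAt_apply_root φ 𝔓 hφ hcop ζ hζ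
    rwa [hunder] at this

section degone

variable {E : Type*} [Field E] [NumberField E] [Algebra K E] [Algebra E Ω] [IsScalarTower K E Ω]

/-- The prime of `E` below `𝔓` when the Frobenius `φ` at `𝔓` fixes `E`: it has relative norm
`𝔓 ∩ 𝓞 K` and absolute norm `N(𝔓 ∩ 𝓞 K)`. -/
theorem cfc_under_of_fixes (𝔓 : Ideal (𝓞 Ω)) [𝔓.IsPrime] (h𝔓 : 𝔓 ≠ ⊥) (φ : Gal(Ω/K))
    (hφ : cft_IsFrobAt φ 𝔓) (hfix : ∀ x : E, φ (algebraMap E Ω x) = algebraMap E Ω x) :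
    𝔓.under (𝓞 E) ≠ ⊥ ∧ (𝔓.under (𝓞 E)).IsPrime ∧
      Ideal.relNorm (𝓞 K) (𝔓.under (𝓞 E)) = 𝔓.under (𝓞 K) ∧
      Ideal.absNorm (𝔓.under (𝓞 E)) = Ideal.absNorm (𝔓.under (𝓞 K)) := by
  have hN := cfn_relNorm_under_of_fixes (K := K) (E := E) 𝔓 h𝔓 φ hφ hfix
  refine ⟨Ideal.under_ne_bot (𝓞 E) h𝔓, inferInstance, hN, ?_⟩
  rw [← hN, Ideal.absNorm_relNorm]

end degone

end Fermat.Agent.Lib.CFT
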