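/-
S14 (class field theory route), (C1) lemma pack, part 2: the norm of a generator `≡ 1 mod m` is
`≡ 1 mod m`; cyclotomic reciprocity for principal ideals with such a generator, pushed down to a
subextension of odd prime degree (the sign of the norm is handled by squaring).
-/
import Mathlib
import Fermat.Agent.Lib.CFT.CycloFrob
import Fermat.Agent.Lib.CFT.ArtinTower

set_option autoImplicit false
set_option linter.unusedSectionVars false

namespace Fermat.Agent.Lib.CFT

open NumberField Ideal IsDedekindDomain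
open scoped nonZeroDivisors

section norm

variable {E : Type*} [Field E] [NumberField E]

/-- (F5) If `γ ≡ 1 mod m 𝓞_E` then `N_{E/ℚ} γ ≡ 1 mod m`. -/
theorem cfi_norm_int_modEq_one {m : ℕ} (γ : 𝓞 E) (hγ : γ - 1 ∈ Ideal.span {(m : 𝓞 E)}) :
    Algebra.norm ℤ γ ≡ 1 [ZMOD m] := by
  obtain ⟨δ, hδ⟩ := Ideal.mem_span_singleton'.mp hγ
  have hγ' : γ = 1 + (m : ℤ) • δ := by
    rw [zsmul_eq_mul, Int.cast_natCast, mul_comm, hδ]; ring
  obtain ⟨r, hr⟩ := Algebra.norm_one_add_smul (m : ℤ) δ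
  rw [hγ', hr]
  have : (1 + Algebra.trace ℤ (𝓞 E) δ * (m : ℤ) + r * (m : ℤ) ^ 2) - 1 =
      (m : ℤ) * (Algebra.trace ℤ (𝓞 E) δ + r * m) := by ring
  exact (Int.modEq_iff_dvd.mpr ⟨-(Algebra.trace ℤ (𝓞 E) δ + r * m), by linear_combination this⟩)

/-- If `γ ≡ 1 mod m 𝓞_E` then `N(γ)² ≡ 1 mod m` (absolute norm of the ideal; no sign issue). -/
theorem cfi_absNorm_span_sq_modEq_one {m : ℕ} (γ : 𝓞 E) (hγ : γ - 1 ∈ Ideal.span {(m : 𝓞 E)}) :
    absNorm (Ideal.span {γ}) ^ 2 ≡ 1 [MOD m] := by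
  have h := cfi_norm_int_modEq_one γ hγ
  rw [Ideal.absNorm_span_singleton, ← Int.natCast_modEq_iff]
  push_cast
  rw [sq_abs]
  simpa using h.pow 2

/-- If `γ ≡ 1 mod m 𝓞_E` then `N(γ)` is prime to `m`. -/
theorem cfi_absNorm_span_coprime {m : ℕ} (γ : 𝓞 E) (hγ : γ - 1 ∈ Ideal.span {(m : 𝓞 E)}) :
    (absNorm (Ideal.span {γ})).Coprime m := by
  have h := (cfi_absNorm_span_sq_modEq_one γ hγ).gcd_eq
  rw [Nat.gcd_one_left] at h
  exact Nat.Coprime.coprime_dvd_left (dvd_pow_self _ two_ne_zero) h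

/-- The relative norm of an ideal over its own ring is the ideal itself. -/
theorem cfi_relNorm_self (A : Ideal (𝓞 E)) : Ideal.relNorm (𝓞 E) A = A := by
  have h := Ideal.relNorm_algebraMap (𝓞 E) A
  rwa [Algebra.algebraMap_self, Ideal.map_id, Module.finrank_self, pow_one] at h

end norm

section hprin

variable {E M Ω : Type*} [Field E] [NumberField E] [Field M] [NumberField M] [Field Ω]
  [NumberField Ω] [Algebra E M] [Algebra E Ω] [Algebra M Ω] [IsScalarTower E M Ω]
  [IsGalois E M] [IsGalois E Ω]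

/-- An element of `Gal(Ω/E)` fixing `M` pointwise restricts to the identity of `M`. -/
theorem cfi_res_eq_one_of_fixes (g : Gal(Ω/E))
    (hg : ∀ x : M, g (algebraMap M Ω x) = algebraMap M Ω x) : cft_res E M E Ω g = 1 := by
  ext x
  apply (algebraMap M Ω).injective
  rw [cft_res_commutes, hg]
  rfl

open scoped IsMulCommutative in
/-- The Artin symbol of `M/E` is the restriction of the Artin symbol of `Ω/E`. -/
theorem cfi_res_artin_self [IsMulCommutative Gal(M/E)] [IsMulCommutative Gal(Ω/E)]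
    (hunM : cft_Unram E M) {A : Ideal (𝓞 E)} (hA : A ≠ ⊥) :
    cft_res E M E Ω (cft_artin E Ω A) = cft_artin E M A := by
  have h := cft_res_artin (K := E) (L := M) (E := E) (M := Ω) hunM hA
  rw [h]
  congr 1
  exact cfi_relNorm_self A

open scoped IsMulCommutative in
/-- (C1) **Cyclotomic reciprocity**, in the form needed for the crossing: `M/E` unramified of odd
prime degree `p` inside an abelian `Ω/E` such that every element of `Gal(Ω/E)` fixing the
primitive `m`-th root of unity `ζ` fixes `M`. Then the Artin symbol of a principal ideal with a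
generator `≡ 1 mod m` is trivial. -/
theorem cfi_artin_span_eq_one_of_cyclo [IsMulCommutative Gal(M/E)] [IsMulCommutative Gal(Ω/E)]
    {p : ℕ} (hp : p.Prime) (hp2 : p ≠ 2) (hdeg : Module.finrank E M = p) (hunM : cft_Unram E M)
    {m : ℕ} (hm : m ≠ 0) (ζ : Ω) (hζ : IsPrimitiveRoot ζ m)
    (hcont : ∀ g : Gal(Ω/E), g ζ = ζ → ∀ x : M, g (algebraMap M Ω x) = algebraMap M Ω x)
    (γ : 𝓞 E) (hγ0 : γ ≠ 0) (hγ : γ - 1 ∈ Ideal.span {(m : 𝓞 E)}) :
    cft_artin E M (Ideal.span {γ}) = 1 := by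
  have : NeZero m := ⟨hm⟩
  have hA0 : Ideal.span {γ} ≠ ⊥ := by rwa [Ne, Ideal.span_singleton_eq_bot]
  have hN2 := cfi_absNorm_span_sq_modEq_one γ hγ
  have hNm := cfi_absNorm_span_coprime γ hγ
  have h1 : cft_artin E Ω (Ideal.span {γ}) ζ = ζ ^ absNorm (Ideal.span {γ}) :=
    cfi_artin_apply_root (Ideal.span {γ}) hA0 hNm ζ hζ.pow_eq_one
  have hpow : ζ ^ (absNorm (Ideal.span {γ}) ^ 2) = ζ := by
    rw [pow_eq_pow_mod _ hζ.pow_eq_one, hN2, ← pow_eq_pow_mod _ hζ.pow_eq_one, pow_one]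
  have h2 : (cft_artin E Ω (Ideal.span {γ}) ^ 2) ζ = ζ := by
    rw [pow_two, AlgEquiv.mul_apply, h1, map_pow, h1, ← pow_mul, ← pow_two, hpow]
  have h3 := cfi_res_eq_one_of_fixes (M := M) _ (hcont _ h2)
  rw [map_pow, cfi_res_artin_self hunM hA0] at h3
  have hcard : cft_artin E M (Ideal.span {γ}) ^ p = 1 := by
    rw [← hdeg, ← IsGalois.card_aut_eq_finrank]
    exact pow_card_eq_one'
  have hcop : Nat.gcd 2 p = 1 := (Nat.coprime_primes Nat.prime_two hp).mpr (Ne.symm hp2)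
  have := pow_gcd_eq_one.mpr ⟨h3, hcard⟩
  rwa [hcop, pow_one] at this

end hprin

end Fermat.Agent.Lib.CFT
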