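/-
S14 (CFT route): glue between the fixed setting (`FixedSetting.lean`) and the hypotheses of T1
(`cft_normGood_of_cyclo`), for an auxiliary field given as `E := fixedField H`, `H ≤ Gal(Ω/K)`.
-/
import Mathlib
import Fermat.Agent.Lib.CFT.FixedSetting

set_option autoImplicit false
set_option linter.unusedSectionVars false

namespace Fermat.Agent.Lib.CFT

open NumberField
open scoped nonZeroDivisors Pointwise

section fixedgood

variable {K L Ω : Type*} [Field K] [NumberField K] [Field L] [NumberField L]
  [Field Ω] [NumberField Ω] [Algebra K L] [Algebra L Ω] [Algebra K Ω]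
  [IsScalarTower K L Ω] [IsGalois K L] [IsGalois K Ω]

variable (H : Subgroup Gal(Ω/K))

local notation "EH" => IntermediateField.fixedField H

/-- The restriction to `L` of an automorphism of `Ω` over `fixedField H` is the restriction of the
underlying element of `Gal(Ω/K)`. -/
lemma cfn_res_fixed (g : Gal(Ω/EH)) :
    cft_res K L EH Ω g = cft_res K L K Ω (g.restrictScalars K) := by
  apply AlgEquiv.ext
  intro x
  apply (algebraMap L Ω).injective
  rw [cft_res_commutes, cft_res_commutes]
  rfl

/-- hdeg of T1 for `E = fixedField H`. -/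
theorem cfn_fixed_finrank {p : ℕ} (hp : p.Prime) (hdeg : Module.finrank K L = p)
    (hne : ∃ g ∈ H, cft_res K L K Ω g ≠ 1) :
    Module.finrank EH (cfn_M K L EH Ω) = p := by
  obtain ⟨g, hgH, hg⟩ := hne
  obtain ⟨g', hg'⟩ := cfn_exists_restrictScalars_eq H hgH
  refine cfn_finrank_M hp hdeg ⟨g', ?_⟩
  rwa [cfn_res_fixed, hg']

/-- hcomm of T1 for `E = fixedField H`. -/
theorem cfn_fixed_comm (hcomm : ∀ g h : Gal(Ω/K), g * h = h * g) (g h : Gal(Ω/EH)) :
    g * h = h * g := by
  apply AlgEquiv.ext
  intro x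
  have := congrArg (fun f : Gal(Ω/K) => f x) (hcomm (g.restrictScalars K) (h.restrictScalars K))
  exact this

/-- hcont of T1 for `E = fixedField H`: if every element of `H` fixing `ζ` acts trivially on `L`,
then every automorphism over `E` fixing `ζ` fixes `L E` pointwise. -/
theorem cfn_fixed_cont (ζ : Ω) (hcontH : ∀ g ∈ H, g ζ = ζ → cft_res K L K Ω g = 1)
    (g : Gal(Ω/EH)) (hg : g ζ = ζ) (x : cfn_M K L EH Ω) :
    g (algebraMap (cfn_M K L EH Ω) Ω x) = algebraMap (cfn_M K L EH Ω) Ω x := by
  apply cfn_apply_eq_of_res_eq_one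
  rw [cfn_res_fixed]
  exact hcontH _ (cfn_restrictScalars_mem H g) hg

/-- An element of `H` fixes `fixedField H` pointwise. -/
lemma cfn_fixed_fix {φ : Gal(Ω/K)} (hφ : φ ∈ H) (x : EH) :
    φ (algebraMap EH Ω x) = algebraMap EH Ω x :=
  (IntermediateField.mem_fixedField_iff H x.1).mp x.2 φ hφ

end fixedgood

end Fermat.Agent.Lib.CFT
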