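import Mathlib
import Fermat.Agent.Lib.CFT.Defs

/-!
# The predicate `cft_NormGood` (helper4's #338 signature, landed early as a shared definition)

`cft_NormGood K L E m`: for ideals `𝔄, 𝔅` of the auxiliary field `E ⊇ K` prime to `m`, equality of
the Artin symbols of their norms to `K` implies that the classes of the norms differ by a norm
class of `L/K`.
-/

set_option autoImplicit false

namespace Fermat.Agent.Lib.CFT

open NumberField
open scoped nonZeroDivisors

/-- See the module docstring. -/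
def cft_NormGood (K L E : Type*) [Field K] [NumberField K] [Field L] [NumberField L]
    [Algebra K L] [IsGalois K L] [IsMulCommutative (L ≃ₐ[K] L)] [Field E] [NumberField E]
    [Algebra K E] (m : ℕ) : Prop :=
  ∀ 𝔄 𝔅 : (Ideal (𝓞 E))⁰, (Ideal.absNorm (𝔄 : Ideal (𝓞 E))).Coprime m →
    (Ideal.absNorm (𝔅 : Ideal (𝓞 E))).Coprime m →
    cft_artin K L (Ideal.relNorm (𝓞 K) (𝔄 : Ideal (𝓞 E))) =
      cft_artin K L (Ideal.relNorm (𝓞 K) (𝔅 : Ideal (𝓞 E))) →
    ClassGroup.mk0 (cft_relNorm0 K E 𝔄) / ClassGroup.mk0 (cft_relNorm0 K E 𝔅) ∈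
      cft_normClasses K L

end Fermat.Agent.Lib.CFT
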