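/-
S14 / WP-C7 (first inequality): homomorphisms out of class groups from monoid homomorphisms on
nonzero ideals.
-/
import Mathlib

set_option autoImplicit false
set_option linter.style.haveILetI false
set_option linter.unusedSectionVars false
set_option linter.overlappingInstances false

open scoped nonZeroDivisors

namespace Fermat.Agent.Lib.CFT

section ClassHom

variable {S : Type*} [CommRing S] [IsDomain S] [IsDedekindDomain S]
variable {A : Type*} [Group A]

theorem cfe_span_singleton_mem_nonZeroDivisors {x : S} (hx : x ≠ 0) :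
    Ideal.span ({x} : Set S) ∈ (Ideal S)⁰ := by
  rw [mem_nonZeroDivisors_iff_ne_zero, Ideal.zero_eq_bot, Ne, Ideal.span_singleton_eq_bot]
  exact hx

/-- A monoid hom on nonzero ideals which kills principal ideals respects the class relation. -/
theorem cfe_eq_of_mk0_eq (g : (Ideal S)⁰ →* A)
    (hg : ∀ I : (Ideal S)⁰, (I : Ideal S).IsPrincipal → g I = 1) {I J : (Ideal S)⁰}
    (h : ClassGroup.mk0 I = ClassGroup.mk0 J) : g I = g J := by
  obtain ⟨x, y, hx, hy, hxy⟩ := ClassGroup.mk0_eq_mk0_iff.mp h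
  let px : (Ideal S)⁰ := ⟨Ideal.span {x}, cfe_span_singleton_mem_nonZeroDivisors hx⟩
  let py : (Ideal S)⁰ := ⟨Ideal.span {y}, cfe_span_singleton_mem_nonZeroDivisors hy⟩
  have h1 : px * I = py * J := Subtype.ext hxy
  have h2 := congrArg g h1
  rw [map_mul, map_mul, hg px ⟨⟨x, rfl⟩⟩, hg py ⟨⟨y, rfl⟩⟩, one_mul, one_mul] at h2
  exact h2

/-- A monoid hom on nonzero ideals which kills principal ideals factors through the class group. -/
theorem cfe_exists_classHom (g : (Ideal S)⁰ →* A)
    (hg : ∀ I : (Ideal S)⁰, (I : Ideal S).IsPrincipal → g I = 1) :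
    ∃ F : ClassGroup S →* A, ∀ I : (Ideal S)⁰, F (ClassGroup.mk0 I) = g I := by
  classical
  have hsurj := ClassGroup.mk0_surjective (R := S)
  let rep : ClassGroup S → (Ideal S)⁰ := fun c => (hsurj c).choose
  have hrep : ∀ c, ClassGroup.mk0 (rep c) = c := fun c => (hsurj c).choose_spec
  have key : ∀ I : (Ideal S)⁰, g (rep (ClassGroup.mk0 I)) = g I := fun I =>
    cfe_eq_of_mk0_eq g hg (hrep _)
  refine ⟨MonoidHom.mk' (fun c => g (rep c)) ?_, fun I => key I⟩
  intro a b
  have h1 : ClassGroup.mk0 (rep (a * b)) = ClassGroup.mk0 (rep a * rep b) := by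
    rw [hrep, map_mul, hrep, hrep]
  rw [cfe_eq_of_mk0_eq g hg h1, map_mul]

end ClassHom

end Fermat.Agent.Lib.CFT
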