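/-
S14 / WP-C7 (first inequality), shared definitions: the unit norm `(𝓞 L)ˣ →* (𝓞 K)ˣ`,
the action of an automorphism on `(𝓞 L)ˣ` and the map `ε ↦ σ ε / ε`.

`Ĥ⁰(G, E_L) = (𝓞 K)ˣ ⧸ (cfe_unitNorm K L).range` and
`H¹(G, E_L) = (cfe_unitNorm K L).ker ⧸ (cfe_unitD σ).range`.
-/
import Mathlib

set_option autoImplicit false

open NumberField

namespace Fermat.Agent.Lib.CFT

variable (K L : Type) [Field K] [Field L] [NumberField K] [NumberField L] [Algebra K L]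

/-- The norm on units `(𝓞 L)ˣ →* (𝓞 K)ˣ`. -/
noncomputable def cfe_unitNorm : (𝓞 L)ˣ →* (𝓞 K)ˣ := Units.map (RingOfIntegers.norm K)

variable {K L}

/-- The action of `σ` on units of `𝓞 L`. -/
noncomputable def cfe_unitAct (σ : L ≃ₐ[K] L) : (𝓞 L)ˣ →* (𝓞 L)ˣ :=
  Units.map (MulSemiringAction.toRingHom (L ≃ₐ[K] L) (𝓞 L) σ : 𝓞 L →* 𝓞 L)

/-- `ε ↦ σ ε / ε` on units of `𝓞 L`. -/
noncomputable def cfe_unitD (σ : L ≃ₐ[K] L) : (𝓞 L)ˣ →* (𝓞 L)ˣ where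
  toFun ε := cfe_unitAct σ ε / ε
  map_one' := by simp
  map_mul' a b := by
    rw [map_mul, mul_div_mul_comm]

omit [NumberField K] [NumberField L] in
theorem cfe_unitAct_coe (σ : L ≃ₐ[K] L) (ε : (𝓞 L)ˣ) :
    (((cfe_unitAct σ ε : (𝓞 L)ˣ) : 𝓞 L) : L) = σ ((ε : 𝓞 L) : L) := rfl

omit [NumberField K] [NumberField L] in
theorem cfe_unitD_mul (σ : L ≃ₐ[K] L) (ε : (𝓞 L)ˣ) :
    cfe_unitD σ ε * ε = cfe_unitAct σ ε := by
  show cfe_unitAct σ ε / ε * ε = cfe_unitAct σ ε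
  rw [div_mul_cancel]

omit [NumberField K] [NumberField L] in
theorem cfe_unitD_coe (σ : L ≃ₐ[K] L) (ε : (𝓞 L)ˣ) :
    (((cfe_unitD σ ε : (𝓞 L)ˣ) : 𝓞 L) : L) * ((ε : 𝓞 L) : L) = σ ((ε : 𝓞 L) : L) := by
  have h2 := congrArg (fun u : (𝓞 L)ˣ => ((u : 𝓞 L) : L)) (cfe_unitD_mul σ ε)
  simp only [Units.val_mul, map_mul] at h2
  exact h2

omit [NumberField K] [NumberField L] in
theorem cfe_unitNorm_coe (ε : (𝓞 L)ˣ) :
    (((cfe_unitNorm K L ε : (𝓞 K)ˣ) : 𝓞 K) : K) = Algebra.norm K ((ε : 𝓞 L) : L) := rfl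

end Fermat.Agent.Lib.CFT
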