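/-
S14 / WP-C7 (first inequality): Galois-invariant ideals of `𝓞 L` are extended from `𝓞 K` when
`L/K` is an unramified Galois extension of number fields.
-/
import Mathlib

set_option autoImplicit false
set_option linter.style.haveILetI false
set_option linter.unusedSectionVars false
set_option linter.overlappingInstances false

open NumberField
open scoped nonZeroDivisors Pointwise

namespace Fermat.Agent.Lib.CFT

variable {K L : Type*} [Field K] [Field L] [NumberField K] [NumberField L] [Algebra K L]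
  [IsGalois K L]

/-- Extended ideals are Galois invariant. -/
theorem cfe_smul_map_algebraMap (τ : L ≃ₐ[K] L) (q : Ideal (𝓞 K)) :
    τ • q.map (algebraMap (𝓞 K) (𝓞 L)) = q.map (algebraMap (𝓞 K) (𝓞 L)) := by
  have key : ∀ ρ : L ≃ₐ[K] L,
      q.map (algebraMap (𝓞 K) (𝓞 L)) ≤ ρ • q.map (algebraMap (𝓞 K) (𝓞 L)) := by
    intro ρ
    rw [Ideal.map_le_iff_le_comap]
    intro r hr
    rw [Ideal.mem_comap]
    have h1 : algebraMap (𝓞 K) (𝓞 L) r ∈ q.map (algebraMap (𝓞 K) (𝓞 L)) :=
      Ideal.mem_map_of_mem _ hr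
    have h2 := Ideal.smul_mem_pointwise_smul ρ _ _ h1
    rwa [smul_algebraMap] at h2
  refine le_antisymm ?_ (key τ)
  rw [Ideal.pointwise_smul_subset_iff]
  exact key τ⁻¹

/-- In an unramified Galois extension of number fields, every Galois-invariant nonzero ideal of
`𝓞 L` is extended from `𝓞 K`. -/
theorem cfe_invariant_ideal_extended
    (hunr : ∀ Q : Ideal (𝓞 L), Q.IsPrime → Q ≠ ⊥ → Q.ramificationIdx (𝓞 K) = 1) :
    ∀ I : Ideal (𝓞 L), I ≠ ⊥ → (∀ τ : L ≃ₐ[K] L, τ • I = I) →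
      ∃ 𝔞 : Ideal (𝓞 K), 𝔞.map (algebraMap (𝓞 K) (𝓞 L)) = I := by
  intro I
  induction I using IsNoetherian.induction with
  | hgt I IH =>
    intro hI hinv
    by_cases htop : I = ⊤
    · exact ⟨⊤, by rw [Ideal.map_top, htop]⟩
    obtain ⟨Q, hQmax, hIQ⟩ := Ideal.exists_le_maximal I htop
    haveI hQprime : Q.IsPrime := hQmax.isPrime
    have hQbot : Q ≠ ⊥ := fun h => hI (le_bot_iff.mp (h ▸ hIQ))
    set q : Ideal (𝓞 K) := Q.under (𝓞 K) with hq
    haveI hqmax : q.IsMaximal := Ideal.IsMaximal.under (𝓞 K) Q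
    have hqbot : q ≠ ⊥ := Ideal.under_ne_bot (𝓞 K) hQbot
    haveI : Q.LiesOver q := ⟨rfl⟩
    -- every prime over `q` divides `I`
    have hdiv : ∀ P ∈ (q.primesOver (𝓞 L)).toFinset, P ∣ I := by
      intro P hP
      rw [Set.mem_toFinset] at hP
      haveI : P.IsPrime := hP.1
      haveI : P.LiesOver q := hP.2
      obtain ⟨τ, hτ⟩ := Ideal.exists_smul_eq_of_isGaloisGroup q Q P (L ≃ₐ[K] L)
      rw [Ideal.dvd_iff_le, ← hτ, ← hinv τ]
      exact Ideal.pointwise_smul_le_pointwise_smul_iff.mpr hIQ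
    have hprime : ∀ P ∈ (q.primesOver (𝓞 L)).toFinset, Prime P := by
      intro P hP
      rw [Set.mem_toFinset] at hP
      haveI : P.IsPrime := hP.1
      haveI : P.LiesOver q := hP.2
      refine Ideal.prime_of_isPrime ?_ hP.1
      intro hbot
      apply hqbot
      rw [Ideal.LiesOver.over (p := q) (P := P), hbot]
      exact Ideal.under_bot (𝓞 K) (𝓞 L)
    have hmap : q.map (algebraMap (𝓞 K) (𝓞 L)) = ∏ P ∈ (q.primesOver (𝓞 L)).toFinset, P := by
      rw [Ideal.map_algebraMap_eq_finsetProd_pow hqbot]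
      refine Finset.prod_congr rfl fun P hP => ?_
      have hP' := hP
      rw [Set.mem_toFinset] at hP'
      rw [hunr P hP'.1 (hprime P hP).ne_zero, pow_one]
    obtain ⟨I', hI'⟩ : q.map (algebraMap (𝓞 K) (𝓞 L)) ∣ I := by
      rw [hmap]
      exact Finset.prod_primes_dvd I hprime hdiv
    have hmapbot : q.map (algebraMap (𝓞 K) (𝓞 L)) ≠ 0 := by
      rw [Ideal.zero_eq_bot, Ne, Ideal.map_eq_bot_iff_of_injective
        (FaithfulSMul.algebraMap_injective (𝓞 K) (𝓞 L))]
      exact hqbot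
    have hI'bot : I' ≠ ⊥ := by
      intro h
      apply hI
      rw [hI', h, Ideal.mul_bot]
    have hI'inv : ∀ τ : L ≃ₐ[K] L, τ • I' = I' := by
      intro τ
      have h1 := hinv τ
      rw [hI', MulDistribMulAction.smul_mul, cfe_smul_map_algebraMap] at h1
      exact mul_left_cancel₀ hmapbot h1
    have hlt : I < I' := by
      refine lt_of_le_of_ne ?_ ?_
      · rw [hI']
        exact Ideal.mul_le_right
      · intro h
        have h2 : q.map (algebraMap (𝓞 K) (𝓞 L)) * I' = 1 * I' := by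
          rw [one_mul, ← hI', h]
        have h3 := mul_right_cancel₀ (by rwa [Ne, ← Ideal.zero_eq_bot] at hI'bot) h2
        have h4 : q.map (algebraMap (𝓞 K) (𝓞 L)) ≤ Q := Ideal.map_comap_le
        rw [h3, Ideal.one_eq_top] at h4
        exact hQmax.ne_top (top_le_iff.mp h4)
    obtain ⟨𝔞', h𝔞'⟩ := IH I' hlt hI'bot hI'inv
    exact ⟨q * 𝔞', by rw [Ideal.map_mul, h𝔞', hI']⟩

end Fermat.Agent.Lib.CFT
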