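/-
S14 / WP-C7 (first inequality): the three maps on class groups
(`σ_M`, the norm `N_M`, the extension `j`) and their basic properties.
-/
import Fermat.Agent.Lib.CFT.Defs
import Fermat.Agent.Lib.CFT.FirstIneqDefs
import Fermat.Agent.Lib.CFT.FirstIneqClass
import Fermat.Agent.Lib.CFT.FirstIneqInvariant

set_option autoImplicit false
set_option linter.style.haveILetI false
set_option linter.unusedSectionVars false
set_option linter.overlappingInstances false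

open NumberField
open scoped nonZeroDivisors Pointwise

namespace Fermat.Agent.Lib.CFT

variable {K L : Type*} [Field K] [Field L] [NumberField K] [NumberField L] [Algebra K L]

theorem cfe_smul_ne_bot (σ : L ≃ₐ[K] L) {I : Ideal (𝓞 L)} (hI : I ≠ ⊥) : σ • I ≠ ⊥ := by
  intro h
  apply hI
  have h1 : I = σ⁻¹ • (σ • I) := (inv_smul_smul σ I).symm
  rw [h1, h, Ideal.smul_bot]

theorem cfe_mem_nzd_iff {R : Type*} [CommRing R] [IsDomain R] {I : Ideal R} :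
    I ∈ (Ideal R)⁰ ↔ I ≠ ⊥ := by
  rw [mem_nonZeroDivisors_iff_ne_zero, Ideal.zero_eq_bot]

theorem cfe_smul_span_singleton (σ : L ≃ₐ[K] L) (x : 𝓞 L) :
    σ • Ideal.span ({x} : Set (𝓞 L)) = Ideal.span {σ • x} := by
  rw [Ideal.smul_closure, Set.smul_set_singleton]

/-- `I ↦ σ • I` on nonzero ideals. -/
noncomputable def cfe_actIdeal0 (σ : L ≃ₐ[K] L) : (Ideal (𝓞 L))⁰ →* (Ideal (𝓞 L))⁰ where
  toFun I := ⟨σ • (I : Ideal (𝓞 L)), cfe_mem_nzd_iff.mpr (cfe_smul_ne_bot σ (cfe_mem_nzd_iff.mp I.2))⟩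
  map_one' := by
    apply Subtype.ext
    show σ • ((1 : (Ideal (𝓞 L))⁰) : Ideal (𝓞 L)) = 1
    rw [Submonoid.coe_one, Ideal.one_eq_top]
    rw [Ideal.eq_top_iff_one, Ideal.mem_pointwise_smul_iff_inv_smul_mem]
    trivial
  map_mul' I J := by
    apply Subtype.ext
    show σ • ((I * J : (Ideal (𝓞 L))⁰) : Ideal (𝓞 L)) = σ • (I : Ideal (𝓞 L)) * σ • (J : Ideal (𝓞 L))
    rw [Submonoid.coe_mul, MulDistribMulAction.smul_mul]

theorem cfe_actIdeal0_coe (σ : L ≃ₐ[K] L) (I : (Ideal (𝓞 L))⁰) :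
    ((cfe_actIdeal0 σ I : (Ideal (𝓞 L))⁰) : Ideal (𝓞 L)) = σ • (I : Ideal (𝓞 L)) := rfl


/-- The relative norm as a monoid hom on nonzero ideals. -/
noncomputable def cfe_relNormHom (K L : Type*) [Field K] [Field L] [NumberField K] [NumberField L]
    [Algebra K L] : (Ideal (𝓞 L))⁰ →* (Ideal (𝓞 K))⁰ where
  toFun J := cft_relNorm0 K L J
  map_one' := by
    apply Subtype.ext
    show Ideal.relNorm (𝓞 K) ((1 : (Ideal (𝓞 L))⁰) : Ideal (𝓞 L)) = 1
    rw [Submonoid.coe_one, map_one]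
  map_mul' I J := by
    apply Subtype.ext
    show Ideal.relNorm (𝓞 K) ((I * J : (Ideal (𝓞 L))⁰) : Ideal (𝓞 L)) =
      Ideal.relNorm (𝓞 K) (I : Ideal (𝓞 L)) * Ideal.relNorm (𝓞 K) (J : Ideal (𝓞 L))
    rw [Submonoid.coe_mul, map_mul]

theorem cfe_relNormHom_coe (J : (Ideal (𝓞 L))⁰) :
    ((cfe_relNormHom K L J : (Ideal (𝓞 K))⁰) : Ideal (𝓞 K)) =
      Ideal.relNorm (𝓞 K) (J : Ideal (𝓞 L)) := rfl

theorem cfe_relNormHom_eq (J : (Ideal (𝓞 L))⁰) : cfe_relNormHom K L J = cft_relNorm0 K L J := rfl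

/-- Extension of ideals as a monoid hom on nonzero ideals. -/
noncomputable def cfe_extHom (K L : Type*) [Field K] [Field L] [NumberField K] [NumberField L]
    [Algebra K L] : (Ideal (𝓞 K))⁰ →* (Ideal (𝓞 L))⁰ where
  toFun I := ⟨(I : Ideal (𝓞 K)).map (algebraMap (𝓞 K) (𝓞 L)), by
    rw [cfe_mem_nzd_iff, Ne, Ideal.map_eq_bot_iff_of_injective
      (FaithfulSMul.algebraMap_injective (𝓞 K) (𝓞 L))]
    exact cfe_mem_nzd_iff.mp I.2⟩
  map_one' := by
    apply Subtype.ext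
    show ((1 : (Ideal (𝓞 K))⁰) : Ideal (𝓞 K)).map (algebraMap (𝓞 K) (𝓞 L)) = 1
    rw [Submonoid.coe_one, Ideal.one_eq_top, Ideal.map_top, Ideal.one_eq_top]
  map_mul' I J := by
    apply Subtype.ext
    show ((I * J : (Ideal (𝓞 K))⁰) : Ideal (𝓞 K)).map (algebraMap (𝓞 K) (𝓞 L)) =
      (I : Ideal (𝓞 K)).map (algebraMap (𝓞 K) (𝓞 L)) * (J : Ideal (𝓞 K)).map (algebraMap (𝓞 K) (𝓞 L))
    rw [Submonoid.coe_mul, Ideal.map_mul]

theorem cfe_extHom_coe (I : (Ideal (𝓞 K))⁰) :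
    ((cfe_extHom K L I : (Ideal (𝓞 L))⁰) : Ideal (𝓞 L)) =
      (I : Ideal (𝓞 K)).map (algebraMap (𝓞 K) (𝓞 L)) := rfl

/-! ### Principal ideals go to principal ideals -/

theorem cfe_actIdeal0_principal (σ : L ≃ₐ[K] L) (I : (Ideal (𝓞 L))⁰)
    (h : (I : Ideal (𝓞 L)).IsPrincipal) : ((cfe_actIdeal0 σ I : (Ideal (𝓞 L))⁰) : Ideal (𝓞 L)).IsPrincipal := by
  obtain ⟨⟨x, hx⟩⟩ := h
  refine ⟨⟨σ • x, ?_⟩⟩
  rw [cfe_actIdeal0_coe, hx]
  exact cfe_smul_span_singleton σ x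

theorem cfe_relNormHom_principal (I : (Ideal (𝓞 L))⁰)
    (h : (I : Ideal (𝓞 L)).IsPrincipal) :
    ((cfe_relNormHom K L I : (Ideal (𝓞 K))⁰) : Ideal (𝓞 K)).IsPrincipal := by
  obtain ⟨⟨x, hx⟩⟩ := h
  refine ⟨⟨Algebra.intNorm (𝓞 K) (𝓞 L) x, ?_⟩⟩
  rw [cfe_relNormHom_coe, hx]
  exact Ideal.relNorm_singleton (R := 𝓞 K) x

theorem cfe_extHom_principal (I : (Ideal (𝓞 K))⁰)
    (h : (I : Ideal (𝓞 K)).IsPrincipal) :
    ((cfe_extHom K L I : (Ideal (𝓞 L))⁰) : Ideal (𝓞 L)).IsPrincipal := by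
  obtain ⟨⟨x, hx⟩⟩ := h
  refine ⟨⟨algebraMap (𝓞 K) (𝓞 L) x, ?_⟩⟩
  rw [cfe_extHom_coe, hx]
  show Ideal.map _ (Ideal.span {x}) = Ideal.span {_}
  rw [Ideal.map_span, Set.image_singleton]


/-! ### The induced maps on class groups -/

theorem cfe_sigmaM_exists (σ : L ≃ₐ[K] L) :
    ∃ F : ClassGroup (𝓞 L) →* ClassGroup (𝓞 L), ∀ I : (Ideal (𝓞 L))⁰,
      F (ClassGroup.mk0 I) = ClassGroup.mk0 (cfe_actIdeal0 σ I) :=
  cfe_exists_classHom (ClassGroup.mk0.comp (cfe_actIdeal0 σ)) fun I hI => by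
    rw [MonoidHom.comp_apply, ClassGroup.mk0_eq_one_iff (cfe_actIdeal0 σ I).2]
    exact cfe_actIdeal0_principal σ I hI

/-- The action of `σ` on the class group of `L`. -/
noncomputable def cfe_sigmaM (σ : L ≃ₐ[K] L) : ClassGroup (𝓞 L) →* ClassGroup (𝓞 L) :=
  (cfe_sigmaM_exists σ).choose

theorem cfe_sigmaM_mk0 (σ : L ≃ₐ[K] L) (I : (Ideal (𝓞 L))⁰) :
    cfe_sigmaM σ (ClassGroup.mk0 I) = ClassGroup.mk0 (cfe_actIdeal0 σ I) :=
  (cfe_sigmaM_exists σ).choose_spec I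

theorem cfe_normM_exists (K L : Type*) [Field K] [Field L] [NumberField K] [NumberField L]
    [Algebra K L] :
    ∃ F : ClassGroup (𝓞 L) →* ClassGroup (𝓞 K), ∀ I : (Ideal (𝓞 L))⁰,
      F (ClassGroup.mk0 I) = ClassGroup.mk0 (cfe_relNormHom K L I) :=
  cfe_exists_classHom (ClassGroup.mk0.comp (cfe_relNormHom K L)) fun I hI => by
    rw [MonoidHom.comp_apply, ClassGroup.mk0_eq_one_iff (cfe_relNormHom K L I).2]
    exact cfe_relNormHom_principal I hI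

/-- The norm map on class groups. -/
noncomputable def cfe_normM (K L : Type*) [Field K] [Field L] [NumberField K] [NumberField L]
    [Algebra K L] : ClassGroup (𝓞 L) →* ClassGroup (𝓞 K) :=
  (cfe_normM_exists K L).choose

theorem cfe_normM_mk0 (I : (Ideal (𝓞 L))⁰) :
    cfe_normM K L (ClassGroup.mk0 I) = ClassGroup.mk0 (cfe_relNormHom K L I) :=
  (cfe_normM_exists K L).choose_spec I

theorem cfe_extM_exists (K L : Type*) [Field K] [Field L] [NumberField K] [NumberField L]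
    [Algebra K L] :
    ∃ F : ClassGroup (𝓞 K) →* ClassGroup (𝓞 L), ∀ I : (Ideal (𝓞 K))⁰,
      F (ClassGroup.mk0 I) = ClassGroup.mk0 (cfe_extHom K L I) :=
  cfe_exists_classHom (ClassGroup.mk0.comp (cfe_extHom K L)) fun I hI => by
    rw [MonoidHom.comp_apply, ClassGroup.mk0_eq_one_iff (cfe_extHom K L I).2]
    exact cfe_extHom_principal I hI

/-- The extension map on class groups. -/
noncomputable def cfe_extM (K L : Type*) [Field K] [Field L] [NumberField K] [NumberField L]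
    [Algebra K L] : ClassGroup (𝓞 K) →* ClassGroup (𝓞 L) :=
  (cfe_extM_exists K L).choose

theorem cfe_extM_mk0 (I : (Ideal (𝓞 K))⁰) :
    cfe_extM K L (ClassGroup.mk0 I) = ClassGroup.mk0 (cfe_extHom K L I) :=
  (cfe_extM_exists K L).choose_spec I

/-- The norm is invariant under the Galois action. -/
theorem cfe_normM_sigmaM [IsGalois K L] (σ : L ≃ₐ[K] L) (m : ClassGroup (𝓞 L)) :
    cfe_normM K L (cfe_sigmaM σ m) = cfe_normM K L m := by
  obtain ⟨I, rfl⟩ := ClassGroup.mk0_surjective m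
  rw [cfe_sigmaM_mk0, cfe_normM_mk0, cfe_normM_mk0]
  congr 1
  apply Subtype.ext
  rw [cfe_relNormHom_coe, cfe_relNormHom_coe, cfe_actIdeal0_coe]
  exact Ideal.relNorm_smul (𝓞 K) σ _

/-- Extended classes are fixed by the Galois action. -/
theorem cfe_sigmaM_extM [IsGalois K L] (σ : L ≃ₐ[K] L) (a : ClassGroup (𝓞 K)) :
    cfe_sigmaM σ (cfe_extM K L a) = cfe_extM K L a := by
  obtain ⟨I, rfl⟩ := ClassGroup.mk0_surjective a
  rw [cfe_extM_mk0, cfe_sigmaM_mk0]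
  congr 1
  apply Subtype.ext
  rw [cfe_actIdeal0_coe, cfe_extHom_coe]
  exact cfe_smul_map_algebraMap σ _

/-- The range of the norm map is the subgroup of norm classes. -/
theorem cfe_range_normM : (cfe_normM K L).range = cft_normClasses K L := by
  rw [cft_normClasses]
  have : {c | ∃ J : (Ideal (𝓞 L))⁰, c = ClassGroup.mk0 (cft_relNorm0 K L J)} =
      ((cfe_normM K L).range : Set (ClassGroup (𝓞 K))) := by
    ext c
    constructor
    · rintro ⟨J, rfl⟩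
      exact ⟨ClassGroup.mk0 J, by rw [cfe_normM_mk0, cfe_relNormHom_eq]⟩
    · rintro ⟨m, rfl⟩
      obtain ⟨J, rfl⟩ := ClassGroup.mk0_surjective m
      exact ⟨J, by rw [cfe_normM_mk0, cfe_relNormHom_eq]⟩
  rw [this, Subgroup.closure_eq]

end Fermat.Agent.Lib.CFT
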