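/-
S14 (CFT route): small utilities around Frobenius elements, residue degrees and coprimality.
* `cft_coprime_iff`: for a nonzero ideal `I` of `𝓞 F`, `I + (m) = 𝓞 F ↔ (N I, m) = 1`;
* `cft_absNorm_le_of_forall_pow_sub_mem`: `x ^ q ≡ x (mod 𝔔)` for all `x` ⇒ `N𝔔 ≤ q`;
* `cft_relNorm_eq_of_absNorm_le`: `N𝔔 ≤ N𝔮` for `𝔔 ∣ 𝔮` ⇒ `N_{M/E} 𝔔 = 𝔮` (residue degree one);
* `cft_isFrobAt_zeta`: a Frobenius at `𝔓 ∌ m` raises the `m`-th roots of unity to the power `N𝔮`.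
-/
import Mathlib
import Fermat.Agent.Lib.CFT.ArtinTower

set_option autoImplicit false
set_option linter.unusedSectionVars false

namespace Fermat.Agent.Lib.CFT

open NumberField
open scoped nonZeroDivisors Pointwise

section coprime

variable {F : Type*} [Field F] [NumberField F]

lemma cft_sup_span_eq_top_of_coprime {I : Ideal (𝓞 F)} {m : ℕ}
    (h : (Ideal.absNorm I).Coprime m) : I ⊔ Ideal.span {(m : 𝓞 F)} = ⊤ := by
  rw [Ideal.eq_top_iff_one]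
  have hb := Nat.Coprime.isCoprime h
  obtain ⟨u, v, huv⟩ := hb
  have h1 : ((u * (Ideal.absNorm I : ℤ) + v * (m : ℤ) : ℤ) : 𝓞 F) = 1 := by
    rw [huv]; simp
  rw [← h1]
  push_cast
  refine Submodule.add_mem_sup ?_ ?_
  · exact Ideal.mul_mem_left _ _ (Ideal.absNorm_mem I)
  · exact Ideal.mul_mem_left _ _ (Ideal.subset_span rfl)

lemma cft_coprime_of_sup_span_eq_top {I : Ideal (𝓞 F)} (hI : I ≠ ⊥) {m : ℕ}
    (h : I ⊔ Ideal.span {(m : 𝓞 F)} = ⊤) : (Ideal.absNorm I).Coprime m := by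
  apply Nat.Coprime.symm
  apply Nat.coprime_of_dvd
  intro ℓ hℓ hℓm hℓn
  have : Fact ℓ.Prime := ⟨hℓ⟩
  -- `1 = i + c * ℓ`
  have h1 : (1 : 𝓞 F) ∈ I ⊔ Ideal.span {(ℓ : 𝓞 F)} := by
    have hle : I ⊔ Ideal.span {(m : 𝓞 F)} ≤ I ⊔ Ideal.span {(ℓ : 𝓞 F)} := by
      apply sup_le_sup_left
      rw [Ideal.span_singleton_le_span_singleton]
      exact Nat.cast_dvd_cast hℓm
    exact hle (h ▸ Submodule.mem_top)
  obtain ⟨i, hi, y, hy, hiy⟩ := Submodule.mem_sup.mp h1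
  obtain ⟨c, rfl⟩ := Ideal.mem_span_singleton'.mp hy
  -- the finite quotient
  have : Finite (𝓞 F ⧸ I) := by
    apply Nat.finite_of_card_ne_zero
    rw [← Submodule.cardQuot_apply, ← Ideal.absNorm_apply]
    exact (Ideal.absNorm_ne_zero_iff_mem_nonZeroDivisors.mpr
      (mem_nonZeroDivisors_iff_ne_zero.mpr hI))
  have hcard : ℓ ∣ Nat.card (𝓞 F ⧸ I) := by
    rwa [← Submodule.cardQuot_apply, ← Ideal.absNorm_apply]
  obtain ⟨a, ha⟩ := exists_prime_addOrderOf_dvd_card' ℓ hcard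
  have ha0 : a ≠ 0 := by
    intro h0
    rw [h0, addOrderOf_zero] at ha
    exact hℓ.one_lt.ne' ha.symm
  apply ha0
  have hℓa : (ℓ : 𝓞 F ⧸ I) * a = 0 := by
    have := addOrderOf_nsmul_eq_zero a
    rwa [ha, nsmul_eq_mul] at this
  have e1 : (Ideal.Quotient.mk I) (i + c * (ℓ : 𝓞 F)) = 1 := by rw [hiy]; rfl
  rw [map_add, Ideal.Quotient.eq_zero_iff_mem.mpr hi, zero_add, map_mul, map_natCast] at e1
  calc a = a * 1 := (mul_one a).symm
    _ = a * (Ideal.Quotient.mk I c * (ℓ : 𝓞 F ⧸ I)) := by rw [e1]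
    _ = Ideal.Quotient.mk I c * ((ℓ : 𝓞 F ⧸ I) * a) := by ring
    _ = 0 := by rw [hℓa, mul_zero]

lemma cft_coprime_iff {I : Ideal (𝓞 F)} (hI : I ≠ ⊥) {m : ℕ} :
    I ⊔ Ideal.span {(m : 𝓞 F)} = ⊤ ↔ (Ideal.absNorm I).Coprime m :=
  ⟨cft_coprime_of_sup_span_eq_top hI, cft_sup_span_eq_top_of_coprime⟩

/-- A nonzero prime not containing `m` has norm prime to `m`. -/
lemma cft_coprime_of_not_mem {Q : Ideal (𝓞 F)} [Q.IsPrime] (hQ : Q ≠ ⊥) {m : ℕ}
    (h : (m : 𝓞 F) ∉ Q) : (Ideal.absNorm Q).Coprime m := by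
  apply cft_coprime_of_sup_span_eq_top hQ
  have : Q.IsMaximal := Ring.DimensionLEOne.maximalOfPrime hQ inferInstance
  by_contra hne
  have hle : Q ⊔ Ideal.span {(m : 𝓞 F)} = Q :=
    (this.eq_of_le hne le_sup_left).symm
  apply h
  rw [← hle]
  exact Ideal.mem_sup_right (Ideal.subset_span rfl)

/-- If `x ^ q ≡ x` modulo the nonzero prime `𝔔` for all `x`, then `N𝔔 ≤ q`. -/
lemma cft_absNorm_le_of_forall_pow_sub_mem {Q : Ideal (𝓞 F)} [Q.IsPrime] (hQ : Q ≠ ⊥) {q : ℕ}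
    (hq : 2 ≤ q) (h : ∀ x : 𝓞 F, x ^ q - x ∈ Q) : Ideal.absNorm Q ≤ q := by
  classical
  have hmax : Q.IsMaximal := Ring.DimensionLEOne.maximalOfPrime hQ inferInstance
  let _ : Field (𝓞 F ⧸ Q) := Ideal.Quotient.field Q
  have : Finite (𝓞 F ⧸ Q) := by
    apply Nat.finite_of_card_ne_zero
    rw [← Submodule.cardQuot_apply, ← Ideal.absNorm_apply]
    exact (Ideal.absNorm_ne_zero_iff_mem_nonZeroDivisors.mpr
      (mem_nonZeroDivisors_iff_ne_zero.mpr hQ))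
  have : Fintype (𝓞 F ⧸ Q) := Fintype.ofFinite _
  rw [Ideal.absNorm_apply, Submodule.cardQuot_apply, Nat.card_eq_fintype_card]
  -- all elements are roots of `X ^ q - X`
  set P : Polynomial (𝓞 F ⧸ Q) := Polynomial.X ^ q - Polynomial.X with hP
  have hdeg : P.natDegree = q := FiniteField.X_pow_card_sub_X_natDegree_eq _ hq
  have hP0 : P ≠ 0 := FiniteField.X_pow_card_sub_X_ne_zero _ hq
  have hroots : (Finset.univ : Finset (𝓞 F ⧸ Q)) ⊆ P.roots.toFinset := by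
    intro x _
    rw [Multiset.mem_toFinset, Polynomial.mem_roots hP0]
    obtain ⟨y, rfl⟩ := Ideal.Quotient.mk_surjective x
    simp only [hP, Polynomial.IsRoot.def, Polynomial.eval_sub, Polynomial.eval_pow,
      Polynomial.eval_X]
    rw [← map_pow, ← map_sub]
    exact Ideal.Quotient.eq_zero_iff_mem.mpr (h y)
  calc Fintype.card (𝓞 F ⧸ Q) = (Finset.univ : Finset (𝓞 F ⧸ Q)).card := rfl
    _ ≤ P.roots.toFinset.card := Finset.card_le_card hroots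
    _ ≤ Multiset.card P.roots := Multiset.toFinset_card_le _
    _ ≤ P.natDegree := Polynomial.card_roots' P
    _ = q := hdeg

end coprime

section degreeOne

variable {E M : Type*} [Field E] [NumberField E] [Field M] [NumberField M] [Algebra E M]

/-- Residue degree one from a norm inequality: if `N𝔔 ≤ N(𝔔 ∩ 𝓞 E)` then `N_{M/E} 𝔔 = 𝔔 ∩ 𝓞 E`. -/
lemma cft_relNorm_eq_of_absNorm_le {Q : Ideal (𝓞 M)} [Q.IsPrime] (hQ : Q ≠ ⊥)
    (h : Ideal.absNorm Q ≤ Ideal.absNorm (Q.under (𝓞 E))) :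
    Ideal.relNorm (𝓞 E) Q = Q.under (𝓞 E) := by
  set q := Q.under (𝓞 E) with hq
  have : Q.LiesOver q := ⟨rfl⟩
  have hq0 : q ≠ ⊥ := by
    intro h0
    exact hQ (Ideal.eq_bot_of_liesOver_bot (𝓞 E) Q (h := h0 ▸ this))
  have : q.IsMaximal := Ring.DimensionLEOne.maximalOfPrime hq0 inferInstance
  have : Q.IsMaximal := Ring.DimensionLEOne.maximalOfPrime hQ inferInstance
  have hN : Ideal.relNorm (𝓞 E) Q = q ^ Q.inertiaDeg (𝓞 E) :=
    Ideal.relNorm_eq_pow_of_isMaximal Q q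
  have habs : Ideal.absNorm Q = Ideal.absNorm q ^ Q.inertiaDeg (𝓞 E) := by
    have := Ideal.absNorm_relNorm (R := 𝓞 E) (S := 𝓞 M) Q
    rw [hN, map_pow] at this
    exact this.symm
  have hpos : 0 < Q.inertiaDeg (𝓞 E) := Ideal.inertiaDeg_pos Q (𝓞 E)
  have hq2 : 2 ≤ Ideal.absNorm q := by
    have h0 : Ideal.absNorm q ≠ 0 := Ideal.absNorm_ne_zero_iff_mem_nonZeroDivisors.mpr
      (mem_nonZeroDivisors_iff_ne_zero.mpr hq0)
    have h1 : Ideal.absNorm q ≠ 1 := by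
      rw [Ne, Ideal.absNorm_eq_one_iff]
      exact Ideal.IsPrime.ne_top inferInstance
    omega
  have hf : Q.inertiaDeg (𝓞 E) = 1 := by
    by_contra hne
    have h2 : 2 ≤ Q.inertiaDeg (𝓞 E) := by omega
    have : Ideal.absNorm q ^ 2 ≤ Ideal.absNorm q := by
      calc Ideal.absNorm q ^ 2 ≤ Ideal.absNorm q ^ Q.inertiaDeg (𝓞 E) :=
            Nat.pow_le_pow_right (by omega) h2
        _ = Ideal.absNorm Q := habs.symm
        _ ≤ Ideal.absNorm q := h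
    nlinarith
  rw [hN, hf, pow_one]

end degreeOne

section zeta

variable {K Ω : Type*} [Field K] [NumberField K] [Field Ω] [NumberField Ω] [Algebra K Ω]
  [IsGalois K Ω]

/-- A Frobenius at `𝔓 ∌ m` raises an `m`-th root of unity to the power `N(𝔓 ∩ 𝓞 K)`. -/
lemma cft_isFrobAt_zeta {φ : Ω ≃ₐ[K] Ω} {P : Ideal (𝓞 Ω)} (hφ : cft_IsFrobAt φ P)
    {ζ : Ω} {m : ℕ} (hζ : ζ ^ m = 1) (hm : (m : 𝓞 Ω) ∉ P) :
    φ ζ = ζ ^ Nat.card (𝓞 K ⧸ P.under (𝓞 K)) := by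
  have hm0 : m ≠ 0 := by rintro rfl; exact hm (by simp)
  have hint : IsIntegral ℤ ζ := by
    refine ⟨Polynomial.X ^ m - 1, Polynomial.monic_X_pow_sub_C 1 hm0, ?_⟩
    simp [hζ]
  set z : 𝓞 Ω := ⟨ζ, hint⟩ with hz
  have hzc : (z : Ω) = ζ := rfl
  have hz1 : z ^ m = 1 := by
    apply RingOfIntegers.ext
    rw [RingOfIntegers.coe_eq_algebraMap, map_pow, ← RingOfIntegers.coe_eq_algebraMap, hzc, hζ]
    simp
  have h1 := AlgHom.IsArithFrobAt.apply_of_pow_eq_one hφ hz1 hm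
  have h2 := congrArg (fun x : 𝓞 Ω => (x : Ω)) h1
  simp only [AlgEquiv.coe_toAlgHom] at h2
  rw [RingOfIntegers.coe_eq_algebraMap, algebraMap_galRestrict_apply,
    RingOfIntegers.coe_eq_algebraMap, map_pow, ← RingOfIntegers.coe_eq_algebraMap, hzc] at h2
  exact h2

end zeta

section fixed

variable {K L : Type*} [Field K] [NumberField K] [Field L] [NumberField L] [Algebra K L]
  [IsGalois K L]

/-- If the trivial automorphism is a Frobenius at `Q`, then `Q` has residue degree one. -/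
lemma cft_relNorm_eq_of_isFrobAt_one {Q : Ideal (𝓞 L)} [Q.IsPrime] (hQ : Q ≠ ⊥)
    (h : cft_IsFrobAt (1 : L ≃ₐ[K] L) Q) : Ideal.relNorm (𝓞 K) Q = Q.under (𝓞 K) := by
  have : Q.LiesOver (Q.under (𝓞 K)) := ⟨rfl⟩
  have hq0 : Q.under (𝓞 K) ≠ ⊥ := by
    intro h0
    exact hQ (Ideal.eq_bot_of_liesOver_bot (𝓞 K) Q (h := h0 ▸ this))
  apply cft_relNorm_eq_of_absNorm_le hQ
  rw [Ideal.absNorm_apply (Q.under (𝓞 K)), Submodule.cardQuot_apply]
  have hq2 : 2 ≤ Nat.card (𝓞 K ⧸ Q.under (𝓞 K)) := by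
    have h0 : Ideal.absNorm (Q.under (𝓞 K)) ≠ 0 := Ideal.absNorm_ne_zero_iff_mem_nonZeroDivisors.mpr
      (mem_nonZeroDivisors_iff_ne_zero.mpr hq0)
    have h1 : Ideal.absNorm (Q.under (𝓞 K)) ≠ 1 := by
      rw [Ne, Ideal.absNorm_eq_one_iff]
      exact Ideal.IsPrime.ne_top inferInstance
    rw [Ideal.absNorm_apply, Submodule.cardQuot_apply] at h0 h1
    omega
  apply cft_absNorm_le_of_forall_pow_sub_mem hQ hq2
  intro x
  have := (cft_isFrobAt_iff' (1 : L ≃ₐ[K] L) Q).mp h x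
  rw [one_smul] at this
  have h2 := Q.neg_mem this
  rwa [neg_sub] at h2

variable {E Ω : Type*} [Field E] [NumberField E] [Field Ω] [NumberField Ω]
  [Algebra K E] [Algebra E Ω] [Algebra K Ω] [IsScalarTower K E Ω] [IsGalois K Ω]

/-- **Degree-one primes in the fixed field of a Frobenius**: if `φ ∈ Gal(Ω/K)` is a Frobenius at
`P` and fixes `E` pointwise, then `P ∩ 𝓞 E` has residue degree one over `K`. -/
lemma cft_relNorm_under_of_isFrobAt {P : Ideal (𝓞 Ω)} [P.IsPrime] (hP : P ≠ ⊥)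
    {φ : Ω ≃ₐ[K] Ω} (hφ : cft_IsFrobAt φ P)
    (hfix : ∀ x : E, φ (algebraMap E Ω x) = algebraMap E Ω x) :
    Ideal.relNorm (𝓞 K) (P.under (𝓞 E)) = P.under (𝓞 K) := by
  have : P.LiesOver (P.under (𝓞 E)) := ⟨rfl⟩
  have hQ0 : P.under (𝓞 E) ≠ ⊥ := by
    intro h0
    exact hP (Ideal.eq_bot_of_liesOver_bot (𝓞 E) P (h := h0 ▸ this))
  have huu : (P.under (𝓞 E)).under (𝓞 K) = P.under (𝓞 K) := Ideal.under_under _
  have : P.LiesOver (P.under (𝓞 K)) := ⟨rfl⟩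
  have hq0 : P.under (𝓞 K) ≠ ⊥ := by
    intro h0
    exact hP (Ideal.eq_bot_of_liesOver_bot (𝓞 K) P (h := h0 ▸ this))
  rw [← huu]
  apply cft_relNorm_eq_of_absNorm_le hQ0
  rw [huu, Ideal.absNorm_apply (P.under (𝓞 K)), Submodule.cardQuot_apply]
  have hq2 : 2 ≤ Nat.card (𝓞 K ⧸ P.under (𝓞 K)) := by
    have h0 : Ideal.absNorm (P.under (𝓞 K)) ≠ 0 := Ideal.absNorm_ne_zero_iff_mem_nonZeroDivisors.mpr
      (mem_nonZeroDivisors_iff_ne_zero.mpr hq0)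
    have h1 : Ideal.absNorm (P.under (𝓞 K)) ≠ 1 := by
      rw [Ne, Ideal.absNorm_eq_one_iff]
      exact Ideal.IsPrime.ne_top inferInstance
    rw [Ideal.absNorm_apply, Submodule.cardQuot_apply] at h0 h1
    omega
  apply cft_absNorm_le_of_forall_pow_sub_mem hQ0 hq2
  intro x
  rw [Ideal.under_def, Ideal.mem_comap, map_sub, map_pow]
  have h1 := (cft_isFrobAt_iff' φ P).mp hφ (algebraMap (𝓞 E) (𝓞 Ω) x)
  have h3 : φ • algebraMap (𝓞 E) (𝓞 Ω) x = algebraMap (𝓞 E) (𝓞 Ω) x := by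
    apply RingOfIntegers.ext
    exact hfix (x : E)
  rw [h3] at h1
  have h2 := P.neg_mem h1
  rwa [neg_sub] at h2

end fixed

end Fermat.Agent.Lib.CFT
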