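/-
S14 (CFT route): the moving lemma.  In a Dedekind domain every ideal class contains an integral
ideal prime to a given nonzero ideal `m`.
-/
import Mathlib

set_option autoImplicit false

namespace Fermat.Agent.Lib.CFT

open scoped nonZeroDivisors

variable {R : Type*} [CommRing R] [IsDedekindDomain R]

/-- For nonzero ideals `J`, `m` of a Dedekind domain there is an ideal `K` prime to `m` such that
`J * K` is principal (generated by a nonzero element). -/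
theorem cfe_exists_mul_eq_span_coprime {J m : Ideal R} (hJ : J ≠ ⊥) (hm : m ≠ ⊥) :
    ∃ (a : R) (K : Ideal R), a ≠ 0 ∧ K ≠ ⊥ ∧ J * K = Ideal.span {a} ∧ K ⊔ m = ⊤ := by
  have hJm : J * m ≠ 0 := mul_ne_zero hJ hm
  obtain ⟨a₀, ha₀⟩ :=
    IsDedekindDomain.exists_sup_span_eq (I := J * m) (J := J) Ideal.mul_le_left hJm
  obtain ⟨x, hx, hx0⟩ := Submodule.exists_mem_ne_zero_of_ne_bot hJm
  -- make the generator nonzero
  obtain ⟨a, ha, ha0⟩ : ∃ a, J * m ⊔ Ideal.span {a} = J ∧ a ≠ 0 := by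
    by_cases h : a₀ = 0
    · refine ⟨x, ?_, hx0⟩
      rw [h, Ideal.span_singleton_zero, sup_bot_eq] at ha₀
      rw [sup_eq_left.mpr ((Ideal.span_singleton_le_iff_mem _).mpr hx), ha₀]
    · exact ⟨a₀, ha₀, h⟩
  have haJ : Ideal.span {a} ≤ J := by rw [← ha]; exact le_sup_right
  obtain ⟨K, hK⟩ := Ideal.dvd_iff_le.mpr haJ
  have hcop : K ⊔ m = ⊤ := by
    have h1 : J * (m ⊔ K) = J * ⊤ := by
      rw [Ideal.mul_sup, ← hK, ha, Ideal.mul_top]
    have := mul_left_cancel₀ (a := J) hJ h1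
    rwa [sup_comm] at this
  have hK0 : K ≠ ⊥ := by
    rintro rfl
    rw [Ideal.mul_bot, Ideal.span_singleton_eq_bot] at hK
    exact ha0 hK
  exact ⟨a, K, ha0, hK0, hK.symm, hcop⟩

/-- **Moving lemma**: every ideal class of a Dedekind domain contains an integral ideal prime to a
given nonzero ideal `m`. -/
theorem cfe_exists_mk0_eq_coprime (C : ClassGroup R) {m : Ideal R} (hm : m ≠ ⊥) :
    ∃ I : (Ideal R)⁰, ClassGroup.mk0 I = C ∧ (I : Ideal R) ⊔ m = ⊤ := by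
  obtain ⟨J, hJ⟩ := ClassGroup.mk0_surjective C⁻¹
  have hJ0 : (J : Ideal R) ≠ ⊥ := mem_nonZeroDivisors_iff_ne_zero.mp J.2
  obtain ⟨a, K, ha0, hK0, hJK, hcop⟩ := cfe_exists_mul_eq_span_coprime hJ0 hm
  refine ⟨⟨K, mem_nonZeroDivisors_iff_ne_zero.mpr hK0⟩, ?_, hcop⟩
  have h1 : ClassGroup.mk0 (J * ⟨K, mem_nonZeroDivisors_iff_ne_zero.mpr hK0⟩) = 1 := by
    rw [ClassGroup.mk0_eq_one_iff]
    exact ⟨⟨a, hJK⟩⟩
  rw [map_mul, hJ] at h1
  exact (inv_mul_eq_one.mp h1).symm ▸ rfl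

/-- Element form of the moving lemma: a nonzero ideal `I` can be moved, inside its class, to an
ideal `I'` prime to `m`: `span {a} * I = span {b} * I'` with `a, b ≠ 0`. -/
theorem cfe_exists_span_mul_eq_coprime {I m : Ideal R} (hI : I ≠ ⊥) (hm : m ≠ ⊥) :
    ∃ (a b : R) (I' : Ideal R), a ≠ 0 ∧ b ≠ 0 ∧ I' ≠ ⊥ ∧
      Ideal.span {a} * I = Ideal.span {b} * I' ∧ I' ⊔ m = ⊤ := by
  obtain ⟨I', hI', hcop⟩ :=
    cfe_exists_mk0_eq_coprime (ClassGroup.mk0 ⟨I, mem_nonZeroDivisors_iff_ne_zero.mpr hI⟩) hm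
  obtain ⟨b, a, hb, ha, h⟩ := ClassGroup.mk0_eq_mk0_iff.mp hI'
  exact ⟨a, b, (I' : Ideal R), ha, hb, mem_nonZeroDivisors_iff_ne_zero.mp I'.2, h.symm, hcop⟩

end Fermat.Agent.Lib.CFT
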