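/-
S14 (CFT route): the moving lemma for rings of integers, with "prime to `m`" in the form
`(absNorm I).Coprime m`.
-/
import Mathlib
import Fermat.Agent.Lib.CFT.Moving
import Fermat.Agent.Lib.CFT.FrobUtil

set_option autoImplicit false

namespace Fermat.Agent.Lib.CFT

open NumberField
open scoped nonZeroDivisors

variable {E : Type*} [Field E] [NumberField E]

theorem cfe_span_natCast_ne_bot {m : ℕ} (hm : m ≠ 0) : Ideal.span {(m : 𝓞 E)} ≠ ⊥ := by
  rw [Ne, Ideal.span_singleton_eq_bot]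
  exact_mod_cast hm

/-- **Moving lemma**, `absNorm` form: every ideal class of `𝓞 E` contains an integral ideal of
norm prime to `m`. -/
theorem cfe_exists_mk0_eq_absNorm_coprime (C : ClassGroup (𝓞 E)) {m : ℕ} (hm : m ≠ 0) :
    ∃ I : (Ideal (𝓞 E))⁰, ClassGroup.mk0 I = C ∧ (Ideal.absNorm (I : Ideal (𝓞 E))).Coprime m := by
  obtain ⟨I, hI, hcop⟩ := cfe_exists_mk0_eq_coprime C (cfe_span_natCast_ne_bot (E := E) hm)
  exact ⟨I, hI, cft_coprime_of_sup_span_eq_top (mem_nonZeroDivisors_iff_ne_zero.mp I.2) hcop⟩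

/-- For a nonzero ideal `J` there is an ideal `J'` of norm prime to `m` with `J * J'` principal. -/
theorem cfe_exists_mul_eq_span_absNorm_coprime {J : Ideal (𝓞 E)} (hJ : J ≠ ⊥) {m : ℕ}
    (hm : m ≠ 0) :
    ∃ (a : 𝓞 E) (J' : Ideal (𝓞 E)), a ≠ 0 ∧ J' ≠ ⊥ ∧ J * J' = Ideal.span {a} ∧
      (Ideal.absNorm J').Coprime m := by
  obtain ⟨a, J', ha, hJ', h1, h2⟩ :=
    cfe_exists_mul_eq_span_coprime hJ (cfe_span_natCast_ne_bot (E := E) hm)
  exact ⟨a, J', ha, hJ', h1, cft_coprime_of_sup_span_eq_top hJ' h2⟩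

end Fermat.Agent.Lib.CFT
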