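/-
S14 (CFT route): split primes are norms, and the Artin symbol of a relative norm is trivial.
`K ⊆ L` number fields, `L/K` abelian and everywhere unramified.
-/
import Mathlib
import Fermat.Agent.Lib.CFT.ArtinTower

set_option autoImplicit false
set_option linter.unusedSectionVars false

namespace Fermat.Agent.Lib.CFT

open NumberField Polynomial
open scoped nonZeroDivisors Pointwise

/-- A finite field all of whose elements satisfy `x ^ N = x` has at most `N` elements. -/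
theorem cfc_card_le_of_pow_eq {F : Type*} [Field F] [Fintype F] {N : ℕ} (hN : 1 < N)
    (h : ∀ x : F, x ^ N = x) : Fintype.card F ≤ N := by
  classical
  have hne : (X ^ N - X : F[X]) ≠ 0 := FiniteField.X_pow_card_sub_X_ne_zero F hN
  have hsub : (Finset.univ : Finset F) ⊆ (X ^ N - X : F[X]).roots.toFinset := by
    intro x _
    rw [Multiset.mem_toFinset, mem_roots hne]
    simp [h x]
  calc Fintype.card F = (Finset.univ : Finset F).card := rfl
    _ ≤ (X ^ N - X : F[X]).roots.toFinset.card := Finset.card_le_card hsub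
    _ ≤ Multiset.card (X ^ N - X : F[X]).roots := Multiset.toFinset_card_le _
    _ ≤ (X ^ N - X : F[X]).natDegree := card_roots' _
    _ = N := FiniteField.X_pow_card_sub_X_natDegree_eq F hN

variable {K L : Type*} [Field K] [NumberField K] [Field L] [NumberField L] [Algebra K L]
  [IsGalois K L]

/-- If the trivial automorphism is a Frobenius at `Q`, then `Q` has residue degree one:
`N_{L/K} Q = Q ∩ 𝓞 K`. -/
theorem cfc_relNorm_eq_of_isFrobAt_one (Q : Ideal (𝓞 L)) [Q.IsPrime] (hQ : Q ≠ ⊥)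
    (h1 : cft_IsFrobAt (1 : Gal(L/K)) Q) :
    Ideal.relNorm (𝓞 K) Q = Q.under (𝓞 K) := by
  classical
  set q := Q.under (𝓞 K) with hq
  have hlo : Q.LiesOver q := ⟨rfl⟩
  have hq0 : q ≠ ⊥ := by
    intro h
    exact hQ (Ideal.eq_bot_of_liesOver_bot (𝓞 K) Q (h := h ▸ hlo))
  have hqmax : q.IsMaximal := Ring.DimensionLEOne.maximalOfPrime hq0 inferInstance
  have hQmax : Q.IsMaximal := Ring.DimensionLEOne.maximalOfPrime hQ inferInstance
  have hN : Ideal.relNorm (𝓞 K) Q = q ^ Q.inertiaDeg (𝓞 K) :=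
    Ideal.relNorm_eq_pow_of_isMaximal Q q
  -- cardinalities
  have hfinQ : Finite (𝓞 L ⧸ Q) := Q.finiteQuotientOfFreeOfNeBot hQ
  have hfinq : Finite (𝓞 K ⧸ q) := q.finiteQuotientOfFreeOfNeBot hq0
  letI : Field (𝓞 L ⧸ Q) := Ideal.Quotient.field Q
  letI : Fintype (𝓞 L ⧸ Q) := Fintype.ofFinite _
  have hcardq : 1 < Nat.card (𝓞 K ⧸ q) := by
    have : Nontrivial (𝓞 K ⧸ q) := Ideal.Quotient.nontrivial_iff.mpr hqmax.ne_top
    exact Finite.one_lt_card
  have hle : Nat.card (𝓞 L ⧸ Q) ≤ Nat.card (𝓞 K ⧸ q) := by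
    rw [Nat.card_eq_fintype_card]
    apply cfc_card_le_of_pow_eq hcardq
    intro x
    obtain ⟨y, rfl⟩ := Ideal.Quotient.mk_surjective x
    have := (cft_isFrobAt_iff' (1 : Gal(L/K)) Q).mp h1 y
    rw [one_smul] at this
    rw [← map_pow, eq_comm, Ideal.Quotient.eq]
    exact this
  have habs : Ideal.absNorm Q = Ideal.absNorm q ^ Q.inertiaDeg (𝓞 K) := by
    have := Ideal.absNorm_relNorm (R := 𝓞 K) (S := 𝓞 L) Q
    rw [hN, map_pow] at this
    exact this.symm
  rw [Ideal.absNorm_apply, Ideal.absNorm_apply, Submodule.cardQuot_apply,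
    Submodule.cardQuot_apply] at habs
  have hf : Q.inertiaDeg (𝓞 K) = 1 := by
    have hpos : 0 < Q.inertiaDeg (𝓞 K) := Ideal.inertiaDeg_pos ..
    by_contra hne
    have h2 : 2 ≤ Q.inertiaDeg (𝓞 K) := by omega
    have h3 : Nat.card (𝓞 K ⧸ q) ^ 2 ≤ Nat.card (𝓞 K ⧸ q) ^ Q.inertiaDeg (𝓞 K) :=
      Nat.pow_le_pow_right (by omega) h2
    rw [← habs] at h3
    have h4 : Nat.card (𝓞 K ⧸ q) ^ 2 ≤ Nat.card (𝓞 K ⧸ q) := le_trans h3 hle
    nlinarith
  rw [hN, hf, pow_one]

/-- **Split primes are norms**: if the Frobenius of the nonzero prime `q` of `𝓞 K` is trivial,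
then every prime `Q` of `𝓞 L` above `q` has relative norm `q`. -/
theorem cfc_relNorm_eq_of_frob_eq_one [IsMulCommutative Gal(L/K)] (q : Ideal (𝓞 K)) [q.IsPrime]
    (hq : q ≠ ⊥) (h1 : cft_frob K L q = 1) (Q : Ideal (𝓞 L)) [Q.IsPrime] [hlo : Q.LiesOver q] :
    Ideal.relNorm (𝓞 K) Q = q := by
  have hQ0 : Q ≠ ⊥ := Ideal.ne_bot_of_liesOver_of_ne_bot hq Q
  have h2 : cft_IsFrobAt (1 : Gal(L/K)) Q := by
    have := cft_isFrob_frob K L q hq Q inferInstance hlo
    rwa [h1] at this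
  rw [cfc_relNorm_eq_of_isFrobAt_one Q hQ0 h2]
  exact hlo.over.symm

/-- **The Artin symbol of a relative norm is trivial.** -/
theorem cfc_artin_relNorm [IsMulCommutative Gal(L/K)] (hun : cft_Unram K L) {A : Ideal (𝓞 L)}
    (hA : A ≠ ⊥) : cft_artin K L (Ideal.relNorm (𝓞 K) A) = 1 := by
  have hsub : Subsingleton Gal(L/L) := inferInstance
  have hcomm : IsMulCommutative Gal(L/L) := ⟨⟨fun a b => Subsingleton.elim _ _⟩⟩
  have h := cft_res_artin (K := K) (L := L) (E := L) (M := L) hun hA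
  rw [← h, Subsingleton.elim (cft_artin L L A) 1, map_one]

section classgroup

open IsDedekindDomain

/-- The class of a relative norm lies in `cft_normClasses`. -/
theorem cfc_mk0_relNorm_mem (J : (Ideal (𝓞 L))⁰) :
    ClassGroup.mk0 (cft_relNorm0 K L J) ∈ cft_normClasses K L :=
  Subgroup.subset_closure ⟨J, rfl⟩

/-- The class of a split prime lies in `cft_normClasses`. -/
theorem cfc_mk0_mem_of_frob_eq_one [IsMulCommutative Gal(L/K)] (q : HeightOneSpectrum (𝓞 K))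
    (h1 : cft_frob K L q.asIdeal = 1) :
    ClassGroup.mk0 ⟨q.asIdeal, mem_nonZeroDivisors_of_ne_zero q.ne_bot⟩ ∈
      cft_normClasses K L := by
  obtain ⟨Q, hQ, hlo⟩ := (Ideal.nonempty_primesOver (S := 𝓞 L) q.asIdeal).some
  have hQ0 : Q ≠ ⊥ := Ideal.ne_bot_of_liesOver_of_ne_bot q.ne_bot Q
  have hN := cfc_relNorm_eq_of_frob_eq_one q.asIdeal q.ne_bot h1 Q
  have := cfc_mk0_relNorm_mem (K := K) (L := L) ⟨Q, mem_nonZeroDivisors_of_ne_zero hQ0⟩
  convert this using 2
  exact Subtype.ext hN.symm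

/-- The `[L:K]`-th power of every ideal class of `K` is a norm class. -/
theorem cfc_mk0_pow_finrank_mem (I : (Ideal (𝓞 K))⁰) :
    ClassGroup.mk0 I ^ Module.finrank K L ∈ cft_normClasses K L := by
  have hI0 : (I : Ideal (𝓞 K)) ≠ ⊥ := mem_nonZeroDivisors_iff_ne_zero.mp I.2
  have hmap0 : (I : Ideal (𝓞 K)).map (algebraMap (𝓞 K) (𝓞 L)) ≠ ⊥ := by
    rw [Ne, Ideal.map_eq_bot_iff_of_injective (FaithfulSMul.algebraMap_injective (𝓞 K) (𝓞 L))]
    exact hI0
  have hN : Ideal.relNorm (𝓞 K) ((I : Ideal (𝓞 K)).map (algebraMap (𝓞 K) (𝓞 L))) =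
      (I : Ideal (𝓞 K)) ^ Module.finrank K L := by
    rw [Ideal.relNorm_algebraMap, IsFractionRing.finrank_eq (𝓞 K) K (𝓞 L) L]
  have := cfc_mk0_relNorm_mem (K := K) (L := L)
    ⟨(I : Ideal (𝓞 K)).map (algebraMap (𝓞 K) (𝓞 L)), mem_nonZeroDivisors_of_ne_zero hmap0⟩
  rw [← map_pow]
  convert this using 2
  exact Subtype.ext hN.symm

end classgroup

end Fermat.Agent.Lib.CFT
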