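/-
S14 (CFT route): the abstract half of the "kernel of the Artin map" theorem (T1).
`M/E` cyclic of prime degree `p`, unramified.  If the Artin map of `M/E` kills the principal
ideals `(γ)` with `γ ≡ 1 (mod m)`, then (using local norm surjectivity `hC2`, the second
inequality `hC3b` and the existence of non-split primes `hZ4`) two ideals prime to `m` with the
same Artin symbol differ by a norm class.  Pushed down to a base `K ⊆ E` this is `cft_NormGood`.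
-/
import Mathlib
import Fermat.Agent.Lib.CFT.ArtinTower
import Fermat.Agent.Lib.CFT.FrobUtil
import Fermat.Agent.Lib.CFT.SplitNorm
import Fermat.Agent.Lib.CFT.NormGood
import Fermat.Agent.Lib.CFT.FirstIneqMaps
import Fermat.Agent.Lib.CFT.MovingNorm

set_option autoImplicit false
set_option linter.unusedSectionVars false

namespace Fermat.Agent.Lib.CFT

open NumberField IsDedekindDomain
open scoped nonZeroDivisors Pointwise

section kernel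

variable {E M : Type*} [Field E] [NumberField E] [Field M] [NumberField M] [Algebra E M]

theorem cfe_intNorm_eq_norm (x : 𝓞 M) :
    Algebra.intNorm (𝓞 E) (𝓞 M) x = RingOfIntegers.norm E x := by
  apply RingOfIntegers.ext
  rw [RingOfIntegers.coe_norm]
  exact Algebra.algebraMap_intNorm (A := 𝓞 E) (K := E) (L := M) (B := 𝓞 M) x

theorem cfe_relNorm_span_singleton (β : 𝓞 M) :
    Ideal.relNorm (𝓞 E) (Ideal.span {β}) = Ideal.span {RingOfIntegers.norm E β} := by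
  rw [Ideal.relNorm_singleton, cfe_intNorm_eq_norm]

theorem cfe_span_singleton_ne_bot {R : Type*} [CommRing R] {x : R} (hx : x ≠ 0) :
    Ideal.span ({x} : Set R) ≠ ⊥ := by
  rwa [Ne, Ideal.span_singleton_eq_bot]

variable [IsGalois E M] [IsMulCommutative Gal(M/E)]

/-- Step A: the Artin symbol of a principal ideal prime to `m` is trivial. -/
theorem cfe_artin_span_eq_one_of_coprime (hunM : cft_Unram E M) {m : ℕ} (hm : m ≠ 0)
    (hprin : ∀ γ : 𝓞 E, γ ≠ 0 → γ - 1 ∈ Ideal.span {(m : 𝓞 E)} →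
      cft_artin E M (Ideal.span {γ}) = 1)
    (hC2 : ∀ I : Ideal (𝓞 E), I ≠ ⊥ → ∀ γ : 𝓞 E, Ideal.span {γ} ⊔ I = ⊤ →
      ∃ β : 𝓞 M, RingOfIntegers.norm E β - γ ∈ I)
    (γ : 𝓞 E) (hγ0 : γ ≠ 0) (hγ : (Ideal.absNorm (Ideal.span {γ})).Coprime m) :
    cft_artin E M (Ideal.span {γ}) = 1 := by
  have h𝔪0 : Ideal.span {(m : 𝓞 E)} ≠ ⊥ := cfe_span_natCast_ne_bot hm
  by_cases htop : Ideal.span {(m : 𝓞 E)} = ⊤
  · exact hprin γ hγ0 (by rw [htop]; trivial)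
  have hsup : Ideal.span {γ} ⊔ Ideal.span {(m : 𝓞 E)} = ⊤ := cft_sup_span_eq_top_of_coprime hγ
  obtain ⟨β, hβ⟩ := hC2 _ h𝔪0 γ hsup
  obtain ⟨δ, hδ⟩ : ∃ δ : 𝓞 E, γ * δ - 1 ∈ Ideal.span {(m : 𝓞 E)} := by
    have h1 : (1 : 𝓞 E) ∈ Ideal.span {γ} ⊔ Ideal.span {(m : 𝓞 E)} := by rw [hsup]; trivial
    obtain ⟨a, ha, b, hb, hab⟩ := Submodule.mem_sup.mp h1
    obtain ⟨c, rfl⟩ := Ideal.mem_span_singleton'.mp ha
    refine ⟨c, ?_⟩
    have : γ * c - 1 = -b := by rw [← hab]; ring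
    rw [this]
    exact Ideal.neg_mem_iff _ |>.mpr hb
  have hνδ : RingOfIntegers.norm E β * δ - 1 ∈ Ideal.span {(m : 𝓞 E)} := by
    have : RingOfIntegers.norm E β * δ - 1 =
        (RingOfIntegers.norm E β - γ) * δ + (γ * δ - 1) := by ring
    rw [this]
    exact Ideal.add_mem _ (Ideal.mul_mem_right _ _ hβ) hδ
  have hne : ∀ x : 𝓞 E, x - 1 ∈ Ideal.span {(m : 𝓞 E)} → x ≠ 0 := by
    rintro x hx rfl
    apply htop
    rw [Ideal.eq_top_iff_one]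
    have := (Ideal.neg_mem_iff _).mpr hx
    simpa using this
  have hδ0 : δ ≠ 0 := right_ne_zero_of_mul (hne _ hδ)
  have hν0 : RingOfIntegers.norm E β ≠ 0 := left_ne_zero_of_mul (hne _ hνδ)
  have h1 := hprin (γ * δ) (hne _ hδ) hδ
  have h2 := hprin (RingOfIntegers.norm E β * δ) (hne _ hνδ) hνδ
  rw [← Ideal.span_singleton_mul_span_singleton, cft_artin_mul E M
    (cfe_span_singleton_ne_bot hγ0) (cfe_span_singleton_ne_bot hδ0)] at h1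
  rw [← Ideal.span_singleton_mul_span_singleton, cft_artin_mul E M
    (cfe_span_singleton_ne_bot hν0) (cfe_span_singleton_ne_bot hδ0)] at h2
  have h3 : cft_artin E M (Ideal.span {RingOfIntegers.norm E β}) = 1 := by
    have hβ0 : β ≠ 0 := by
      rintro rfl
      apply hν0
      apply RingOfIntegers.ext
      rw [RingOfIntegers.coe_norm]
      simp
    rw [← cfe_relNorm_span_singleton]
    exact cfc_artin_relNorm hunM (cfe_span_singleton_ne_bot hβ0)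
  rw [h3, one_mul] at h2
  rw [h2, mul_one] at h1
  exact h1

/-- Step B: an ideal prime to `m` whose class is a norm class has trivial Artin symbol. -/
theorem cfe_artin_eq_one_of_mem_normClasses (hunM : cft_Unram E M) {m : ℕ} (hm : m ≠ 0)
    (hprin : ∀ γ : 𝓞 E, γ ≠ 0 → γ - 1 ∈ Ideal.span {(m : 𝓞 E)} →
      cft_artin E M (Ideal.span {γ}) = 1)
    (hC2 : ∀ I : Ideal (𝓞 E), I ≠ ⊥ → ∀ γ : 𝓞 E, Ideal.span {γ} ⊔ I = ⊤ →
      ∃ β : 𝓞 M, RingOfIntegers.norm E β - γ ∈ I)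
    (𝔄 : (Ideal (𝓞 E))⁰) (h𝔄 : (Ideal.absNorm (𝔄 : Ideal (𝓞 E))).Coprime m)
    (hmem : ClassGroup.mk0 𝔄 ∈ cft_normClasses E M) :
    cft_artin E M (𝔄 : Ideal (𝓞 E)) = 1 := by
  have h𝔄0 : (𝔄 : Ideal (𝓞 E)) ≠ ⊥ := mem_nonZeroDivisors_iff_ne_zero.mp 𝔄.2
  rw [← cfe_range_normM] at hmem
  obtain ⟨c, hc⟩ := hmem
  obtain ⟨𝔍, h𝔍c, h𝔍m⟩ := cfe_exists_mk0_eq_absNorm_coprime (E := M) c hm
  have h𝔍0 : (𝔍 : Ideal (𝓞 M)) ≠ ⊥ := mem_nonZeroDivisors_iff_ne_zero.mp 𝔍.2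
  have hN : ClassGroup.mk0 (cfe_relNormHom E M 𝔍) = ClassGroup.mk0 𝔄 := by
    rw [← cfe_normM_mk0, h𝔍c, hc]
  obtain ⟨b, 𝔄', hb0, h𝔄'0, hmul, h𝔄'm⟩ :=
    cfe_exists_mul_eq_span_absNorm_coprime (J := (𝔄 : Ideal (𝓞 E))) h𝔄0 hm
  have hprinc : ClassGroup.mk0 (cfe_relNormHom E M 𝔍 *
      ⟨𝔄', mem_nonZeroDivisors_iff_ne_zero.mpr h𝔄'0⟩) = 1 := by
    rw [map_mul, hN, ← map_mul, ClassGroup.mk0_eq_one_iff]
    exact ⟨⟨b, hmul⟩⟩
  obtain ⟨⟨a, ha⟩⟩ := (ClassGroup.mk0_eq_one_iff _).mp hprinc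
  have ha' : Ideal.relNorm (𝓞 E) (𝔍 : Ideal (𝓞 M)) * 𝔄' = Ideal.span {a} := ha
  have hN0 : Ideal.relNorm (𝓞 E) (𝔍 : Ideal (𝓞 M)) ≠ ⊥ :=
    (Ideal.relNorm_eq_bot_iff (R := 𝓞 E)).not.mpr h𝔍0
  have hNm : (Ideal.absNorm (Ideal.relNorm (𝓞 E) (𝔍 : Ideal (𝓞 M)))).Coprime m := by
    rw [Ideal.absNorm_relNorm]; exact h𝔍m
  have ha0 : a ≠ 0 := by
    rintro rfl
    rw [Ideal.span_singleton_eq_bot.mpr rfl] at ha'
    exact (mul_ne_zero hN0 h𝔄'0) ha'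
  -- the two principal ideals are prime to `m`
  have hbm : (Ideal.absNorm (Ideal.span {b})).Coprime m := by
    rw [← hmul, map_mul]; exact Nat.Coprime.mul_left h𝔄 h𝔄'm
  have ham : (Ideal.absNorm (Ideal.span {a})).Coprime m := by
    rw [← ha', map_mul]; exact Nat.Coprime.mul_left hNm h𝔄'm
  have e1 := cfe_artin_span_eq_one_of_coprime hunM hm hprin hC2 b hb0 hbm
  have e2 := cfe_artin_span_eq_one_of_coprime hunM hm hprin hC2 a ha0 ham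
  rw [← hmul, cft_artin_mul E M h𝔄0 h𝔄'0] at e1
  rw [← ha', cft_artin_mul E M hN0 h𝔄'0, cfc_artin_relNorm hunM h𝔍0, one_mul] at e2
  rw [e2, mul_one] at e1
  exact e1

/-- Step C: the Artin symbol is constant on classes modulo the norm classes (ideals prime to
`m`). -/
theorem cfe_artin_eq_of_div_mem_normClasses (hunM : cft_Unram E M) {m : ℕ} (hm : m ≠ 0)
    (hprin : ∀ γ : 𝓞 E, γ ≠ 0 → γ - 1 ∈ Ideal.span {(m : 𝓞 E)} →
      cft_artin E M (Ideal.span {γ}) = 1)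
    (hC2 : ∀ I : Ideal (𝓞 E), I ≠ ⊥ → ∀ γ : 𝓞 E, Ideal.span {γ} ⊔ I = ⊤ →
      ∃ β : 𝓞 M, RingOfIntegers.norm E β - γ ∈ I)
    (𝔄 𝔅 : (Ideal (𝓞 E))⁰) (h𝔄 : (Ideal.absNorm (𝔄 : Ideal (𝓞 E))).Coprime m)
    (h𝔅 : (Ideal.absNorm (𝔅 : Ideal (𝓞 E))).Coprime m)
    (hmem : ClassGroup.mk0 𝔄 / ClassGroup.mk0 𝔅 ∈ cft_normClasses E M) :
    cft_artin E M (𝔄 : Ideal (𝓞 E)) = cft_artin E M (𝔅 : Ideal (𝓞 E)) := by
  have h𝔄0 : (𝔄 : Ideal (𝓞 E)) ≠ ⊥ := mem_nonZeroDivisors_iff_ne_zero.mp 𝔄.2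
  have h𝔅0 : (𝔅 : Ideal (𝓞 E)) ≠ ⊥ := mem_nonZeroDivisors_iff_ne_zero.mp 𝔅.2
  obtain ⟨b, 𝔅', hb0, h𝔅'0, hmul, h𝔅'm⟩ :=
    cfe_exists_mul_eq_span_absNorm_coprime (J := (𝔅 : Ideal (𝓞 E))) h𝔅0 hm
  set 𝔅'0 : (Ideal (𝓞 E))⁰ := ⟨𝔅', mem_nonZeroDivisors_iff_ne_zero.mpr h𝔅'0⟩ with h𝔅'0def
  have hinv : ClassGroup.mk0 𝔅 * ClassGroup.mk0 𝔅'0 = 1 := by
    rw [← map_mul, ClassGroup.mk0_eq_one_iff]
    exact ⟨⟨b, hmul⟩⟩
  have hcl : ClassGroup.mk0 (𝔄 * 𝔅'0) ∈ cft_normClasses E M := by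
    rw [map_mul, eq_inv_of_mul_eq_one_right hinv, ← div_eq_mul_inv]
    exact hmem
  have hm1 : (Ideal.absNorm ((𝔄 * 𝔅'0 : (Ideal (𝓞 E))⁰) : Ideal (𝓞 E))).Coprime m := by
    rw [Submonoid.coe_mul, map_mul]; exact Nat.Coprime.mul_left h𝔄 h𝔅'm
  have e1 := cfe_artin_eq_one_of_mem_normClasses hunM hm hprin hC2 (𝔄 * 𝔅'0) hm1 hcl
  rw [Submonoid.coe_mul, cft_artin_mul E M h𝔄0 h𝔅'0] at e1
  have hbm : (Ideal.absNorm (Ideal.span {b})).Coprime m := by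
    rw [← hmul, map_mul]; exact Nat.Coprime.mul_left h𝔅 h𝔅'm
  have e2 := cfe_artin_span_eq_one_of_coprime hunM hm hprin hC2 b hb0 hbm
  rw [← hmul, cft_artin_mul E M h𝔅0 h𝔅'0] at e2
  rw [← e2] at e1
  exact mul_right_cancel e1

/-- Step D: the Artin map is surjective on the ideals prime to `m`. -/
theorem cfe_exists_artin_eq {p : ℕ} (hp : p.Prime) (hdeg : Module.finrank E M = p) {m : ℕ}
    (hm : m ≠ 0)
    (hZ4 : ∀ T : Finset (HeightOneSpectrum (𝓞 E)), ∃ 𝔮 : HeightOneSpectrum (𝓞 E), 𝔮 ∉ T ∧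
      ∃ 𝔔 : Ideal (𝓞 M), 𝔔.IsPrime ∧ 𝔔.LiesOver 𝔮.asIdeal ∧
        Ideal.absNorm 𝔔 ≠ Ideal.absNorm 𝔮.asIdeal)
    (g : Gal(M/E)) :
    ∃ 𝔠 : (Ideal (𝓞 E))⁰, (Ideal.absNorm (𝔠 : Ideal (𝓞 E))).Coprime m ∧
      cft_artin E M (𝔠 : Ideal (𝓞 E)) = g := by
  classical
  have h𝔪0 : Ideal.span {(m : 𝓞 E)} ≠ ⊥ := cfe_span_natCast_ne_bot hm
  obtain ⟨𝔮, h𝔮T, 𝔔, h𝔔p, h𝔔lo, h𝔔N⟩ := hZ4 (Ideal.finite_factors h𝔪0).toFinset
  have h𝔮m : (Ideal.absNorm 𝔮.asIdeal).Coprime m := by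
    apply cft_coprime_of_not_mem 𝔮.ne_bot
    intro hmem
    apply h𝔮T
    rw [Set.Finite.mem_toFinset, Set.mem_ofPred_eq, Ideal.dvd_span_singleton]
    exact hmem
  have hfrob : cft_frob E M 𝔮.asIdeal ≠ 1 := by
    intro h1
    apply h𝔔N
    have := cfc_relNorm_eq_of_frob_eq_one 𝔮.asIdeal 𝔮.ne_bot h1 𝔔
    rw [← this, Ideal.absNorm_relNorm]
  have hcard : Nat.card Gal(M/E) = p := by rw [IsGalois.card_aut_eq_finrank, hdeg]
  have : Fact p.Prime := ⟨hp⟩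
  have htop := zpowers_eq_top_of_prime_card hcard hfrob
  have hg : g ∈ Subgroup.zpowers (cft_frob E M 𝔮.asIdeal) := by rw [htop]; trivial
  obtain ⟨k, hk⟩ := mem_powers_iff_mem_zpowers.mpr hg
  refine ⟨⟨𝔮.asIdeal ^ k, mem_nonZeroDivisors_iff_ne_zero.mpr (pow_ne_zero k 𝔮.ne_bot)⟩, ?_, ?_⟩
  · show (Ideal.absNorm (𝔮.asIdeal ^ k)).Coprime m
    rw [map_pow]
    exact Nat.Coprime.pow_left k h𝔮m
  · show cft_artin E M (𝔮.asIdeal ^ k) = g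
    rw [cft_artin_pow E M 𝔮.ne_bot, cft_artin_prime]
    exact hk

/-- Step E: two ideals prime to `m` with the same Artin symbol differ by a norm class. -/
theorem cfe_div_mem_normClasses_of_artin_eq {p : ℕ} (hp : p.Prime)
    (hdeg : Module.finrank E M = p) (hunM : cft_Unram E M) {m : ℕ} (hm : m ≠ 0)
    (hprin : ∀ γ : 𝓞 E, γ ≠ 0 → γ - 1 ∈ Ideal.span {(m : 𝓞 E)} →
      cft_artin E M (Ideal.span {γ}) = 1)
    (hC2 : ∀ I : Ideal (𝓞 E), I ≠ ⊥ → ∀ γ : 𝓞 E, Ideal.span {γ} ⊔ I = ⊤ →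
      ∃ β : 𝓞 M, RingOfIntegers.norm E β - γ ∈ I)
    (hC3b : (cft_normClasses E M).index ≤ p)
    (hZ4 : ∀ T : Finset (HeightOneSpectrum (𝓞 E)), ∃ 𝔮 : HeightOneSpectrum (𝓞 E), 𝔮 ∉ T ∧
      ∃ 𝔔 : Ideal (𝓞 M), 𝔔.IsPrime ∧ 𝔔.LiesOver 𝔮.asIdeal ∧
        Ideal.absNorm 𝔔 ≠ Ideal.absNorm 𝔮.asIdeal)
    (𝔄 𝔅 : (Ideal (𝓞 E))⁰) (h𝔄 : (Ideal.absNorm (𝔄 : Ideal (𝓞 E))).Coprime m)
    (h𝔅 : (Ideal.absNorm (𝔅 : Ideal (𝓞 E))).Coprime m)
    (hart : cft_artin E M (𝔄 : Ideal (𝓞 E)) = cft_artin E M (𝔅 : Ideal (𝓞 E))) :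
    ClassGroup.mk0 𝔄 / ClassGroup.mk0 𝔅 ∈ cft_normClasses E M := by
  classical
  choose 𝔠 h𝔠m h𝔠 using cfe_exists_artin_eq (E := E) (M := M) hp hdeg hm hZ4
  let f : Gal(M/E) → ClassGroup (𝓞 E) ⧸ cft_normClasses E M := fun g =>
    QuotientGroup.mk (ClassGroup.mk0 (𝔠 g))
  have hcard : Nat.card Gal(M/E) = p := by rw [IsGalois.card_aut_eq_finrank, hdeg]
  have hfinj : Function.Injective f := by
    intro g h hgh
    have h1 : ClassGroup.mk0 (𝔠 g) / ClassGroup.mk0 (𝔠 h) ∈ cft_normClasses E M :=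
      QuotientGroup.eq_iff_div_mem.mp hgh
    have := cfe_artin_eq_of_div_mem_normClasses hunM hm hprin hC2 (𝔠 g) (𝔠 h) (h𝔠m g) (h𝔠m h) h1
    rwa [h𝔠, h𝔠] at this
  have hfbij : Function.Bijective f := by
    apply hfinj.bijective_of_nat_card_le
    rw [hcard, ← Subgroup.index_eq_card]
    exact hC3b
  -- every ideal prime to `m` is in the class of `𝔠 (its symbol)`
  have key : ∀ 𝔇 : (Ideal (𝓞 E))⁰, (Ideal.absNorm (𝔇 : Ideal (𝓞 E))).Coprime m →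
      f (cft_artin E M (𝔇 : Ideal (𝓞 E))) = QuotientGroup.mk (ClassGroup.mk0 𝔇) := by
    intro 𝔇 h𝔇
    obtain ⟨g, hg⟩ := hfbij.2 (QuotientGroup.mk (ClassGroup.mk0 𝔇))
    have h1 : ClassGroup.mk0 (𝔠 g) / ClassGroup.mk0 𝔇 ∈ cft_normClasses E M :=
      QuotientGroup.eq_iff_div_mem.mp hg
    have := cfe_artin_eq_of_div_mem_normClasses hunM hm hprin hC2 (𝔠 g) 𝔇 (h𝔠m g) h𝔇 h1
    rw [h𝔠] at this
    rw [← this, hg]
  have h1 := key 𝔄 h𝔄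
  have h2 := key 𝔅 h𝔅
  rw [hart, h2] at h1
  exact QuotientGroup.eq_iff_div_mem.mp h1.symm

end kernel

section tower

variable {K L E M : Type*} [Field K] [NumberField K] [Field L] [NumberField L]
  [Field E] [NumberField E] [Field M] [NumberField M]
  [Algebra K L] [Algebra K E] [Algebra L M] [Algebra E M] [Algebra K M]
  [IsScalarTower K L M] [IsScalarTower K E M]

/-- The norm `Cl(E) → Cl(K)` maps the norm classes of `M/E` into the norm classes of `L/K`. -/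
theorem cfe_normM_mem_normClasses {c : ClassGroup (𝓞 E)} (hc : c ∈ cft_normClasses E M) :
    cfe_normM K E c ∈ cft_normClasses K L := by
  have hle : cft_normClasses E M ≤ (cft_normClasses K L).comap (cfe_normM K E) := by
    rw [cft_normClasses, Subgroup.closure_le]
    rintro _ ⟨J, rfl⟩
    rw [SetLike.mem_coe, Subgroup.mem_comap, cfe_normM_mk0]
    have h1 : cfe_relNormHom K E (cft_relNorm0 E M J) = cft_relNorm0 K L (cft_relNorm0 L M J) := by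
      apply Subtype.ext
      show Ideal.relNorm (𝓞 K) (Ideal.relNorm (𝓞 E) (J : Ideal (𝓞 M))) =
        Ideal.relNorm (𝓞 K) (Ideal.relNorm (𝓞 L) (J : Ideal (𝓞 M)))
      rw [Ideal.relNorm_relNorm, Ideal.relNorm_relNorm]
    rw [h1]
    exact Subgroup.subset_closure ⟨_, rfl⟩
  exact hle hc

variable [IsGalois K L] [IsGalois E M] [IsMulCommutative Gal(L/K)] [IsMulCommutative Gal(M/E)]

/-- **The abstract half of T1.**  `M/E` cyclic of prime degree `p` and unramified, lying over the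
unramified abelian `L/K` with injective restriction.  If the Artin map of `M/E` kills the principal
ideals generated by elements `≡ 1 (mod m)`, then `cft_NormGood K L E m`. -/
theorem cfe_normGood_of_principal {p : ℕ} (hp : p.Prime) (hdeg : Module.finrank E M = p)
    (hunL : cft_Unram K L) (hunM : cft_Unram E M)
    (hinj : Function.Injective (cft_res K L E M)) {m : ℕ} (hm : m ≠ 0)
    (hprin : ∀ γ : 𝓞 E, γ ≠ 0 → γ - 1 ∈ Ideal.span {(m : 𝓞 E)} →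
      cft_artin E M (Ideal.span {γ}) = 1)
    (hC2 : ∀ I : Ideal (𝓞 E), I ≠ ⊥ → ∀ γ : 𝓞 E, Ideal.span {γ} ⊔ I = ⊤ →
      ∃ β : 𝓞 M, RingOfIntegers.norm E β - γ ∈ I)
    (hC3b : (cft_normClasses E M).index ≤ p)
    (hZ4 : ∀ T : Finset (HeightOneSpectrum (𝓞 E)), ∃ 𝔮 : HeightOneSpectrum (𝓞 E), 𝔮 ∉ T ∧
      ∃ 𝔔 : Ideal (𝓞 M), 𝔔.IsPrime ∧ 𝔔.LiesOver 𝔮.asIdeal ∧
        Ideal.absNorm 𝔔 ≠ Ideal.absNorm 𝔮.asIdeal) :
    cft_NormGood K L E m := by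
  intro 𝔄 𝔅 h𝔄 h𝔅 hart
  have h𝔄0 : (𝔄 : Ideal (𝓞 E)) ≠ ⊥ := mem_nonZeroDivisors_iff_ne_zero.mp 𝔄.2
  have h𝔅0 : (𝔅 : Ideal (𝓞 E)) ≠ ⊥ := mem_nonZeroDivisors_iff_ne_zero.mp 𝔅.2
  have h1 := cft_res_artin (K := K) (L := L) (E := E) (M := M) hunL h𝔄0
  have h2 := cft_res_artin (K := K) (L := L) (E := E) (M := M) hunL h𝔅0
  have h3 : cft_artin E M (𝔄 : Ideal (𝓞 E)) = cft_artin E M (𝔅 : Ideal (𝓞 E)) :=
    hinj (by rw [h1, h2, hart])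
  have h4 := cfe_div_mem_normClasses_of_artin_eq hp hdeg hunM hm hprin hC2 hC3b hZ4 𝔄 𝔅 h𝔄 h𝔅 h3
  have h5 := cfe_normM_mem_normClasses (K := K) (L := L) h4
  rwa [map_div, cfe_normM_mk0, cfe_normM_mk0] at h5

end tower

end Fermat.Agent.Lib.CFT
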