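/-
S14 (class field theory route), T1 wrap-up: `cft_NormGood K L E m` for an auxiliary field `E` such
that `M = LE` is contained in `E(ζ_m)`: the abstract half (`cfe_normGood_of_principal`) fed with
cyclotomic reciprocity for principal ideals (`cfi_artin_span_eq_one_of_cyclo`).
-/
import Mathlib
import Fermat.Agent.Lib.CFT.NormGoodAbs
import Fermat.Agent.Lib.CFT.CycloFrobB
import Fermat.Agent.Lib.CFT.UnramBase

set_option autoImplicit false
set_option linter.unusedSectionVars false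

namespace Fermat.Agent.Lib.CFT

open NumberField Ideal IsDedekindDomain
open scoped nonZeroDivisors

variable {K L E M Ω : Type*} [Field K] [NumberField K] [Field L] [NumberField L]
  [Field E] [NumberField E] [Field M] [NumberField M] [Field Ω] [NumberField Ω]
  [Algebra K L] [Algebra K E] [Algebra L M] [Algebra E M] [Algebra K M]
  [IsScalarTower K L M] [IsScalarTower K E M] [IsGalois K L] [IsGalois E M]
  [Algebra E Ω] [Algebra M Ω] [IsScalarTower E M Ω] [IsGalois E Ω]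
  [IsMulCommutative (L ≃ₐ[K] L)]

/-- **(T1)** `M/E` unramified of odd prime degree `p` over the unramified abelian `L/K` with
injective restriction, `M` contained in the `m`-th cyclotomic part of the abelian extension
`Ω/E`, plus local norm surjectivity, the second inequality and the existence of non-split primes
for `M/E`: then `cft_NormGood K L E m`. -/
theorem cft_normGood_of_cyclo {p : ℕ} (hp : p.Prime) (hp2 : p ≠ 2)
    (hdeg : Module.finrank E M = p) (hunL : cft_Unram K L) (hunM : cft_Unram E M)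
    (hinj : Function.Injective (cft_res K L E M))
    (hcomm : ∀ g h : Ω ≃ₐ[E] Ω, g * h = h * g) {m : ℕ} (hm : m ≠ 0) (ζ : Ω)
    (hζ : IsPrimitiveRoot ζ m)
    (hcont : ∀ g : Ω ≃ₐ[E] Ω, g ζ = ζ → ∀ x : M, g (algebraMap M Ω x) = algebraMap M Ω x)
    (hC2 : ∀ I : Ideal (𝓞 E), I ≠ ⊥ → ∀ γ : 𝓞 E, Ideal.span {γ} ⊔ I = ⊤ →
      ∃ β : 𝓞 M, RingOfIntegers.norm E β - γ ∈ I)
    (hC3b : (cft_normClasses E M).index ≤ p)
    (hZ4 : ∀ T : Finset (HeightOneSpectrum (𝓞 E)), ∃ 𝔮 : HeightOneSpectrum (𝓞 E), 𝔮 ∉ T ∧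
      ∃ 𝔔 : Ideal (𝓞 M), 𝔔.IsPrime ∧ 𝔔.LiesOver 𝔮.asIdeal ∧
        Ideal.absNorm 𝔔 ≠ Ideal.absNorm 𝔮.asIdeal) :
    cft_NormGood K L E m := by
  have : IsMulCommutative (Ω ≃ₐ[E] Ω) := ⟨⟨hcomm⟩⟩
  have : IsMulCommutative (M ≃ₐ[E] M) :=
    ⟨⟨cfh_mul_comm_of_res_injective hinj (fun a b => mul_comm' a b)⟩⟩
  exact cfe_normGood_of_principal hp hdeg hunL hunM hinj hm
    (fun γ hγ0 hγ => cfi_artin_span_eq_one_of_cyclo hp hp2 hdeg hunM hm ζ hζ hcont γ hγ0 hγ)
    hC2 hC3b hZ4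

end Fermat.Agent.Lib.CFT
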