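/-
S14 (CFT route), WP-C2: local norm surjectivity for unramified Galois extensions of number fields.

`L/K` Galois, `M` a nonzero ideal of `𝓞 K` such that all primes of `𝓞 L` above the prime divisors
of `M` are unramified.  Then every `γ ∈ 𝓞 K` prime to `M` is a norm modulo `M`
(`cfh_exists_norm_sub_mem'`, `cfh_exists_norm_sub_mem`).

Proof: residue level through `D_Q ≃ Gal(k(Q)/k(𝔯))` (unramified) and surjectivity of the norm of
finite fields; lifting `𝔯 ^ i → 𝔯 ^ (i+1)` through `N(1 + x) ≡ 1 + Tr x` and the fact that the trace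
is not identically zero modulo an unramified prime (Dedekind independence of characters); CRT.
-/
import Mathlib
import Fermat.Agent.Lib.CFT.Artin

set_option autoImplicit false
set_option linter.unusedSectionVars false

namespace Fermat.Agent.Lib.CFT

open NumberField
open scoped nonZeroDivisors Pointwise

section generic

variable {R : Type*} [CommRing R] {ι : Type*}

/-- `∏ (1 + f i) ≡ 1 + ∑ f i` modulo `J ^ 2` when all `f i ∈ J`. -/
lemma cfh_prod_one_add_sub_mem (J : Ideal R) (s : Finset ι) (f : ι → R)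
    (hf : ∀ i ∈ s, f i ∈ J) : ∏ i ∈ s, (1 + f i) - 1 - ∑ i ∈ s, f i ∈ J ^ 2 := by
  classical
  induction s using Finset.induction_on with
  | empty => simp
  | insert a s ha ih =>
    rw [Finset.prod_insert ha, Finset.sum_insert ha]
    have h1 := ih (fun i hi => hf i (Finset.mem_insert_of_mem hi))
    have h2 : f a ∈ J := hf a (Finset.mem_insert_self a s)
    have h3 : ∑ i ∈ s, f i ∈ J := J.sum_mem (fun i hi => hf i (Finset.mem_insert_of_mem hi))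
    have e : (1 + f a) * ∏ i ∈ s, (1 + f i) - 1 - (f a + ∑ i ∈ s, f i) =
        (1 + f a) * (∏ i ∈ s, (1 + f i) - 1 - ∑ i ∈ s, f i) + f a * ∑ i ∈ s, f i := by ring
    rw [e]
    refine add_mem (Ideal.mul_mem_left _ _ h1) ?_
    rw [pow_two]
    exact Ideal.mul_mem_mul h2 h3

/-- Congruent factors give congruent products. -/
lemma cfh_prod_sub_prod_mem (J : Ideal R) (s : Finset ι) (f g : ι → R)
    (h : ∀ i ∈ s, f i - g i ∈ J) : ∏ i ∈ s, f i - ∏ i ∈ s, g i ∈ J := by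
  rw [← Ideal.Quotient.eq, map_prod, map_prod]
  exact Finset.prod_congr rfl (fun i hi => Ideal.Quotient.eq.mpr (h i hi))

end generic

section galois

variable {K L : Type*} [Field K] [NumberField K] [Field L] [NumberField L] [Algebra K L]

/-- Contraction of an extended ideal (faithful flatness). -/
lemma cfh_mem_of_algebraMap_mem_map (I : Ideal (𝓞 K)) {a : 𝓞 K}
    (h : algebraMap (𝓞 K) (𝓞 L) a ∈ I.map (algebraMap (𝓞 K) (𝓞 L))) : a ∈ I := by
  have := Ideal.comap_map_eq_self_of_faithfullyFlat (B := 𝓞 L) I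
  rw [← this]
  exact h

variable [IsGalois K L]

lemma cfh_algebraMap_norm (β : 𝓞 L) :
    algebraMap (𝓞 K) (𝓞 L) (RingOfIntegers.norm K β) = ∏ σ : Gal(L/K), σ • β := by
  apply RingOfIntegers.ext
  rw [RingOfIntegers.coe_algebraMap_norm, Algebra.norm_eq_prod_automorphisms]
  show ∏ σ : Gal(L/K), σ (β : L) = algebraMap (𝓞 L) L (∏ σ : Gal(L/K), σ • β)
  rw [map_prod]
  rfl

lemma cfh_exists_trace (y : 𝓞 L) :
    ∃ a : 𝓞 K, algebraMap (𝓞 K) (𝓞 L) a = ∑ σ : Gal(L/K), σ • y := by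
  have hG := cft_isGaloisGroup K L
  have := hG.isInvariant
  refine Algebra.IsInvariant.isInvariant (A := 𝓞 K) (G := Gal(L/K)) _ (fun g => ?_)
  rw [Finset.smul_sum]
  exact Fintype.sum_equiv (Equiv.mulLeft g) _ _ (fun σ => by simp [mul_smul])

/-- Extended ideals are Galois stable. -/
lemma cfh_smul_mem_map (I : Ideal (𝓞 K)) (σ : Gal(L/K)) {x : 𝓞 L}
    (hx : x ∈ I.map (algebraMap (𝓞 K) (𝓞 L))) : σ • x ∈ I.map (algebraMap (𝓞 K) (𝓞 L)) := by
  have hG := cft_isGaloisGroup K L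
  have := hG.commutes
  have hle : I.map (algebraMap (𝓞 K) (𝓞 L)) ≤
      (I.map (algebraMap (𝓞 K) (𝓞 L))).comap (MulSemiringAction.toRingHom Gal(L/K) (𝓞 L) σ) := by
    rw [Ideal.map_le_iff_le_comap]
    intro a ha
    rw [Ideal.mem_comap, Ideal.mem_comap, MulSemiringAction.toRingHom_apply, smul_algebraMap]
    exact Ideal.mem_map_of_mem _ ha
  exact hle hx

/-- Congruent elements have congruent norms. -/
lemma cfh_norm_sub_norm_mem (I : Ideal (𝓞 K)) {β β' : 𝓞 L}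
    (h : β - β' ∈ I.map (algebraMap (𝓞 K) (𝓞 L))) :
    RingOfIntegers.norm K β - RingOfIntegers.norm K β' ∈ I := by
  apply cfh_mem_of_algebraMap_mem_map (L := L) I
  rw [map_sub, cfh_algebraMap_norm, cfh_algebraMap_norm]
  refine cfh_prod_sub_prod_mem _ _ _ _ (fun σ _ => ?_)
  rw [← smul_sub]
  exact cfh_smul_mem_map I σ h

/-- `N(1 + x) ≡ 1 + Tr x` modulo `I ^ 2` for `x ∈ I 𝓞 L`. -/
lemma cfh_norm_one_add (I : Ideal (𝓞 K)) {x : 𝓞 L}
    (hx : x ∈ I.map (algebraMap (𝓞 K) (𝓞 L))) {a : 𝓞 K}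
    (ha : algebraMap (𝓞 K) (𝓞 L) a = ∑ σ : Gal(L/K), σ • x) :
    RingOfIntegers.norm K (1 + x) - 1 - a ∈ I ^ 2 := by
  apply cfh_mem_of_algebraMap_mem_map (L := L) (I ^ 2)
  rw [map_sub, map_sub, map_one, cfh_algebraMap_norm, ha, Ideal.map_pow]
  have : ∀ σ : Gal(L/K), σ • (1 + x) = 1 + σ • x := fun σ => by rw [smul_add, smul_one]
  simp_rw [this]
  exact cfh_prod_one_add_sub_mem _ _ _ (fun σ _ => cfh_smul_mem_map I σ hx)

/-- An element of the Galois group acting trivially modulo an unramified prime is trivial. -/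
lemma cfh_eq_one_of_forall_sub_mem {Q : Ideal (𝓞 L)} [Q.IsPrime] (hQ : Q ≠ ⊥)
    [Algebra.IsUnramifiedAt (𝓞 K) Q] (ρ : Gal(L/K)) (h : ∀ x : 𝓞 L, ρ • x - x ∈ Q) : ρ = 1 := by
  obtain ⟨σ, hσ⟩ := cft_exists_isFrobAt (K := K) Q hQ
  have h2 : cft_IsFrobAt (ρ * σ) Q := by
    rw [cft_isFrobAt_iff'] at hσ ⊢
    intro x
    have e : (ρ * σ) • x - x ^ Nat.card (𝓞 K ⧸ Q.under (𝓞 K)) =
        (ρ • (σ • x) - σ • x) + (σ • x - x ^ Nat.card (𝓞 K ⧸ Q.under (𝓞 K))) := by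
      rw [mul_smul]; ring
    rw [e]
    exact add_mem (h _) (hσ x)
  have := cft_isFrobAt_unique h2 hσ
  exact mul_eq_right.mp this

lemma cfh_eq_of_forall_sub_mem {Q : Ideal (𝓞 L)} [Q.IsPrime] (hQ : Q ≠ ⊥)
    [Algebra.IsUnramifiedAt (𝓞 K) Q] (ρ τ : Gal(L/K)) (h : ∀ x : 𝓞 L, ρ • x - τ • x ∈ Q) :
    ρ = τ := by
  have : ρ * τ⁻¹ = 1 := by
    apply cfh_eq_one_of_forall_sub_mem (K := K) hQ
    intro x
    have := h (τ⁻¹ • x)
    rwa [smul_inv_smul, ← mul_smul] at this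
  exact mul_inv_eq_one.mp this

/-- The trace is not identically zero modulo an unramified prime (Dedekind independence). -/
lemma cfh_exists_sum_smul_notMem {Q : Ideal (𝓞 L)} [Q.IsPrime] (hQ : Q ≠ ⊥)
    [Algebra.IsUnramifiedAt (𝓞 K) Q] : ∃ y : 𝓞 L, ∑ σ : Gal(L/K), σ • y ∉ Q := by
  by_contra hcon
  simp only [not_exists, not_not] at hcon
  let χ : Gal(L/K) → (𝓞 L →* 𝓞 L ⧸ Q) := fun σ =>
    (((Ideal.Quotient.mk Q).comp (MulSemiringAction.toRingHom Gal(L/K) (𝓞 L) σ) :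
      𝓞 L →+* 𝓞 L ⧸ Q) : 𝓞 L →* 𝓞 L ⧸ Q)
  have hχ : ∀ σ x, χ σ x = Ideal.Quotient.mk Q (σ • x) := fun σ x => rfl
  have hinj : Function.Injective χ := by
    intro σ τ h
    apply cfh_eq_of_forall_sub_mem (K := K) hQ
    intro x
    have := DFunLike.congr_fun h x
    rw [hχ, hχ] at this
    exact Ideal.Quotient.eq.mp this
  have hli := (linearIndependent_monoidHom (𝓞 L) (𝓞 L ⧸ Q)).comp χ hinj
  rw [Fintype.linearIndependent_iff] at hli
  have h0 : ∑ σ : Gal(L/K), (1 : 𝓞 L ⧸ Q) • ((fun f : 𝓞 L →* 𝓞 L ⧸ Q => (f : 𝓞 L → 𝓞 L ⧸ Q)) ∘ χ) σ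
      = 0 := by
    ext y
    simp only [Function.comp_apply, one_smul, Finset.sum_apply, Pi.zero_apply, hχ]
    rw [← map_sum]
    exact Ideal.Quotient.eq_zero_iff_mem.mpr (hcon y)
  have := hli (fun _ => 1) h0 1
  exact one_ne_zero this

attribute [local instance] Ideal.Quotient.field in
/-- For an unramified prime `Q` over `𝔯`, the product over the decomposition group realises the
norm of the residue field extension. -/
lemma cfh_exists_prod_stabilizer (𝔯 : Ideal (𝓞 K)) [𝔯.IsMaximal] (Q : Ideal (𝓞 L)) [Q.IsMaximal]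
    [Q.LiesOver 𝔯] (hQ : Q ≠ ⊥) [Algebra.IsUnramifiedAt (𝓞 K) Q] (γ : 𝓞 K) :
    ∃ b : 𝓞 L, (∏ σ : MulAction.stabilizer Gal(L/K) Q, (σ : Gal(L/K)) • b) -
      algebraMap (𝓞 K) (𝓞 L) γ ∈ Q := by
  classical
  have hG := cft_isGaloisGroup K L
  have := hG.commutes
  have := hG.isInvariant
  have : Finite (𝓞 L ⧸ Q) := Q.finiteQuotientOfFreeOfNeBot hQ
  have hsurj := Ideal.Quotient.stabilizerHom_surjective Gal(L/K) 𝔯 Q
  have hinj : Function.Injective (Ideal.Quotient.stabilizerHom Q 𝔯 Gal(L/K)) := by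
    intro σ τ h
    apply Subtype.ext
    apply cfh_eq_of_forall_sub_mem (K := K) hQ
    intro x
    have := DFunLike.congr_fun h (Ideal.Quotient.mk Q x)
    rw [Ideal.Quotient.stabilizerHom_apply, Ideal.Quotient.stabilizerHom_apply] at this
    exact Ideal.Quotient.eq.mp this
  obtain ⟨bbar, hb⟩ := FiniteField.norm_surjective (𝓞 K ⧸ 𝔯) (𝓞 L ⧸ Q) (Ideal.Quotient.mk 𝔯 γ)
  obtain ⟨b, rfl⟩ := Ideal.Quotient.mk_surjective bbar
  refine ⟨b, ?_⟩
  rw [← Ideal.Quotient.eq, map_prod]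
  have h1 := Algebra.norm_eq_prod_automorphisms (𝓞 K ⧸ 𝔯) (Ideal.Quotient.mk Q b)
  rw [hb] at h1
  have h2 : ∏ τ : ((𝓞 L ⧸ Q) ≃ₐ[𝓞 K ⧸ 𝔯] (𝓞 L ⧸ Q)), τ (Ideal.Quotient.mk Q b) =
      ∏ σ : MulAction.stabilizer Gal(L/K) Q,
        Ideal.Quotient.stabilizerHom Q 𝔯 Gal(L/K) σ (Ideal.Quotient.mk Q b) :=
    (Fintype.prod_equiv (Equiv.ofBijective _ ⟨hinj, hsurj⟩) _ _ (fun σ => rfl)).symm
  rw [h2] at h1
  simp only [Ideal.Quotient.stabilizerHom_apply] at h1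
  exact h1.symm.trans rfl

/-- Residue level: every class modulo a prime `𝔯` unramified in `L` is a norm. -/
lemma cfh_exists_norm_sub_mem_prime (𝔯 : Ideal (𝓞 K)) [𝔯.IsPrime] (h𝔯 : 𝔯 ≠ ⊥)
    (hun : ∀ (Q : Ideal (𝓞 L)) [Q.IsPrime], Q ≠ ⊥ → 𝔯 ≤ Q.under (𝓞 K) →
      Algebra.IsUnramifiedAt (𝓞 K) Q)
    (γ : 𝓞 K) : ∃ β : 𝓞 L, RingOfIntegers.norm K β - γ ∈ 𝔯 := by
  classical
  obtain ⟨Q, hQp, hlo⟩ := (Ideal.nonempty_primesOver (S := 𝓞 L) 𝔯).some
  have hQ0 : Q ≠ ⊥ := Ideal.ne_bot_of_liesOver_of_ne_bot h𝔯 Q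
  have h𝔯max : 𝔯.IsMaximal := Ideal.IsPrime.isMaximal inferInstance h𝔯
  have hQmax : Q.IsMaximal := Ideal.IsPrime.isMaximal hQp hQ0
  have hunQ : Algebra.IsUnramifiedAt (𝓞 K) Q := hun Q hQ0 (by rw [← hlo.over])
  obtain ⟨b, hb⟩ := cfh_exists_prod_stabilizer 𝔯 Q hQ0 γ
  let s : Finset (Ideal (𝓞 L)) := Finset.univ.image (fun σ : Gal(L/K) => σ • Q)
  have hs : ∀ σ : Gal(L/K), σ • Q ∈ s := fun σ =>
    Finset.mem_image_of_mem _ (Finset.mem_univ σ)
  have hsprime : ∀ P ∈ s, Prime P := by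
    intro P hP
    obtain ⟨σ, -, rfl⟩ := Finset.mem_image.mp hP
    refine Ideal.prime_of_isPrime ?_ inferInstance
    intro h0
    apply hQ0
    have : σ⁻¹ • (σ • Q) = σ⁻¹ • (⊥ : Ideal (𝓞 L)) := by rw [h0]
    rwa [inv_smul_smul, Ideal.smul_bot] at this
  obtain ⟨β, hβ⟩ := IsDedekindDomain.exists_forall_sub_mem_ideal (s := s) (fun P => P)
    (fun _ => 1) hsprime (fun i _ j _ hij => hij)
    (fun P => if (P : Ideal (𝓞 L)) = Q then b else 1)
  refine ⟨β, ?_⟩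
  have hQs : Q ∈ s := by simpa using hs 1
  have hβQ : β - b ∈ Q := by simpa using hβ Q hQs
  have hβQ' : ∀ P ∈ s, P ≠ Q → β - 1 ∈ P := by
    intro P hP hPQ
    simpa [hPQ] using hβ P hP
  have key : ∀ σ : Gal(L/K),
      σ • β - (if σ ∈ MulAction.stabilizer Gal(L/K) Q then σ • b else 1) ∈ Q := by
    intro σ
    split_ifs with hσ
    · rw [MulAction.mem_stabilizer_iff] at hσ
      rw [← smul_sub]
      have := Ideal.smul_mem_pointwise_smul σ _ Q hβQ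
      rwa [hσ] at this
    · have hne : σ⁻¹ • Q ≠ Q := by
        intro h
        apply hσ
        rw [MulAction.mem_stabilizer_iff]
        conv_lhs => rw [← h]
        exact smul_inv_smul σ Q
      have h1 := hβQ' _ (hs σ⁻¹) hne
      have := Ideal.smul_mem_pointwise_smul σ _ _ h1
      rwa [smul_inv_smul, smul_sub, smul_one] at this
  have h2 := cfh_prod_sub_prod_mem Q Finset.univ (fun σ : Gal(L/K) => σ • β) _
    (fun σ _ => key σ)
  have h3 : ∏ σ : Gal(L/K), (if σ ∈ MulAction.stabilizer Gal(L/K) Q then σ • b else 1) =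
      ∏ σ : MulAction.stabilizer Gal(L/K) Q, (σ : Gal(L/K)) • b := by
    rw [← Finset.prod_filter]
    exact Finset.prod_subtype _ (fun σ => by simp) _
  rw [h3, ← cfh_algebraMap_norm] at h2
  have h4 := add_mem h2 hb
  rw [sub_add_sub_cancel, ← map_sub] at h4
  rw [hlo.over]
  exact h4

/-- Lifting step `𝔯 ^ i → 𝔯 ^ (i + 1)`. -/
lemma cfh_lift_step (𝔯 : Ideal (𝓞 K)) [𝔯.IsPrime] (h𝔯 : 𝔯 ≠ ⊥)
    (hun : ∀ (Q : Ideal (𝓞 L)) [Q.IsPrime], Q ≠ ⊥ → 𝔯 ≤ Q.under (𝓞 K) →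
      Algebra.IsUnramifiedAt (𝓞 K) Q)
    (γ : 𝓞 K) (hγ : γ ∉ 𝔯) (i : ℕ) (hi : 1 ≤ i) (β : 𝓞 L)
    (hβ : RingOfIntegers.norm K β - γ ∈ 𝔯 ^ i) :
    ∃ β' : 𝓞 L, RingOfIntegers.norm K β' - γ ∈ 𝔯 ^ (i + 1) := by
  have hG := cft_isGaloisGroup K L
  have := hG.commutes
  obtain ⟨Q, hQp, hlo⟩ := (Ideal.nonempty_primesOver (S := 𝓞 L) 𝔯).some
  have hQ0 : Q ≠ ⊥ := Ideal.ne_bot_of_liesOver_of_ne_bot h𝔯 Q
  have h𝔯max : 𝔯.IsMaximal := Ideal.IsPrime.isMaximal inferInstance h𝔯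
  have hunQ : Algebra.IsUnramifiedAt (𝓞 K) Q := hun Q hQ0 (by rw [← hlo.over])
  obtain ⟨y, hy⟩ := cfh_exists_sum_smul_notMem (K := K) hQ0
  obtain ⟨a₀, ha₀⟩ := cfh_exists_trace (K := K) y
  have ha₀r : a₀ ∉ 𝔯 := by
    intro h
    apply hy
    rw [← ha₀]
    rw [hlo.over] at h
    exact h
  set n := RingOfIntegers.norm K β with hn
  have hnr : n ∉ 𝔯 := by
    intro h
    apply hγ
    have h1 : n - γ ∈ 𝔯 := Ideal.pow_le_self (Nat.one_le_iff_ne_zero.mp hi) hβ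
    have := sub_mem h h1
    rwa [sub_sub_cancel] at this
  have hc : n * a₀ ∉ 𝔯 := fun h =>
    (Ideal.IsPrime.mem_or_mem inferInstance h).elim hnr ha₀r
  obtain ⟨v, j, hj, hvj⟩ := h𝔯max.exists_inv hc
  have hv : v * (n * a₀) - 1 ∈ 𝔯 := by
    have : v * (n * a₀) - 1 = -j := by rw [← hvj]; ring
    rw [this]; exact neg_mem hj
  set δ := γ - n with hδ
  have hδm : δ ∈ 𝔯 ^ i := by
    have := neg_mem hβ
    rwa [neg_sub] at this
  set x : 𝓞 L := algebraMap (𝓞 K) (𝓞 L) (δ * v) * y with hx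
  have hxm : x ∈ (𝔯 ^ i).map (algebraMap (𝓞 K) (𝓞 L)) :=
    Ideal.mul_mem_right _ _ (Ideal.mem_map_of_mem _ (Ideal.mul_mem_right _ _ hδm))
  have ha : algebraMap (𝓞 K) (𝓞 L) (δ * v * a₀) = ∑ σ : Gal(L/K), σ • x := by
    rw [map_mul, ha₀, Finset.mul_sum]
    refine Finset.sum_congr rfl (fun σ _ => ?_)
    rw [hx, smul_mul', smul_algebraMap]
  have h1 := cfh_norm_one_add (𝔯 ^ i) hxm ha
  refine ⟨β * (1 + x), ?_⟩
  rw [map_mul, ← hn]
  have e : n * RingOfIntegers.norm K (1 + x) - γ =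
      n * (RingOfIntegers.norm K (1 + x) - 1 - δ * v * a₀) + δ * (v * (n * a₀) - 1) := by
    rw [hδ]; ring
  rw [e]
  refine add_mem (Ideal.mul_mem_left _ _ ?_) ?_
  · refine Ideal.pow_le_pow_right ?_ (by rwa [← pow_mul] at h1)
    omega
  · rw [pow_succ]
    exact Ideal.mul_mem_mul hδm hv

/-- Prime power level. -/
lemma cfh_exists_norm_sub_mem_prime_pow (𝔯 : Ideal (𝓞 K)) [𝔯.IsPrime] (h𝔯 : 𝔯 ≠ ⊥)
    (hun : ∀ (Q : Ideal (𝓞 L)) [Q.IsPrime], Q ≠ ⊥ → 𝔯 ≤ Q.under (𝓞 K) →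
      Algebra.IsUnramifiedAt (𝓞 K) Q)
    (γ : 𝓞 K) (hγ : γ ∉ 𝔯) (i : ℕ) :
    ∃ β : 𝓞 L, RingOfIntegers.norm K β - γ ∈ 𝔯 ^ i := by
  induction i with
  | zero => exact ⟨0, by simp⟩
  | succ i ih =>
    rcases Nat.eq_zero_or_pos i with rfl | hi
    · obtain ⟨β, hβ⟩ := cfh_exists_norm_sub_mem_prime 𝔯 h𝔯 hun γ
      exact ⟨β, by simpa using hβ⟩
    · obtain ⟨β, hβ⟩ := ih
      exact cfh_lift_step 𝔯 h𝔯 hun γ hγ i hi β hβ

/-- **Local norm surjectivity.** `L/K` a Galois extension of number fields, `M` a nonzero ideal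
of `𝓞 K` such that every prime of `𝓞 L` above a prime divisor of `M` is unramified over `K`.
Then every `γ ∈ 𝓞 K` prime to `M` is congruent modulo `M` to the norm of an element of `𝓞 L`. -/
theorem cfh_exists_norm_sub_mem' (M : Ideal (𝓞 K)) (hM : M ≠ ⊥)
    (hun : ∀ (Q : Ideal (𝓞 L)) [Q.IsPrime], Q ≠ ⊥ → M ≤ Q.under (𝓞 K) →
      Algebra.IsUnramifiedAt (𝓞 K) Q)
    (γ : 𝓞 K) (hγ : Ideal.span {γ} ⊔ M = ⊤) :
    ∃ β : 𝓞 L, RingOfIntegers.norm K β - γ ∈ M := by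
  revert hM hun γ
  induction M using UniqueFactorizationMonoid.induction_on_coprime with
  | h0 => intro hM; exact absurd rfl hM
  | h1 hx =>
    intro _ _ γ _
    rw [Ideal.isUnit_iff] at hx
    exact ⟨0, by rw [hx]; exact Submodule.mem_top⟩
  | hpr i hp =>
    rename_i p
    intro hM hun γ hγ
    have hp0 : p ≠ ⊥ := hp.ne_zero
    have hpp : p.IsPrime := Ideal.isPrime_of_prime hp
    rcases Nat.eq_zero_or_pos i with rfl | hi
    · exact ⟨0, by simp⟩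
    · have hγp : γ ∉ p := by
        intro h
        have h1 : Ideal.span {γ} ⊔ p ^ i ≤ p :=
          sup_le ((Ideal.span_singleton_le_iff_mem _).mpr h)
            (Ideal.pow_le_self (Nat.one_le_iff_ne_zero.mp hi))
        rw [hγ] at h1
        exact hpp.ne_top (top_le_iff.mp h1)
      exact cfh_exists_norm_sub_mem_prime_pow p hp0
        (fun Q _ hQ0 hle => hun Q hQ0
          ((Ideal.pow_le_self (Nat.one_le_iff_ne_zero.mp hi)).trans hle)) γ hγp i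
  | hcp hrel hx hy =>
    rename_i x y
    intro hM hun γ hγ
    have hx0 : x ≠ ⊥ := fun h => hM (by rw [h, Ideal.bot_mul])
    have hy0 : y ≠ ⊥ := fun h => hM (by rw [h, Ideal.mul_bot])
    have hsup : x ⊔ y = ⊤ := by
      have : IsUnit (x ⊔ y) :=
        hrel (Ideal.dvd_iff_le.mpr le_sup_left) (Ideal.dvd_iff_le.mpr le_sup_right)
      exact Ideal.isUnit_iff.mp this
    obtain ⟨β₁, h₁⟩ := hx hx0
      (fun Q _ hQ0 hle => hun Q hQ0 (Ideal.mul_le_left.trans hle)) γ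
      (top_le_iff.mp (hγ ▸ sup_le_sup_left Ideal.mul_le_left _))
    obtain ⟨β₂, h₂⟩ := hy hy0
      (fun Q _ hQ0 hle => hun Q hQ0 (Ideal.mul_le_right.trans hle)) γ
      (top_le_iff.mp (hγ ▸ sup_le_sup_left Ideal.mul_le_right _))
    obtain ⟨u, hu, w, hw, huw⟩ := Submodule.mem_sup.mp ((Ideal.eq_top_iff_one _).mp hsup)
    refine ⟨β₁ * algebraMap (𝓞 K) (𝓞 L) w + β₂ * algebraMap (𝓞 K) (𝓞 L) u, ?_⟩
    set β := β₁ * algebraMap (𝓞 K) (𝓞 L) w + β₂ * algebraMap (𝓞 K) (𝓞 L) u with hβ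
    have huw' : algebraMap (𝓞 K) (𝓞 L) u + algebraMap (𝓞 K) (𝓞 L) w = 1 := by
      rw [← map_add, huw, map_one]
    have e₁ : β - β₁ = (β₂ - β₁) * algebraMap (𝓞 K) (𝓞 L) u := by
      rw [hβ]
      linear_combination β₁ * huw'
    have e₂ : β - β₂ = (β₁ - β₂) * algebraMap (𝓞 K) (𝓞 L) w := by
      rw [hβ]
      linear_combination β₂ * huw'
    have m₁ : RingOfIntegers.norm K β - γ ∈ x := by
      have := cfh_norm_sub_norm_mem x (β := β) (β' := β₁)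
        (by rw [e₁]; exact Ideal.mul_mem_left _ _ (Ideal.mem_map_of_mem _ hu))
      have := add_mem this h₁
      rwa [sub_add_sub_cancel] at this
    have m₂ : RingOfIntegers.norm K β - γ ∈ y := by
      have := cfh_norm_sub_norm_mem y (β := β) (β' := β₂)
        (by rw [e₂]; exact Ideal.mul_mem_left _ _ (Ideal.mem_map_of_mem _ hw))
      have := add_mem this h₂
      rwa [sub_add_sub_cancel] at this
    rw [Ideal.mul_eq_inf_of_coprime hsup]
    exact ⟨m₁, m₂⟩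

/-- **Local norm surjectivity**, everywhere unramified case. -/
theorem cfh_exists_norm_sub_mem (hun : cft_Unram K L) (M : Ideal (𝓞 K)) (hM : M ≠ ⊥)
    (γ : 𝓞 K) (hγ : Ideal.span {γ} ⊔ M = ⊤) :
    ∃ β : 𝓞 L, RingOfIntegers.norm K β - γ ∈ M :=
  cfh_exists_norm_sub_mem' M hM (fun Q _ hQ0 _ => hun Q hQ0) γ hγ

end galois

end Fermat.Agent.Lib.CFT
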