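import Mathlib

/-!
# Lattice points in homogeneously expanding domains, with error term

Let `L` be a `ℤ`-lattice in a finite dimensional real normed space `E` of dimension `n`, and let
`s` be a bounded set whose frontier has box-counting dimension at most `n - 1`
(`cfl_BoxDim (n - 1) (frontier s)`: it is covered by `O(ε ^ (-(n-1)))` balls of radius `ε`;
e.g. a finite union of Lipschitz images of `(n-1)`-dimensional boxes, see
`cfl_BoxDim.of_lipschitzOnWith`).  Then

  `#(t • s ∩ L) = vol s / covol L * t ^ n + O(t ^ (n - 1))`   (`cfl_card_smul_inter_sub_le`)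

and, for cones, the error term analogue of Mathlib's
`ZLattice.covolume.tendsto_card_le_div'` (`cfl_card_le_sub_le`).
-/

set_option autoImplicit false

namespace Fermat.Agent.Lib.CFT

open MeasureTheory Module Bornology Metric
open scoped Pointwise NNReal

section defs

variable {E : Type*} [NormedAddCommGroup E]

/-- `cfl_BoxDim d S`: for every `0 < ε ≤ 1` the set `S` is covered by at most `C * ε⁻¹ ^ d`
closed balls of radius `ε` (upper box-counting dimension at most `d`, with a uniform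
constant). -/
def cfl_BoxDim (d : ℕ) (S : Set E) : Prop :=
  ∃ C : ℝ, ∀ ε : ℝ, 0 < ε → ε ≤ 1 →
    ∃ P : Finset E, (P.card : ℝ) ≤ C * ε⁻¹ ^ d ∧ S ⊆ ⋃ p ∈ P, closedBall p ε

theorem cfl_BoxDim.mono {d : ℕ} {S S' : Set E} (h : cfl_BoxDim d S) (hS : S' ⊆ S) :
    cfl_BoxDim d S' := by
  obtain ⟨C, hC⟩ := h
  refine ⟨C, fun ε h0 h1 => ?_⟩
  obtain ⟨P, hP, hcov⟩ := hC ε h0 h1
  exact ⟨P, hP, hS.trans hcov⟩

theorem cfl_BoxDim.empty (d : ℕ) : cfl_BoxDim d (∅ : Set E) :=
  ⟨0, fun ε _ _ => ⟨∅, by simp, Set.empty_subset _⟩⟩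

theorem cfl_BoxDim.union {d : ℕ} {S S' : Set E} (h : cfl_BoxDim d S) (h' : cfl_BoxDim d S') :
    cfl_BoxDim d (S ∪ S') := by
  classical
  obtain ⟨C, hC⟩ := h
  obtain ⟨C', hC'⟩ := h'
  refine ⟨C + C', fun ε h0 h1 => ?_⟩
  obtain ⟨P, hP, hcov⟩ := hC ε h0 h1
  obtain ⟨P', hP', hcov'⟩ := hC' ε h0 h1
  refine ⟨P ∪ P', ?_, ?_⟩
  · have : ((P ∪ P').card : ℝ) ≤ (P.card : ℝ) + (P'.card : ℝ) := by
      exact_mod_cast Finset.card_union_le P P'
    rw [add_mul]
    linarith
  · intro x hx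
    rcases hx with hx | hx
    · have := hcov hx
      simp only [Set.mem_iUnion, exists_prop] at this ⊢
      obtain ⟨p, hp, hxp⟩ := this
      exact ⟨p, Finset.mem_union_left _ hp, hxp⟩
    · have := hcov' hx
      simp only [Set.mem_iUnion, exists_prop] at this ⊢
      obtain ⟨p, hp, hxp⟩ := this
      exact ⟨p, Finset.mem_union_right _ hp, hxp⟩

theorem cfl_BoxDim.biUnion_finset {d : ℕ} {α : Type*} (I : Finset α) {S : α → Set E}
    (h : ∀ i ∈ I, cfl_BoxDim d (S i)) : cfl_BoxDim d (⋃ i ∈ I, S i) := by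
  classical
  induction I using Finset.induction_on with
  | empty => simpa using cfl_BoxDim.empty d
  | insert a I _ ih =>
    rw [Finset.set_biUnion_insert]
    exact (h a (Finset.mem_insert_self a I)).union
      (ih (fun i hi => h i (Finset.mem_insert_of_mem hi)))

theorem cfl_BoxDim.mono_dim {d d' : ℕ} {S : Set E} (h : cfl_BoxDim d S) (hd : d ≤ d') :
    cfl_BoxDim d' S := by
  obtain ⟨C, hC⟩ := h
  have hC0 : 0 ≤ C := by
    obtain ⟨P, hP, _⟩ := hC 1 one_pos le_rfl
    have : (0:ℝ) ≤ P.card := Nat.cast_nonneg _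
    simpa using this.trans hP
  refine ⟨C, fun ε h0 h1 => ?_⟩
  obtain ⟨P, hP, hcov⟩ := hC ε h0 h1
  refine ⟨P, hP.trans ?_, hcov⟩
  have : 1 ≤ ε⁻¹ := (one_le_inv₀ h0).mpr h1
  gcongr

/-- Lipschitz image of a box. -/
theorem cfl_BoxDim.of_lipschitzOnWith {ι : Type*} [Fintype ι] {K : ℝ≥0} {φ : (ι → ℝ) → E}
    (a b : ι → ℝ) (hφ : LipschitzOnWith K φ (Set.Icc a b)) :
    cfl_BoxDim (Fintype.card ι) (φ '' Set.Icc a b) := by
  classical
  set D : ℝ := ‖b - a‖ with hD
  have hD0 : 0 ≤ D := norm_nonneg _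
  have hK0 : (0:ℝ) ≤ K := K.2
  have hK1 : (0:ℝ) < K + 1 := by positivity
  refine ⟨(D * (K + 1) + 2) ^ Fintype.card ι, fun ε h0 h1 => ?_⟩
  set δ : ℝ := ε / (K + 1) with hδ
  have hδ0 : 0 < δ := div_pos h0 hK1
  set M : ℕ := ⌈D / δ⌉₊ with hM
  let grid : (ι → Fin (M + 1)) → (ι → ℝ) := fun k i => a i + ((k i : ℕ) : ℝ) * δ
  refine ⟨Finset.univ.image (fun k => φ (grid k)), ?_, ?_⟩
  · have hM1 : ((M + 1 : ℕ) : ℝ) ≤ (D * (K + 1) + 2) * ε⁻¹ := by
      have h2 : (M : ℝ) < D / δ + 1 := Nat.ceil_lt_add_one (div_nonneg hD0 hδ0.le)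
      have h3 : D / δ = D * (K + 1) * ε⁻¹ := by
        rw [hδ]; field_simp
      have h4 : (1:ℝ) ≤ ε⁻¹ := (one_le_inv₀ h0).mpr h1
      push_cast
      rw [h3] at h2
      nlinarith
    calc ((Finset.univ.image (fun k => φ (grid k))).card : ℝ)
        ≤ ((Finset.univ : Finset (ι → Fin (M + 1))).card : ℝ) := by
          exact_mod_cast Finset.card_image_le
      _ = ((M + 1 : ℕ) : ℝ) ^ Fintype.card ι := by
          rw [Finset.card_univ, Fintype.card_fun, Fintype.card_fin]; push_cast; rfl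
      _ ≤ ((D * (K + 1) + 2) * ε⁻¹) ^ Fintype.card ι := by gcongr
      _ = (D * (K + 1) + 2) ^ Fintype.card ι * ε⁻¹ ^ Fintype.card ι := mul_pow _ _ _
  · rintro _ ⟨u, hu, rfl⟩
    have hx0 : ∀ i, 0 ≤ (u i - a i) / δ := fun i =>
      div_nonneg (sub_nonneg.mpr (hu.1 i)) hδ0.le
    have hk : ∀ i, ⌊(u i - a i) / δ⌋₊ < M + 1 := by
      intro i
      have h1 : u i - a i ≤ D := by
        have : ‖(b - a) i‖ ≤ ‖b - a‖ := norm_le_pi_norm (b - a) i
        rw [Pi.sub_apply, Real.norm_eq_abs] at this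
        have h2 : u i ≤ b i := hu.2 i
        have h3 := le_abs_self (b i - a i)
        linarith
      have h2 : (u i - a i) / δ ≤ D / δ := by gcongr
      exact Nat.lt_succ_of_le ((Nat.floor_le_floor h2).trans (Nat.floor_le_ceil _))
    let k : ι → Fin (M + 1) := fun i => ⟨⌊(u i - a i) / δ⌋₊, hk i⟩
    have hgrid : ∀ i, grid k i = a i + (⌊(u i - a i) / δ⌋₊ : ℝ) * δ := fun i => rfl
    have hfl : ∀ i, (⌊(u i - a i) / δ⌋₊ : ℝ) * δ ≤ u i - a i := by
      intro i
      have := Nat.floor_le (hx0 i)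
      calc (⌊(u i - a i) / δ⌋₊ : ℝ) * δ ≤ (u i - a i) / δ * δ := by gcongr
        _ = u i - a i := div_mul_cancel₀ _ hδ0.ne'
    have hfl' : ∀ i, u i - a i ≤ (⌊(u i - a i) / δ⌋₊ : ℝ) * δ + δ := by
      intro i
      have := (Nat.lt_floor_add_one ((u i - a i) / δ)).le
      calc u i - a i = (u i - a i) / δ * δ := (div_mul_cancel₀ _ hδ0.ne').symm
        _ ≤ ((⌊(u i - a i) / δ⌋₊ : ℝ) + 1) * δ := by gcongr
        _ = _ := by ring
    have hg_mem : grid k ∈ Set.Icc a b := by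
      constructor
      · intro i
        rw [hgrid]
        have : 0 ≤ (⌊(u i - a i) / δ⌋₊ : ℝ) * δ := by positivity
        linarith
      · intro i
        rw [hgrid]
        have := hfl i
        have := hu.2 i
        linarith
    have hdist : dist u (grid k) ≤ δ := by
      rw [dist_pi_le_iff hδ0.le]
      intro i
      rw [Real.dist_eq, hgrid, abs_le]
      have := hfl i
      have := hfl' i
      constructor <;> linarith
    simp only [Set.mem_iUnion, exists_prop]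
    refine ⟨φ (grid k), Finset.mem_image_of_mem _ (Finset.mem_univ k), ?_⟩
    rw [mem_closedBall]
    calc dist (φ u) (φ (grid k)) ≤ K * dist u (grid k) := hφ.dist_le_mul u hu _ hg_mem
      _ ≤ K * δ := by gcongr
      _ ≤ ε := by
          rw [hδ, mul_div_assoc']
          rw [div_le_iff₀ hK1]
          nlinarith

end defs

section core

variable {E : Type*} [NormedAddCommGroup E] [NormedSpace ℝ E]

/-- A closed ball which misses the frontier of `A` is inside `A` or disjoint from `A`. -/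
theorem cfl_ball_subset_or_disjoint {A : Set E} {x : E} {R : ℝ}
    (h : ∀ y ∈ frontier A, R < ‖y - x‖) :
    closedBall x R ⊆ A ∨ Disjoint (closedBall x R) A := by
  have hpre : IsPreconnected (closedBall x R) := (convex_closedBall x R).isPreconnected
  have hsub : closedBall x R ⊆ interior A ∪ (closure A)ᶜ := by
    intro y hy
    by_contra hcon
    rw [Set.mem_union, not_or, Set.mem_compl_iff, not_not] at hcon
    have hyf : y ∈ frontier A := ⟨hcon.2, hcon.1⟩
    have := h y hyf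
    rw [mem_closedBall, dist_eq_norm] at hy
    linarith
  have hdisj : Disjoint (interior A) (closure A)ᶜ :=
    Set.disjoint_compl_right_iff_subset.mpr interior_subset_closure
  rcases hpre.subset_or_subset isOpen_interior isClosed_closure.isOpen_compl hdisj hsub with h1 | h2
  · exact Or.inl (h1.trans interior_subset)
  · refine Or.inr (Set.disjoint_left.mpr fun y hy hyA => ?_)
    exact h2 hy (subset_closure hyA)

variable [FiniteDimensional ℝ E] [MeasurableSpace E] [BorelSpace E]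
variable {ι : Type*} [Fintype ι] (b : Basis ι ℝ E)
variable (μ : Measure E) [Measure.IsAddHaarMeasure μ]

/-- Core estimate: the number of lattice points of `A` times the volume of the fundamental domain
differs from the volume of `A` by at most the number of lattice points within distance `R`
(a bound for the fundamental domain) of the frontier of `A`. -/
theorem cfl_core {A : Set E} (hA₁ : IsBounded A) {R : ℝ}
    (hR : ∀ f ∈ ZSpan.fundamentalDomain b, ‖f‖ ≤ R) :
    ∃ B : Finset E, (∀ g ∈ B, g ∈ Submodule.span ℤ (Set.range b) ∧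
        ∃ y ∈ frontier A, ‖y - g‖ ≤ R) ∧
      |(Nat.card (A ∩ (Submodule.span ℤ (Set.range b) : Set E) : Set E) : ℝ) *
          μ.real (ZSpan.fundamentalDomain b) - μ.real A|
        ≤ (B.card : ℝ) * μ.real (ZSpan.fundamentalDomain b) := by
  classical
  set Λ := Submodule.span ℤ (Set.range b) with hΛ
  set F := ZSpan.fundamentalDomain b with hF
  have hfd : IsAddFundamentalDomain Λ F μ := ZSpan.isAddFundamentalDomain b μ
  have : MeasurableVAdd Λ E := (inferInstance : MeasurableVAdd Λ.toAddSubgroup E)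
  have : VAddInvariantMeasure Λ E μ := (inferInstance : VAddInvariantMeasure Λ.toAddSubgroup E μ)
  have h1 : μ A = ∑' g : Λ, μ (A ∩ (g +ᵥ F)) := hfd.measure_eq_tsum' A
  obtain ⟨RA, hRA⟩ : ∃ RA, ∀ x ∈ A, ‖x‖ ≤ RA := isBounded_iff_forall_norm_le.mp hA₁
  have h0F : (0 : E) ∈ F := by
    rw [hF, ZSpan.mem_fundamentalDomain]
    intro i; simp
  have hR0 : 0 ≤ R := (norm_nonneg _).trans (hR 0 h0F)
  have hfin : (closedBall (0:E) (RA + R) ∩ (Λ : Set E)).Finite :=
    ZSpan.setFinite_inter b isBounded_closedBall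
  have hfinT : {g : Λ | (g : E) ∈ closedBall (0:E) (RA + R)}.Finite := by
    refine Set.Finite.of_injOn (f := Subtype.val) ?_ Subtype.val_injective.injOn hfin
    intro g hg; exact ⟨hg, g.2⟩
  set T : Finset Λ := hfinT.toFinset with hTdef
  have hvadd : ∀ (g : Λ) (x : E), g +ᵥ x = (g : E) + x := fun g x => rfl
  have hT : ∀ g : Λ, g ∉ T → (g : E) ∉ A ∧ A ∩ (g +ᵥ F) = ∅ := by
    intro g hg
    rw [Set.Finite.mem_toFinset, Set.mem_ofPred_eq, mem_closedBall, dist_zero_right, not_le] at hg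
    constructor
    · intro hgA; have := hRA _ hgA; linarith
    · rw [Set.eq_empty_iff_forall_notMem]
      rintro x ⟨hxA, hxF⟩
      obtain ⟨f, hf, rfl⟩ := hxF
      have h1 : ‖(g : E) + f‖ ≤ RA := hRA _ hxA
      have h2 := hR f hf
      have h3 : ‖(g : E)‖ ≤ ‖(g : E) + f‖ + ‖f‖ := by
        calc ‖(g : E)‖ = ‖((g : E) + f) - f‖ := by rw [add_sub_cancel_right]
          _ ≤ ‖(g : E) + f‖ + ‖f‖ := norm_sub_le _ _
      linarith
  have hAfin : μ A ≠ ⊤ := hA₁.measure_lt_top.ne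
  have h2 : μ A = ∑ g ∈ T, μ (A ∩ (g +ᵥ F)) := by
    rw [h1]; exact tsum_eq_sum (fun g hg => by rw [(hT g hg).2, measure_empty])
  have h3 : μ.real A = ∑ g ∈ T, μ.real (A ∩ (g +ᵥ F)) := by
    rw [measureReal_def, h2, ENNReal.toReal_sum]
    · rfl
    · intro g _; exact measure_ne_top_of_subset Set.inter_subset_left hAfin
  have h4 : (Nat.card (A ∩ (Λ : Set E) : Set E) : ℝ) =
      ∑ g ∈ T, (if (g : E) ∈ A then (1:ℝ) else 0) := by
    rw [Finset.sum_boole]
    congr 1
    rw [Nat.card_coe_set_eq]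
    have : (A ∩ (Λ : Set E)) = ((T.filter (fun g : Λ => (g : E) ∈ A)).map
        ⟨Subtype.val, Subtype.val_injective⟩ : Finset E) := by
      ext x
      simp only [Set.mem_inter_iff, SetLike.mem_coe, Finset.coe_map, Function.Embedding.coeFn_mk,
        Set.mem_image, Finset.mem_filter]
      constructor
      · rintro ⟨hxA, hxΛ⟩
        refine ⟨⟨x, hxΛ⟩, ⟨?_, hxA⟩, rfl⟩
        by_contra hcon
        exact (hT ⟨x, hxΛ⟩ hcon).1 hxA
      · rintro ⟨g, ⟨_, hgA⟩, rfl⟩
        exact ⟨hgA, g.2⟩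
    rw [this, Set.ncard_coe_finset, Finset.card_map]
  -- measure of a cell
  have hFfin : μ F ≠ ⊤ := (ZSpan.fundamentalDomain_isBounded b).measure_lt_top.ne
  have hcell : ∀ g : Λ, μ (g +ᵥ F) = μ F := fun g => measure_vadd μ g F
  have hcellR : ∀ g : Λ, μ.real (g +ᵥ F) = μ.real F := fun g => by
    simp only [measureReal_def, hcell]
  have hcellsub : ∀ g : Λ, g +ᵥ F ⊆ closedBall (g : E) R := by
    intro g x hx
    obtain ⟨f, hf, rfl⟩ := hx
    rw [mem_closedBall, dist_eq_norm]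
    have : (g : E) + f - g = f := by abel
    show ‖(g : E) + f - g‖ ≤ R
    rw [this]; exact hR f hf
  let bad : Λ → Prop := fun g => ∃ y ∈ frontier A, ‖y - (g : E)‖ ≤ R
  refine ⟨(T.filter bad).map ⟨Subtype.val, Subtype.val_injective⟩, ?_, ?_⟩
  · intro g hg
    simp only [Finset.mem_map, Finset.mem_filter, Function.Embedding.coeFn_mk] at hg
    obtain ⟨g', ⟨_, hbad⟩, rfl⟩ := hg
    exact ⟨g'.2, hbad⟩
  · rw [Finset.card_map, h3, h4, Finset.sum_mul, ← Finset.sum_sub_distrib]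
    have hterm : ∀ g ∈ T, |(if (g : E) ∈ A then (1:ℝ) else 0) * μ.real F - μ.real (A ∩ (g +ᵥ F))|
        ≤ if bad g then μ.real F else 0 := by
      intro g _
      have hm0 : 0 ≤ μ.real (A ∩ (g +ᵥ F)) := measureReal_nonneg
      have hm1 : μ.real (A ∩ (g +ᵥ F)) ≤ μ.real F := by
        have : μ.real (A ∩ (g +ᵥ F)) ≤ μ.real (g +ᵥ F) :=
          measureReal_mono Set.inter_subset_right (by rw [hcell]; exact hFfin)
        rwa [hcellR] at this
      have hF0 : 0 ≤ μ.real F := measureReal_nonneg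
      by_cases hb : bad g
      · rw [if_pos hb]
        split_ifs
        · rw [one_mul, abs_le]; constructor <;> linarith
        · rw [zero_mul, abs_le]; constructor <;> linarith
      · rw [if_neg hb]
        have hb' : ∀ y ∈ frontier A, R < ‖y - (g : E)‖ := by
          intro y hy
          by_contra hcon
          exact hb ⟨y, hy, not_lt.mp hcon⟩
        rcases cfl_ball_subset_or_disjoint hb' with hsub | hdis
        · have hgA : (g : E) ∈ A := hsub (mem_closedBall_self hR0)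
          have : A ∩ (g +ᵥ F) = g +ᵥ F :=
            Set.inter_eq_right.mpr ((hcellsub g).trans hsub)
          rw [if_pos hgA, this, hcellR, one_mul, sub_self, abs_zero]
        · have hgA : (g : E) ∉ A := fun h =>
            Set.disjoint_left.mp hdis (mem_closedBall_self hR0) h
          have : A ∩ (g +ᵥ F) = ∅ := by
            rw [Set.eq_empty_iff_forall_notMem]
            rintro x ⟨hxA, hxF⟩
            exact Set.disjoint_left.mp hdis (hcellsub g hxF) hxA
          rw [if_neg hgA, this, measureReal_empty, zero_mul, sub_self, abs_zero]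
    calc |∑ g ∈ T, ((if (g : E) ∈ A then (1:ℝ) else 0) * μ.real F - μ.real (A ∩ (g +ᵥ F)))|
        ≤ ∑ g ∈ T, |(if (g : E) ∈ A then (1:ℝ) else 0) * μ.real F - μ.real (A ∩ (g +ᵥ F))| :=
          Finset.abs_sum_le_sum_abs _ _
      _ ≤ ∑ g ∈ T, (if bad g then μ.real F else 0) := Finset.sum_le_sum hterm
      _ = ((T.filter bad).card : ℝ) * μ.real F := by
          rw [← Finset.sum_filter, Finset.sum_const, nsmul_eq_mul]

end core

section count

variable {E : Type*} [NormedAddCommGroup E] [NormedSpace ℝ E] [FiniteDimensional ℝ E]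
variable {ι : Type*} [Fintype ι] (b : Basis ι ℝ E)

/-- A ball of fixed radius contains a bounded number of lattice points, uniformly in the
centre. -/
theorem cfl_ball_count (R : ℝ) :
    ∃ C₀ : ℕ, ∀ (p : E) (B : Finset E),
      (∀ g ∈ B, g ∈ Submodule.span ℤ (Set.range b) ∧ ‖g - p‖ ≤ R) → B.card ≤ C₀ := by
  classical
  have hfin : (closedBall (0:E) (2 * R) ∩ (Submodule.span ℤ (Set.range b) : Set E)).Finite :=
    ZSpan.setFinite_inter b isBounded_closedBall
  refine ⟨hfin.toFinset.card, fun p B hB => ?_⟩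
  rcases B.eq_empty_or_nonempty with rfl | ⟨g₀, hg₀⟩
  · simp
  · refine Finset.card_le_card_of_injOn (fun g => g - g₀) ?_ ?_
    · intro g hg
      rw [Finset.mem_coe, Set.Finite.mem_toFinset]
      refine ⟨?_, Submodule.sub_mem _ (hB g hg).1 (hB g₀ hg₀).1⟩
      rw [mem_closedBall, dist_zero_right]
      calc ‖g - g₀‖ = ‖(g - p) - (g₀ - p)‖ := by rw [sub_sub_sub_cancel_right]
        _ ≤ ‖g - p‖ + ‖g₀ - p‖ := norm_sub_le _ _
        _ ≤ R + R := add_le_add (hB g hg).2 (hB g₀ hg₀).2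
        _ = 2 * R := by ring
    · intro g _ g' _ h
      exact sub_left_injective h

/-- Lattice points lying close to a finite net are at most a constant times the size of the
net. -/
theorem cfl_net_count (R : ℝ) :
    ∃ C₀ : ℕ, ∀ (P B : Finset E),
      (∀ g ∈ B, g ∈ Submodule.span ℤ (Set.range b) ∧ ∃ p ∈ P, ‖g - p‖ ≤ R) →
        B.card ≤ C₀ * P.card := by
  classical
  obtain ⟨C₀, hC₀⟩ := cfl_ball_count b R
  refine ⟨C₀, fun P B hB => ?_⟩
  have hsub : B ⊆ P.biUnion (fun p => B.filter (fun g => ‖g - p‖ ≤ R)) := by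
    intro g hg
    obtain ⟨p, hp, hgp⟩ := (hB g hg).2
    exact Finset.mem_biUnion.mpr ⟨p, hp, Finset.mem_filter.mpr ⟨hg, hgp⟩⟩
  calc B.card ≤ (P.biUnion (fun p => B.filter (fun g => ‖g - p‖ ≤ R))).card :=
        Finset.card_le_card hsub
    _ ≤ ∑ p ∈ P, (B.filter (fun g => ‖g - p‖ ≤ R)).card := Finset.card_biUnion_le
    _ ≤ ∑ _p ∈ P, C₀ := Finset.sum_le_sum (fun p _ => hC₀ p _ (fun g hg => by
        rw [Finset.mem_filter] at hg
        exact ⟨(hB g hg.1).1, hg.2⟩))
    _ = C₀ * P.card := by rw [Finset.sum_const, smul_eq_mul, mul_comm]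

end count

section zspan

variable {E : Type*} [NormedAddCommGroup E] [NormedSpace ℝ E]

theorem cfl_frontier_smul {t : ℝ} (ht : t ≠ 0) (s : Set E) :
    frontier (t • s) = t • frontier s := by
  have := (Homeomorph.smulOfNeZero t ht).image_frontier s
  simpa [Set.image_smul] using this.symm

variable [FiniteDimensional ℝ E] [MeasurableSpace E] [BorelSpace E]
variable {ι : Type*} [Fintype ι] (b : Basis ι ℝ E)
variable (μ : Measure E) [Measure.IsAddHaarMeasure μ]

/-- Lattice point count with error term for the lattice spanned by a basis. -/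
theorem cfl_zspan_main {s : Set E} (hs₁ : IsBounded s) {d : ℕ}
    (hs₃ : cfl_BoxDim d (frontier s)) :
    ∃ C : ℝ, ∀ t : ℝ, 1 ≤ t →
      |(Nat.card (t • s ∩ (Submodule.span ℤ (Set.range b) : Set E) : Set E) : ℝ) *
          μ.real (ZSpan.fundamentalDomain b) - μ.real s * t ^ finrank ℝ E| ≤ C * t ^ d := by
  classical
  obtain ⟨R, hR⟩ : ∃ R, ∀ f ∈ ZSpan.fundamentalDomain b, ‖f‖ ≤ R :=
    isBounded_iff_forall_norm_le.mp (ZSpan.fundamentalDomain_isBounded b)
  obtain ⟨C₀, hC₀⟩ := cfl_net_count b (R + 1)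
  obtain ⟨C₁, hC₁⟩ := hs₃
  have hF0 : 0 ≤ μ.real (ZSpan.fundamentalDomain b) := measureReal_nonneg
  refine ⟨C₀ * C₁ * μ.real (ZSpan.fundamentalDomain b), fun t ht => ?_⟩
  have ht0 : 0 < t := lt_of_lt_of_le one_pos ht
  obtain ⟨P, hPcard, hPcov⟩ := hC₁ t⁻¹ (inv_pos.mpr ht0) (inv_le_one_of_one_le₀ ht)
  rw [inv_inv] at hPcard
  obtain ⟨B, hB, hest⟩ := cfl_core b μ (hs₁.smul₀ t) hR
  have hvol : μ.real (t • s) = μ.real s * t ^ finrank ℝ E := by
    rw [measureReal_def, Measure.addHaar_smul_of_nonneg μ ht0.le, ENNReal.toReal_mul,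
      ENNReal.toReal_ofReal (pow_nonneg ht0.le _), mul_comm, measureReal_def]
  rw [hvol] at hest
  have hBcard : B.card ≤ C₀ * (P.image (fun p => t • p)).card := by
    refine hC₀ _ B (fun g hg => ⟨(hB g hg).1, ?_⟩)
    obtain ⟨y, hy, hyg⟩ := (hB g hg).2
    rw [cfl_frontier_smul ht0.ne'] at hy
    obtain ⟨y', hy', rfl⟩ := hy
    have := hPcov hy'
    simp only [Set.mem_iUnion, mem_closedBall, exists_prop] at this
    obtain ⟨p, hp, hyp⟩ := this
    refine ⟨t • p, Finset.mem_image_of_mem _ hp, ?_⟩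
    have h1 : ‖t • y' - t • p‖ ≤ 1 := by
      rw [← smul_sub, norm_smul, Real.norm_of_nonneg ht0.le, ← dist_eq_norm]
      calc t * dist y' p ≤ t * t⁻¹ := mul_le_mul_of_nonneg_left hyp ht0.le
        _ = 1 := mul_inv_cancel₀ ht0.ne'
    calc ‖g - t • p‖ = ‖(t • y' - t • p) - (t • y' - g)‖ := by rw [sub_sub_sub_cancel_left]
      _ ≤ ‖t • y' - t • p‖ + ‖t • y' - g‖ := norm_sub_le _ _
      _ ≤ 1 + R := add_le_add h1 hyg
      _ = R + 1 := add_comm _ _
  have hBcard' : (B.card : ℝ) ≤ C₀ * (C₁ * t ^ d) := by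
    have hle : ((P.image (fun p : E => t • p)).card : ℝ) ≤ (P.card : ℝ) := by
      exact_mod_cast Finset.card_image_le
    calc (B.card : ℝ) ≤ ((C₀ * (P.image (fun p : E => t • p)).card : ℕ) : ℝ) := by
          exact_mod_cast hBcard
      _ = C₀ * ((P.image (fun p : E => t • p)).card : ℝ) := by push_cast; ring
      _ ≤ C₀ * (P.card : ℝ) := by gcongr
      _ ≤ C₀ * (C₁ * t ^ d) := by gcongr
  calc _ ≤ (B.card : ℝ) * μ.real (ZSpan.fundamentalDomain b) := hest
    _ ≤ (C₀ * (C₁ * t ^ d)) * μ.real (ZSpan.fundamentalDomain b) := by gcongr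
    _ = C₀ * C₁ * μ.real (ZSpan.fundamentalDomain b) * t ^ d := by ring

end zspan

section main

variable {E : Type*} [NormedAddCommGroup E] [NormedSpace ℝ E] [FiniteDimensional ℝ E]
  [MeasurableSpace E] [BorelSpace E]
variable (L : Submodule ℤ E) [DiscreteTopology L] [IsZLattice ℝ L]
variable (μ : Measure E) [Measure.IsAddHaarMeasure μ]

/-- Lattice point count with error term, general exponent. -/
theorem cfl_card_smul_inter_sub_le' {s : Set E} (hs₁ : IsBounded s) {d : ℕ}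
    (hs₃ : cfl_BoxDim d (frontier s)) :
    ∃ C : ℝ, ∀ t : ℝ, 1 ≤ t →
      |(Nat.card (t • s ∩ L : Set E) : ℝ) - μ.real s / ZLattice.covolume L μ * t ^ finrank ℝ E|
        ≤ C * t ^ d := by
  classical
  let b := Module.Free.chooseBasis ℤ L
  have hspan : Submodule.span ℤ (Set.range (b.ofZLatticeBasis ℝ L)) = L :=
    b.ofZLatticeBasis_span ℝ L
  have hcov : ZLattice.covolume L μ = μ.real (ZSpan.fundamentalDomain (b.ofZLatticeBasis ℝ L)) :=
    ZLattice.covolume_eq_measure_fundamentalDomain L μ (ZLattice.isAddFundamentalDomain b μ)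
  have hpos : 0 < ZLattice.covolume L μ := ZLattice.covolume_pos L μ
  obtain ⟨C, hC⟩ := cfl_zspan_main (b.ofZLatticeBasis ℝ L) μ hs₁ hs₃
  refine ⟨C / ZLattice.covolume L μ, fun t ht => ?_⟩
  have := hC t ht
  rw [hspan, ← hcov] at this
  have h2 : (Nat.card (t • s ∩ L : Set E) : ℝ) - μ.real s / ZLattice.covolume L μ * t ^ finrank ℝ E
      = ((Nat.card (t • s ∩ L : Set E) : ℝ) * ZLattice.covolume L μ - μ.real s * t ^ finrank ℝ E)
        / ZLattice.covolume L μ := by
    field_simp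
  rw [h2, abs_div, abs_of_pos hpos, div_mul_eq_mul_div]
  gcongr

theorem cfl_card_smul_inter_sub_le {s : Set E} (hs₁ : IsBounded s) (_hs₂ : MeasurableSet s)
    (hs₃ : cfl_BoxDim (finrank ℝ E - 1) (frontier s)) :
    ∃ C : ℝ, ∀ t : ℝ, 1 ≤ t →
      |(Nat.card (t • s ∩ L : Set E) : ℝ) - μ.real s / ZLattice.covolume L μ * t ^ finrank ℝ E|
        ≤ C * t ^ (finrank ℝ E - 1) :=
  cfl_card_smul_inter_sub_le' L μ hs₁ hs₃

omit [FiniteDimensional ℝ E] [MeasurableSpace E] [BorelSpace E] in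
theorem cfl_smul_cone {n : ℕ} {X : Set E} (hX : ∀ ⦃x⦄ ⦃r : ℝ⦄, x ∈ X → 0 < r → r • x ∈ X)
    {F : E → ℝ} (hF₁ : ∀ x ⦃r : ℝ⦄, 0 ≤ r → F (r • x) = r ^ n * (F x)) {c : ℝ} (hc : 0 < c) :
    c • {x ∈ X | F x ≤ 1} = {x ∈ X | F x ≤ c ^ n} := by
  ext x
  simp_rw [Set.mem_smul_set_iff_inv_smul_mem₀ hc.ne', Set.mem_ofPred_eq, hF₁ _
    (inv_pos_of_pos hc).le, inv_pow, inv_mul_le_iff₀ (pow_pos hc _), mul_one, and_congr_left_iff]
  exact fun _ ↦ ⟨fun h ↦ (smul_inv_smul₀ hc.ne' x) ▸ hX h hc, fun h ↦ hX h (inv_pos_of_pos hc)⟩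

/-- Cone version, the error-term analogue of `ZLattice.covolume.tendsto_card_le_div'`. -/
theorem cfl_card_le_sub_le [Nontrivial E] {X : Set E} {F : E → ℝ}
    (hX : ∀ ⦃x⦄ ⦃r : ℝ⦄, x ∈ X → 0 < r → r • x ∈ X)
    (h₁ : ∀ x ⦃r : ℝ⦄, 0 ≤ r → F (r • x) = r ^ finrank ℝ E * (F x))
    (h₂ : IsBounded {x ∈ X | F x ≤ 1}) (h₃ : MeasurableSet {x ∈ X | F x ≤ 1})
    (h₄ : cfl_BoxDim (finrank ℝ E - 1) (frontier {x ∈ X | F x ≤ 1})) :
    ∃ C : ℝ, ∀ c : ℝ, 1 ≤ c →
      |(Nat.card ({x ∈ X | F x ≤ c} ∩ L : Set E) : ℝ) -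
          μ.real {x ∈ X | F x ≤ 1} / ZLattice.covolume L μ * c|
        ≤ C * c ^ (1 - (finrank ℝ E : ℝ)⁻¹) := by
  obtain ⟨C, hC⟩ := cfl_card_smul_inter_sub_le L μ h₂ h₃ h₄
  refine ⟨C, fun c hc => ?_⟩
  have hc0 : 0 < c := lt_of_lt_of_le one_pos hc
  have hn : finrank ℝ E ≠ 0 := (finrank_pos (R := ℝ) (M := E)).ne'
  have hn1 : 1 ≤ finrank ℝ E := Nat.one_le_iff_ne_zero.mpr hn
  set t : ℝ := c ^ ((finrank ℝ E : ℝ)⁻¹) with ht
  have ht1 : 1 ≤ t := Real.one_le_rpow hc (inv_nonneg.mpr (Nat.cast_nonneg _))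
  have ht0 : 0 < t := lt_of_lt_of_le one_pos ht1
  have htn : t ^ finrank ℝ E = c := Real.rpow_inv_natCast_pow hc0.le hn
  have htn1 : t ^ (finrank ℝ E - 1) = c ^ (1 - (finrank ℝ E : ℝ)⁻¹) := by
    rw [ht, ← Real.rpow_natCast, ← Real.rpow_mul hc0.le, Nat.cast_sub hn1, Nat.cast_one]
    congr 1
    have : (finrank ℝ E : ℝ) ≠ 0 := Nat.cast_ne_zero.mpr hn
    field_simp
  have := hC t ht1
  rwa [cfl_smul_cone hX h₁ ht0, htn, htn1] at this

end main

end Fermat.Agent.Lib.CFT
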