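/-
S14 / WP-C3a(ii-a): generic grid covering of the faces of a unit cube under a Lipschitz map.
-/
import Mathlib

set_option autoImplicit false
set_option linter.unusedSectionVars false

namespace Fermat.Agent.Lib.CFT

open Metric

section grid

variable {P : Type*} [Fintype P] [DecidableEq P]

/-- the grid point on the face `t j = δ` with numerators `g` -/
noncomputable def cfn_gridPt (N : ℕ) (j : P) (δ : ℝ) (g : {i : P // i ≠ j} → Fin (N + 1)) :
    P → ℝ := fun i => if h : i = j then δ else ((g ⟨i, h⟩ : ℕ) : ℝ) / N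

theorem cfn_gridPt_mem_Icc {N : ℕ} (hN : 0 < N) (j : P) {δ : ℝ} (hδ : δ = 0 ∨ δ = 1)
    (g : {i : P // i ≠ j} → Fin (N + 1)) :
    cfn_gridPt N j δ g ∈ Set.Icc (0 : P → ℝ) 1 := by
  have hN' : (0 : ℝ) < N := Nat.cast_pos.mpr hN
  refine ⟨fun i => ?_, fun i => ?_⟩
  · simp only [cfn_gridPt, Pi.zero_apply]
    split_ifs with h
    · rcases hδ with rfl | rfl <;> norm_num
    · positivity
  · simp only [cfn_gridPt, Pi.one_apply]
    split_ifs with h
    · rcases hδ with rfl | rfl <;> norm_num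
    · rw [div_le_one hN']
      have := (g ⟨i, h⟩).2
      exact_mod_cast Nat.lt_succ_iff.mp this

theorem cfn_exists_gridPt {N : ℕ} (hN : 0 < N) (j : P) {δ : ℝ} {t : P → ℝ}
    (ht : t ∈ Set.Icc (0 : P → ℝ) 1) (htj : t j = δ) :
    ∃ g : {i : P // i ≠ j} → Fin (N + 1), dist t (cfn_gridPt N j δ g) ≤ 1 / N := by
  have hN' : (0 : ℝ) < N := Nat.cast_pos.mpr hN
  have hfl : ∀ i : P, ⌊t i * N⌋₊ < N + 1 := fun i => by
    rw [Nat.lt_succ_iff]
    apply Nat.floor_le_of_le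
    calc t i * N ≤ 1 * N := by
          apply mul_le_mul_of_nonneg_right (ht.2 i) hN'.le
      _ = N := one_mul _
  refine ⟨fun i => ⟨⌊t i.1 * N⌋₊, hfl i.1⟩, ?_⟩
  rw [dist_pi_le_iff (by positivity)]
  intro i
  simp only [cfn_gridPt]
  split_ifs with h
  · rw [h, htj, dist_self]; positivity
  · rw [Real.dist_eq]
    have h0 : 0 ≤ t i * N := mul_nonneg (ht.1 i) hN'.le
    have h1 := Nat.floor_le h0
    have h2 := Nat.lt_floor_add_one (t i * N)
    have : t i - (⌊t i * N⌋₊ : ℝ) / N = (t i * N - ⌊t i * N⌋₊) / N := by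
      field_simp
    rw [this, abs_div, abs_of_pos hN', div_le_div_iff_of_pos_right hN', abs_le]
    constructor <;> linarith

variable {E : Type*} [PseudoMetricSpace E]

theorem cfn_face_cover {Ψ : (P → ℝ) → E} {Λ : NNReal}
    (hΨ : LipschitzOnWith Λ Ψ (Set.Icc (0 : P → ℝ) 1)) {N : ℕ} (hN : 0 < N) (j : P) {δ : ℝ}
    (hδ : δ = 0 ∨ δ = 1) {t : P → ℝ} (ht : t ∈ Set.Icc (0 : P → ℝ) 1) (htj : t j = δ) :
    ∃ g : {i : P // i ≠ j} → Fin (N + 1),
      Ψ t ∈ closedBall (Ψ (cfn_gridPt N j δ g)) ((Λ : ℝ) / N) := by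
  obtain ⟨g, hg⟩ := cfn_exists_gridPt hN j ht htj
  refine ⟨g, ?_⟩
  rw [mem_closedBall]
  calc dist (Ψ t) (Ψ (cfn_gridPt N j δ g))
      ≤ Λ * dist t (cfn_gridPt N j δ g) :=
        hΨ.dist_le_mul _ ht _ (cfn_gridPt_mem_Icc hN j hδ g)
    _ ≤ Λ * (1 / N) := by gcongr
    _ = (Λ : ℝ) / N := by ring

end grid

end Fermat.Agent.Lib.CFT
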