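/-
S14 / WP-C3a(ii-a), part 1: the frontier of Mathlib's `normLeOne K` lies over the image under
`expMapBasis` of the boundary of the parameter box (plus the origin).
-/
import Mathlib

set_option autoImplicit false

open NumberField NumberField.mixedEmbedding NumberField.mixedEmbedding.fundamentalCone
  NumberField.InfinitePlace NumberField.Units NumberField.Units.dirichletUnitTheorem

namespace Fermat.Agent.Lib.CFT

variable (K : Type*) [Field K] [NumberField K]

/-- the boundary of the parameter box -/
def cfn_bdry : Set (realSpace K) :=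
  closure (paramSet K) \ interior (paramSet K)

theorem cfn_frontier_normLeOne_subset :
    frontier (normLeOne K) ⊆
      normAtAllPlaces ⁻¹' (expMapBasis '' (cfn_bdry K) ∪ {0}) := by
  intro x hx
  rw [frontier, Set.mem_sdiff] at hx
  obtain ⟨hx₁, hx₂⟩ := hx
  have h₁ := closure_normLeOne_subset K hx₁
  rw [Set.mem_preimage, compactSet_eq_union] at h₁
  rw [Set.mem_preimage]
  rcases h₁ with ⟨y, hy, hxy⟩ | h₀
  · left
    refine ⟨y, ⟨hy, fun hy' => hx₂ ?_⟩, hxy⟩
    apply subset_interior_normLeOne K
    rw [Set.mem_preimage]
    exact ⟨y, hy', hxy⟩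
  · right; exact h₀

end Fermat.Agent.Lib.CFT
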