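/-
S14 / WP-C3a(ii-a), part 2: explicit C¹ charts for the set lying over the boundary of the
parameter box of `normLeOne K`.
-/
import Fermat.Agent.Lib.CFT.CountNormLeOneA

set_option autoImplicit false

open NumberField NumberField.mixedEmbedding NumberField.mixedEmbedding.fundamentalCone
  NumberField.InfinitePlace NumberField.Units NumberField.Units.dirichletUnitTheorem

namespace Fermat.Agent.Lib.CFT

variable (K : Type*) [Field K] [NumberField K]

open scoped Classical in
/-- `(c, y') ↦ c • expMapBasis (0, y')` in exp-log form -/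
noncomputable def cfn_G (s : realSpace K) : realSpace K := fun w =>
  s w₀ * ∏ i : {w : InfinitePlace K // w ≠ w₀},
    Real.exp (Real.log (w (algebraMap (𝓞 K) K (fundSystem K (equivFinRank.symm i)))) * s i)

theorem cfn_G_contDiff : ContDiff ℝ 1 (cfn_G K) := by
  unfold cfn_G
  fun_prop

theorem cfn_G_zero : cfn_G K 0 = 0 := by
  ext w
  simp [cfn_G]

open scoped Classical in
theorem cfn_G_nonneg {s : realSpace K} (hs : 0 ≤ s w₀) (w : InfinitePlace K) :
    0 ≤ cfn_G K s w := by
  unfold cfn_G
  exact mul_nonneg hs (Finset.prod_nonneg fun i _ => (Real.exp_pos _).le)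

open scoped Classical in
theorem cfn_G_eq (y : realSpace K) :
    expMapBasis y = cfn_G K (fun w => if w = w₀ then Real.exp (y w₀) else y w) := by
  rw [expMapBasis_apply']
  ext w
  simp only [cfn_G, Pi.smul_apply, smul_eq_mul, if_true]
  congr 1
  refine Finset.prod_congr rfl fun i _ => ?_
  rw [if_neg i.2, Real.rpow_def_of_pos]
  exact InfinitePlace.pos_iff.mpr (by
    simp only [ne_eq, FaithfulSMul.algebraMap_eq_zero_iff]
    exact_mod_cast Units.ne_zero _)

/-- the faces of the unit cube of `realSpace K` -/
def cfn_faces : Set (realSpace K) :=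
  {s | s ∈ Set.Icc (0 : realSpace K) 1 ∧ ∃ w, s w = 0 ∨ s w = 1}

open scoped Classical in
theorem cfn_image_bdry_subset :
    expMapBasis '' (cfn_bdry K) ∪ {0} ⊆ cfn_G K '' (cfn_faces K) := by
  rintro x (⟨y, ⟨hy₁, hy₂⟩, rfl⟩ | hx)
  · refine ⟨_, ⟨?_, ?_⟩, (cfn_G_eq K y).symm⟩
    · rw [closure_paramSet, Set.mem_univ_pi] at hy₁
      rw [Set.mem_Icc]
      refine ⟨fun w => ?_, fun w => ?_⟩
      · have := hy₁ w
        by_cases hw : w = w₀
        · simp only [Pi.zero_apply, hw, if_true]; exact (Real.exp_pos _).le
        · simp only [Pi.zero_apply, hw, if_false] at this ⊢; exact this.1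
      · have := hy₁ w
        by_cases hw : w = w₀
        · subst hw
          simp only [Pi.one_apply, if_true] at this ⊢
          exact Real.exp_le_one_iff.mpr this
        · simp only [Pi.one_apply, hw, if_false] at this ⊢; exact this.2
    · rw [closure_paramSet, Set.mem_univ_pi] at hy₁
      rw [interior_paramSet, Set.mem_univ_pi] at hy₂
      push Not at hy₂
      obtain ⟨w, hw⟩ := hy₂
      refine ⟨w, ?_⟩
      have h1 := hy₁ w
      by_cases hw0 : w = w₀
      · subst hw0
        simp only [if_true] at h1 hw ⊢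
        right
        have : y w₀ = 0 := le_antisymm h1 (not_lt.mp hw)
        rw [this, Real.exp_zero]
      · simp only [hw0, if_false] at h1 hw ⊢
        rw [Set.mem_Ioo, not_and_or, not_lt, not_lt] at hw
        rcases hw with hw | hw
        · left; exact le_antisymm hw h1.1
        · right; exact le_antisymm h1.2 hw
  · rw [Set.mem_singleton_iff] at hx
    subst hx
    refine ⟨0, ⟨⟨le_refl _, fun w => zero_le_one⟩, w₀, Or.inl rfl⟩, cfn_G_zero K⟩

end Fermat.Agent.Lib.CFT
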