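/-
S14 / WP-C3a(ii-a), part 3: charts with signs and angles on the mixed space, and the
covering-number bound for the frontier of `normLeOne K`.
-/
import Fermat.Agent.Lib.CFT.CountNormLeOneB
import Fermat.Agent.Lib.CFT.CountGrid

set_option autoImplicit false

open NumberField NumberField.mixedEmbedding NumberField.mixedEmbedding.fundamentalCone
  NumberField.InfinitePlace NumberField.Units NumberField.Units.dirichletUnitTheorem

namespace Fermat.Agent.Lib.CFT

variable (K : Type*) [Field K] [NumberField K]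

open scoped Classical

/-- parameter index: one coordinate per place, one angle per complex place -/
abbrev cfn_P : Type _ := InfinitePlace K ⊕ {w : InfinitePlace K // IsComplex w}

/-- the chart: modulus `cfn_G`, sign `ε` at real places, angle `2π t` at complex places -/
noncomputable def cfn_Psi (ε : {w : InfinitePlace K // IsReal w} → Bool) (t : cfn_P K → ℝ) :
    mixedSpace K :=
  (fun w => (if ε w then (1:ℝ) else -1) * cfn_G K (fun v => t (Sum.inl v)) w.1,
   fun w => ((cfn_G K (fun v => t (Sum.inl v)) w.1 : ℝ) : ℂ) *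
      Complex.exp (2 * Real.pi * Complex.I * ((t (Sum.inr w) : ℝ) : ℂ)))

theorem cfn_Psi_contDiff (ε : {w : InfinitePlace K // IsReal w} → Bool) :
    ContDiff ℝ 1 (cfn_Psi K ε) := by
  have hG := cfn_G_contDiff K
  have key : ∀ f : ℝ → ℂ, ContDiff ℝ 1 f → ContDiff ℝ 1 (fun t : cfn_P K → ℝ =>
      ((fun w : {w : InfinitePlace K // IsReal w} =>
          (if ε w then (1:ℝ) else -1) * cfn_G K (fun v => t (Sum.inl v)) w.1,
        fun w : {w : InfinitePlace K // IsComplex w} =>
          f (cfn_G K (fun v => t (Sum.inl v)) w.1) *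
            Complex.exp (2 * Real.pi * Complex.I * f (t (Sum.inr w)))) : mixedSpace K)) := by
    intro f hf
    fun_prop
  exact key _ Complex.ofRealCLM.contDiff

theorem cfn_Psi_lipschitz (ε : {w : InfinitePlace K // IsReal w} → Bool) :
    ∃ Λ : NNReal, LipschitzOnWith Λ (cfn_Psi K ε) (Set.Icc (0 : cfn_P K → ℝ) 1) := by
  have h1 : LocallyLipschitz (cfn_Psi K ε) := (cfn_Psi_contDiff K ε).locallyLipschitz
  have h2 : LocallyLipschitzOn (Set.Icc (0 : cfn_P K → ℝ) 1) (cfn_Psi K ε) :=
    h1.locallyLipschitzOn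
  exact h2.exists_lipschitzOnWith_of_compact isCompact_Icc

/-- polar form with angle in `[0, 1]` turns -/
theorem cfn_exists_angle (z : ℂ) :
    ∃ θ : ℝ, θ ∈ Set.Icc (0:ℝ) 1 ∧
      z = ((‖z‖ : ℝ) : ℂ) * Complex.exp (2 * Real.pi * Complex.I * ((θ : ℝ) : ℂ)) := by
  have hpi : (0:ℝ) < Real.pi := Real.pi_pos
  have hz : z = ((‖z‖ : ℝ) : ℂ) * Complex.exp (Complex.arg z * Complex.I) :=
    (Complex.norm_mul_exp_arg_mul_I z).symm
  by_cases h : 0 ≤ Complex.arg z
  · refine ⟨Complex.arg z / (2 * Real.pi), ⟨by positivity, ?_⟩, ?_⟩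
    · rw [div_le_one (by positivity)]
      have := Complex.arg_le_pi z
      linarith
    · conv_lhs => rw [hz]
      congr 2
      push_cast
      field_simp
  · push Not at h
    refine ⟨Complex.arg z / (2 * Real.pi) + 1, ⟨?_, ?_⟩, ?_⟩
    · have := Complex.neg_pi_lt_arg z
      have h2 : -1 ≤ Complex.arg z / (2 * Real.pi) := by
        rw [le_div_iff₀ (by positivity)]; linarith
      linarith
    · have : Complex.arg z / (2 * Real.pi) < 0 := div_neg_of_neg_of_pos h (by positivity)
      linarith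
    · conv_lhs => rw [hz]
      congr 1
      have : 2 * (Real.pi : ℂ) * Complex.I * ((Complex.arg z / (2 * Real.pi) + 1 : ℝ) : ℂ)
          = Complex.arg z * Complex.I + 2 * Real.pi * Complex.I := by
        push_cast
        field_simp
      rw [this, Complex.exp_add, Complex.exp_two_pi_mul_I, mul_one]

theorem cfn_Psi_surj {x : mixedSpace K} {s : realSpace K}
    (hs : s ∈ Set.Icc (0 : realSpace K) 1) (hx : normAtAllPlaces x = cfn_G K s) :
    ∃ (ε : {w : InfinitePlace K // IsReal w} → Bool) (t : cfn_P K → ℝ),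
      t ∈ Set.Icc (0 : cfn_P K → ℝ) 1 ∧ (∀ v, t (Sum.inl v) = s v) ∧ cfn_Psi K ε t = x := by
  choose θ hθ₁ hθ₂ using fun w : {w : InfinitePlace K // IsComplex w} => cfn_exists_angle (x.2 w)
  refine ⟨fun w => decide (0 ≤ x.1 w), Sum.elim s θ, ⟨?_, ?_⟩, fun v => rfl, ?_⟩
  · rintro (v | w)
    · exact hs.1 v
    · exact (hθ₁ w).1
  · rintro (v | w)
    · exact hs.2 v
    · exact (hθ₁ w).2
  · have hG : (fun v => Sum.elim s θ (Sum.inl v)) = s := rfl
    refine Prod.ext (funext fun w => ?_) (funext fun w => ?_)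
    · simp only [cfn_Psi, hG]
      have h1 : cfn_G K s w.1 = ‖x.1 w‖ := by
        rw [← hx, normAtAllPlaces_apply, normAtPlace_apply_of_isReal w.2]
      rw [h1, Real.norm_eq_abs]
      by_cases h : 0 ≤ x.1 w
      · simp [h, abs_of_nonneg h]
      · simp [h, abs_of_neg (not_le.mp h)]
    · simp only [cfn_Psi, hG, Sum.elim_inr]
      have h1 : cfn_G K s w.1 = ‖x.2 w‖ := by
        rw [← hx, normAtAllPlaces_apply, normAtPlace_apply_of_isComplex w.2]
      rw [h1]
      exact (hθ₂ w).symm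

/-- every point of the frontier of `normLeOne K` is `Ψ_ε t` for some `t` on a face of the cube -/
theorem cfn_frontier_subset_charts {x : mixedSpace K} (hx : x ∈ frontier (normLeOne K)) :
    ∃ (ε : {w : InfinitePlace K // IsReal w} → Bool) (t : cfn_P K → ℝ) (j : cfn_P K) (δ : ℝ),
      t ∈ Set.Icc (0 : cfn_P K → ℝ) 1 ∧ (δ = 0 ∨ δ = 1) ∧ t j = δ ∧ cfn_Psi K ε t = x := by
  have h1 := cfn_frontier_normLeOne_subset K hx
  rw [Set.mem_preimage] at h1
  obtain ⟨s, ⟨hs, w, hw⟩, hsx⟩ := cfn_image_bdry_subset K h1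
  obtain ⟨ε, t, ht, hts, htx⟩ := cfn_Psi_surj K hs hsx.symm
  rcases hw with hw | hw
  · exact ⟨ε, t, Sum.inl w, 0, ht, Or.inl rfl, by rw [hts, hw], htx⟩
  · exact ⟨ε, t, Sum.inl w, 1, ht, Or.inr rfl, by rw [hts, hw], htx⟩

end Fermat.Agent.Lib.CFT
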