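/-
S14 / WP-C3a(ii-a), part 4: the covering-number bound for the frontier of `normLeOne K`:
it is covered by `O(N^(n-1))` balls of radius `O(1/N)`.
-/
import Fermat.Agent.Lib.CFT.CountNormLeOneC

set_option autoImplicit false

open NumberField NumberField.mixedEmbedding NumberField.mixedEmbedding.fundamentalCone
  NumberField.InfinitePlace NumberField.Units NumberField.Units.dirichletUnitTheorem

namespace Fermat.Agent.Lib.CFT

variable (K : Type*) [Field K] [NumberField K]

open scoped Classical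

theorem cfn_card_P : Fintype.card (cfn_P K) = Module.finrank ℚ K := by
  rw [Fintype.card_sum, card_eq_nrRealPlaces_add_nrComplexPlaces,
    ← card_add_two_mul_card_eq_rank K]
  simp only [nrComplexPlaces]
  ring

/-- index type of the centres -/
abbrev cfn_Idx (N : ℕ) : Type _ :=
  ({w : InfinitePlace K // IsReal w} → Bool) ×
    (Σ j : cfn_P K, Bool × ({i : cfn_P K // i ≠ j} → Fin (N + 1)))

theorem cfn_card_Idx (N : ℕ) :
    Fintype.card (cfn_Idx K N) =
      2 ^ nrRealPlaces K * (Module.finrank ℚ K * (2 * (N + 1) ^ (Module.finrank ℚ K - 1))) := by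
  have h1 : ∀ j : cfn_P K, Fintype.card {i : cfn_P K // i ≠ j} = Module.finrank ℚ K - 1 := by
    intro j
    rw [← cfn_card_P K]
    have := Fintype.card_subtype_compl (fun i : cfn_P K => i = j)
    simp only [Fintype.card_subtype_eq] at this
    exact this
  rw [Fintype.card_prod, Fintype.card_sigma]
  simp only [Fintype.card_prod, Fintype.card_bool, Fintype.card_fun, Fintype.card_fin, h1,
    Finset.sum_const, Finset.card_univ, cfn_card_P, smul_eq_mul, nrRealPlaces]

/-- the centre attached to an index -/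
noncomputable def cfn_centre (N : ℕ) (p : cfn_Idx K N) : mixedSpace K :=
  cfn_Psi K p.1 (cfn_gridPt N p.2.1 (if p.2.2.1 then 1 else 0) p.2.2.2)

/-- **Covering-number bound**: the frontier of `normLeOne K` is covered by at most
`C * N^(n-1)` closed balls of radius `Λ / N`, `n = [K : ℚ]`. -/
theorem cfn_normLeOne_cover :
    ∃ C Λ : ℝ, ∀ N : ℕ, 0 < N → ∃ T : Finset (mixedSpace K),
      (T.card : ℝ) ≤ C * (N : ℝ) ^ (Module.finrank ℚ K - 1) ∧
      frontier (normLeOne K) ⊆ ⋃ c ∈ T, Metric.closedBall c (Λ / N) := by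
  choose Λε hΛε using cfn_Psi_lipschitz K
  set Λ : NNReal := Finset.univ.sup Λε with hΛdef
  have hΛ : ∀ ε, LipschitzOnWith Λ (cfn_Psi K ε) (Set.Icc (0 : cfn_P K → ℝ) 1) := fun ε =>
    (hΛε ε).weaken (Finset.le_sup (Finset.mem_univ ε))
  set n := Module.finrank ℚ K with hn
  refine ⟨2 ^ nrRealPlaces K * (n * (2 * 2 ^ (n - 1))), Λ, fun N hN => ?_⟩
  refine ⟨Finset.univ.image (cfn_centre K N), ?_, ?_⟩
  · have h1 : ((Finset.univ.image (cfn_centre K N)).card : ℝ) ≤
        (Fintype.card (cfn_Idx K N) : ℝ) := by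
      exact_mod_cast Finset.card_image_le.trans (le_of_eq (Finset.card_univ))
    refine h1.trans ?_
    rw [cfn_card_Idx]
    push_cast
    have h2 : ((N : ℝ) + 1) ^ (n - 1) ≤ 2 ^ (n - 1) * (N : ℝ) ^ (n - 1) := by
      rw [← mul_pow]
      apply pow_le_pow_left₀ (by positivity)
      have : (1 : ℝ) ≤ N := by exact_mod_cast hN
      linarith
    have h3 : (0:ℝ) ≤ 2 ^ nrRealPlaces K * (n : ℝ) * 2 := by positivity
    calc (2:ℝ) ^ nrRealPlaces K * ((n:ℝ) * (2 * ((N:ℝ) + 1) ^ (n - 1)))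
        = (2 ^ nrRealPlaces K * (n : ℝ) * 2) * ((N:ℝ) + 1) ^ (n - 1) := by ring
      _ ≤ (2 ^ nrRealPlaces K * (n : ℝ) * 2) * (2 ^ (n - 1) * (N : ℝ) ^ (n - 1)) :=
          mul_le_mul_of_nonneg_left h2 h3
      _ = 2 ^ nrRealPlaces K * ((n:ℝ) * (2 * 2 ^ (n - 1))) * (N:ℝ) ^ (n - 1) := by ring
  · intro x hx
    obtain ⟨ε, t, j, δ, ht, hδ, htj, rfl⟩ := cfn_frontier_subset_charts K hx
    obtain ⟨g, hg⟩ := cfn_face_cover (hΛ ε) hN j hδ ht htj
    rw [Set.mem_iUnion₂]
    refine ⟨cfn_centre K N ⟨ε, j, decide (δ = 1), g⟩, Finset.mem_image_of_mem _ (Finset.mem_univ _),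
      ?_⟩
    have : (if decide (δ = 1) = true then (1:ℝ) else 0) = δ := by
      rcases hδ with rfl | rfl <;> simp
    simp only [cfn_centre, this]
    exact hg

end Fermat.Agent.Lib.CFT
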