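/-
S14 / WP-C3a(ii-b): the number of integral ideals of norm `≤ s` in a fixed ideal class is
`κ s + O(s^(1-1/n))`, with `κ` independent of the class.  (Mathlib's
`NumberField.Ideal.tendsto_norm_le_and_mk_eq_div_atTop` with an error term.)
-/
import Fermat.Agent.Lib.CFT.CountNormLeOneD
import Fermat.Agent.Lib.CFT.CountLip

set_option autoImplicit false

open NumberField NumberField.mixedEmbedding NumberField.mixedEmbedding.fundamentalCone
  NumberField.InfinitePlace NumberField.Units MeasureTheory Module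

namespace Fermat.Agent.Lib.CFT

variable (K : Type*) [Field K] [NumberField K]

open scoped Classical

/-- the frontier of `normLeOne K` has box dimension at most `n - 1` -/
theorem cfn_boxDim_frontier_normLeOne :
    cfl_BoxDim (finrank ℝ (mixedSpace K) - 1) (frontier (normLeOne K)) := by
  obtain ⟨C, Λ, h⟩ := cfn_normLeOne_cover K
  rw [mixedEmbedding.finrank]
  set d := finrank ℚ K - 1 with hd
  refine ⟨max C 0 * (max Λ 0 + 2) ^ d, fun ε hε hε1 => ?_⟩
  set N : ℕ := ⌈max Λ 0 / ε⌉₊ + 1 with hN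
  have hN0 : 0 < N := Nat.succ_pos _
  obtain ⟨T, hT, hcov⟩ := h N hN0
  have hNr : (0 : ℝ) < N := Nat.cast_pos.mpr hN0
  have hΛ0 : (0:ℝ) ≤ max Λ 0 := le_max_right _ _
  have h1 : max Λ 0 / ε ≤ N := by
    rw [hN]; push_cast
    exact (Nat.le_ceil _).trans (by linarith)
  have h2 : Λ / N ≤ ε := by
    rw [div_le_iff₀ hNr]
    have : max Λ 0 ≤ N * ε := by rwa [div_le_iff₀ hε] at h1
    calc Λ ≤ max Λ 0 := le_max_left _ _
      _ ≤ N * ε := this
      _ = ε * N := mul_comm _ _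
  have h3 : (N : ℝ) ≤ (max Λ 0 + 2) * ε⁻¹ := by
    rw [hN]; push_cast
    have hc := Nat.ceil_lt_add_one (div_nonneg hΛ0 hε.le)
    have hinv : (1:ℝ) ≤ ε⁻¹ := (one_le_inv₀ hε).mpr hε1
    calc ((⌈max Λ 0 / ε⌉₊ : ℝ)) + 1 ≤ max Λ 0 / ε + 1 + 1 := by linarith
      _ = max Λ 0 * ε⁻¹ + 2 * 1 := by rw [div_eq_mul_inv]; ring
      _ ≤ max Λ 0 * ε⁻¹ + 2 * ε⁻¹ := by gcongr
      _ = (max Λ 0 + 2) * ε⁻¹ := by ring
  refine ⟨T, ?_, hcov.trans ?_⟩
  · calc (T.card : ℝ) ≤ C * (N:ℝ) ^ d := hT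
      _ ≤ max C 0 * (N:ℝ) ^ d := by gcongr; exact le_max_left _ _
      _ ≤ max C 0 * ((max Λ 0 + 2) * ε⁻¹) ^ d := by
          gcongr
      _ = max C 0 * (max Λ 0 + 2) ^ d * ε⁻¹ ^ d := by rw [mul_pow]; ring
  · exact Set.iUnion₂_mono fun c _ => Metric.closedBall_subset_closedBall h2

end Fermat.Agent.Lib.CFT

namespace Fermat.Agent.Lib.CFT

open Ideal Submodule
open scoped nonZeroDivisors Real

variable (K : Type*) [Field K] [NumberField K]

open scoped Classical

/-- the constant of the ideal counting asymptotics (the same for every class) -/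
noncomputable def cfn_kappa : ℝ :=
  (2 ^ nrRealPlaces K * (2 * π) ^ nrComplexPlaces K * regulator K) /
    (torsionOrder K * Real.sqrt |discr K|)

variable {K} in
/-- re-proof of a private Mathlib lemma: ideals in the class `C` of norm `≤ s` correspond to
principal ideals divisible by `J` (of class `C⁻¹`) of norm `≤ s * N J` -/
theorem cfn_card_class_eq {C : ClassGroup (𝓞 K)} {J : (Ideal (𝓞 K))⁰} {s : ℝ}
    (hJ : ClassGroup.mk0 J = C⁻¹) :
    Nat.card {I : (Ideal (𝓞 K))⁰ // absNorm (I : Ideal (𝓞 K)) ≤ s ∧ ClassGroup.mk0 I = C}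
      = Nat.card {I : (Ideal (𝓞 K))⁰ // (J : Ideal (𝓞 K)) ∣ I ∧ IsPrincipal (I : Ideal (𝓞 K)) ∧
        absNorm (I : Ideal (𝓞 K)) ≤ s * absNorm (J : Ideal (𝓞 K))} := by
  simp_rw [← nonZeroDivisors_dvd_iff_dvd_coe]
  refine Nat.card_congr ?_
  refine ((Equiv.dvd J).subtypeEquiv fun I ↦ ?_).trans
    (Equiv.subtypeSubtypeEquivSubtypeInter (fun I : (Ideal (𝓞 K))⁰ ↦ J ∣ I) _)
  rw [← ClassGroup.mk0_eq_one_iff (SetLike.coe_mem _)]
  simp_rw [Equiv.dvd_apply, Submonoid.coe_mul, ← Submonoid.mul_def, _root_.map_mul, hJ,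
    inv_mul_eq_one, Nat.cast_mul, mul_comm s, eq_comm, and_comm, and_congr_left_iff]
  exact fun _ ↦
    (mul_le_mul_iff_of_pos_left (Nat.cast_pos.mpr (absNorm_pos_of_nonZeroDivisors J))).symm

/-- lattice points of the ideal lattice of `J` in the fundamental cone, with error term -/
theorem cfn_card_idealSet_sub_le (J : (Ideal (𝓞 K))⁰) :
    ∃ B : ℝ, ∀ c : ℝ, 1 ≤ c →
      |(Nat.card {a : idealSet K J // mixedEmbedding.norm (a : mixedSpace K) ≤ c} : ℝ) -
          volume.real (normLeOne K) /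
            ZLattice.covolume (idealLattice K (FractionalIdeal.mk0 K J)) volume * c|
        ≤ B * c ^ (1 - (finrank ℚ K : ℝ)⁻¹) := by
  have hset : {x | x ∈ fundamentalCone K ∧ mixedEmbedding.norm x ≤ 1} = normLeOne K := by
    ext; simp
  have key := cfl_card_le_sub_le (E := mixedSpace K)
    (idealLattice K (FractionalIdeal.mk0 K J)) volume
    (X := fundamentalCone K) (F := fun x => mixedEmbedding.norm x)
    (fun x r hx hr => (smul_mem_iff_mem hr.ne').mpr hx)
    (fun x r hr => by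
      rw [mixedEmbedding.norm_smul, mixedEmbedding.finrank, abs_of_nonneg hr])
    (by rw [hset]; exact isBounded_normLeOne K)
    (by rw [hset]; exact measurableSet_normLeOne K)
    (by rw [hset]; exact cfn_boxDim_frontier_normLeOne K)
  obtain ⟨B, hB⟩ := key
  refine ⟨B, fun c hc => ?_⟩
  have h := hB c hc
  rw [hset, mixedEmbedding.finrank] at h
  have hcard : Nat.card {a : idealSet K J // mixedEmbedding.norm (a : mixedSpace K) ≤ c} =
      Nat.card ↥({x | x ∈ fundamentalCone K ∧ mixedEmbedding.norm x ≤ c} ∩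
        ((idealLattice K (FractionalIdeal.mk0 K J) : Submodule ℤ (mixedSpace K)) :
          Set (mixedSpace K))) := by
    refine Nat.card_congr
      ⟨fun a => ⟨a.1.1, ⟨⟨a.1.2.1, a.2⟩, a.1.2.2⟩⟩,
        fun x => ⟨⟨x.1, ⟨x.2.1.1, x.2.2⟩⟩, x.2.1.2⟩, fun _ => rfl, fun _ => rfl⟩
  rw [hcard]
  exact h

/-- **Ideal counting in a class with an error term**: the number of nonzero integral ideals of
norm `≤ s` in the class `C` is `κ s + O(s^(1 - 1/n))`, `κ = cfn_kappa K` independent of `C`. -/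
theorem cfn_card_ideals_class_sub_le (C : ClassGroup (𝓞 K)) :
    ∃ B : ℝ, ∀ s : ℝ, 1 ≤ s →
      |(Nat.card {I : (Ideal (𝓞 K))⁰ //
          absNorm (I : Ideal (𝓞 K)) ≤ s ∧ ClassGroup.mk0 I = C} : ℝ) - cfn_kappa K * s|
        ≤ B * s ^ (1 - (finrank ℚ K : ℝ)⁻¹) := by
  obtain ⟨J, hJ⟩ := ClassGroup.mk0_surjective C⁻¹
  obtain ⟨B, hB⟩ := cfn_card_idealSet_sub_le K J
  have hNJ : (0:ℝ) < absNorm (J : Ideal (𝓞 K)) :=
    Nat.cast_pos.mpr (absNorm_pos_of_nonZeroDivisors J)
  have hNJ1 : (1:ℝ) ≤ absNorm (J : Ideal (𝓞 K)) := by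
    exact_mod_cast Nat.one_le_iff_ne_zero.mpr (absNorm_pos_of_nonZeroDivisors J).ne'
  have hw : (0:ℝ) < torsionOrder K :=
    Nat.cast_pos.mpr (Nat.pos_of_ne_zero (torsionOrder_ne_zero K))
  set e : ℝ := 1 - (finrank ℚ K : ℝ)⁻¹ with he
  have he0 : 0 ≤ e := by
    rw [he, sub_nonneg]
    apply inv_le_one_of_one_le₀
    exact_mod_cast Nat.one_le_iff_ne_zero.mpr (finrank_pos (R := ℚ) (M := K)).ne'
  refine ⟨|B| * (absNorm (J : Ideal (𝓞 K)) : ℝ) ^ e / torsionOrder K, fun s hs => ?_⟩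
  have hs0 : 0 < s := lt_of_lt_of_le one_pos hs
  have hc : 1 ≤ s * absNorm (J : Ideal (𝓞 K)) := by nlinarith
  have h1 := hB _ hc
  rw [cfn_card_class_eq hJ]
  have h2 := card_isPrincipal_dvd_norm_le K J (s * absNorm (J : Ideal (𝓞 K)))
  have h2' : (Nat.card {I : (Ideal (𝓞 K))⁰ // (J : Ideal (𝓞 K)) ∣ I ∧
      IsPrincipal (I : Ideal (𝓞 K)) ∧
      absNorm (I : Ideal (𝓞 K)) ≤ s * absNorm (J : Ideal (𝓞 K))} : ℝ) =
      (Nat.card {a : idealSet K J // mixedEmbedding.norm (a : mixedSpace K) ≤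
        s * absNorm (J : Ideal (𝓞 K))} : ℝ) / torsionOrder K := by
    rw [eq_div_iff hw.ne']
    exact_mod_cast h2
  rw [h2']
  -- the main term
  have hvol : volume.real (normLeOne K) /
      ZLattice.covolume (idealLattice K (FractionalIdeal.mk0 K J)) volume *
        (s * absNorm (J : Ideal (𝓞 K))) / torsionOrder K = cfn_kappa K * s := by
    rw [MeasureTheory.measureReal_def, volume_normLeOne, covolume_idealLattice, cfn_kappa,
      ENNReal.toReal_mul, ENNReal.toReal_mul, ENNReal.toReal_pow, ENNReal.toReal_pow,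
      ENNReal.toReal_ofNat, ENNReal.coe_toReal, NNReal.coe_real_pi,
      ENNReal.toReal_ofReal (regulator_pos K).le, FractionalIdeal.coe_mk0,
      FractionalIdeal.coeIdeal_absNorm, Rat.cast_natCast]
    have hd : (0:ℝ) < Real.sqrt |(discr K : ℝ)| := by
      apply Real.sqrt_pos.mpr
      exact abs_pos.mpr (Int.cast_ne_zero.mpr (discr_ne_zero K))
    rw [mul_pow, inv_pow]
    field_simp
  rw [← hvol]
  have h3 : (Nat.card {a : idealSet K J // mixedEmbedding.norm (a : mixedSpace K) ≤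
        s * absNorm (J : Ideal (𝓞 K))} : ℝ) / torsionOrder K -
      volume.real (normLeOne K) /
        ZLattice.covolume (idealLattice K (FractionalIdeal.mk0 K J)) volume *
        (s * absNorm (J : Ideal (𝓞 K))) / torsionOrder K =
      ((Nat.card {a : idealSet K J // mixedEmbedding.norm (a : mixedSpace K) ≤
        s * absNorm (J : Ideal (𝓞 K))} : ℝ) -
      volume.real (normLeOne K) /
        ZLattice.covolume (idealLattice K (FractionalIdeal.mk0 K J)) volume *
        (s * absNorm (J : Ideal (𝓞 K)))) / torsionOrder K := by ring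
  rw [h3, abs_div, abs_of_pos hw, div_le_iff₀ hw]
  refine h1.trans ?_
  rw [Real.mul_rpow hs0.le hNJ.le]
  have : |B| * (absNorm (J : Ideal (𝓞 K)) : ℝ) ^ e / torsionOrder K * s ^ e * torsionOrder K
      = |B| * (s ^ e * (absNorm (J : Ideal (𝓞 K)) : ℝ) ^ e) := by
    field_simp
  rw [this]
  gcongr
  exact le_abs_self B

end Fermat.Agent.Lib.CFT
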