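import Fermat.Agent.Lib.CFT.SecondIneq
import Fermat.Agent.Lib.CFT.CountIdeals

/-!
# S14, WP-C3b: the second inequality, unconditional form

`cfb_index_normClasses_le`: for `L/F` Galois of prime degree `p`, everywhere unramified, the norm
classes `cft_normClasses F L` have index at most `p` in the class group of `F`.
(`cfb_second_ineq` + the ideal count with error term `cfn_card_ideals_class_sub_le`.)
-/

namespace Fermat.Agent.Lib.CFT

open NumberField Ideal nonZeroDivisors

/-- the ideal-counting hypothesis holds for every number field -/
theorem cfb_countHyp (F : Type*) [Field F] [NumberField F] : cfb_CountHyp F := by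
  refine ⟨cfn_kappa F, 1 - (Module.finrank ℚ F : ℝ)⁻¹, ?_, fun C => ?_⟩
  · have : (0 : ℝ) < (Module.finrank ℚ F : ℝ)⁻¹ := by
      apply inv_pos.mpr
      exact_mod_cast Module.finrank_pos
    linarith
  · exact cfn_card_ideals_class_sub_le F C

/-- **The second inequality** for an everywhere unramified Galois extension of number fields of
prime degree `p`: the subgroup of the class group of `F` generated by the classes of norms of
ideals of `L` has index at most `p`. -/
theorem cfb_index_normClasses_le (F L : Type*) [Field F] [NumberField F] [Field L] [NumberField L]
    [Algebra F L] [IsGalois F L] {p : ℕ} (hp : p.Prime) (hdeg : Module.finrank F L = p)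
    (hun : cft_Unram F L) : (cft_normClasses F L).index ≤ p :=
  cfb_second_ineq (cfb_countHyp F) hp hdeg hun

end Fermat.Agent.Lib.CFT
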