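/-
S14 (class field theory route), WP-Z, part 1: the Euler product over the nonzero ideals of a
Dedekind domain, for a completely multiplicative function with summable norm.
-/
import Mathlib

set_option autoImplicit false

namespace Fermat.Agent.Lib.CFT

open Ideal IsDedekindDomain Filter Topology nonZeroDivisors

variable {R : Type*} [CommRing R] [IsDedekindDomain R]

/-- A height one prime, as a nonzero ideal. -/
noncomputable def cfi_prime (𝔮 : HeightOneSpectrum R) : (Ideal R)⁰ :=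
  ⟨𝔮.asIdeal, mem_nonZeroDivisors_of_ne_zero 𝔮.ne_bot⟩

@[simp] theorem cfi_prime_coe (𝔮 : HeightOneSpectrum R) :
    ((cfi_prime 𝔮 : (Ideal R)⁰) : Ideal R) = 𝔮.asIdeal := rfl

/-- The nonzero ideals all of whose prime factors lie in the finite set `T`. -/
def cfi_smoothSet (T : Finset (HeightOneSpectrum R)) : Set (Ideal R)⁰ :=
  {I | ∀ 𝔮 : HeightOneSpectrum R, 𝔮.asIdeal ∣ (I : Ideal R) → 𝔮 ∈ T}

theorem cfi_dvd_prime_iff {𝔭 𝔮 : HeightOneSpectrum R} : 𝔭.asIdeal ∣ 𝔮.asIdeal ↔ 𝔭 = 𝔮 := by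
  constructor
  · intro h
    have hle : 𝔮.asIdeal ≤ 𝔭.asIdeal := Ideal.le_of_dvd h
    have hmax : 𝔮.asIdeal.IsMaximal := 𝔮.isMaximal
    have := hmax.eq_of_le 𝔭.isPrime.ne_top hle
    exact HeightOneSpectrum.ext this.symm
  · rintro rfl; exact dvd_rfl

theorem cfi_prime_dvd_pow_mul {𝔭 𝔮 : HeightOneSpectrum R} {e : ℕ} {J : Ideal R}
    (h : 𝔭.asIdeal ∣ 𝔮.asIdeal ^ e * J) : 𝔭 = 𝔮 ∨ 𝔭.asIdeal ∣ J := by
  rcases (𝔭.prime.dvd_mul).1 h with h1 | h1
  · left; exact cfi_dvd_prime_iff.1 (𝔭.prime.dvd_of_dvd_pow h1)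
  · right; exact h1

omit [IsDedekindDomain R] in
theorem cfi_one_mem_smoothSet (T : Finset (HeightOneSpectrum R)) :
    (1 : (Ideal R)⁰) ∈ cfi_smoothSet T := by
  intro 𝔮 h
  exfalso
  have : 𝔮.asIdeal ∣ (1 : Ideal R) := h
  rw [Ideal.one_eq_top] at this
  exact 𝔮.isPrime.ne_top (top_le_iff.mp (Ideal.le_of_dvd this))

theorem cfi_smoothSet_empty : cfi_smoothSet (∅ : Finset (HeightOneSpectrum R)) = {1} := by
  ext I
  simp only [Set.mem_singleton_iff]
  constructor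
  · intro h
    by_contra hI
    have hI0 : (I : Ideal R) ≠ ⊥ := nonZeroDivisors.coe_ne_zero I
    have hI1 : (I : Ideal R) ≠ ⊤ := by
      intro h1; apply hI; ext1; rw [h1]; exact Ideal.one_eq_top.symm
    obtain ⟨M, hM, hIM⟩ := Ideal.exists_le_maximal _ hI1
    have hM0 : M ≠ ⊥ := fun h0 => hI0 (le_bot_iff.mp (h0 ▸ hIM))
    have := h ⟨M, hM.isPrime, hM0⟩ (Ideal.dvd_iff_le.mpr hIM)
    simp at this
  · rintro rfl; exact cfi_one_mem_smoothSet _

variable [DecidableEq (HeightOneSpectrum R)]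

theorem cfi_pow_mul_mem_smoothSet {T : Finset (HeightOneSpectrum R)} (𝔮 : HeightOneSpectrum R)
    (e : ℕ) {J : (Ideal R)⁰} (hJ : J ∈ cfi_smoothSet T) :
    cfi_prime 𝔮 ^ e * J ∈ cfi_smoothSet (insert 𝔮 T) := by
  intro 𝔭 h
  have h' : 𝔭.asIdeal ∣ 𝔮.asIdeal ^ e * (J : Ideal R) := by simpa using h
  rcases cfi_prime_dvd_pow_mul h' with rfl | h1
  · exact Finset.mem_insert_self _ _
  · exact Finset.mem_insert_of_mem (hJ 𝔭 h1)

/-- The bijection `(e, J) ↦ 𝔮 ^ e * J`. -/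
noncomputable def cfi_smoothMap (T : Finset (HeightOneSpectrum R)) (𝔮 : HeightOneSpectrum R) :
    ℕ × cfi_smoothSet T → cfi_smoothSet (insert 𝔮 T) :=
  fun x => ⟨cfi_prime 𝔮 ^ x.1 * x.2.1, cfi_pow_mul_mem_smoothSet 𝔮 x.1 x.2.2⟩

theorem cfi_smoothMap_injective {T : Finset (HeightOneSpectrum R)} {𝔮 : HeightOneSpectrum R}
    (hq : 𝔮 ∉ T) : Function.Injective (cfi_smoothMap T 𝔮) := by
  -- key: `𝔮 ∤ J` for `J` smooth over `T`
  have key : ∀ (e e' : ℕ) (J J' : cfi_smoothSet T), e ≤ e' →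
      cfi_prime 𝔮 ^ e * J.1 = cfi_prime 𝔮 ^ e' * J'.1 → e = e' ∧ J = J' := by
    intro e e' J J' hee h
    obtain ⟨d, rfl⟩ := Nat.exists_eq_add_of_le hee
    rw [pow_add, mul_assoc] at h
    have h2 : J.1 = cfi_prime 𝔮 ^ d * J'.1 := mul_left_cancel h
    rcases Nat.eq_zero_or_pos d with rfl | hd
    · simp only [pow_zero, one_mul] at h2
      exact ⟨rfl, Subtype.ext h2⟩
    · exfalso
      apply hq
      apply J.2 𝔮
      rw [h2]
      obtain ⟨d', rfl⟩ := Nat.exists_eq_succ_of_ne_zero hd.ne'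
      simp only [Submonoid.coe_mul, SubmonoidClass.coe_pow, cfi_prime_coe]
      exact ⟨𝔮.asIdeal ^ d' * (J'.1 : Ideal R), by rw [pow_succ', mul_assoc]⟩
  rintro ⟨e, J⟩ ⟨e', J'⟩ h
  have h' : cfi_prime 𝔮 ^ e * J.1 = cfi_prime 𝔮 ^ e' * J'.1 := congrArg Subtype.val h
  rcases le_total e e' with hee | hee
  · obtain ⟨rfl, rfl⟩ := key e e' J J' hee h'
    rfl
  · obtain ⟨rfl, rfl⟩ := key e' e J' J hee h'.symm
    rfl

theorem cfi_smoothMap_surjective {T : Finset (HeightOneSpectrum R)} {𝔮 : HeightOneSpectrum R} :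
    Function.Surjective (cfi_smoothMap T 𝔮) := by
  rintro ⟨I, hI⟩
  have hI0 : (I : Ideal R) ≠ 0 := nonZeroDivisors.coe_ne_zero I
  obtain ⟨n, J, hJ, hIJ⟩ := WfDvdMonoid.max_power_factor hI0 𝔮.irreducible
  have hJ0 : J ≠ 0 := by
    rintro rfl
    rw [mul_zero] at hIJ
    exact hI0 hIJ
  have hJmem : (⟨J, mem_nonZeroDivisors_of_ne_zero hJ0⟩ : (Ideal R)⁰) ∈ cfi_smoothSet T := by
    intro 𝔭 h𝔭
    have h𝔭' : 𝔭.asIdeal ∣ J := h𝔭
    have : 𝔭 ∈ insert 𝔮 T := hI 𝔭 (by rw [hIJ]; exact Dvd.dvd.mul_left h𝔭' _)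
    rcases Finset.mem_insert.mp this with rfl | h
    · exact absurd h𝔭' hJ
    · exact h
  refine ⟨(n, ⟨⟨J, mem_nonZeroDivisors_of_ne_zero hJ0⟩, hJmem⟩), ?_⟩
  apply Subtype.ext
  apply Subtype.ext
  simp only [cfi_smoothMap, Submonoid.coe_mul, SubmonoidClass.coe_pow, cfi_prime_coe]
  exact hIJ.symm

/-- `ℕ × (T-smooth ideals) ≃ (insert 𝔮 T)-smooth ideals` for `𝔮 ∉ T`. -/
noncomputable def cfi_smoothEquiv {T : Finset (HeightOneSpectrum R)} {𝔮 : HeightOneSpectrum R}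
    (hq : 𝔮 ∉ T) : ℕ × cfi_smoothSet T ≃ cfi_smoothSet (insert 𝔮 T) :=
  Equiv.ofBijective _ ⟨cfi_smoothMap_injective hq, cfi_smoothMap_surjective⟩

/-! ### The finite Euler product -/

section analytic

variable {𝕜 : Type*} [NormedField 𝕜] [CompleteSpace 𝕜] (f : (Ideal R)⁰ →* 𝕜)

omit [DecidableEq (HeightOneSpectrum R)] [CompleteSpace 𝕜] in
/-- The value of `f` at a prime has norm `< 1`, if `‖f‖` is summable. -/
theorem cfi_norm_prime_lt_one (hsum : Summable fun I => ‖f I‖) (𝔮 : HeightOneSpectrum R) :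
    ‖f (cfi_prime 𝔮)‖ < 1 := by
  have hinj : Function.Injective (fun e : ℕ => cfi_prime 𝔮 ^ e) := by
    intro a b hab
    have h1 : 𝔮.asIdeal ^ a = 𝔮.asIdeal ^ b := by
      have := congrArg (fun I : (Ideal R)⁰ => (I : Ideal R)) hab
      simpa using this
    have hinj' : Function.Injective (fun n : ℕ => 𝔮.asIdeal ^ n) :=
      pow_injective_of_not_isUnit 𝔮.irreducible.not_isUnit 𝔮.ne_bot
    exact hinj' h1
  have h := hsum.comp_injective hinj
  have h2 : Summable fun e : ℕ => ‖f (cfi_prime 𝔮)‖ ^ e := by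
    refine h.congr fun e => ?_
    simp [Function.comp, map_pow, norm_pow]
  exact (summable_geometric_iff_norm_lt_one.mp h2).trans_eq' (by simp) |>.trans_eq rfl

/-- The finite Euler product: the sum of `f` over the `T`-smooth ideals. -/
theorem cfi_hasSum_smoothSet (hsum : Summable fun I => ‖f I‖)
    (T : Finset (HeightOneSpectrum R)) :
    HasSum (fun I : cfi_smoothSet T => f I) (∏ 𝔮 ∈ T, (1 - f (cfi_prime 𝔮))⁻¹) := by
  induction T using Finset.induction_on with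
  | empty =>
    rw [Finset.prod_empty]
    have hmem : ∀ I : cfi_smoothSet (∅ : Finset (HeightOneSpectrum R)), I.1 = 1 := by
      intro I
      exact (Set.ext_iff.mp cfi_smoothSet_empty I.1).mp I.2
    let _ : Unique (cfi_smoothSet (∅ : Finset (HeightOneSpectrum R))) :=
      ⟨⟨⟨1, cfi_one_mem_smoothSet _⟩⟩, fun I => Subtype.ext (hmem I)⟩
    have := hasSum_unique (fun I : cfi_smoothSet (∅ : Finset (HeightOneSpectrum R)) => f I)
    rwa [hmem default, map_one] at this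
  | insert 𝔮 T hq ih =>
    rw [Finset.prod_insert hq]
    have hgeo : HasSum (fun e : ℕ => f (cfi_prime 𝔮) ^ e) (1 - f (cfi_prime 𝔮))⁻¹ :=
      hasSum_geometric_of_norm_lt_one (cfi_norm_prime_lt_one f hsum 𝔮)
    have hgeo_norm : Summable fun e : ℕ => ‖f (cfi_prime 𝔮) ^ e‖ := by
      simp_rw [norm_pow]
      exact summable_geometric_of_lt_one (norm_nonneg _) (cfi_norm_prime_lt_one f hsum 𝔮)
    have hT_norm : Summable fun I : cfi_smoothSet T => ‖f I‖ := hsum.subtype _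
    have hprod : HasSum (fun x : ℕ × cfi_smoothSet T => f (cfi_prime 𝔮) ^ x.1 * f x.2)
        ((1 - f (cfi_prime 𝔮))⁻¹ * ∏ 𝔭 ∈ T, (1 - f (cfi_prime 𝔭))⁻¹) :=
      HasSum.mul (f := fun e : ℕ => f (cfi_prime 𝔮) ^ e) (g := fun I : cfi_smoothSet T => f I)
        hgeo ih (summable_mul_of_summable_norm (f := fun e : ℕ => f (cfi_prime 𝔮) ^ e)
          (g := fun I : cfi_smoothSet T => f I) hgeo_norm hT_norm)
    have hcomp : (fun I : cfi_smoothSet (insert 𝔮 T) => f I) ∘ (cfi_smoothEquiv hq) =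
        fun x : ℕ × cfi_smoothSet T => f (cfi_prime 𝔮) ^ x.1 * f x.2 := by
      funext x
      change f (cfi_prime 𝔮 ^ x.1 * x.2.1) = _
      rw [map_mul, map_pow]
    rw [← (cfi_smoothEquiv hq).hasSum_iff, hcomp]
    exact hprod

omit [DecidableEq (HeightOneSpectrum R)] in
/-- **Euler product** over the nonzero ideals of a Dedekind domain. -/
theorem cfi_eulerProduct_hasProd' (hsum : Summable fun I => ‖f I‖) :
    HasProd (fun 𝔮 : HeightOneSpectrum R => (1 - f (cfi_prime 𝔮))⁻¹) (∑' I, f I) := by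
  classical
  have hf : Summable f := hsum.of_norm
  rw [HasProd, SummationFilter.unconditional_filter, Metric.tendsto_atTop]
  intro ε hε
  obtain ⟨A, hA⟩ := summable_iff_tsum_vanishing.mp hf (Metric.ball 0 ε) (Metric.ball_mem_nhds 0 hε)
  -- all primes dividing an element of `A`
  have hfin : (⋃ I ∈ A, {𝔮 : HeightOneSpectrum R | 𝔮.asIdeal ∣ (I : Ideal R)}).Finite :=
    A.finite_toSet.biUnion fun I _ => Ideal.finite_factors (nonZeroDivisors.coe_ne_zero I)
  refine ⟨hfin.toFinset, fun T hT => ?_⟩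
  have hAT : ∀ I ∈ A, I ∈ cfi_smoothSet T := by
    intro I hI 𝔮 h𝔮
    apply hT
    rw [Set.Finite.mem_toFinset]
    exact Set.mem_biUnion hI h𝔮
  have hdisj : Disjoint (cfi_smoothSet T)ᶜ (A : Set (Ideal R)⁰) := by
    rw [Set.disjoint_left]
    intro I hI hIA
    exact hI (hAT I hIA)
  have h1 := hA _ hdisj
  rw [mem_ball_zero_iff] at h1
  have h2 := hf.tsum_subtype_add_tsum_subtype_compl (cfi_smoothSet T)
  rw [(cfi_hasSum_smoothSet f hsum T).tsum_eq] at h2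
  rw [dist_eq_norm, ← h2, sub_add_cancel_left, norm_neg]
  exact h1

omit [DecidableEq (HeightOneSpectrum R)] in
/-- **Euler product** over the nonzero ideals of a Dedekind domain (interface form). -/
theorem cfi_eulerProduct_hasProd (hsum : Summable fun I => ‖f I‖) :
    HasProd (fun 𝔮 : HeightOneSpectrum R =>
      (1 - f ⟨𝔮.asIdeal, mem_nonZeroDivisors_of_ne_zero 𝔮.ne_bot⟩)⁻¹) (∑' I, f I) :=
  cfi_eulerProduct_hasProd' f hsum

omit [DecidableEq (HeightOneSpectrum R)] in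
theorem cfi_eulerProduct_tprod (hsum : Summable fun I => ‖f I‖) :
    ∏' 𝔮 : HeightOneSpectrum R, (1 - f (cfi_prime 𝔮))⁻¹ = ∑' I, f I :=
  (cfi_eulerProduct_hasProd' f hsum).tprod_eq

end analytic

end Fermat.Agent.Lib.CFT
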