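/-
S14 (class field theory route), WP-Z, part 2: the Dedekind zeta function of a number field at a
real argument `s > 1`, as a sum over the nonzero ideals; link with Mathlib's `dedekindZeta`,
residue at `1`, Euler product.
-/
import Mathlib
import Fermat.Agent.Lib.CFT.ZetaEuler

set_option autoImplicit false

namespace Fermat.Agent.Lib.CFT

open NumberField Ideal IsDedekindDomain Filter Topology nonZeroDivisors

variable (F : Type*) [Field F] [NumberField F]

/-- `I ↦ N(I)^(-s)` as a monoid homomorphism on the nonzero ideals. -/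
noncomputable def cfi_normPow (s : ℝ) : (Ideal (𝓞 F))⁰ →* ℝ where
  toFun I := (absNorm (I : Ideal (𝓞 F)) : ℝ) ^ (-s)
  map_one' := by simp
  map_mul' I J := by
    simp only [Submonoid.coe_mul, map_mul, Nat.cast_mul]
    exact Real.mul_rpow (Nat.cast_nonneg _) (Nat.cast_nonneg _)

@[simp] theorem cfi_normPow_apply (s : ℝ) (I : (Ideal (𝓞 F))⁰) :
    cfi_normPow F s I = (absNorm (I : Ideal (𝓞 F)) : ℝ) ^ (-s) := rfl

/-- The Dedekind zeta function at a real argument, as a sum over nonzero ideals. -/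
noncomputable def cfi_zeta (s : ℝ) : ℝ :=
  ∑' I : (Ideal (𝓞 F))⁰, (absNorm (I : Ideal (𝓞 F)) : ℝ) ^ (-s)

/-- The number of ideals of norm `n` (Mathlib's coefficients of the Dedekind zeta function). -/
noncomputable def cfi_coeff (n : ℕ) : ℕ := Nat.card {I : Ideal (𝓞 F) // absNorm I = n}

theorem cfi_dedekindZeta_eq (s : ℂ) :
    dedekindZeta F s = LSeries (fun n => (cfi_coeff F n : ℂ)) s := rfl

/-- Mathlib's asymptotics, in the form used for the convergence of the `L`-series. -/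
theorem cfi_tendsto_sum_coeff_div :
    Tendsto (fun n : ℕ => (∑ k ∈ Finset.Icc 1 n, (cfi_coeff F k : ℝ)) / (n : ℝ)) atTop
      (𝓝 (dedekindZeta_residue F)) := by
  refine ((Ideal.tendsto_norm_le_div_atTop₀ F).comp tendsto_natCast_atTop_atTop).congr fun n ↦ ?_
  simp only [Function.comp_apply, Nat.cast_le, ← Nat.cast_sum, cfi_coeff]
  congr
  rw [← add_left_inj 1, ← card_norm_le_eq_card_norm_le_add_one,
    show Finset.Icc 1 n = Finset.Ioc 0 n from Finset.Icc_succ_left_eq_Ioc _ _,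
    show 1 = Nat.card {I : Ideal (𝓞 F) // absNorm I = 0} by simp [Ideal.absNorm_eq_zero_iff],
    Finset.sum_Ioc_add_eq_sum_Icc (n.zero_le),
    ← Finset.card_preimage_eq_sum_card_image_eq (fun k _ ↦ finite_setOfPred_absNorm_eq k)]
  simp [Set.coe_eq_subtype]

theorem cfi_lseriesSummable {s : ℝ} (hs : 1 < s) :
    LSeriesSummable (fun n => (cfi_coeff F n : ℂ)) s := by
  have := LSeriesSummable_of_sum_norm_bigO_and_nonneg (f := fun n => (cfi_coeff F n : ℝ))
    (r := 1) (s := (s : ℂ)) ?_ (fun _ => Nat.cast_nonneg _) zero_le_one (by simpa using hs)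
  · simpa using this
  · exact Asymptotics.isBigO_atTop_natCast_rpow_of_tendsto_div_rpow (by simpa using cfi_tendsto_sum_coeff_div F)

theorem cfi_summable_coeff {s : ℝ} (hs : 1 < s) :
    Summable fun n : ℕ => (cfi_coeff F n : ℝ) * (n : ℝ) ^ (-s) := by
  have h := (cfi_lseriesSummable F hs).norm
  refine h.congr fun n => ?_
  rw [LSeries.norm_term_eq]
  split_ifs with hn
  · subst hn
    simp [Real.zero_rpow (by linarith : -s ≠ 0)]
  · simp only [Complex.norm_natCast, Complex.ofReal_re]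
    rw [Real.rpow_neg (Nat.cast_nonneg _), div_eq_mul_inv]

/-- The sum of `N(I)^(-s)` over ALL ideals (the zero ideal contributes `0`). -/
theorem cfi_hasSum_allIdeals {s : ℝ} (hs : 1 < s) :
    HasSum (fun I : Ideal (𝓞 F) => (absNorm I : ℝ) ^ (-s))
      (∑' n : ℕ, (cfi_coeff F n : ℝ) * (n : ℝ) ^ (-s)) := by
  have hfin : ∀ n : ℕ, Finite {I : Ideal (𝓞 F) // absNorm I = n} :=
    fun n => (finite_setOfPred_absNorm_eq n).to_subtype
  let e := Equiv.sigmaFiberEquiv (absNorm : Ideal (𝓞 F) → ℕ)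
  rw [← e.hasSum_iff]
  have hterm : ∀ x : (Σ n : ℕ, {I : Ideal (𝓞 F) // absNorm I = n}),
      ((fun I : Ideal (𝓞 F) => (absNorm I : ℝ) ^ (-s)) ∘ e) x = (x.1 : ℝ) ^ (-s) := by
    rintro ⟨n, I, hI⟩
    simp [e, Equiv.sigmaFiberEquiv, hI]
  have hinner : ∀ n : ℕ, HasSum (fun I : {I : Ideal (𝓞 F) // absNorm I = n} =>
      ((fun I : Ideal (𝓞 F) => (absNorm I : ℝ) ^ (-s)) ∘ e) ⟨n, I⟩)
      ((cfi_coeff F n : ℝ) * (n : ℝ) ^ (-s)) := by
    intro n
    have := hfin n
    have := Fintype.ofFinite {I : Ideal (𝓞 F) // absNorm I = n}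
    have : (fun I : {I : Ideal (𝓞 F) // absNorm I = n} =>
        ((fun I : Ideal (𝓞 F) => (absNorm I : ℝ) ^ (-s)) ∘ e) ⟨n, I⟩) = fun _ => (n : ℝ) ^ (-s) := by
      funext I; exact hterm ⟨n, I⟩
    rw [this]
    convert hasSum_fintype (fun _ : {I : Ideal (𝓞 F) // absNorm I = n} => (n : ℝ) ^ (-s)) using 1
    rw [Finset.sum_const, Finset.card_univ, nsmul_eq_mul, cfi_coeff, Nat.card_eq_fintype_card]
  have hsig : Summable ((fun I : Ideal (𝓞 F) => (absNorm I : ℝ) ^ (-s)) ∘ e) := by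
    rw [summable_sigma_of_nonneg (fun x => by rw [hterm x]; positivity)]
    refine ⟨fun n => (hinner n).summable, ?_⟩
    refine (cfi_summable_coeff F hs).congr fun n => ?_
    exact (hinner n).tsum_eq.symm
  exact HasSum.sigma_of_hasSum (cfi_summable_coeff F hs).hasSum hinner hsig

theorem cfi_zeta_summable {s : ℝ} (hs : 1 < s) :
    Summable fun I : (Ideal (𝓞 F))⁰ => (absNorm (I : Ideal (𝓞 F)) : ℝ) ^ (-s) :=
  (cfi_hasSum_allIdeals F hs).summable.subtype _

theorem cfi_zeta_eq_tsum_coeff {s : ℝ} (hs : 1 < s) :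
    cfi_zeta F s = ∑' n : ℕ, (cfi_coeff F n : ℝ) * (n : ℝ) ^ (-s) := by
  rw [← (cfi_hasSum_allIdeals F hs).tsum_eq, cfi_zeta]
  refine tsum_subtype_eq_of_support_subset (f := fun I : Ideal (𝓞 F) => (absNorm I : ℝ) ^ (-s))
    (s := ((Ideal (𝓞 F))⁰ : Set (Ideal (𝓞 F)))) ?_
  intro I hI
  rw [Function.mem_support] at hI
  rw [SetLike.mem_coe, mem_nonZeroDivisors_iff_ne_zero]
  rintro rfl
  apply hI
  simp [Real.zero_rpow (by linarith : -s ≠ 0)]

theorem cfi_zeta_eq_dedekindZeta {s : ℝ} (hs : 1 < s) :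
    ((cfi_zeta F s : ℝ) : ℂ) = dedekindZeta F s := by
  rw [cfi_zeta_eq_tsum_coeff F hs, cfi_dedekindZeta_eq, LSeries, Complex.ofReal_tsum]
  refine tsum_congr fun n => ?_
  rcases eq_or_ne n 0 with rfl | hn
  · simp [Real.zero_rpow (by linarith : -s ≠ 0)]
  · rw [LSeries.term_of_ne_zero hn, Complex.ofReal_mul, Complex.ofReal_natCast,
      Real.rpow_neg (Nat.cast_nonneg _), Complex.ofReal_inv,
      Complex.ofReal_cpow (Nat.cast_nonneg _), Complex.ofReal_natCast, div_eq_mul_inv]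

theorem cfi_zeta_pos {s : ℝ} (hs : 1 < s) : 0 < cfi_zeta F s := by
  have hsum := cfi_zeta_summable F hs
  have h1 : (absNorm ((1 : (Ideal (𝓞 F))⁰) : Ideal (𝓞 F)) : ℝ) ^ (-s) = 1 := by simp
  calc (0 : ℝ) < 1 := one_pos
    _ = (absNorm ((1 : (Ideal (𝓞 F))⁰) : Ideal (𝓞 F)) : ℝ) ^ (-s) := h1.symm
    _ ≤ cfi_zeta F s := hsum.le_tsum (1 : (Ideal (𝓞 F))⁰) (fun _ _ => by positivity)

/-- The residue of the Dedekind zeta function at `1` (real form of Mathlib's theorem). -/
theorem cfi_tendsto_sub_one_mul_zeta :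
    Tendsto (fun s : ℝ => (s - 1) * cfi_zeta F s) (𝓝[>] 1) (𝓝 (dedekindZeta_residue F)) := by
  have h := tendsto_sub_one_mul_dedekindZeta_nhdsGT F
  have h2 : Tendsto (fun s : ℝ => (((s - 1) * cfi_zeta F s : ℝ) : ℂ)) (𝓝[>] 1)
      (𝓝 ((dedekindZeta_residue F : ℝ) : ℂ)) := by
    refine h.congr' ?_
    filter_upwards [self_mem_nhdsWithin] with s hs
    rw [Complex.ofReal_mul, cfi_zeta_eq_dedekindZeta F hs]
    push_cast
    rfl
  exact (Complex.continuous_re.tendsto _).comp h2 |>.congr fun s => Complex.ofReal_re _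

/-- **Euler product** of the Dedekind zeta function at real `s > 1`. -/
theorem cfi_zeta_hasProd {s : ℝ} (hs : 1 < s) :
    HasProd (fun 𝔮 : HeightOneSpectrum (𝓞 F) => (1 - (absNorm 𝔮.asIdeal : ℝ) ^ (-s))⁻¹)
      (cfi_zeta F s) := by
  have hsum : Summable fun I => ‖cfi_normPow F s I‖ := by
    refine (cfi_zeta_summable F hs).congr fun I => ?_
    rw [cfi_normPow_apply, Real.norm_of_nonneg (by positivity)]
  exact cfi_eulerProduct_hasProd' (cfi_normPow F s) hsum

end Fermat.Agent.Lib.CFT
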