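/-
S14 (class field theory route), WP-Z, part 3: the prime ideal zeta sum
`∑_𝔮 N𝔮^(-s) = log (1/(s-1)) + O(1)` as `s → 1⁺`.
-/
import Mathlib
import Fermat.Agent.Lib.CFT.ZetaField

set_option autoImplicit false

namespace Fermat.Agent.Lib.CFT

open NumberField Ideal IsDedekindDomain Filter Topology nonZeroDivisors

variable (F : Type*) [Field F] [NumberField F]

/-- The sum over all nonzero prime ideals of `N 𝔮 ^ (-s)`. -/
noncomputable def cfi_primeSum (s : ℝ) : ℝ :=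
  ∑' 𝔮 : HeightOneSpectrum (𝓞 F), (absNorm 𝔮.asIdeal : ℝ) ^ (-s)

theorem cfi_prime_injective {R : Type*} [CommRing R] [IsDedekindDomain R] :
    Function.Injective (cfi_prime : HeightOneSpectrum R → (Ideal R)⁰) := by
  intro 𝔭 𝔮 h
  exact HeightOneSpectrum.ext (congrArg (fun I : (Ideal R)⁰ => (I : Ideal R)) h)

theorem cfi_primeSum_summable {s : ℝ} (hs : 1 < s) :
    Summable fun 𝔮 : HeightOneSpectrum (𝓞 F) => (absNorm 𝔮.asIdeal : ℝ) ^ (-s) := by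
  have h := (cfi_zeta_summable F hs).comp_injective (cfi_prime_injective (R := 𝓞 F))
  exact h

/-- A sub-sum of `ζ_F(s)` over an injectively parametrised family of nonzero ideals. -/
theorem cfi_tsum_comp_le_zeta {ι : Type*} {g : ι → (Ideal (𝓞 F))⁰} (hg : Function.Injective g)
    {s : ℝ} (hs : 1 < s) :
    ∑' i, (absNorm ((g i : (Ideal (𝓞 F))⁰) : Ideal (𝓞 F)) : ℝ) ^ (-s) ≤ cfi_zeta F s :=
  tsum_comp_le_tsum_of_inj (cfi_zeta_summable F hs) (fun _ => by positivity) hg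

theorem cfi_primeSum_le_zeta {s : ℝ} (hs : 1 < s) : cfi_primeSum F s ≤ cfi_zeta F s :=
  cfi_tsum_comp_le_zeta F (cfi_prime_injective (R := 𝓞 F)) hs

theorem cfi_primeSum_nonneg (s : ℝ) : 0 ≤ cfi_primeSum F s :=
  tsum_nonneg fun _ => by positivity

/-- The norm of a nonzero prime ideal is at least `2`. -/
theorem cfi_two_le_absNorm (𝔮 : HeightOneSpectrum (𝓞 F)) : 2 ≤ absNorm 𝔮.asIdeal := by
  have h0 : absNorm 𝔮.asIdeal ≠ 0 := by
    rw [Ne, Ideal.absNorm_eq_zero_iff]; exact 𝔮.ne_bot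
  have h1 : absNorm 𝔮.asIdeal ≠ 1 := by
    rw [Ne, Ideal.absNorm_eq_one_iff]; exact 𝔮.isPrime.ne_top
  omega

theorem cfi_rpow_neg_le_half (𝔮 : HeightOneSpectrum (𝓞 F)) {s : ℝ} (hs : 1 < s) :
    (absNorm 𝔮.asIdeal : ℝ) ^ (-s) ≤ 1 / 2 := by
  have h2 : (2 : ℝ) ≤ (absNorm 𝔮.asIdeal : ℝ) := by exact_mod_cast cfi_two_le_absNorm F 𝔮
  have hpos : (0 : ℝ) < (absNorm 𝔮.asIdeal : ℝ) := by linarith
  rw [Real.rpow_neg hpos.le, one_div]
  apply inv_anti₀ (by norm_num)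
  calc (2 : ℝ) ≤ (absNorm 𝔮.asIdeal : ℝ) := h2
    _ = (absNorm 𝔮.asIdeal : ℝ) ^ (1 : ℝ) := (Real.rpow_one _).symm
    _ ≤ (absNorm 𝔮.asIdeal : ℝ) ^ s := Real.rpow_le_rpow_of_exponent_le (by linarith) hs.le

/-- `0 ≤ -log (1 - x) - x ≤ 2 x²` for `0 ≤ x ≤ 1/2`. -/
theorem cfi_log_one_sub_bounds {x : ℝ} (h0 : 0 ≤ x) (h1 : x ≤ 1 / 2) :
    0 ≤ -Real.log (1 - x) - x ∧ -Real.log (1 - x) - x ≤ 2 * x ^ 2 := by
  have habs : |x| < 1 := by rw [abs_of_nonneg h0]; linarith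
  have h := Real.abs_log_sub_add_sum_range_le habs 1
  simp only [Finset.range_one, Finset.sum_singleton, zero_add, pow_one, Nat.cast_zero,
    div_one, abs_of_nonneg h0] at h
  have hlog : Real.log (1 - x) ≤ -x := by
    have := Real.log_le_sub_one_of_pos (by linarith : (0 : ℝ) < 1 - x)
    linarith
  constructor
  · linarith
  · have h3 : x ^ (1 + 1) / (1 - x) ≤ 2 * x ^ 2 := by
      rw [div_le_iff₀ (by linarith)]
      have e : x ^ (1 + 1) = x ^ 2 := by norm_num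
      rw [e]
      nlinarith [mul_nonneg (sq_nonneg x) (by linarith : (0 : ℝ) ≤ 1 - 2 * x)]
    have := (abs_le.mp h).1
    linarith

/-- Summability of `∑_𝔮 N𝔮^(-2s)`, with the bound by `ζ_F(2)`. -/
theorem cfi_sq_summable {s : ℝ} (hs : 1 < s) :
    Summable fun 𝔮 : HeightOneSpectrum (𝓞 F) => ((absNorm 𝔮.asIdeal : ℝ) ^ (-s)) ^ 2 := by
  refine Summable.of_nonneg_of_le (fun _ => by positivity) (fun 𝔮 => ?_)
    (cfi_primeSum_summable F hs)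
  have h1 := cfi_rpow_neg_le_half F 𝔮 hs
  have h0 : (0 : ℝ) ≤ (absNorm 𝔮.asIdeal : ℝ) ^ (-s) := by positivity
  nlinarith

theorem cfi_sq_le {s : ℝ} (hs : 1 < s) (𝔮 : HeightOneSpectrum (𝓞 F)) :
    ((absNorm 𝔮.asIdeal : ℝ) ^ (-s)) ^ 2 ≤ (absNorm 𝔮.asIdeal : ℝ) ^ (-(2 : ℝ)) := by
  have h2 : (2 : ℝ) ≤ (absNorm 𝔮.asIdeal : ℝ) := by exact_mod_cast cfi_two_le_absNorm F 𝔮
  have hpos : (0 : ℝ) < (absNorm 𝔮.asIdeal : ℝ) := by linarith
  rw [← Real.rpow_natCast, ← Real.rpow_mul hpos.le]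
  apply Real.rpow_le_rpow_of_exponent_le (by linarith)
  push_cast
  linarith

theorem cfi_tsum_sq_le_zeta_two {s : ℝ} (hs : 1 < s) :
    ∑' 𝔮 : HeightOneSpectrum (𝓞 F), ((absNorm 𝔮.asIdeal : ℝ) ^ (-s)) ^ 2 ≤ cfi_zeta F 2 := by
  calc ∑' 𝔮 : HeightOneSpectrum (𝓞 F), ((absNorm 𝔮.asIdeal : ℝ) ^ (-s)) ^ 2
      ≤ ∑' 𝔮 : HeightOneSpectrum (𝓞 F), (absNorm 𝔮.asIdeal : ℝ) ^ (-(2 : ℝ)) :=
        (cfi_sq_summable F hs).tsum_le_tsum (cfi_sq_le F hs)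
          (cfi_primeSum_summable F (by norm_num))
    _ = cfi_primeSum F 2 := rfl
    _ ≤ cfi_zeta F 2 := cfi_primeSum_le_zeta F (by norm_num)

/-- `log ζ_F(s) = ∑_𝔮 -log (1 - N𝔮^(-s))`. -/
theorem cfi_hasSum_log_zeta {s : ℝ} (hs : 1 < s) :
    HasSum (fun 𝔮 : HeightOneSpectrum (𝓞 F) => -Real.log (1 - (absNorm 𝔮.asIdeal : ℝ) ^ (-s)))
      (Real.log (cfi_zeta F s)) := by
  set x : HeightOneSpectrum (𝓞 F) → ℝ := fun 𝔮 => (absNorm 𝔮.asIdeal : ℝ) ^ (-s) with hx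
  have hx0 : ∀ 𝔮, 0 ≤ x 𝔮 := fun 𝔮 => by positivity
  have hx1 : ∀ 𝔮, x 𝔮 ≤ 1 / 2 := fun 𝔮 => cfi_rpow_neg_le_half F 𝔮 hs
  have hsum : Summable fun 𝔮 => -Real.log (1 - x 𝔮) := by
    refine Summable.of_nonneg_of_le (fun 𝔮 => ?_) (fun 𝔮 => ?_)
      ((cfi_primeSum_summable F hs).add ((cfi_sq_summable F hs).mul_left 2))
    · have := (cfi_log_one_sub_bounds (hx0 𝔮) (hx1 𝔮)).1
      linarith [hx0 𝔮]
    · have := (cfi_log_one_sub_bounds (hx0 𝔮) (hx1 𝔮)).2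
      simp only [hx] at this ⊢
      linarith
  have hpos : ∀ 𝔮, 0 < (1 - x 𝔮)⁻¹ := fun 𝔮 => inv_pos.mpr (by linarith [hx1 𝔮])
  have hlog : HasSum (fun 𝔮 => Real.log ((1 - x 𝔮)⁻¹)) (∑' 𝔮, -Real.log (1 - x 𝔮)) := by
    have h := hsum.hasSum
    have hfun : (fun 𝔮 => Real.log ((1 - x 𝔮)⁻¹)) = fun 𝔮 => -Real.log (1 - x 𝔮) := by
      funext 𝔮; rw [Real.log_inv]
    rw [hfun]; exact h
  have hprod := Real.hasProd_of_hasSum_log hpos hlog
  have heq : cfi_zeta F s = Real.exp (∑' 𝔮, -Real.log (1 - x 𝔮)) :=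
    (cfi_zeta_hasProd F hs).unique hprod
  rw [heq, Real.log_exp]
  exact hsum.hasSum

/-- (Z2a) `log ζ_F(s) = ∑_𝔮 N𝔮^(-s) + O(1)`, with an explicit constant independent of `s`. -/
theorem cfi_abs_log_zeta_sub_primeSum_le {s : ℝ} (hs : 1 < s) :
    |Real.log (cfi_zeta F s) - cfi_primeSum F s| ≤ 2 * cfi_zeta F 2 := by
  have h1 := cfi_hasSum_log_zeta F hs
  have h2 := (cfi_primeSum_summable F hs).hasSum
  have h3 := h1.sub h2
  have hx0 : ∀ 𝔮 : HeightOneSpectrum (𝓞 F), 0 ≤ (absNorm 𝔮.asIdeal : ℝ) ^ (-s) :=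
    fun 𝔮 => by positivity
  have hle : ∀ 𝔮 : HeightOneSpectrum (𝓞 F),
      -Real.log (1 - (absNorm 𝔮.asIdeal : ℝ) ^ (-s)) - (absNorm 𝔮.asIdeal : ℝ) ^ (-s) ≤
        2 * ((absNorm 𝔮.asIdeal : ℝ) ^ (-s)) ^ 2 :=
    fun 𝔮 => (cfi_log_one_sub_bounds (hx0 𝔮) (cfi_rpow_neg_le_half F 𝔮 hs)).2
  have hge : ∀ 𝔮 : HeightOneSpectrum (𝓞 F),
      0 ≤ -Real.log (1 - (absNorm 𝔮.asIdeal : ℝ) ^ (-s)) - (absNorm 𝔮.asIdeal : ℝ) ^ (-s) :=
    fun 𝔮 => (cfi_log_one_sub_bounds (hx0 𝔮) (cfi_rpow_neg_le_half F 𝔮 hs)).1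
  have hnonneg : 0 ≤ Real.log (cfi_zeta F s) - cfi_primeSum F s := by
    have := h3.nonneg hge
    simpa [cfi_primeSum] using this
  rw [abs_of_nonneg hnonneg]
  have hub := hasSum_le hle h3 (((cfi_sq_summable F hs).mul_left 2).hasSum)
  rw [tsum_mul_left] at hub
  calc Real.log (cfi_zeta F s) - cfi_primeSum F s
      ≤ 2 * ∑' 𝔮 : HeightOneSpectrum (𝓞 F), ((absNorm 𝔮.asIdeal : ℝ) ^ (-s)) ^ 2 := by
        simpa [cfi_primeSum] using hub
    _ ≤ 2 * cfi_zeta F 2 := by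
        have := cfi_tsum_sq_le_zeta_two F hs
        linarith

/-- (Z2) `∑_𝔮 N𝔮^(-s) = log (1/(s-1)) + O(1)` as `s → 1⁺`. -/
theorem cfi_primeSum_sub_log_bounded :
    ∃ C : ℝ, ∀ᶠ s in 𝓝[>] (1 : ℝ), |cfi_primeSum F s - Real.log (1 / (s - 1))| ≤ C := by
  have hres := cfi_tendsto_sub_one_mul_zeta F
  have hρ := dedekindZeta_residue_pos F
  have hlog : Tendsto (fun s : ℝ => Real.log ((s - 1) * cfi_zeta F s)) (𝓝[>] 1)
      (𝓝 (Real.log (dedekindZeta_residue F))) :=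
    (Real.continuousAt_log hρ.ne').tendsto.comp hres
  have hev : ∀ᶠ s in 𝓝[>] (1 : ℝ),
      |Real.log ((s - 1) * cfi_zeta F s) - Real.log (dedekindZeta_residue F)| < 1 := by
    have := (Metric.tendsto_nhds.mp hlog) 1 one_pos
    simpa [Real.dist_eq] using this
  refine ⟨2 * cfi_zeta F 2 + |Real.log (dedekindZeta_residue F)| + 1, ?_⟩
  filter_upwards [hev, self_mem_nhdsWithin] with s h1 hs
  have hs1 : (1 : ℝ) < s := hs
  have hZ := cfi_abs_log_zeta_sub_primeSum_le F hs1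
  have hzpos := cfi_zeta_pos F hs1
  have hsplit : Real.log ((s - 1) * cfi_zeta F s) =
      Real.log (s - 1) + Real.log (cfi_zeta F s) :=
    Real.log_mul (by linarith) hzpos.ne'
  have hinv : Real.log (1 / (s - 1)) = -Real.log (s - 1) := by
    rw [one_div, Real.log_inv]
  rw [hinv]
  have e : cfi_primeSum F s - -Real.log (s - 1) =
      -(Real.log (cfi_zeta F s) - cfi_primeSum F s) +
        (Real.log ((s - 1) * cfi_zeta F s) - Real.log (dedekindZeta_residue F)) +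
        Real.log (dedekindZeta_residue F) := by
    rw [hsplit]; ring
  rw [e]
  calc |-(Real.log (cfi_zeta F s) - cfi_primeSum F s) +
        (Real.log ((s - 1) * cfi_zeta F s) - Real.log (dedekindZeta_residue F)) +
        Real.log (dedekindZeta_residue F)|
      ≤ |-(Real.log (cfi_zeta F s) - cfi_primeSum F s)| +
        |Real.log ((s - 1) * cfi_zeta F s) - Real.log (dedekindZeta_residue F)| +
        |Real.log (dedekindZeta_residue F)| := abs_add_three _ _ _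
    _ ≤ 2 * cfi_zeta F 2 + 1 + |Real.log (dedekindZeta_residue F)| := by
        rw [abs_neg]; linarith
    _ = 2 * cfi_zeta F 2 + |Real.log (dedekindZeta_residue F)| + 1 := by ring

end Fermat.Agent.Lib.CFT
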