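/-
S14 (class field theory route), WP-Z, part 4: primes of degree `≥ 2` over `ℚ` have a bounded zeta
sum (Z3); infinitely many primes of degree one do not split in a Galois extension of prime
degree (Z4).
-/
import Mathlib
import Fermat.Agent.Lib.CFT.ZetaPrime

set_option autoImplicit false
set_option linter.unusedSectionVars false

namespace Fermat.Agent.Lib.CFT

open NumberField Ideal IsDedekindDomain Filter Topology nonZeroDivisors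

variable (F : Type*) [Field F] [NumberField F]

/-! ### The rational prime below a prime ideal -/

/-- The rational prime below a nonzero prime ideal. -/
noncomputable def cfi_below (𝔮 : HeightOneSpectrum (𝓞 F)) : ℕ :=
  absNorm (under ℤ 𝔮.asIdeal)

theorem cfi_below_prime (𝔮 : HeightOneSpectrum (𝓞 F)) : (cfi_below F 𝔮).Prime := by
  have : 𝔮.asIdeal.IsPrime := 𝔮.isPrime
  have : NeZero 𝔮.asIdeal := ⟨𝔮.ne_bot⟩
  exact Nat.absNorm_under_prime 𝔮.asIdeal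

theorem cfi_below_liesOver (𝔮 : HeightOneSpectrum (𝓞 F)) :
    𝔮.asIdeal.LiesOver (span {(cfi_below F 𝔮 : ℤ)}) :=
  Int.liesOver_span_absNorm 𝔮.asIdeal

/-- `N 𝔮 = ℓ ^ f`. -/
theorem cfi_absNorm_eq_pow (𝔮 : HeightOneSpectrum (𝓞 F)) :
    absNorm 𝔮.asIdeal = cfi_below F 𝔮 ^ (𝔮.asIdeal.inertiaDeg ℤ) := by
  have : 𝔮.asIdeal.IsPrime := 𝔮.isPrime
  have := cfi_below_liesOver F 𝔮
  exact (Ideal.pow_inertiaDeg (cfi_below F 𝔮) 𝔮.asIdeal).symm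

/-- If `N 𝔮` is not a prime number, then `N 𝔮 ≥ ℓ²`. -/
theorem cfi_sq_below_le_absNorm (𝔮 : HeightOneSpectrum (𝓞 F))
    (h : ¬ (absNorm 𝔮.asIdeal).Prime) : cfi_below F 𝔮 ^ 2 ≤ absNorm 𝔮.asIdeal := by
  have : 𝔮.asIdeal.IsPrime := 𝔮.isPrime
  have hf : 0 < 𝔮.asIdeal.inertiaDeg ℤ := Ideal.inertiaDeg_pos 𝔮.asIdeal ℤ
  have hf1 : 𝔮.asIdeal.inertiaDeg ℤ ≠ 1 := by
    intro h1
    apply h
    rw [cfi_absNorm_eq_pow, h1, pow_one]
    exact cfi_below_prime F 𝔮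
  rw [cfi_absNorm_eq_pow]
  exact Nat.pow_le_pow_right (cfi_below_prime F 𝔮).pos (by omega)

/-! ### Counting the primes over a given prime -/

/-- At most `[S : R]` primes lie over a given prime (finite flat extension of a domain). -/
theorem cfi_card_le_finrank {R S : Type*} [CommRing R] [IsDomain R] [CommRing S] [Algebra R S]
    [Module.Finite R S] [Module.Flat R S] (p : Ideal R) [p.IsPrime] [Fintype (p.primesOver S)]
    (T : Finset (Ideal S)) (hT : ∀ q ∈ T, q ∈ p.primesOver S) :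
    T.card ≤ Module.finrank R S := by
  classical
  have h1 : T ⊆ (p.primesOver S).toFinset := fun q hq => Set.mem_toFinset.mpr (hT q hq)
  have h2 : (p.primesOver S).toFinset.card = Fintype.card (p.primesOver S) := Set.toFinset_card _
  have h3 : Fintype.card (p.primesOver S) ≤ Module.finrank R S := by
    rw [← Ideal.sum_ramification_inertia_eq_finrank p S, Fintype.card_eq_sum_ones]
    refine Finset.sum_le_sum fun q _ => ?_
    have : q.1.IsPrime := q.2.1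
    exact Nat.one_le_iff_ne_zero.mpr (Nat.mul_ne_zero (Ideal.ramificationIdx_pos q.1 R).ne'
      (Ideal.inertiaDeg_pos q.1 R).ne')
  exact (Finset.card_le_card h1).trans (h2.le.trans h3)

/-- If all primes over `p` have `e = f = 1`, there are exactly `[S : R]` of them. -/
theorem cfi_card_eq_finrank {R S : Type*} [CommRing R] [IsDomain R] [CommRing S] [Algebra R S]
    [Module.Finite R S] [Module.Flat R S] (p : Ideal R) [p.IsPrime] [Fintype (p.primesOver S)]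
    (h : ∀ q ∈ p.primesOver S, q.ramificationIdx R = 1 ∧ q.inertiaDeg R = 1) :
    Fintype.card (p.primesOver S) = Module.finrank R S := by
  rw [← Ideal.sum_ramification_inertia_eq_finrank p S, Fintype.card_eq_sum_ones]
  refine Finset.sum_congr rfl fun q _ => ?_
  rw [(h q.1 q.2).1, (h q.1 q.2).2]

/-! ### (Z3): primes of degree `≥ 2` over `ℚ` -/

theorem cfi_asIdeal_injective {R : Type*} [CommRing R] [IsDedekindDomain R] :
    Function.Injective (fun 𝔮 : HeightOneSpectrum R => 𝔮.asIdeal) :=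
  fun _ _ h => HeightOneSpectrum.ext h

/-- At most `[F : ℚ]` primes of `F` lie over a given rational prime. -/
theorem cfi_card_filter_below_le (u : Finset (HeightOneSpectrum (𝓞 F))) (ℓ : ℕ) :
    (u.filter fun 𝔮 => cfi_below F 𝔮 = ℓ).card ≤ Module.finrank ℚ F := by
  classical
  rcases (u.filter fun 𝔮 => cfi_below F 𝔮 = ℓ).eq_empty_or_nonempty with h | ⟨𝔮₀, h𝔮₀⟩
  · rw [h]; simp
  have hℓ : ℓ.Prime := by
    rw [← (Finset.mem_filter.mp h𝔮₀).2]; exact cfi_below_prime F 𝔮₀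
  have : Fact ℓ.Prime := ⟨hℓ⟩
  have hmax : (span {(ℓ : ℤ)}).IsMaximal := Int.ideal_span_isMaximal_of_prime ℓ
  have hcard : ((u.filter fun 𝔮 => cfi_below F 𝔮 = ℓ).image fun 𝔮 => 𝔮.asIdeal).card =
      (u.filter fun 𝔮 => cfi_below F 𝔮 = ℓ).card :=
    Finset.card_image_of_injective _ cfi_asIdeal_injective
  rw [← hcard, ← RingOfIntegers.rank F]
  refine cfi_card_le_finrank (span {(ℓ : ℤ)}) _ fun q hq => ?_
  obtain ⟨𝔮, h𝔮, rfl⟩ := Finset.mem_image.mp hq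
  refine ⟨𝔮.isPrime, ?_⟩
  have := cfi_below_liesOver F 𝔮
  rwa [(Finset.mem_filter.mp h𝔮).2] at this

theorem cfi_rpow_neg_le_below (𝔮 : HeightOneSpectrum (𝓞 F))
    (h : ¬ (absNorm 𝔮.asIdeal).Prime) {s : ℝ} (hs : 1 < s) :
    (absNorm 𝔮.asIdeal : ℝ) ^ (-s) ≤ ((cfi_below F 𝔮 : ℕ) : ℝ) ^ (-(2 : ℝ)) := by
  have hℓ := cfi_below_prime F 𝔮
  have hℓpos : (0 : ℝ) < (cfi_below F 𝔮 : ℝ) := by exact_mod_cast hℓ.pos
  have h1 : ((cfi_below F 𝔮 : ℕ) : ℝ) ^ 2 ≤ (absNorm 𝔮.asIdeal : ℝ) := by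
    exact_mod_cast cfi_sq_below_le_absNorm F 𝔮 h
  have hN1 : (1 : ℝ) ≤ (absNorm 𝔮.asIdeal : ℝ) := by
    have := cfi_two_le_absNorm F 𝔮
    exact_mod_cast (by omega : 1 ≤ absNorm 𝔮.asIdeal)
  calc (absNorm 𝔮.asIdeal : ℝ) ^ (-s) ≤ (absNorm 𝔮.asIdeal : ℝ) ^ (-(1 : ℝ)) :=
        Real.rpow_le_rpow_of_exponent_le hN1 (by linarith)
    _ ≤ (((cfi_below F 𝔮 : ℕ) : ℝ) ^ 2) ^ (-(1 : ℝ)) :=
        Real.rpow_le_rpow_of_nonpos (by positivity) h1 (by norm_num)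
    _ = ((cfi_below F 𝔮 : ℕ) : ℝ) ^ (-(2 : ℝ)) := by
        rw [← Real.rpow_natCast, ← Real.rpow_mul hℓpos.le]
        norm_num

/-- (Z3) the primes of degree `≥ 2` over `ℚ` (norm not a prime number) have a bounded sum. -/
theorem cfi_degree_ge_two_bounded :
    ∃ C : ℝ, ∀ s : ℝ, 1 < s →
      (∑' 𝔮 : {𝔮 : HeightOneSpectrum (𝓞 F) // ¬ (absNorm 𝔮.asIdeal).Prime},
        (absNorm 𝔮.1.asIdeal : ℝ) ^ (-s)) ≤ C := by
  classical
  have hsum2 : Summable (fun k : ℕ => (k : ℝ) ^ (-(2 : ℝ))) :=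
    Real.summable_nat_rpow.mpr (by norm_num)
  refine ⟨(Module.finrank ℚ F : ℝ) * ∑' k : ℕ, (k : ℝ) ^ (-(2 : ℝ)), fun s hs => ?_⟩
  refine Real.tsum_le_of_sum_le (fun _ => by positivity) fun u => ?_
  -- pass to a finset of `HeightOneSpectrum`
  set v : Finset (HeightOneSpectrum (𝓞 F)) := u.image Subtype.val with hv
  have hvmem : ∀ 𝔮 ∈ v, ¬ (absNorm 𝔮.asIdeal).Prime := by
    intro 𝔮 h𝔮
    obtain ⟨x, _, rfl⟩ := Finset.mem_image.mp h𝔮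
    exact x.2
  have hsumv : ∑ x ∈ u, (absNorm x.1.asIdeal : ℝ) ^ (-s) =
      ∑ 𝔮 ∈ v, (absNorm 𝔮.asIdeal : ℝ) ^ (-s) := by
    rw [hv, Finset.sum_image (fun x _ y _ h => Subtype.ext h)]
  rw [hsumv]
  calc ∑ 𝔮 ∈ v, (absNorm 𝔮.asIdeal : ℝ) ^ (-s)
      ≤ ∑ 𝔮 ∈ v, ((cfi_below F 𝔮 : ℕ) : ℝ) ^ (-(2 : ℝ)) :=
        Finset.sum_le_sum fun 𝔮 h𝔮 => cfi_rpow_neg_le_below F 𝔮 (hvmem 𝔮 h𝔮) hs
    _ = ∑ ℓ ∈ v.image (cfi_below F), ∑ 𝔮 ∈ v.filter (fun 𝔮 => cfi_below F 𝔮 = ℓ),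
          ((cfi_below F 𝔮 : ℕ) : ℝ) ^ (-(2 : ℝ)) :=
        (Finset.sum_fiberwise_of_maps_to (fun 𝔮 h𝔮 => Finset.mem_image_of_mem _ h𝔮) _).symm
    _ ≤ ∑ ℓ ∈ v.image (cfi_below F), (Module.finrank ℚ F : ℝ) * (ℓ : ℝ) ^ (-(2 : ℝ)) := by
        refine Finset.sum_le_sum fun ℓ _ => ?_
        have hconst : ∑ 𝔮 ∈ v.filter (fun 𝔮 => cfi_below F 𝔮 = ℓ),
            ((cfi_below F 𝔮 : ℕ) : ℝ) ^ (-(2 : ℝ)) =
            ((v.filter fun 𝔮 => cfi_below F 𝔮 = ℓ).card : ℝ) * (ℓ : ℝ) ^ (-(2 : ℝ)) := by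
          rw [Finset.sum_congr rfl (g := fun _ => (ℓ : ℝ) ^ (-(2 : ℝ)))
            (fun 𝔮 h𝔮 => by rw [(Finset.mem_filter.mp h𝔮).2]), Finset.sum_const, nsmul_eq_mul]
        rw [hconst]
        have hc : ((v.filter fun 𝔮 => cfi_below F 𝔮 = ℓ).card : ℝ) ≤ (Module.finrank ℚ F : ℝ) := by
          exact_mod_cast cfi_card_filter_below_le F v ℓ
        exact mul_le_mul_of_nonneg_right hc (by positivity)
    _ = (Module.finrank ℚ F : ℝ) * ∑ ℓ ∈ v.image (cfi_below F), (ℓ : ℝ) ^ (-(2 : ℝ)) := by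
        rw [Finset.mul_sum]
    _ ≤ (Module.finrank ℚ F : ℝ) * ∑' k : ℕ, (k : ℝ) ^ (-(2 : ℝ)) := by
        refine mul_le_mul_of_nonneg_left ?_ (by positivity)
        exact hsum2.sum_le_tsum _ fun _ _ => by positivity

/-- Inequality (II): the prime zeta sum is carried, up to a bounded error, by the primes of degree
one outside any finite set. -/
theorem cfi_primeSum_le_split (T' : Finset (HeightOneSpectrum (𝓞 F))) :
    ∃ C : ℝ, ∀ s : ℝ, 1 < s → cfi_primeSum F s ≤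
      (∑' 𝔮 : {𝔮 : HeightOneSpectrum (𝓞 F) | 𝔮 ∉ T' ∧ (absNorm 𝔮.asIdeal).Prime},
        (absNorm 𝔮.1.asIdeal : ℝ) ^ (-s)) + C := by
  classical
  obtain ⟨C₃, hC₃⟩ := cfi_degree_ge_two_bounded F
  refine ⟨(T'.card : ℝ) + C₃, fun s hs => ?_⟩
  set x : HeightOneSpectrum (𝓞 F) → ℝ := fun 𝔮 => (absNorm 𝔮.asIdeal : ℝ) ^ (-s) with hx
  set G : Set (HeightOneSpectrum (𝓞 F)) := {𝔮 | 𝔮 ∉ T' ∧ (absNorm 𝔮.asIdeal).Prime} with hG
  set NP : Set (HeightOneSpectrum (𝓞 F)) := {𝔮 | ¬ (absNorm 𝔮.asIdeal).Prime} with hNP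
  have hx0 : ∀ 𝔮, 0 ≤ x 𝔮 := fun 𝔮 => by positivity
  have hxs : Summable x := cfi_primeSum_summable F hs
  have hpt : ∀ 𝔮, x 𝔮 ≤ (T' : Set (HeightOneSpectrum (𝓞 F))).indicator x 𝔮 + G.indicator x 𝔮 +
      NP.indicator x 𝔮 := by
    intro 𝔮
    have h1 := Set.indicator_nonneg (s := (T' : Set (HeightOneSpectrum (𝓞 F)))) (fun a _ => hx0 a) 𝔮
    have h2 := Set.indicator_nonneg (s := G) (fun a _ => hx0 a) 𝔮
    have h3 := Set.indicator_nonneg (s := NP) (fun a _ => hx0 a) 𝔮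
    by_cases hT : 𝔮 ∈ T'
    · rw [Set.indicator_of_mem (Finset.mem_coe.mpr hT)]; linarith
    · by_cases hp : (absNorm 𝔮.asIdeal).Prime
      · rw [Set.indicator_of_mem (show 𝔮 ∈ G from ⟨hT, hp⟩)]; linarith
      · rw [Set.indicator_of_mem (show 𝔮 ∈ NP from hp)]; linarith
  have hsT := hxs.indicator (T' : Set (HeightOneSpectrum (𝓞 F)))
  have hsG := hxs.indicator G
  have hsNP := hxs.indicator NP
  have hle := hxs.tsum_le_tsum hpt ((hsT.add hsG).add hsNP)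
  rw [(hsT.add hsG).tsum_add hsNP, hsT.tsum_add hsG, ← tsum_subtype G x,
    ← tsum_subtype NP x, ← sum_eq_tsum_indicator] at hle
  have hT1 : ∑ 𝔮 ∈ T', x 𝔮 ≤ (T'.card : ℝ) := by
    rw [Finset.card_eq_sum_ones, Nat.cast_sum]
    refine Finset.sum_le_sum fun 𝔮 _ => ?_
    have := cfi_rpow_neg_le_half F 𝔮 hs
    simp only [hx, Nat.cast_one]
    linarith
  have hNP1 : ∑' 𝔮 : NP, x 𝔮.1 ≤ C₃ := hC₃ s hs
  calc cfi_primeSum F s = ∑' 𝔮, x 𝔮 := rfl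
    _ ≤ ∑ 𝔮 ∈ T', x 𝔮 + ∑' 𝔮 : G, x 𝔮.1 + ∑' 𝔮 : NP, x 𝔮.1 := hle
    _ ≤ (∑' 𝔮 : G, x 𝔮.1) + ((T'.card : ℝ) + C₃) := by linarith

/-! ### (Z4): primes that do not split -/

section above

variable (L : Type*) [Field L] [NumberField L] [Algebra F L]

/-- The primes of `L` above a prime `𝔮` of `F`. -/
def cfi_above (𝔮 : HeightOneSpectrum (𝓞 F)) : Set (HeightOneSpectrum (𝓞 L)) :=
  {𝔔 | 𝔔.asIdeal.LiesOver 𝔮.asIdeal}

theorem cfi_above_finite (𝔮 : HeightOneSpectrum (𝓞 F)) : (cfi_above F L 𝔮).Finite := by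
  have hmax : 𝔮.asIdeal.IsMaximal := 𝔮.isMaximal
  have hfin : (𝔮.asIdeal.primesOver (𝓞 L)).Finite := IsDedekindDomain.primesOver_finite _ _
  refine Set.Finite.of_finite_image (f := fun 𝔔 : HeightOneSpectrum (𝓞 L) => 𝔔.asIdeal)
    (hfin.subset ?_) (cfi_asIdeal_injective.injOn)
  rintro _ ⟨𝔔, h𝔔, rfl⟩
  exact ⟨𝔔.isPrime, h𝔔⟩

theorem cfi_above_disjoint {𝔮 𝔮' : HeightOneSpectrum (𝓞 F)} (h : 𝔮 ≠ 𝔮') :
    Disjoint (cfi_above F L 𝔮) (cfi_above F L 𝔮') := by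
  rw [Set.disjoint_left]
  intro 𝔔 h1 h2
  apply h
  apply HeightOneSpectrum.ext
  have e1 : 𝔮.asIdeal = under (𝓞 F) 𝔔.asIdeal := (h1 : 𝔔.asIdeal.LiesOver 𝔮.asIdeal).over
  have e2 : 𝔮'.asIdeal = under (𝓞 F) 𝔔.asIdeal := (h2 : 𝔔.asIdeal.LiesOver 𝔮'.asIdeal).over
  rw [e1, e2]

/-- If every prime above `𝔮` has the same norm as `𝔮` (residue degree one) and `L/F` is
unramified, there are exactly `[L : F]` primes above `𝔮`. -/
theorem cfi_above_card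
    (hur : ∀ (𝔔 : Ideal (𝓞 L)) [𝔔.IsPrime], 𝔔 ≠ ⊥ → Algebra.IsUnramifiedAt (𝓞 F) 𝔔)
    (𝔮 : HeightOneSpectrum (𝓞 F))
    (hsplit : ∀ 𝔔 ∈ cfi_above F L 𝔮, absNorm 𝔔.asIdeal = absNorm 𝔮.asIdeal) :
    (cfi_above_finite F L 𝔮).toFinset.card = Module.finrank F L := by
  classical
  have hmax : 𝔮.asIdeal.IsMaximal := 𝔮.isMaximal
  have hprime : 𝔮.asIdeal.IsPrime := 𝔮.isPrime
  -- every prime over `𝔮` is nonzero
  have hne : ∀ q ∈ 𝔮.asIdeal.primesOver (𝓞 L), q ≠ ⊥ := by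
    rintro q ⟨_, hq⟩ rfl
    have : 𝔮.asIdeal = under (𝓞 F) (⊥ : Ideal (𝓞 L)) := hq.over
    rw [Ideal.under_bot] at this
    exact 𝔮.ne_bot this
  have himage : (cfi_above_finite F L 𝔮).toFinset.image (fun 𝔔 => 𝔔.asIdeal) =
      (𝔮.asIdeal.primesOver (𝓞 L)).toFinset := by
    ext q
    simp only [Finset.mem_image, Set.Finite.mem_toFinset, Set.mem_toFinset]
    constructor
    · rintro ⟨𝔔, h𝔔, rfl⟩
      exact ⟨𝔔.isPrime, h𝔔⟩
    · intro hq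
      exact ⟨⟨q, hq.1, hne q hq⟩, hq.2, rfl⟩
  have h1 : (cfi_above_finite F L 𝔮).toFinset.card =
      ((cfi_above_finite F L 𝔮).toFinset.image (fun 𝔔 => 𝔔.asIdeal)).card :=
    (Finset.card_image_of_injective _ cfi_asIdeal_injective).symm
  rw [h1, himage, Set.toFinset_card, IsFractionRing.finrank_eq (𝓞 F) F (𝓞 L) L]
  refine cfi_card_eq_finrank 𝔮.asIdeal fun q hq => ?_
  have hqp : q.IsPrime := hq.1
  have hql : q.LiesOver 𝔮.asIdeal := hq.2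
  have hq0 : q ≠ ⊥ := hne q hq
  constructor
  · have := hur q hq0
    exact Ideal.ramificationIdx_eq_one q (𝓞 F)
  · have hN : absNorm q = absNorm 𝔮.asIdeal :=
      hsplit ⟨q, hqp, hq0⟩ hql
    have hpow := Ideal.absNorm_pow_inertiaDeg 𝔮.asIdeal q
    rw [hN] at hpow
    have h2 := cfi_two_le_absNorm F 𝔮
    have : absNorm 𝔮.asIdeal ^ q.inertiaDeg (𝓞 F) = absNorm 𝔮.asIdeal ^ 1 := by
      rw [hpow, pow_one]
    exact Nat.pow_right_injective h2 this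

/-- Inequality (I): if all primes above the primes of a set `G` have residue degree one, then
`[L:F] * ∑_{𝔮 ∈ G} N𝔮^(-s) ≤ ∑_𝔔 N𝔔^(-s)`. -/
theorem cfi_mul_tsum_le_primeSum
    (hur : ∀ (𝔔 : Ideal (𝓞 L)) [𝔔.IsPrime], 𝔔 ≠ ⊥ → Algebra.IsUnramifiedAt (𝓞 F) 𝔔)
    (G : Set (HeightOneSpectrum (𝓞 F)))
    (hG : ∀ 𝔮 ∈ G, ∀ 𝔔 ∈ cfi_above F L 𝔮, absNorm 𝔔.asIdeal = absNorm 𝔮.asIdeal)
    {s : ℝ} (hs : 1 < s) :
    (Module.finrank F L : ℝ) * ∑' 𝔮 : G, (absNorm 𝔮.1.asIdeal : ℝ) ^ (-s) ≤ cfi_primeSum L s := by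
  classical
  rw [← tsum_mul_left]
  refine Real.tsum_le_of_sum_le (fun _ => by positivity) fun u => ?_
  set U : Finset (HeightOneSpectrum (𝓞 L)) :=
    u.biUnion fun 𝔮 => (cfi_above_finite F L 𝔮.1).toFinset with hU
  have hdisj : (u : Set G).PairwiseDisjoint fun 𝔮 => (cfi_above_finite F L 𝔮.1).toFinset := by
    intro 𝔮 _ 𝔮' _ hne
    rw [Function.onFun, Finset.disjoint_left]
    intro 𝔔 h1 h2
    rw [Set.Finite.mem_toFinset] at h1 h2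
    have hne' : 𝔮.1 ≠ 𝔮'.1 := fun h => hne (Subtype.ext h)
    exact Set.disjoint_left.mp (cfi_above_disjoint F L hne') h1 h2
  have hsumU : ∑ 𝔔 ∈ U, (absNorm 𝔔.asIdeal : ℝ) ^ (-s) =
      ∑ 𝔮 ∈ u, (Module.finrank F L : ℝ) * (absNorm 𝔮.1.asIdeal : ℝ) ^ (-s) := by
    rw [hU, Finset.sum_biUnion hdisj]
    refine Finset.sum_congr rfl fun 𝔮 _ => ?_
    have hconst : ∀ 𝔔 ∈ (cfi_above_finite F L 𝔮.1).toFinset,
        (absNorm 𝔔.asIdeal : ℝ) ^ (-s) = (absNorm 𝔮.1.asIdeal : ℝ) ^ (-s) := by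
      intro 𝔔 h𝔔
      rw [Set.Finite.mem_toFinset] at h𝔔
      rw [hG 𝔮.1 𝔮.2 𝔔 h𝔔]
    rw [Finset.sum_congr rfl hconst, Finset.sum_const, nsmul_eq_mul,
      cfi_above_card F L hur 𝔮.1 (hG 𝔮.1 𝔮.2)]
  rw [← hsumU]
  exact (cfi_primeSum_summable L hs).sum_le_tsum U fun _ _ => by positivity

/-- `log (1/(s-1)) → +∞` as `s → 1⁺`. -/
theorem cfi_tendsto_log_inv_sub_one :
    Tendsto (fun s : ℝ => Real.log (1 / (s - 1))) (𝓝[>] 1) atTop := by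
  have h0 : Tendsto (fun s : ℝ => s - 1) (𝓝[>] 1) (𝓝 0) :=
    ((continuous_id.sub continuous_const).tendsto' (1 : ℝ) 0 (by simp)).mono_left
      nhdsWithin_le_nhds
  have h1 : Tendsto (fun s : ℝ => s - 1) (𝓝[>] 1) (𝓝[>] 0) := by
    refine tendsto_nhdsWithin_of_tendsto_nhds_of_eventually_within _ h0 ?_
    filter_upwards [self_mem_nhdsWithin] with s hs
    have : (1 : ℝ) < s := hs
    exact Set.mem_Ioi.mpr (by linarith)
  have h2 : Tendsto (fun s : ℝ => 1 / (s - 1)) (𝓝[>] 1) atTop := by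
    simp only [one_div]
    exact tendsto_inv_nhdsGT_zero.comp h1
  exact Real.tendsto_log_atTop.comp h2

/-- (Z4) In an unramified Galois extension `L/F` of prime degree, infinitely many primes of `F`
of degree one over `ℚ` (outside any finite set) have a prime above them of residue degree `> 1`,
i.e. do not split completely. -/
theorem cfi_infinite_nonsplit [IsGalois F L] {p : ℕ} (hp : p.Prime)
    (hdeg : Module.finrank F L = p) (T : Finset (HeightOneSpectrum (𝓞 F)))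
    (hur : ∀ (𝔔 : Ideal (𝓞 L)) [𝔔.IsPrime], 𝔔 ≠ ⊥ → Algebra.IsUnramifiedAt (𝓞 F) 𝔔) :
    {𝔮 : HeightOneSpectrum (𝓞 F) | 𝔮 ∉ T ∧ (absNorm 𝔮.asIdeal).Prime ∧
      ∃ 𝔔 : Ideal (𝓞 L), 𝔔.IsPrime ∧ 𝔔.LiesOver 𝔮.asIdeal ∧
        absNorm 𝔔 ≠ absNorm 𝔮.asIdeal}.Infinite := by
  classical
  intro hfin
  set T' : Finset (HeightOneSpectrum (𝓞 F)) := T ∪ hfin.toFinset with hT'
  set G : Set (HeightOneSpectrum (𝓞 F)) := {𝔮 | 𝔮 ∉ T' ∧ (absNorm 𝔮.asIdeal).Prime} with hG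
  have hGsplit : ∀ 𝔮 ∈ G, ∀ 𝔔 ∈ cfi_above F L 𝔮,
      absNorm 𝔔.asIdeal = absNorm 𝔮.asIdeal := by
    intro 𝔮 h𝔮 𝔔 h𝔔
    by_contra hne
    apply h𝔮.1
    rw [hT', Finset.mem_union]
    by_cases hT : 𝔮 ∈ T
    · exact Or.inl hT
    · right
      rw [Set.Finite.mem_toFinset]
      exact ⟨hT, h𝔮.2, 𝔔.asIdeal, 𝔔.isPrime, h𝔔, hne⟩
  obtain ⟨C₂, hC₂⟩ := cfi_primeSum_le_split F T'
  obtain ⟨CF, hCF⟩ := cfi_primeSum_sub_log_bounded F
  obtain ⟨CL, hCL⟩ := cfi_primeSum_sub_log_bounded L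
  have hp0 : (0 : ℝ) ≤ p := Nat.cast_nonneg p
  have hp1 : (0 : ℝ) < (p : ℝ) - 1 := by
    have : (1 : ℝ) < p := by exact_mod_cast hp.one_lt
    linarith
  have hbound : ∀ᶠ s in 𝓝[>] (1 : ℝ),
      ((p : ℝ) - 1) * Real.log (1 / (s - 1)) ≤ p * (CF + C₂) + CL := by
    filter_upwards [hCF, hCL, self_mem_nhdsWithin] with s h1 h2 hs
    have hs1 : (1 : ℝ) < s := hs
    have hI := cfi_mul_tsum_le_primeSum F L hur G hGsplit hs1
    have hII := hC₂ s hs1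
    rw [hdeg] at hI
    have h1' := abs_le.mp h1
    have h2' := abs_le.mp h2
    have hmul : (p : ℝ) * (Real.log (1 / (s - 1)) - CF - C₂) ≤
        p * ∑' 𝔮 : G, (absNorm 𝔮.1.asIdeal : ℝ) ^ (-s) := by
      refine mul_le_mul_of_nonneg_left ?_ hp0
      linarith [h1'.1]
    linarith [h2'.2]
  have htend' : Tendsto (fun s : ℝ => ((p : ℝ) - 1) * Real.log (1 / (s - 1))) (𝓝[>] 1) atTop :=
    cfi_tendsto_log_inv_sub_one.const_mul_atTop hp1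
  have hgt := htend'.eventually (eventually_gt_atTop (p * (CF + C₂) + CL))
  obtain ⟨s, hs1, hs2⟩ := (hgt.and hbound).exists
  linarith

end above

end Fermat.Agent.Lib.CFT
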