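/-
S14 (CFT route): the three analytic/local inputs of T1 (`cft_normGood_of_cyclo`, board #338), in the
exact shapes of its hypotheses `hC2`, `hC3b`, `hZ4`, for a Galois extension `M/E` of number fields of
prime degree `p`, everywhere unramified.

* `cfh_hC2`  : local norm surjectivity (from `cfh_exists_norm_sub_mem`, LocalNorm.lean);
* `cfh_hC3b` : second inequality (from `cfb_index_normClasses_le`, SecondIneqFinal.lean);
* `cfh_hZ4`  : existence of non-split primes outside a finite set (from `cfi_infinite_nonsplit`,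
               ZetaSplit.lean).
-/
import Mathlib
import Fermat.Agent.Lib.CFT.LocalNorm
import Fermat.Agent.Lib.CFT.SecondIneqFinal
import Fermat.Agent.Lib.CFT.ZetaSplit

set_option autoImplicit false
set_option linter.unusedSectionVars false

namespace Fermat.Agent.Lib.CFT

open NumberField IsDedekindDomain
open scoped nonZeroDivisors

variable {E M : Type*} [Field E] [NumberField E] [Field M] [NumberField M] [Algebra E M]
  [IsGalois E M]

/-- `hC2` of T1: local norm surjectivity. -/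
theorem cfh_hC2 (hunM : cft_Unram E M) :
    ∀ I : Ideal (𝓞 E), I ≠ ⊥ → ∀ γ : 𝓞 E, Ideal.span {γ} ⊔ I = ⊤ →
      ∃ β : 𝓞 M, RingOfIntegers.norm E β - γ ∈ I :=
  fun I hI γ hγ => cfh_exists_norm_sub_mem hunM I hI γ hγ

/-- `hC3b` of T1: the second inequality. -/
theorem cfh_hC3b {p : ℕ} (hp : p.Prime) (hdeg : Module.finrank E M = p)
    (hunM : cft_Unram E M) : (cft_normClasses E M).index ≤ p :=
  cfb_index_normClasses_le E M hp hdeg hunM

/-- `hZ4` of T1: outside any finite set of primes of `E` there is a prime which does not split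
completely in `M`. -/
theorem cfh_hZ4 {p : ℕ} (hp : p.Prime) (hdeg : Module.finrank E M = p)
    (hunM : cft_Unram E M) :
    ∀ T : Finset (HeightOneSpectrum (𝓞 E)), ∃ 𝔮 : HeightOneSpectrum (𝓞 E), 𝔮 ∉ T ∧
      ∃ 𝔔 : Ideal (𝓞 M), 𝔔.IsPrime ∧ 𝔔.LiesOver 𝔮.asIdeal ∧
        Ideal.absNorm 𝔔 ≠ Ideal.absNorm 𝔮.asIdeal := by
  intro T
  obtain ⟨𝔮, h𝔮T, -, h⟩ := (cfi_infinite_nonsplit E M hp hdeg T hunM).nonempty
  exact ⟨𝔮, h𝔮T, h⟩

/-- The same, with the additional information that the prime has prime absolute norm (degree one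
over `ℚ`). -/
theorem cfh_hZ4' {p : ℕ} (hp : p.Prime) (hdeg : Module.finrank E M = p)
    (hunM : cft_Unram E M) :
    ∀ T : Finset (HeightOneSpectrum (𝓞 E)), ∃ 𝔮 : HeightOneSpectrum (𝓞 E), 𝔮 ∉ T ∧
      (Ideal.absNorm 𝔮.asIdeal).Prime ∧
      ∃ 𝔔 : Ideal (𝓞 M), 𝔔.IsPrime ∧ 𝔔.LiesOver 𝔮.asIdeal ∧
        Ideal.absNorm 𝔔 ≠ Ideal.absNorm 𝔮.asIdeal := by
  intro T
  obtain ⟨𝔮, h𝔮T, hpr, h⟩ := (cfi_infinite_nonsplit E M hp hdeg T hunM).nonempty
  exact ⟨𝔮, h𝔮T, hpr, h⟩

end Fermat.Agent.Lib.CFT
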