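/-
S14 (CFT route), crossing argument, (Asm1): ONE auxiliary field.
`K ⊆ L ⊆ Ω`, `L/K` abelian unramified of prime degree `p`, `Ω/K` abelian, `ζ ∈ Ω` a primitive
`ℓ`-th root of unity, `φ` a Frobenius of `Ω/K` above the non-split prime `q` of `K`,
`H = cft_decompH φ ζ`, `E = fixedField H`, `M = cfn_M K L E Ω` (`= L E`).
All hypotheses of T1 (`cft_normGood_of_cyclo`) hold for `(E, M, Ω, ζ)`, and `q` has a prime of
degree one in `E`.
-/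
import Mathlib
import Fermat.Agent.Lib.CFT.DecompGroup
import Fermat.Agent.Lib.CFT.FixedGood
import Fermat.Agent.Lib.CFT.NormGood
import Fermat.Agent.Lib.CFT.NormGoodInputs
import Fermat.Agent.Lib.CFT.CrossData
import Fermat.Agent.Lib.CFT.CycloFrobB
import Fermat.Agent.Lib.CFT.NormGoodCyclo

set_option autoImplicit false
set_option linter.unusedSectionVars false

namespace Fermat.Agent.Lib.CFT

open NumberField IsDedekindDomain
open scoped nonZeroDivisors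

variable {K L Ω : Type*} [Field K] [NumberField K] [Field L] [NumberField L]
  [Field Ω] [NumberField Ω] [Algebra K L] [Algebra L Ω] [Algebra K Ω]
  [IsScalarTower K L Ω] [IsGalois K L] [IsGalois K Ω] [IsMulCommutative (L ≃ₐ[K] L)]

/-- Action of the Frobenius `φ` on `ζ`, restriction of `φ` to `L`, and the containment property of
`H = cft_decompH φ ζ`. -/
theorem cfc_asmOne_group {p : ℕ} (_hp : p.Prime) (hdeg : Module.finrank K L = p)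
    (hun : cft_Unram K L) (hcommΩ : ∀ g h : Ω ≃ₐ[K] Ω, g * h = h * g)
    {ℓ : ℕ} (hℓ : ℓ.Prime) (ζ : Ω) (hζ : IsPrimitiveRoot ζ ℓ)
    (q : HeightOneSpectrum (𝓞 K)) (hq : cft_frob K L q.asIdeal ≠ 1)
    (hℓq : ¬ ℓ ∣ Ideal.absNorm q.asIdeal)
    (hord : p ∣ orderOf ((Ideal.absNorm q.asIdeal : ℕ) : ZMod ℓ))
    (𝔓 : Ideal (𝓞 Ω)) [𝔓.IsPrime] (h𝔓 : 𝔓 ≠ ⊥) (h𝔓q : 𝔓.under (𝓞 K) = q.asIdeal)
    (φ : Ω ≃ₐ[K] Ω) (hφ : cft_IsFrobAt φ 𝔓) :
    φ ζ = ζ ^ Ideal.absNorm q.asIdeal ∧ cft_res K L K Ω φ = cft_frob K L q.asIdeal ∧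
      (∃ g ∈ cft_decompH K L φ ζ, cft_res K L K Ω g ≠ 1) ∧
      (∀ g ∈ cft_decompH K L φ ζ, g ζ = ζ → cft_res K L K Ω g = 1) := by
  have : NeZero ℓ := ⟨hℓ.ne_zero⟩
  have hcopq : (Ideal.absNorm q.asIdeal).Coprime ℓ :=
    ((Nat.Prime.coprime_iff_not_dvd hℓ).mpr hℓq).symm
  have hcop : (Ideal.absNorm 𝔓).Coprime ℓ := by
    rw [cfc_absNorm_eq_pow_under (K := K) 𝔓 h𝔓, h𝔓q]
    exact Nat.Coprime.pow_left _ hcopq
  have hφζ : φ ζ = ζ ^ Ideal.absNorm q.asIdeal := by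
    have := cfi_isFrobAt_apply_root φ 𝔓 hφ hcop ζ hζ.pow_eq_one
    rwa [h𝔓q] at this
  have hres : cft_res K L K Ω φ = cft_frob K L q.asIdeal := by
    rw [cfc_res_eq_frob_of_isFrobAt hun 𝔓 h𝔓 φ hφ, h𝔓q]
  refine ⟨hφζ, hres, ⟨φ, cft_self_mem_decompH φ ζ, by rw [hres]; exact hq⟩, ?_⟩
  intro g hg hgζ
  have hexp : ∀ σ : L ≃ₐ[K] L, σ ^ p = 1 := by
    intro σ
    rw [← hdeg, ← IsGalois.card_aut_eq_finrank]
    exact pow_card_eq_one'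
  have hfix := cft_decompH_cont (K := K) (L := L) hcommΩ hexp hℓ.ne_zero hζ hφζ hord hg hgζ
  exact cfi_res_eq_one_of_fixes (E := K) (M := L) (Ω := Ω) g hfix

/-- **(Asm1), inputs of T1.** For `E = fixedField (cft_decompH φ ζ)` and `M = cfn_M K L E Ω`: all
hypotheses of T1, and a prime of `E` of norm `q` prime to `ℓ`. -/
theorem cfc_asmOne_inputs {p : ℕ} (hp : p.Prime) (hdeg : Module.finrank K L = p)
    (hun : cft_Unram K L) (hcommΩ : ∀ g h : Ω ≃ₐ[K] Ω, g * h = h * g)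
    {ℓ : ℕ} (hℓ : ℓ.Prime) (ζ : Ω) (hζ : IsPrimitiveRoot ζ ℓ)
    (q : HeightOneSpectrum (𝓞 K)) (hq : cft_frob K L q.asIdeal ≠ 1)
    (hℓq : ¬ ℓ ∣ Ideal.absNorm q.asIdeal)
    (hord : p ∣ orderOf ((Ideal.absNorm q.asIdeal : ℕ) : ZMod ℓ))
    (𝔓 : Ideal (𝓞 Ω)) [𝔓.IsPrime] (h𝔓 : 𝔓 ≠ ⊥) (h𝔓q : 𝔓.under (𝓞 K) = q.asIdeal)
    (φ : Ω ≃ₐ[K] Ω) (hφ : cft_IsFrobAt φ 𝔓) :
    Module.finrank (IntermediateField.fixedField (cft_decompH K L φ ζ))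
        (cfn_M K L (IntermediateField.fixedField (cft_decompH K L φ ζ)) Ω) = p ∧
      cft_Unram (IntermediateField.fixedField (cft_decompH K L φ ζ))
        (cfn_M K L (IntermediateField.fixedField (cft_decompH K L φ ζ)) Ω) ∧
      Function.Injective (cft_res K L (IntermediateField.fixedField (cft_decompH K L φ ζ))
        (cfn_M K L (IntermediateField.fixedField (cft_decompH K L φ ζ)) Ω)) ∧
      (∀ g h : Ω ≃ₐ[IntermediateField.fixedField (cft_decompH K L φ ζ)] Ω, g * h = h * g) ∧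
      (∀ g : Ω ≃ₐ[IntermediateField.fixedField (cft_decompH K L φ ζ)] Ω, g ζ = ζ →
        ∀ x : cfn_M K L (IntermediateField.fixedField (cft_decompH K L φ ζ)) Ω,
          g (algebraMap (cfn_M K L (IntermediateField.fixedField (cft_decompH K L φ ζ)) Ω) Ω x) =
            algebraMap (cfn_M K L (IntermediateField.fixedField (cft_decompH K L φ ζ)) Ω) Ω x) ∧
      ∃ 𝔔 : (Ideal (𝓞 (IntermediateField.fixedField (cft_decompH K L φ ζ))))⁰,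
        (Ideal.absNorm (𝔔 : Ideal (𝓞 (IntermediateField.fixedField (cft_decompH K L φ ζ))))).Coprime ℓ ∧
        Ideal.relNorm (𝓞 K)
          (𝔔 : Ideal (𝓞 (IntermediateField.fixedField (cft_decompH K L φ ζ)))) = q.asIdeal := by
  obtain ⟨hφζ, hres, hne, hcontH⟩ :=
    cfc_asmOne_group hp hdeg hun hcommΩ hℓ ζ hζ q hq hℓq hord 𝔓 h𝔓 h𝔓q φ hφ
  set H := cft_decompH K L φ ζ with hH
  refine ⟨cfn_fixed_finrank H hp hdeg hne, cfn_unram_M hun, cfn_res_injective,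
    cfn_fixed_comm H hcommΩ, fun g hg x => cfn_fixed_cont H ζ hcontH g hg x, ?_⟩
  obtain ⟨h0, hprime, hN, habs⟩ := cfc_under_of_fixes (K := K)
    (E := IntermediateField.fixedField H) 𝔓 h𝔓 φ hφ
    (fun x => cfn_fixed_fix H (cft_self_mem_decompH φ ζ) x)
  refine ⟨⟨𝔓.under (𝓞 (IntermediateField.fixedField H)), mem_nonZeroDivisors_of_ne_zero h0⟩, ?_, ?_⟩
  · show (Ideal.absNorm (𝔓.under (𝓞 (IntermediateField.fixedField H)))).Coprime ℓ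
    rw [habs, h𝔓q]
    exact ((Nat.Prime.coprime_iff_not_dvd hℓ).mpr hℓq).symm
  · show Ideal.relNorm (𝓞 K) (𝔓.under (𝓞 (IntermediateField.fixedField H))) = q.asIdeal
    rw [hN, h𝔓q]

/-- **(Asm1): one auxiliary field.** For a non-split prime `q` of `K`, a prime `ℓ ∤ N q` with
`p ∣ ord_ℓ(N q)`, a primitive `ℓ`-th root of unity `ζ ∈ Ω` and a Frobenius `φ ∈ Gal(Ω/K)` above `q`,
the field `E = fixedField (cft_decompH φ ζ)` is `cft_NormGood` for `ℓ`, and `q` is the norm of a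
prime of `E` prime to `ℓ`. -/
theorem cfc_asmOne {p : ℕ} (hp : p.Prime) (hp2 : p ≠ 2) (hdeg : Module.finrank K L = p)
    (hun : cft_Unram K L) (hcommΩ : ∀ g h : Ω ≃ₐ[K] Ω, g * h = h * g)
    {ℓ : ℕ} (hℓ : ℓ.Prime) (ζ : Ω) (hζ : IsPrimitiveRoot ζ ℓ)
    (q : HeightOneSpectrum (𝓞 K)) (hq : cft_frob K L q.asIdeal ≠ 1)
    (hℓq : ¬ ℓ ∣ Ideal.absNorm q.asIdeal)
    (hord : p ∣ orderOf ((Ideal.absNorm q.asIdeal : ℕ) : ZMod ℓ))
    (𝔓 : Ideal (𝓞 Ω)) [𝔓.IsPrime] (h𝔓 : 𝔓 ≠ ⊥) (h𝔓q : 𝔓.under (𝓞 K) = q.asIdeal)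
    (φ : Ω ≃ₐ[K] Ω) (hφ : cft_IsFrobAt φ 𝔓) :
    cft_NormGood K L (IntermediateField.fixedField (cft_decompH K L φ ζ)) ℓ ∧
      ∃ 𝔔 : (Ideal (𝓞 (IntermediateField.fixedField (cft_decompH K L φ ζ))))⁰,
        (Ideal.absNorm (𝔔 : Ideal (𝓞 (IntermediateField.fixedField (cft_decompH K L φ ζ))))).Coprime ℓ ∧
        Ideal.relNorm (𝓞 K)
          (𝔔 : Ideal (𝓞 (IntermediateField.fixedField (cft_decompH K L φ ζ)))) = q.asIdeal := by
  obtain ⟨h1, h2, h3, h4, h5, h6⟩ :=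
    cfc_asmOne_inputs hp hdeg hun hcommΩ hℓ ζ hζ q hq hℓq hord 𝔓 h𝔓 h𝔓q φ hφ
  refine ⟨?_, h6⟩
  exact cft_normGood_of_cyclo (K := K) (L := L)
    (E := IntermediateField.fixedField (cft_decompH K L φ ζ))
    (M := cfn_M K L (IntermediateField.fixedField (cft_decompH K L φ ζ)) Ω) (Ω := Ω)
    hp hp2 h1 hun h2 h3 h4 hℓ.ne_zero ζ hζ h5 (cfh_hC2 h2) (cfh_hC3b hp h1 h2) (cfh_hZ4 hp h1 h2)

end Fermat.Agent.Lib.CFT
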