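/-
S14 (class field theory route), (Asm1): ONE auxiliary field. For a non-split prime `q` of `K`, a
prime `ℓ` with `p ∣ ord_ℓ(N q)`, a Frobenius `φ ∈ Gal(Ω/K)` at a prime `𝔓` of `Ω` over `q` and a
primitive `ℓ`-th root of unity `ζ ∈ Ω`: the fixed field `E` of `cft_decompH K L φ ζ` satisfies
`cft_NormGood K L E ℓ` and has a prime of relative norm `q`, prime to `ℓ`.
-/
import Mathlib
import Fermat.Agent.Lib.CFT.NormGoodCyclo
import Fermat.Agent.Lib.CFT.FixedGood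
import Fermat.Agent.Lib.CFT.DecompGroupB
import Fermat.Agent.Lib.CFT.CrossData
import Fermat.Agent.Lib.CFT.NormGoodInputs

set_option autoImplicit false

namespace Fermat.Agent.Lib.CFT

open NumberField Ideal IsDedekindDomain
open scoped nonZeroDivisors

variable {K L Ω : Type*} [Field K] [NumberField K] [Field L] [NumberField L]
  [Field Ω] [NumberField Ω] [Algebra K L] [Algebra K Ω] [Algebra L Ω] [IsScalarTower K L Ω]
  [IsGalois K L] [IsGalois K Ω] [IsMulCommutative Gal(L/K)]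

/-- **(Asm1)** -/
theorem cfi_asmOne (hcommΩ : ∀ g h : Ω ≃ₐ[K] Ω, g * h = h * g) {p : ℕ} (hp : p.Prime)
    (hp2 : p ≠ 2) (hdeg : Module.finrank K L = p) (hun : cft_Unram K L)
    {ℓ : ℕ} (hℓ : ℓ.Prime) (ζ : Ω) (hζ : IsPrimitiveRoot ζ ℓ)
    (q : HeightOneSpectrum (𝓞 K)) (hq : cft_frob K L q.asIdeal ≠ 1)
    (hℓq : ¬ ℓ ∣ absNorm q.asIdeal)
    (hord : p ∣ orderOf ((absNorm q.asIdeal : ℕ) : ZMod ℓ))
    (𝔓 : Ideal (𝓞 Ω)) [𝔓.IsPrime] (h𝔓0 : 𝔓 ≠ ⊥) (h𝔓 : 𝔓.under (𝓞 K) = q.asIdeal)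
    (φ : Ω ≃ₐ[K] Ω) (hφ : cft_IsFrobAt φ 𝔓) :
    cft_NormGood K L (IntermediateField.fixedField (cft_decompH K L φ ζ)) ℓ ∧
    ∃ 𝔔 : (Ideal (𝓞 (IntermediateField.fixedField (cft_decompH K L φ ζ))))⁰,
      (absNorm 𝔔.1).Coprime ℓ ∧ relNorm (𝓞 K) 𝔔.1 = q.asIdeal := by
  have : NeZero ℓ := ⟨hℓ.ne_zero⟩
  set H := cft_decompH K L φ ζ with hH
  have hres : cft_res K L K Ω φ = cft_frob K L q.asIdeal := by
    rw [cfc_res_eq_frob_of_isFrobAt hun 𝔓 h𝔓0 φ hφ, h𝔓]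
  have hne : ∃ g ∈ H, cft_res K L K Ω g ≠ 1 :=
    ⟨φ, cft_self_mem_decompH φ ζ, by rw [hres]; exact hq⟩
  have hdegM := cfn_fixed_finrank H hp hdeg hne
  have hunM : cft_Unram (IntermediateField.fixedField H)
      (cfn_M K L (IntermediateField.fixedField H) Ω) := cfn_unram_M hun
  have hqℓ : (absNorm q.asIdeal).Coprime ℓ :=
    Nat.Coprime.symm ((Nat.Prime.coprime_iff_not_dvd hℓ).mpr hℓq)
  have hcop : (absNorm 𝔓).Coprime ℓ := by
    rw [cfc_absNorm_eq_pow_under (K := K) 𝔓 h𝔓0, h𝔓]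
    exact Nat.Coprime.pow_left _ hqℓ
  have hφζ : φ ζ = ζ ^ absNorm q.asIdeal := by
    have := cfi_isFrobAt_apply_root φ 𝔓 hφ hcop ζ hζ.pow_eq_one
    rwa [h𝔓] at this
  have hcontH := cft_decompH_res_eq_one (L := L) hcommΩ hdeg hℓ.ne_zero hζ hφζ hord
  refine ⟨?_, ?_⟩
  · exact cft_normGood_of_cyclo (K := K) (L := L) (E := IntermediateField.fixedField H)
      (M := cfn_M K L (IntermediateField.fixedField H) Ω) (Ω := Ω) hp hp2 hdegM hun hunM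
      cfn_res_injective (cfn_fixed_comm H hcommΩ) hℓ.ne_zero ζ hζ
      (cfn_fixed_cont H ζ hcontH) (cfh_hC2 hunM) (cfh_hC3b hp hdegM hunM)
      (cfh_hZ4 hp hdegM hunM)
  · obtain ⟨h0, hprime, hN, habs⟩ := cfc_under_of_fixes (K := K)
      (E := IntermediateField.fixedField H) 𝔓 h𝔓0 φ hφ
      (cfn_fixed_fix H (cft_self_mem_decompH φ ζ))
    refine ⟨⟨𝔓.under (𝓞 (IntermediateField.fixedField H)),
      mem_nonZeroDivisors_of_ne_zero h0⟩, ?_, ?_⟩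
    · show (absNorm (𝔓.under (𝓞 (IntermediateField.fixedField H)))).Coprime ℓ
      rw [habs, h𝔓]; exact hqℓ
    · show relNorm (𝓞 K) (𝔓.under (𝓞 (IntermediateField.fixedField H))) = q.asIdeal
      rw [hN, h𝔓]

end Fermat.Agent.Lib.CFT
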