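import Mathlib
import Fermat.Agent.Lib.CFT.NormGood
import Fermat.Agent.Lib.CFT.ArtinTower
import Fermat.Agent.Lib.CFT.SplitNorm

/-!
# The pair lemma (T2) and existence of an ideal with nontrivial Artin symbol (T3)

Signatures fixed by the architect (board #338).
-/

set_option autoImplicit false
set_option linter.unusedSectionVars false

namespace Fermat.Agent.Lib.CFT

open NumberField
open scoped nonZeroDivisors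

section relNorm0

variable (K : Type*) {E : Type*} [Field K] [NumberField K] [Field E] [NumberField E] [Algebra K E]

lemma cfg_relNorm0_coe (𝔄 : (Ideal (𝓞 E))⁰) :
    ((cft_relNorm0 K E 𝔄 : (Ideal (𝓞 K))⁰) : Ideal (𝓞 K)) =
      Ideal.relNorm (𝓞 K) (𝔄 : Ideal (𝓞 E)) := rfl

lemma cfg_relNorm0_pow (𝔄 : (Ideal (𝓞 E))⁰) (n : ℕ) :
    cft_relNorm0 K E (𝔄 ^ n) = cft_relNorm0 K E 𝔄 ^ n := by
  apply Subtype.ext
  rw [cfg_relNorm0_coe, SubmonoidClass.coe_pow, SubmonoidClass.coe_pow, map_pow, cfg_relNorm0_coe]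

lemma cfg_absNorm_relNorm (I : Ideal (𝓞 E)) :
    Ideal.absNorm (Ideal.relNorm (𝓞 K) I) = Ideal.absNorm I :=
  Ideal.absNorm_relNorm (𝓞 K) (𝓞 E) I

end relNorm0

section groupOfPrimeOrder

/-- In a group of prime order every element is a natural power of any nontrivial element. -/
lemma cfg_exists_pow_eq {G : Type*} [Group G] {p : ℕ} (hp : p.Prime) (hG : Nat.card G = p)
    {g : G} (hg : g ≠ 1) (x : G) : ∃ a : ℕ, g ^ a = x := by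
  have : Fact p.Prime := ⟨hp⟩
  have : Finite G := Nat.finite_of_card_ne_zero (hG ▸ hp.ne_zero)
  have h1 : x ∈ Subgroup.zpowers g := mem_zpowers_of_prime_card hG hg
  rw [← mem_powers_iff_mem_zpowers] at h1
  exact (Submonoid.mem_powers_iff x g).mp h1

end groupOfPrimeOrder

section pair

variable {K L E₀ E₁ E : Type*} [Field K] [NumberField K] [Field L] [NumberField L]
  [Field E₀] [NumberField E₀] [Field E₁] [NumberField E₁] [Field E] [NumberField E]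
  [Algebra K L] [IsGalois K L] [IsMulCommutative (L ≃ₐ[K] L)]
  [Algebra K E₀] [Algebra K E₁] [Algebra K E] [Algebra E₀ E] [Algebra E₁ E]
  [IsScalarTower K E₀ E] [IsScalarTower K E₁ E]

omit [Algebra K E₁] [Algebra E₁ E] [IsScalarTower K E₁ E] [Field E₁] [NumberField E₁] in
/-- One half of the pair lemma: an ideal `𝔔₀` of `E₀` whose norm has Artin symbol `g ^ a`, where
`g` is the Artin symbol of the norm of an ideal `𝔅` of the bigger field `E`. -/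
lemma cfg_pair_half {m₀ : ℕ} (h₀ : cft_NormGood K L E₀ m₀)
    (𝔔₀ : (Ideal (𝓞 E₀))⁰) (h𝔔₀ : (Ideal.absNorm (𝔔₀ : Ideal (𝓞 E₀))).Coprime m₀)
    (𝔅 : (Ideal (𝓞 E))⁰) (h𝔅 : (Ideal.absNorm (𝔅 : Ideal (𝓞 E))).Coprime m₀) (a : ℕ)
    (ha : cft_artin K L (Ideal.relNorm (𝓞 K) (𝔔₀ : Ideal (𝓞 E₀))) =
      cft_artin K L (Ideal.relNorm (𝓞 K) (𝔅 : Ideal (𝓞 E))) ^ a) :
    ClassGroup.mk0 (cft_relNorm0 K E₀ 𝔔₀) / ClassGroup.mk0 (cft_relNorm0 K E 𝔅) ^ a ∈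
      cft_normClasses K L := by
  -- the norm of `𝔅` to `E₀`
  set 𝔅₀ : (Ideal (𝓞 E₀))⁰ := cft_relNorm0 E₀ E 𝔅 with h𝔅₀
  have hB0 : (𝔅 : Ideal (𝓞 E)) ≠ ⊥ := mem_nonZeroDivisors_iff_ne_zero.mp 𝔅.2
  have hNB : Ideal.relNorm (𝓞 K) (𝔅₀ : Ideal (𝓞 E₀)) = Ideal.relNorm (𝓞 K) (𝔅 : Ideal (𝓞 E)) :=
    Ideal.relNorm_relNorm (𝓞 K) (𝓞 E₀) (𝔅 : Ideal (𝓞 E))
  have hNB0 : cft_relNorm0 K E₀ 𝔅₀ = cft_relNorm0 K E 𝔅 := Subtype.ext hNB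
  have hcop : (Ideal.absNorm ((𝔅₀ ^ a : (Ideal (𝓞 E₀))⁰) : Ideal (𝓞 E₀))).Coprime m₀ := by
    rw [SubmonoidClass.coe_pow, map_pow]
    refine Nat.Coprime.pow_left _ ?_
    rw [h𝔅₀, cfg_relNorm0_coe, cfg_absNorm_relNorm]
    exact h𝔅
  have hNB0ne : Ideal.relNorm (𝓞 K) (𝔅₀ : Ideal (𝓞 E₀)) ≠ ⊥ := by
    rw [hNB, Ne, Ideal.relNorm_eq_bot_iff]; exact hB0
  have hart : cft_artin K L (Ideal.relNorm (𝓞 K) (𝔔₀ : Ideal (𝓞 E₀))) =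
      cft_artin K L (Ideal.relNorm (𝓞 K) ((𝔅₀ ^ a : (Ideal (𝓞 E₀))⁰) : Ideal (𝓞 E₀))) := by
    rw [SubmonoidClass.coe_pow, map_pow, cft_artin_pow K L hNB0ne, hNB, ha]
  have := h₀ 𝔔₀ (𝔅₀ ^ a) h𝔔₀ hcop hart
  rwa [cfg_relNorm0_pow, map_pow, hNB0] at this

/-- **T2, the pair lemma** (signature of board #338). -/
theorem cft_pair {p : ℕ} (hp : p.Prime) (hdeg : Module.finrank K L = p) (hunL : cft_Unram K L)
    {m₀ m₁ : ℕ} (h₀ : cft_NormGood K L E₀ m₀) (h₁ : cft_NormGood K L E₁ m₁)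
    (𝔮₀ 𝔮₁ : (Ideal (𝓞 K))⁰)
    (𝔔₀ : (Ideal (𝓞 E₀))⁰) (h𝔔₀ : (Ideal.absNorm (𝔔₀ : Ideal (𝓞 E₀))).Coprime m₀)
    (hN₀ : Ideal.relNorm (𝓞 K) (𝔔₀ : Ideal (𝓞 E₀)) = 𝔮₀)
    (𝔔₁ : (Ideal (𝓞 E₁))⁰) (h𝔔₁ : (Ideal.absNorm (𝔔₁ : Ideal (𝓞 E₁))).Coprime m₁)
    (hN₁ : Ideal.relNorm (𝓞 K) (𝔔₁ : Ideal (𝓞 E₁)) = 𝔮₁)
    (𝔅 : (Ideal (𝓞 E))⁰) (h𝔅 : (Ideal.absNorm (𝔅 : Ideal (𝓞 E))).Coprime (m₀ * m₁))
    (h𝔅1 : cft_artin K L (Ideal.relNorm (𝓞 K) (𝔅 : Ideal (𝓞 E))) ≠ 1) (d : ℕ)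
    (hd : cft_artin K L (𝔮₁ : Ideal (𝓞 K)) = cft_artin K L (𝔮₀ : Ideal (𝓞 K)) ^ d) :
    ClassGroup.mk0 𝔮₁ / ClassGroup.mk0 𝔮₀ ^ d ∈ cft_normClasses K L := by
  have _ := hunL
  have hcard : Nat.card (L ≃ₐ[K] L) = p := by
    rw [IsGalois.card_aut_eq_finrank, hdeg]
  obtain ⟨a, ha⟩ := cfg_exists_pow_eq hp hcard h𝔅1 (cft_artin K L (𝔮₀ : Ideal (𝓞 K)))
  have e₀ : cft_relNorm0 K E₀ 𝔔₀ = 𝔮₀ := Subtype.ext hN₀
  have e₁ : cft_relNorm0 K E₁ 𝔔₁ = 𝔮₁ := Subtype.ext hN₁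
  have H₀ := cfg_pair_half (K := K) (L := L) (E := E) h₀ 𝔔₀ h𝔔₀ 𝔅
    (Nat.Coprime.coprime_mul_right_right h𝔅) a (by rw [hN₀, ha])
  have H₁ := cfg_pair_half (K := K) (L := L) (E := E) h₁ 𝔔₁ h𝔔₁ 𝔅
    (Nat.Coprime.coprime_mul_left_right h𝔅) (a * d) (by rw [hN₁, hd, ← ha, pow_mul])
  rw [e₀] at H₀
  rw [e₁] at H₁
  have H := (cft_normClasses K L).div_mem H₁ ((cft_normClasses K L).pow_mem H₀ d)
  have e : ClassGroup.mk0 𝔮₁ / ClassGroup.mk0 (cft_relNorm0 K E 𝔅) ^ (a * d) /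
      (ClassGroup.mk0 𝔮₀ / ClassGroup.mk0 (cft_relNorm0 K E 𝔅) ^ a) ^ d =
      ClassGroup.mk0 𝔮₁ / ClassGroup.mk0 𝔮₀ ^ d := by
    rw [div_pow, ← pow_mul, div_div_div_cancel_right]
  rwa [e] at H

end pair

section T3

open IsDedekindDomain

/-- A nonzero prime not containing `m` has absolute norm prime to `m`. -/
lemma cfg_coprime_absNorm {E : Type*} [Field E] [NumberField E] (𝔮 : Ideal (𝓞 E)) [𝔮.IsPrime]
    (h𝔮 : 𝔮 ≠ ⊥) {m : ℕ} (hm : (m : 𝓞 E) ∉ 𝔮) : (Ideal.absNorm 𝔮).Coprime m := by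
  have hmax : 𝔮.IsMaximal := Ring.DimensionLEOne.maximalOfPrime h𝔮 inferInstance
  let _ : Field (𝓞 E ⧸ 𝔮) := Ideal.Quotient.field 𝔮
  have : Finite (𝓞 E ⧸ 𝔮) := 𝔮.finiteQuotientOfFreeOfNeBot h𝔮
  let _ : Fintype (𝓞 E ⧸ 𝔮) := Fintype.ofFinite _
  obtain ⟨ℓ, hchar⟩ := CharP.exists (𝓞 E ⧸ 𝔮)
  obtain ⟨n, hℓ, hcard⟩ := FiniteField.card (𝓞 E ⧸ 𝔮) ℓ
  have habs : Ideal.absNorm 𝔮 = ℓ ^ (n : ℕ) := by
    rw [Ideal.absNorm_apply, Submodule.cardQuot_apply, Nat.card_eq_fintype_card, hcard]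
  rw [habs]
  refine Nat.Coprime.pow_left _ ?_
  rw [Nat.Prime.coprime_iff_not_dvd hℓ]
  intro hdvd
  apply hm
  obtain ⟨c, rfl⟩ := hdvd
  rw [Nat.cast_mul]
  refine 𝔮.mul_mem_right _ ?_
  rw [← Ideal.Quotient.eq_zero_iff_mem, map_natCast]
  exact CharP.cast_eq_zero _ ℓ

variable {K L E M : Type*} [Field K] [NumberField K] [Field L] [NumberField L]
  [Field E] [NumberField E] [Field M] [NumberField M]
  [Algebra K L] [Algebra K E] [Algebra L M] [Algebra E M] [Algebra K M]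
  [IsScalarTower K L M] [IsScalarTower K E M] [IsGalois K L] [IsGalois E M]
  [IsMulCommutative (L ≃ₐ[K] L)]

/-- **T3** (signature of board #338, without the unused top field `Ω`): there is an ideal of `E`
prime to `m` whose norm to `K` has nontrivial Artin symbol in `L/K`. -/
theorem cft_exists_artin_relNorm_ne_one (hunL : cft_Unram K L)
    (hinj : Function.Injective (cft_res K L E M)) (m : ℕ) (hm : m ≠ 0)
    (hZ4 : ∀ T : Finset (HeightOneSpectrum (𝓞 E)), ∃ 𝔮 : HeightOneSpectrum (𝓞 E), 𝔮 ∉ T ∧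
      ∃ 𝔔 : Ideal (𝓞 M), 𝔔.IsPrime ∧ 𝔔.LiesOver 𝔮.asIdeal ∧
        Ideal.absNorm 𝔔 ≠ Ideal.absNorm 𝔮.asIdeal) :
    ∃ 𝔅 : (Ideal (𝓞 E))⁰, (Ideal.absNorm (𝔅 : Ideal (𝓞 E))).Coprime m ∧
      cft_artin K L (Ideal.relNorm (𝓞 K) (𝔅 : Ideal (𝓞 E))) ≠ 1 := by
  classical
  have hcommM : IsMulCommutative (M ≃ₐ[E] M) :=
    isMulCommutative_iff.mpr fun a b => hinj (by
      rw [map_mul, map_mul]
      exact isMulCommutative_iff.mp inferInstance _ _)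
  have hm0 : Ideal.span {(m : 𝓞 E)} ≠ 0 := by
    rw [Ne, Ideal.zero_eq_bot, Ideal.span_singleton_eq_bot]
    exact_mod_cast hm
  obtain ⟨𝔮, h𝔮T, 𝔔, h𝔔p, h𝔔lo, hne⟩ := hZ4 (Ideal.finite_factors hm0).toFinset
  have hm𝔮 : (m : 𝓞 E) ∉ 𝔮.asIdeal := by
    intro h
    apply h𝔮T
    rw [Set.Finite.mem_toFinset]
    exact (Ideal.dvd_span_singleton).mpr h
  refine ⟨⟨𝔮.asIdeal, mem_nonZeroDivisors_of_ne_zero 𝔮.ne_bot⟩,
    cfg_coprime_absNorm 𝔮.asIdeal 𝔮.ne_bot hm𝔮, ?_⟩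
  change cft_artin K L (Ideal.relNorm (𝓞 K) 𝔮.asIdeal) ≠ 1
  rw [← cft_res_frob (K := K) (L := L) (E := E) (M := M) hunL 𝔮]
  intro h1
  have h2 : cft_frob E M 𝔮.asIdeal = 1 := hinj (by rw [h1, map_one])
  have h3 := cfc_relNorm_eq_of_frob_eq_one 𝔮.asIdeal 𝔮.ne_bot h2 𝔔
  apply hne
  rw [← h3]
  exact (cfg_absNorm_relNorm E 𝔔).symm

end T3

end Fermat.Agent.Lib.CFT
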