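/-
S14 (CFT route), (Asm2): the COMPOSITE auxiliary field.  For a subgroup `H' ≤ Gal(Ω/K)` containing
an element acting non-trivially on `L`, the field `E = fixedField H'` carries an ideal `𝔅` prime
to a given `m ≠ 0` whose norm to `K` has non-trivial Artin symbol in `L/K`.
(FixedSetting (a),(b),(d) + T3 of PairLemma + hZ4 of NormGoodInputs.)
-/
import Mathlib
import Fermat.Agent.Lib.CFT.FixedGood
import Fermat.Agent.Lib.CFT.PairLemma
import Fermat.Agent.Lib.CFT.NormGoodInputs

set_option autoImplicit false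
set_option linter.unusedSectionVars false

namespace Fermat.Agent.Lib.CFT

open NumberField
open scoped nonZeroDivisors

section asmtwo

variable {K L Ω : Type*} [Field K] [NumberField K] [Field L] [NumberField L]
  [Field Ω] [NumberField Ω] [Algebra K L] [Algebra L Ω] [Algebra K Ω]
  [IsScalarTower K L Ω] [IsGalois K L] [IsGalois K Ω]

/-- An automorphism of `Ω/K` moving some element of `L` has non-trivial restriction to `L`. -/
theorem cfa_res_ne_one_of_moves (g : Gal(Ω/K))
    (hne : ∃ x : L, g (algebraMap L Ω x) ≠ algebraMap L Ω x) : cft_res K L K Ω g ≠ 1 := by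
  obtain ⟨x, hx⟩ := hne
  intro h1
  apply hx
  rw [← cft_res_commutes (K := K) (L := L) g x, h1]
  rfl

/-- Conversely an automorphism with non-trivial restriction moves some element of `L`. -/
theorem cfa_moves_of_res_ne_one (g : Gal(Ω/K)) (hg : cft_res K L K Ω g ≠ 1) :
    ∃ x : L, g (algebraMap L Ω x) ≠ algebraMap L Ω x := by
  by_contra hcon
  push Not at hcon
  apply hg
  apply AlgEquiv.ext
  intro x
  apply (algebraMap L Ω).injective
  rw [cft_res_commutes, hcon x]
  rfl

variable [IsMulCommutative (L ≃ₐ[K] L)]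

/-- **(Asm2)**, restriction form: `H' ≤ Gal(Ω/K)` contains an element with non-trivial restriction
to `L`; then `E = fixedField H'` has an ideal prime to `m` whose norm has non-trivial Artin symbol
in `L/K`. -/
theorem cfa_asmTwo_res {p : ℕ} (hp : p.Prime) (hdeg : Module.finrank K L = p)
    (hunL : cft_Unram K L) (H' : Subgroup Gal(Ω/K))
    (hne : ∃ g ∈ H', cft_res K L K Ω g ≠ 1) (m : ℕ) (hm : m ≠ 0) :
    ∃ 𝔅 : (Ideal (𝓞 (IntermediateField.fixedField H')))⁰,
      (Ideal.absNorm (𝔅 : Ideal (𝓞 (IntermediateField.fixedField H')))).Coprime m ∧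
      cft_artin K L
        (Ideal.relNorm (𝓞 K) (𝔅 : Ideal (𝓞 (IntermediateField.fixedField H')))) ≠ 1 := by
  have hdegM : Module.finrank (IntermediateField.fixedField H')
      (cfn_M K L (IntermediateField.fixedField H') Ω) = p := cfn_fixed_finrank H' hp hdeg hne
  have hunM : cft_Unram (IntermediateField.fixedField H')
      (cfn_M K L (IntermediateField.fixedField H') Ω) := cfn_unram_M hunL
  exact cft_exists_artin_relNorm_ne_one (K := K) (L := L) (E := IntermediateField.fixedField H')
    (M := cfn_M K L (IntermediateField.fixedField H') Ω) hunL cfn_res_injective m hm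
    (cfh_hZ4 hp hdegM hunM)

/-- **(Asm2)** in the shape of board #357. -/
theorem cfa_asmTwo {p : ℕ} (hp : p.Prime) (hdeg : Module.finrank K L = p)
    (hunL : cft_Unram K L) (H' : Subgroup Gal(Ω/K)) (g' : Gal(Ω/K)) (hg' : g' ∈ H')
    (hne : ∃ x : L, g' (algebraMap L Ω x) ≠ algebraMap L Ω x) (m : ℕ) (hm : m ≠ 0) :
    ∃ 𝔅 : (Ideal (𝓞 (IntermediateField.fixedField H')))⁰,
      (Ideal.absNorm (𝔅 : Ideal (𝓞 (IntermediateField.fixedField H')))).Coprime m ∧
      cft_artin K L
        (Ideal.relNorm (𝓞 K) (𝔅 : Ideal (𝓞 (IntermediateField.fixedField H')))) ≠ 1 :=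
  cfa_asmTwo_res hp hdeg hunL H' ⟨g', hg', cfa_res_ne_one_of_moves g' hne⟩ m hm

end asmtwo

end Fermat.Agent.Lib.CFT
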