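import Mathlib

/-!
# S14, WP-C3b (second inequality): character products (pure algebra)

For a finite abelian group `Q`, `g ∈ Q` and a real `0 ≤ x < 1` the product
`∏_χ (1 - χ(g) x)` over all characters `χ : Q →* ℂˣ` is a real number in `(0, 1]`
(it equals `(1 - x ^ m) ^ k` with `m k = #Q`).
-/

namespace Fermat.Agent.Lib.CFT

open Finset

/-- `∏ (1 - ω x) = 1 - x ^ m`, the product over a finite subgroup of `ℂˣ` of order `m` -/
theorem cfb_prod_subgroup (R : Subgroup ℂˣ) [Fintype R] (x : ℂ) :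
    ∏ ω : R, (1 - ((ω : ℂˣ) : ℂ) * x) = 1 - x ^ Fintype.card R := by
  classical
  set m := Fintype.card R with hm
  have hmpos : 0 < m := Fintype.card_pos
  have : NeZero m := ⟨hmpos.ne'⟩
  have hprim := Complex.isPrimitiveRoot_exp m hmpos.ne'
  have key := hprim.pow_sub_pow_eq_prod_sub_mul (1 : ℂ) x hmpos
  rw [one_pow] at key
  rw [key]
  have hmem : ∀ ω : R, ((ω : ℂˣ) : ℂ) ∈ Polynomial.nthRootsFinset m (1 : ℂ) := by
    intro ω
    rw [Polynomial.mem_nthRootsFinset hmpos]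
    have h1 : ω ^ m = 1 := by rw [hm, ← Nat.card_eq_fintype_card]; exact pow_card_eq_one'
    have h2 : ((ω : ℂˣ) : ℂ) ^ m = (((ω ^ m : R) : ℂˣ) : ℂ) := by simp
    rw [h2, h1]; simp
  have hinj : Function.Injective (fun ω : R => ((ω : ℂˣ) : ℂ)) := by
    intro a b hab
    exact Subtype.ext (Units.ext hab)
  have himg : (Finset.univ : Finset R).image (fun ω : R => ((ω : ℂˣ) : ℂ)) =
      Polynomial.nthRootsFinset m (1 : ℂ) := by
    apply Finset.eq_of_subset_of_card_le
    · intro z hz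
      obtain ⟨ω, -, rfl⟩ := Finset.mem_image.mp hz
      exact hmem ω
    · rw [Finset.card_image_of_injective _ hinj, Finset.card_univ, hprim.card_nthRootsFinset]
  rw [← himg, Finset.prod_image (fun a _ b _ h => hinj h)]

/-- for a homomorphism `ev` from a finite group to `ℂˣ`:
`∏_χ (1 - ev χ * x) = (1 - x ^ m) ^ k` with `m = # range`, `k = # ker`. -/
theorem cfb_prod_hom {Ω : Type*} [Group Ω] [Fintype Ω] (ev : Ω →* ℂˣ) :
    ∃ m k : ℕ, 0 < m ∧ 0 < k ∧
      ∀ x : ℂ, ∏ χ : Ω, (1 - ((ev χ : ℂˣ) : ℂ) * x) = (1 - x ^ m) ^ k := by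
  classical
  have : Fintype ev.range := Fintype.ofFinite _
  refine ⟨Fintype.card ev.range, Fintype.card ev.ker, Fintype.card_pos, Fintype.card_pos,
    fun x => ?_⟩
  rw [← cfb_prod_subgroup ev.range x, ← Finset.prod_pow]
  have h0 : ∏ χ : Ω, (1 - ((ev χ : ℂˣ) : ℂ) * x) =
      ∏ χ : Ω, (fun ω : ev.range => (1 - ((ω : ℂˣ) : ℂ) * x)) (ev.rangeRestrict χ) := rfl
  rw [h0, ← Finset.prod_fiberwise' (Finset.univ : Finset Ω) (fun χ => ev.rangeRestrict χ)
    (fun ω : ev.range => (1 - ((ω : ℂˣ) : ℂ) * x))]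
  refine Finset.prod_congr rfl fun ω _ => ?_
  rw [Finset.prod_const]
  congr 1
  have h1 : ω ∈ Set.range ev.rangeRestrict := ev.rangeRestrict_surjective ω
  have h2 : (1 : ev.range) ∈ Set.range ev.rangeRestrict := ⟨1, map_one _⟩
  have := MonoidHom.card_fiber_eq_of_mem_range ev.rangeRestrict h1 h2
  rw [this]
  rw [← Fintype.card_subtype]
  apply Fintype.card_congr
  refine Equiv.subtypeEquivRight fun χ => ?_
  rw [MonoidHom.mem_ker]
  constructor
  · intro h
    have := congrArg Subtype.val h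
    simpa using this
  · intro h
    exact Subtype.ext (by simpa using h)

/-- the product over all characters of a finite abelian group of `1 - χ(g) x`, `0 ≤ x < 1` real,
is a real number in `(0, 1]` -/
theorem cfb_prod_char (Q : Type*) [CommGroup Q] [Finite Q] [Fintype (Q →* ℂˣ)] (g : Q) {x : ℝ}
    (hx0 : 0 ≤ x) (hx1 : x < 1) :
    ∃ r : ℝ, 0 < r ∧ r ≤ 1 ∧ ∏ χ : Q →* ℂˣ, (1 - ((χ g : ℂˣ) : ℂ) * (x : ℂ)) = (r : ℂ) := by
  obtain ⟨m, k, hm, hk, h⟩ := cfb_prod_hom (MonoidHom.eval g : (Q →* ℂˣ) →* ℂˣ)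
  refine ⟨(1 - x ^ m) ^ k, ?_, ?_, ?_⟩
  · have : x ^ m < 1 := pow_lt_one₀ hx0 hx1 hm.ne'
    exact pow_pos (by linarith) _
  · have : 0 ≤ x ^ m := pow_nonneg hx0 _
    have h1 : x ^ m < 1 := pow_lt_one₀ hx0 hx1 hm.ne'
    exact pow_le_one₀ (by linarith) (by linarith)
  · have := h (x : ℂ)
    simp only [MonoidHom.eval_apply_apply] at this
    rw [this]
    push_cast
    rfl

/-- the number of characters of a finite abelian group is its order -/
theorem cfb_card_char (Q : Type*) [CommGroup Q] [Finite Q] [Fintype (Q →* ℂˣ)] :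
    Fintype.card (Q →* ℂˣ) = Nat.card Q := by
  rw [← Nat.card_eq_fintype_card]
  exact CommGroup.card_monoidHom_of_hasEnoughRootsOfUnity Q ℂ

/-- orthogonality: a nontrivial character sums to zero -/
theorem cfb_sum_char_eq_zero {Q : Type*} [CommGroup Q] [Fintype Q] (χ : Q →* ℂˣ) (hχ : χ ≠ 1) :
    ∑ q : Q, ((χ q : ℂˣ) : ℂ) = 0 := by
  have h := sum_hom_units_eq_zero ((Units.coeHom ℂ).comp χ) (by
    intro h
    apply hχ
    ext q
    have := congrArg (fun f : Q →* ℂ => f q) h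
    simpa using this)
  simpa using h

end Fermat.Agent.Lib.CFT
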