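import Mathlib

/-!
# S14, WP-C3b (second inequality): Abel summation for Dirichlet series (pure analysis)

For a family `N : ι → ℕ` (`N i ≥ 1`, finitely many `i` with `N i ≤ k`) and `s > 0`:
`∑_i N(i)^(-s) = ∑_k #{i | N i ≤ k+1} * ((k+1)^(-s) - (k+2)^(-s))` (`cfb_hasSum_count`).
Consequence (`cfb_abs_tsum_sub_le`): two families whose counting functions differ by
`O(k^δ)`, `δ < 1`, have Dirichlet series differing by a bounded amount, uniformly on `(1, 2]`.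
-/

namespace Fermat.Agent.Lib.CFT

open Filter Topology

/-- the weights `w k = (k+1)^(-s) - (k+2)^(-s)` -/
noncomputable def cfb_w (s : ℝ) (k : ℕ) : ℝ := ((k + 1 : ℕ) : ℝ) ^ (-s) - ((k + 2 : ℕ) : ℝ) ^ (-s)

theorem cfb_w_nonneg {s : ℝ} (hs : 0 < s) (k : ℕ) : 0 ≤ cfb_w s k := by
  unfold cfb_w
  rw [sub_nonneg]
  apply Real.rpow_le_rpow_of_nonpos (by positivity) (by push_cast; linarith) (by linarith)

/-- telescoping: `∑_{k+1 ≥ m} w k = m^(-s)` -/
theorem cfb_hasSum_telescope {s : ℝ} (hs : 0 < s) (m : ℕ) (hm : 1 ≤ m) :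
    HasSum (fun k : ℕ => if m ≤ k + 1 then cfb_w s k else 0) ((m : ℝ) ^ (-s)) := by
  rw [← hasSum_nat_add_iff' (m - 1)]
  have h0 : ∑ i ∈ Finset.range (m - 1), (if m ≤ i + 1 then cfb_w s i else 0) = 0 := by
    apply Finset.sum_eq_zero
    intro i hi
    rw [Finset.mem_range] at hi
    rw [if_neg (by omega)]
  rw [h0, sub_zero]
  have h1 : ∀ n : ℕ, (if m ≤ n + (m - 1) + 1 then cfb_w s (n + (m - 1)) else 0) =
      ((n + m : ℕ) : ℝ) ^ (-s) - ((n + 1 + m : ℕ) : ℝ) ^ (-s) := by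
    intro n
    rw [if_pos (by omega)]
    unfold cfb_w
    have e1 : n + (m - 1) + 1 = n + m := by omega
    have e2 : n + (m - 1) + 2 = n + 1 + m := by omega
    rw [e1, e2]
  simp_rw [h1]
  rw [hasSum_iff_tendsto_nat_of_nonneg]
  · have h2 : ∀ K : ℕ, ∑ i ∈ Finset.range K, (((i + m : ℕ) : ℝ) ^ (-s) - ((i + 1 + m : ℕ) : ℝ) ^ (-s))
        = (m : ℝ) ^ (-s) - ((K + m : ℕ) : ℝ) ^ (-s) := by
      intro K
      have := Finset.sum_range_sub' (fun i : ℕ => ((i + m : ℕ) : ℝ) ^ (-s)) K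
      simpa using this
    simp_rw [h2]
    have h3 : Tendsto (fun K : ℕ => ((K + m : ℕ) : ℝ) ^ (-s)) atTop (𝓝 0) := by
      have := (tendsto_rpow_neg_atTop hs).comp (tendsto_natCast_atTop_atTop (R := ℝ))
      have h4 := this.comp (tendsto_add_atTop_nat m)
      exact h4
    simpa using tendsto_const_nhds.sub h3
  · intro i
    rw [sub_nonneg]
    apply Real.rpow_le_rpow_of_nonpos
    · have : 0 < i + m := by omega
      exact_mod_cast this
    · push_cast; linarith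
    · linarith

/-- Abel summation in Fubini form: `∑_i N(i)^(-s) = ∑_k #{i | N i ≤ k+1} * w k`. -/
theorem cfb_hasSum_count {ι : Type*} (N : ι → ℕ) (hN : ∀ i, 1 ≤ N i)
    (hfin : ∀ k : ℕ, {i | N i ≤ k}.Finite) {s : ℝ} (hs : 0 < s)
    (hsum : Summable fun i => ((N i : ℝ)) ^ (-s)) :
    HasSum (fun k : ℕ => (Nat.card {i // N i ≤ k + 1} : ℝ) * cfb_w s k)
      (∑' i, (N i : ℝ) ^ (-s)) := by
  classical
  set f : ι → ℕ → ℝ := fun i k => if N i ≤ k + 1 then cfb_w s k else 0 with hf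
  have ha : ∀ i, HasSum (f i) ((N i : ℝ) ^ (-s)) := fun i => cfb_hasSum_telescope hs (N i) (hN i)
  have hnn : (0 : ι × ℕ → ℝ) ≤ Function.uncurry f := by
    rintro ⟨i, k⟩
    simp only [Pi.zero_apply, Function.uncurry_apply_pair, hf]
    split_ifs
    · exact cfb_w_nonneg hs k
    · exact le_refl _
  have hb : Summable (Function.uncurry f) := by
    rw [summable_prod_of_nonneg hnn]
    refine ⟨fun i => (ha i).summable, ?_⟩
    have : (fun i => ∑' k, Function.uncurry f (i, k)) = fun i => (N i : ℝ) ^ (-s) := by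
      funext i
      exact (ha i).tsum_eq
    rw [this]; exact hsum
  have hc : ∑' i, (N i : ℝ) ^ (-s) = ∑' k, ∑' i, f i k := by
    rw [hb.tsum_comm]
    exact tsum_congr fun i => (ha i).tsum_eq.symm
  have hd : ∀ k, ∑' i, f i k = (Nat.card {i // N i ≤ k + 1} : ℝ) * cfb_w s k := by
    intro k
    rw [tsum_eq_sum (s := (hfin (k + 1)).toFinset)]
    · rw [Finset.sum_congr rfl (g := fun _ => cfb_w s k)]
      · rw [Finset.sum_const, nsmul_eq_mul]
        congr 2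
        rw [← Set.ncard_eq_toFinset_card _ (hfin (k+1)), ← Nat.card_coe_set_eq]
        rfl
      · intro i hi
        rw [Set.Finite.mem_toFinset, Set.mem_ofPred_eq] at hi
        simp only [hf]
        rw [if_pos hi]
    · intro i hi
      rw [Set.Finite.mem_toFinset, Set.mem_ofPred_eq] at hi
      simp only [hf]
      rw [if_neg hi]
  have he : Summable fun k => ∑' i, f i k := by
    have := hb.prod_symm.prod
    exact this
  rw [hc]
  simp_rw [← hd]
  exact he.hasSum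

/-- `w k ≤ s (k+1)^(-s-1)` (Bernoulli) -/
theorem cfb_w_le {s : ℝ} (hs : 1 ≤ s) (k : ℕ) :
    cfb_w s k ≤ s * ((k + 1 : ℕ) : ℝ) ^ (-s - 1) := by
  unfold cfb_w
  have ha : (0 : ℝ) < ((k + 1 : ℕ) : ℝ) := by positivity
  have hb : (0 : ℝ) < ((k + 2 : ℕ) : ℝ) := by positivity
  set a : ℝ := ((k + 1 : ℕ) : ℝ) with ha'
  set b : ℝ := ((k + 2 : ℕ) : ℝ) with hb'
  have hab : b = a + 1 := by rw [ha', hb']; push_cast; ring
  -- y = a / b
  have hy : b ^ (-s) = a ^ (-s) * (a / b) ^ s := by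
    rw [Real.div_rpow ha.le hb.le, Real.rpow_neg ha.le, Real.rpow_neg hb.le]
    field_simp
  have hbern : 1 + s * (a / b - 1) ≤ (a / b) ^ s := by
    have h1 : (-1 : ℝ) ≤ a / b - 1 := by
      have : 0 ≤ a / b := by positivity
      linarith
    have := one_add_mul_self_le_rpow_one_add h1 hs
    simpa using this
  have hpos : 0 < a ^ (-s) := Real.rpow_pos_of_pos ha _
  have h2 : a ^ (-s) - b ^ (-s) ≤ a ^ (-s) * (s * (1 - a / b)) := by
    rw [hy]
    have : a ^ (-s) * (1 + s * (a / b - 1)) ≤ a ^ (-s) * (a / b) ^ s :=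
      mul_le_mul_of_nonneg_left hbern hpos.le
    nlinarith
  have h3 : 1 - a / b = 1 / b := by
    rw [hab]; field_simp; ring
  have h4 : 1 / b ≤ 1 / a := by
    apply one_div_le_one_div_of_le ha
    rw [hab]; linarith
  have h5 : a ^ (-s - 1) = a ^ (-s) * (1 / a) := by
    rw [Real.rpow_sub ha, Real.rpow_one]; ring
  rw [h5]
  calc a ^ (-s) - b ^ (-s) ≤ a ^ (-s) * (s * (1 - a / b)) := h2
    _ = s * (a ^ (-s) * (1 / b)) := by rw [h3]; ring
    _ ≤ s * (a ^ (-s) * (1 / a)) := by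
        apply mul_le_mul_of_nonneg_left _ (by linarith)
        exact mul_le_mul_of_nonneg_left h4 hpos.le

theorem cfb_summable_shift {δ : ℝ} (hδ : δ < 1) :
    Summable fun k : ℕ => ((k + 1 : ℕ) : ℝ) ^ (δ - 2) := by
  have h : Summable fun n : ℕ => (n : ℝ) ^ (δ - 2) := Real.summable_nat_rpow.mpr (by linarith)
  exact (summable_nat_add_iff 1).mpr h

/-- two families with the same counting function up to `O(k^δ)`, `δ < 1`, have Dirichlet series
differing by a bounded amount on `(1, 2]` -/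
theorem cfb_abs_tsum_sub_le {ι ι' : Type*} (N : ι → ℕ) (N' : ι' → ℕ) (hN : ∀ i, 1 ≤ N i)
    (hN' : ∀ i, 1 ≤ N' i) (hfin : ∀ k : ℕ, {i | N i ≤ k}.Finite)
    (hfin' : ∀ k : ℕ, {i | N' i ≤ k}.Finite) {B δ : ℝ} (hδ : δ < 1)
    (hB : ∀ k : ℕ, |(Nat.card {i // N i ≤ k + 1} : ℝ) - (Nat.card {i // N' i ≤ k + 1} : ℝ)| ≤
      B * ((k + 1 : ℕ) : ℝ) ^ δ)
    {s : ℝ} (hs1 : 1 < s) (hs2 : s ≤ 2)
    (hsum : Summable fun i => (N i : ℝ) ^ (-s)) (hsum' : Summable fun i => (N' i : ℝ) ^ (-s)) :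
    |∑' i, (N i : ℝ) ^ (-s) - ∑' i, (N' i : ℝ) ^ (-s)| ≤
      2 * B * ∑' k : ℕ, ((k + 1 : ℕ) : ℝ) ^ (δ - 2) := by
  have hs0 : 0 < s := by linarith
  have h1 := cfb_hasSum_count N hN hfin hs0 hsum
  have h2 := cfb_hasSum_count N' hN' hfin' hs0 hsum'
  have h3 := h1.sub h2
  have hB0 : 0 ≤ B := by
    have := hB 0
    simp only [zero_add, Nat.cast_one, Real.one_rpow, mul_one] at this
    exact le_trans (abs_nonneg _) this
  have hg : HasSum (fun k : ℕ => 2 * B * ((k + 1 : ℕ) : ℝ) ^ (δ - 2))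
      (2 * B * ∑' k : ℕ, ((k + 1 : ℕ) : ℝ) ^ (δ - 2)) :=
    (cfb_summable_shift hδ).hasSum.mul_left _
  rw [← Real.norm_eq_abs]
  refine h3.norm_le_of_bounded hg fun k => ?_
  rw [← sub_mul, Real.norm_eq_abs, abs_mul, abs_of_nonneg (cfb_w_nonneg hs0 k)]
  have ha : (1 : ℝ) ≤ ((k + 1 : ℕ) : ℝ) := by
    have : 1 ≤ k + 1 := by omega
    exact_mod_cast this
  have ha0 : (0 : ℝ) < ((k + 1 : ℕ) : ℝ) := by linarith
  calc |(Nat.card {i // N i ≤ k + 1} : ℝ) - (Nat.card {i // N' i ≤ k + 1} : ℝ)| * cfb_w s k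
      ≤ (B * ((k + 1 : ℕ) : ℝ) ^ δ) * (s * ((k + 1 : ℕ) : ℝ) ^ (-s - 1)) :=
        mul_le_mul (hB k) (cfb_w_le hs1.le k) (cfb_w_nonneg hs0 k)
          (mul_nonneg hB0 (Real.rpow_nonneg ha0.le _))
    _ = B * s * ((k + 1 : ℕ) : ℝ) ^ (δ - s - 1) := by
        have : ((k + 1 : ℕ) : ℝ) ^ (δ - s - 1) =
            ((k + 1 : ℕ) : ℝ) ^ δ * ((k + 1 : ℕ) : ℝ) ^ (-s - 1) := by
          rw [← Real.rpow_add ha0]; congr 1; ring
        rw [this]; ring
    _ ≤ B * 2 * ((k + 1 : ℕ) : ℝ) ^ (δ - 2) := by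
        apply mul_le_mul (mul_le_mul_of_nonneg_left hs2 hB0) _ (Real.rpow_nonneg ha0.le _)
          (by positivity)
        exact Real.rpow_le_rpow_of_exponent_le ha (by linarith)
    _ = 2 * B * ((k + 1 : ℕ) : ℝ) ^ (δ - 2) := by ring

end Fermat.Agent.Lib.CFT
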