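import Fermat.Agent.Lib.CFT.ZetaField
import Fermat.Agent.Lib.CFT.SecondIneqChar
import Fermat.Agent.Lib.CFT.SecondIneqZeta

/-!
# S14, WP-C3b (second inequality): `L`-functions of class characters

`F` a number field, `H` a subgroup of its class group, `χ` a character of `Cl_F / H`.
* `cfb_CountHyp F`: the ideal-counting hypothesis (`κ s + O(s^δ)` ideals of norm `≤ s` in each
  class, `κ` independent of the class, `δ < 1`);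
* `cfb_L F H χ s = ∑_I χ([I]) N(I)^(-s)` for real `s > 1`, its Euler product `cfb_L_hasProd`;
* `cfb_norm_L_le`: under `cfb_CountHyp`, `L(s, χ)` is bounded on `(1, 2]` for `χ ≠ 1`.
-/

namespace Fermat.Agent.Lib.CFT

open NumberField Ideal IsDedekindDomain Filter Topology nonZeroDivisors

variable (F : Type*) [Field F] [NumberField F]

/-- the counting hypothesis: ideals of norm `≤ s` in a class, `κ s + O(s^δ)`, `δ < 1` -/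
def cfb_CountHyp : Prop :=
  ∃ κ δ : ℝ, δ < 1 ∧ ∀ C : ClassGroup (𝓞 F), ∃ B : ℝ, ∀ s : ℝ, 1 ≤ s →
    |(Nat.card {I : (Ideal (𝓞 F))⁰ //
        (absNorm (I : Ideal (𝓞 F)) : ℝ) ≤ s ∧ ClassGroup.mk0 I = C} : ℝ) - κ * s| ≤ B * s ^ δ

/-- partial zeta function of the class `C` -/
noncomputable def cfb_pzeta (C : ClassGroup (𝓞 F)) (s : ℝ) : ℝ :=
  ∑' b : (ClassGroup.mk0 ⁻¹' {C} : Set (Ideal (𝓞 F))⁰),
    (absNorm ((b : (Ideal (𝓞 F))⁰) : Ideal (𝓞 F)) : ℝ) ^ (-s)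

theorem cfb_one_le_absNorm (I : (Ideal (𝓞 F))⁰) : 1 ≤ absNorm (I : Ideal (𝓞 F)) := by
  rw [Nat.one_le_iff_ne_zero, Ne, Ideal.absNorm_eq_zero_iff]
  exact nonZeroDivisors.coe_ne_zero I

theorem cfb_finite_fibre_le (C : ClassGroup (𝓞 F)) (k : ℕ) :
    {b : (ClassGroup.mk0 ⁻¹' {C} : Set (Ideal (𝓞 F))⁰) |
      absNorm ((b : (Ideal (𝓞 F))⁰) : Ideal (𝓞 F)) ≤ k}.Finite := by
  have h := Ideal.finite_setOfPred_absNorm_le (S := 𝓞 F) k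
  refine Set.Finite.of_finite_image (f := fun b => ((b : (Ideal (𝓞 F))⁰) : Ideal (𝓞 F))) ?_ ?_
  · refine h.subset ?_
    rintro _ ⟨b, hb, rfl⟩
    exact hb
  · intro a _ b _ hab
    exact Subtype.ext (Subtype.ext hab)

theorem cfb_card_fibre_le (C : ClassGroup (𝓞 F)) (k : ℕ) :
    Nat.card {b : (ClassGroup.mk0 ⁻¹' {C} : Set (Ideal (𝓞 F))⁰) //
      absNorm ((b : (Ideal (𝓞 F))⁰) : Ideal (𝓞 F)) ≤ k + 1} =
    Nat.card {I : (Ideal (𝓞 F))⁰ //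
        (absNorm (I : Ideal (𝓞 F)) : ℝ) ≤ ((k + 1 : ℕ) : ℝ) ∧ ClassGroup.mk0 I = C} := by
  refine Nat.card_congr ⟨fun b => ⟨b.1.1, ⟨by exact_mod_cast b.2, b.1.2⟩⟩,
    fun I => ⟨⟨I.1, I.2.2⟩, by exact_mod_cast I.2.1⟩, fun _ => rfl, fun _ => rfl⟩

theorem cfb_pzeta_sub_le (h : cfb_CountHyp F) (C C' : ClassGroup (𝓞 F)) :
    ∃ B : ℝ, ∀ s : ℝ, 1 < s → s ≤ 2 → |cfb_pzeta F C s - cfb_pzeta F C' s| ≤ B := by
  obtain ⟨κ, δ, hδ, hcount⟩ := h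
  obtain ⟨B1, hB1⟩ := hcount C
  obtain ⟨B2, hB2⟩ := hcount C'
  refine ⟨2 * (B1 + B2) * ∑' k : ℕ, ((k + 1 : ℕ) : ℝ) ^ (δ - 2), fun s hs1 hs2 => ?_⟩
  unfold cfb_pzeta
  refine cfb_abs_tsum_sub_le
    (fun b : (ClassGroup.mk0 ⁻¹' {C} : Set (Ideal (𝓞 F))⁰) =>
      absNorm ((b : (Ideal (𝓞 F))⁰) : Ideal (𝓞 F)))
    (fun b : (ClassGroup.mk0 ⁻¹' {C'} : Set (Ideal (𝓞 F))⁰) =>
      absNorm ((b : (Ideal (𝓞 F))⁰) : Ideal (𝓞 F)))
    (fun b => cfb_one_le_absNorm F b) (fun b => cfb_one_le_absNorm F b)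
    (cfb_finite_fibre_le F C) (cfb_finite_fibre_le F C') hδ ?_ hs1 hs2
    ((cfi_zeta_summable F hs1).subtype _) ((cfi_zeta_summable F hs1).subtype _)
  intro k
  rw [cfb_card_fibre_le, cfb_card_fibre_le]
  have hk : (1 : ℝ) ≤ ((k + 1 : ℕ) : ℝ) := by
    have : 1 ≤ k + 1 := by omega
    exact_mod_cast this
  have h1 := hB1 _ hk
  have h2 := hB2 _ hk
  rw [abs_le] at h1 h2 ⊢
  constructor <;> nlinarith [h1.1, h1.2, h2.1, h2.2]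

variable (H : Subgroup (ClassGroup (𝓞 F)))

/-- the class character of a nonzero ideal -/
noncomputable def cfb_chi (χ : (ClassGroup (𝓞 F) ⧸ H) →* ℂˣ) : (Ideal (𝓞 F))⁰ →* ℂ :=
  (Units.coeHom ℂ).comp (χ.comp ((QuotientGroup.mk' H).comp ClassGroup.mk0))

/-- the general term `χ([I]) N(I)^(-s)` of the `L`-series -/
noncomputable def cfb_term (χ : (ClassGroup (𝓞 F) ⧸ H) →* ℂˣ) (s : ℝ) : (Ideal (𝓞 F))⁰ →* ℂ :=
  cfb_chi F H χ * ((Complex.ofRealHom : ℝ →* ℂ).comp (cfi_normPow F s))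

theorem cfb_chi_apply (χ : (ClassGroup (𝓞 F) ⧸ H) →* ℂˣ) (I : (Ideal (𝓞 F))⁰) :
    cfb_chi F H χ I = ((χ (QuotientGroup.mk (ClassGroup.mk0 I)) : ℂˣ) : ℂ) := rfl

theorem cfb_term_apply (χ : (ClassGroup (𝓞 F) ⧸ H) →* ℂˣ) (s : ℝ) (I : (Ideal (𝓞 F))⁰) :
    cfb_term F H χ s I = ((χ (QuotientGroup.mk (ClassGroup.mk0 I)) : ℂˣ) : ℂ) *
      (((absNorm (I : Ideal (𝓞 F)) : ℝ) ^ (-s) : ℝ) : ℂ) := rfl

theorem cfb_norm_char (χ : (ClassGroup (𝓞 F) ⧸ H) →* ℂˣ) (q : ClassGroup (𝓞 F) ⧸ H) :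
    ‖((χ q : ℂˣ) : ℂ)‖ = 1 := by
  have h1 : q ^ Nat.card (ClassGroup (𝓞 F) ⧸ H) = 1 := pow_card_eq_one'
  have h2 : ((χ q : ℂˣ) : ℂ) ^ Nat.card (ClassGroup (𝓞 F) ⧸ H) = 1 := by
    rw [← Units.val_pow_eq_pow_val, ← map_pow, h1, map_one, Units.val_one]
  exact Complex.norm_eq_one_of_pow_eq_one h2 Nat.card_pos.ne'

theorem cfb_norm_term (χ : (ClassGroup (𝓞 F) ⧸ H) →* ℂˣ) (s : ℝ) (I : (Ideal (𝓞 F))⁰) :
    ‖cfb_term F H χ s I‖ = (absNorm (I : Ideal (𝓞 F)) : ℝ) ^ (-s) := by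
  rw [cfb_term_apply, norm_mul, cfb_norm_char, one_mul, Complex.norm_real,
    Real.norm_of_nonneg (by positivity)]

theorem cfb_summable_norm_term (χ : (ClassGroup (𝓞 F) ⧸ H) →* ℂˣ) {s : ℝ} (hs : 1 < s) :
    Summable fun I => ‖cfb_term F H χ s I‖ := by
  simp_rw [cfb_norm_term]
  exact cfi_zeta_summable F hs

/-- the `L`-function of the class character `χ` at real `s` -/
noncomputable def cfb_L (χ : (ClassGroup (𝓞 F) ⧸ H) →* ℂˣ) (s : ℝ) : ℂ :=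
  ∑' I, cfb_term F H χ s I

theorem cfb_L_eq_sum (χ : (ClassGroup (𝓞 F) ⧸ H) →* ℂˣ) {s : ℝ} (hs : 1 < s) :
    cfb_L F H χ s = ∑ C : ClassGroup (𝓞 F),
      ((χ (QuotientGroup.mk C) : ℂˣ) : ℂ) * ((cfb_pzeta F C s : ℝ) : ℂ) := by
  have hsum : Summable (cfb_term F H χ s) := (cfb_summable_norm_term F H χ hs).of_norm
  have h1 := hsum.hasSum.tsum_fiberwise (ClassGroup.mk0 (R := 𝓞 F))
  have h2 := (hasSum_fintype _).unique h1
  rw [cfb_L, ← h2]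
  refine Finset.sum_congr rfl fun C _ => ?_
  unfold cfb_pzeta
  rw [Complex.ofReal_tsum, ← tsum_mul_left]
  refine tsum_congr fun b => ?_
  rw [cfb_term_apply]
  have : ClassGroup.mk0 (b : (Ideal (𝓞 F))⁰) = C := b.2
  rw [this]

theorem cfb_L_one (s : ℝ) :
    cfb_L F H 1 s = ((cfi_zeta F s : ℝ) : ℂ) := by
  unfold cfb_L cfi_zeta
  rw [Complex.ofReal_tsum]
  refine tsum_congr fun I => ?_
  rw [cfb_term_apply]
  simp

theorem cfb_norm_L_le (h : cfb_CountHyp F) (χ : (ClassGroup (𝓞 F) ⧸ H) →* ℂˣ) (hχ : χ ≠ 1) :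
    ∃ B : ℝ, ∀ s : ℝ, 1 < s → s ≤ 2 → ‖cfb_L F H χ s‖ ≤ B := by
  classical
  choose B hB using fun C => cfb_pzeta_sub_le F h C 1
  refine ⟨∑ C : ClassGroup (𝓞 F), B C, fun s hs1 hs2 => ?_⟩
  rw [cfb_L_eq_sum F H χ hs1]
  have hψ : (χ.comp (QuotientGroup.mk' H)) ≠ 1 := by
    intro h1
    apply hχ
    ext q
    rw [h1]
    simp
  have h0 := cfb_sum_char_eq_zero (χ.comp (QuotientGroup.mk' H)) hψ
  have h3 : ∑ C : ClassGroup (𝓞 F),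
      ((χ (QuotientGroup.mk C) : ℂˣ) : ℂ) * ((cfb_pzeta F C s : ℝ) : ℂ) =
      ∑ C : ClassGroup (𝓞 F), ((χ (QuotientGroup.mk C) : ℂˣ) : ℂ) *
        (((cfb_pzeta F C s - cfb_pzeta F 1 s : ℝ)) : ℂ) := by
    have : ∑ C : ClassGroup (𝓞 F), ((χ (QuotientGroup.mk C) : ℂˣ) : ℂ) *
        (((cfb_pzeta F C s - cfb_pzeta F 1 s : ℝ)) : ℂ) =
        ∑ C : ClassGroup (𝓞 F),
          ((χ (QuotientGroup.mk C) : ℂˣ) : ℂ) * ((cfb_pzeta F C s : ℝ) : ℂ) -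
        (∑ C : ClassGroup (𝓞 F), ((χ (QuotientGroup.mk C) : ℂˣ) : ℂ)) *
          ((cfb_pzeta F 1 s : ℝ) : ℂ) := by
      rw [Finset.sum_mul, ← Finset.sum_sub_distrib]
      refine Finset.sum_congr rfl fun C _ => ?_
      push_cast; ring
    rw [this]
    have h0' : ∑ C : ClassGroup (𝓞 F), ((χ (QuotientGroup.mk C) : ℂˣ) : ℂ) = 0 := h0
    rw [h0', zero_mul, sub_zero]
  rw [h3]
  refine (norm_sum_le _ _).trans (Finset.sum_le_sum fun C _ => ?_)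
  rw [norm_mul, cfb_norm_char, one_mul, Complex.norm_real, Real.norm_eq_abs]
  exact hB C s hs1 hs2

/-- **Euler product** of the `L`-function of a class character -/
theorem cfb_L_hasProd (χ : (ClassGroup (𝓞 F) ⧸ H) →* ℂˣ) {s : ℝ} (hs : 1 < s) :
    HasProd (fun 𝔮 : HeightOneSpectrum (𝓞 F) => (1 - cfb_term F H χ s (cfi_prime 𝔮))⁻¹)
      (cfb_L F H χ s) :=
  cfi_eulerProduct_hasProd' (cfb_term F H χ s) (cfb_summable_norm_term F H χ hs)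

end Fermat.Agent.Lib.CFT
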