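/-
S14 (CFT route): the ideal-counting hypothesis `cfb_CountHyp F` of the second inequality (WP-C3b)
holds for every number field, by the counting theorem with error term of WP-C3a
(`cfn_card_ideals_class_sub_le`).
-/
import Mathlib
import Fermat.Agent.Lib.CFT.CountIdeals
import Fermat.Agent.Lib.CFT.SecondIneqL

set_option autoImplicit false

namespace Fermat.Agent.Lib.CFT

open NumberField

/-- the counting hypothesis holds for every number field -/
theorem cfd_countHyp (F : Type*) [Field F] [NumberField F] : cfb_CountHyp F := by
  refine ⟨cfn_kappa F, 1 - (Module.finrank ℚ F : ℝ)⁻¹, ?_, fun C => ?_⟩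
  · have h : (0 : ℝ) < (Module.finrank ℚ F : ℝ)⁻¹ :=
      inv_pos.mpr (Nat.cast_pos.mpr Module.finrank_pos)
    linarith
  · exact cfn_card_ideals_class_sub_le F C

end Fermat.Agent.Lib.CFT
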