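import Mathlib
import Fermat.Agent.Lib.CFT.CountLip

/-!
# Adapters for `cfl_BoxDim`

* `cfl_BoxDim.image`: Lipschitz images preserve `cfl_BoxDim`.
* `cfl_BoxDim.of_contDiffOn`: the image of a box under a map which is `C¹` on the box.
* `cfl_BoxDim.image_continuousLinearEquiv`, `cfl_frontier_image_continuousLinearEquiv`.
-/

set_option autoImplicit false

namespace Fermat.Agent.Lib.CFT

open MeasureTheory Module Bornology Metric
open scoped Pointwise NNReal

section

variable {E : Type*} [NormedAddCommGroup E] {E' : Type*} [NormedAddCommGroup E']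

/-- Lipschitz images preserve `cfl_BoxDim`. -/
theorem cfl_BoxDim.image {d : ℕ} {S : Set E} (h : cfl_BoxDim d S) {f : E → E'} {K : ℝ≥0}
    (hf : LipschitzWith K f) : cfl_BoxDim d (f '' S) := by
  classical
  obtain ⟨C, hC⟩ := h
  have hC0 : 0 ≤ C := by
    obtain ⟨P, hP, _⟩ := hC 1 one_pos le_rfl
    have : (0:ℝ) ≤ P.card := Nat.cast_nonneg _
    simpa using this.trans hP
  have hK0 : (0:ℝ) ≤ K := K.2
  have hK1 : (0:ℝ) < K + 1 := by positivity
  refine ⟨C * ((K : ℝ) + 1) ^ d, fun ε h0 h1 => ?_⟩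
  have hε' : 0 < ε / (K + 1) := div_pos h0 hK1
  have hε'1 : ε / (K + 1) ≤ 1 := by
    rw [div_le_one hK1]; linarith
  obtain ⟨P, hP, hcov⟩ := hC (ε / (K + 1)) hε' hε'1
  refine ⟨P.image f, ?_, ?_⟩
  · calc ((P.image f).card : ℝ) ≤ (P.card : ℝ) := by exact_mod_cast Finset.card_image_le
      _ ≤ C * (ε / (K + 1))⁻¹ ^ d := hP
      _ = C * ((K : ℝ) + 1) ^ d * ε⁻¹ ^ d := by
          rw [inv_div, div_eq_mul_inv, mul_pow]; ring
  · rintro _ ⟨x, hx, rfl⟩
    have := hcov hx
    simp only [Set.mem_iUnion, exists_prop, mem_closedBall] at this ⊢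
    obtain ⟨p, hp, hxp⟩ := this
    refine ⟨f p, Finset.mem_image_of_mem f hp, ?_⟩
    calc dist (f x) (f p) ≤ K * dist x p := hf.dist_le_mul x p
      _ ≤ K * (ε / (K + 1)) := by gcongr
      _ ≤ ε := by
          rw [mul_div_assoc', div_le_iff₀ hK1]
          nlinarith

variable [NormedSpace ℝ E]

/-- The image of a box under a map which is `C¹` on the box. -/
theorem cfl_BoxDim.of_contDiffOn {ι : Type*} [Fintype ι] {φ : (ι → ℝ) → E} (a b : ι → ℝ)
    (hφ : ContDiffOn ℝ 1 φ (Set.Icc a b)) :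
    cfl_BoxDim (Fintype.card ι) (φ '' Set.Icc a b) := by
  obtain ⟨K, hK⟩ := hφ.exists_lipschitzOnWith one_ne_zero (convex_Icc a b) isCompact_Icc
  exact cfl_BoxDim.of_lipschitzOnWith a b hK

variable [NormedSpace ℝ E']

/-- Continuous linear equivalences preserve `cfl_BoxDim`. -/
theorem cfl_BoxDim.image_continuousLinearEquiv {d : ℕ} {S : Set E} (h : cfl_BoxDim d S)
    (e : E ≃L[ℝ] E') : cfl_BoxDim d (e '' S) :=
  h.image e.lipschitz

/-- Continuous linear equivalences commute with `frontier`. -/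
theorem cfl_frontier_image_continuousLinearEquiv (e : E ≃L[ℝ] E') (S : Set E) :
    frontier (e '' S) = e '' frontier S :=
  (e.toHomeomorph.image_frontier S).symm

/-- Continuous linear equivalences commute with `frontier` (preimage form). -/
theorem cfl_frontier_preimage_continuousLinearEquiv (e : E ≃L[ℝ] E') (S : Set E') :
    frontier (e ⁻¹' S) = e ⁻¹' frontier S :=
  (e.toHomeomorph.preimage_frontier S).symm

/-- `cfl_BoxDim` for the frontier of a preimage under a continuous linear equivalence. -/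
theorem cfl_BoxDim.frontier_preimage {d : ℕ} {S : Set E'} (h : cfl_BoxDim d (frontier S))
    (e : E ≃L[ℝ] E') : cfl_BoxDim d (frontier (e ⁻¹' S)) := by
  rw [cfl_frontier_preimage_continuousLinearEquiv]
  have := h.image_continuousLinearEquiv e.symm
  rwa [e.symm.image_eq_preimage_symm] at this

end

end Fermat.Agent.Lib.CFT
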