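/-
S14 (CFT route), FT-final glue on the concrete carrier `Ω = cfa_Om L ℓ₀ ℓ₁ = L(ζ_{ℓ₀}, ζ_{ℓ₁})`
of `CycloTower.lean`:
* commutativity of `Gal(Ω/E)` for every intermediate `E` (the `hcomm` of T1),
* the independence statement in the exact shape consumed by helper3's (D3),
* a check that all instances used by `FixedSetting.lean` resolve for `E : IntermediateField K Ω`.
-/
import Mathlib
import Fermat.Agent.Lib.CFT.CycloTower
import Fermat.Agent.Lib.CFT.FixedSetting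

set_option autoImplicit false
set_option linter.unusedSectionVars false

namespace Fermat.Agent.Lib.CFT

open Polynomial IntermediateField NumberField

section generic

variable {K E Ω : Type*} [Field K] [Field E] [Field Ω] [Algebra K E] [Algebra E Ω] [Algebra K Ω]
  [IsScalarTower K E Ω]

/-- If `Gal(Ω/K)` is commutative then so is `Gal(Ω/E)` for `K ⊆ E ⊆ Ω`. -/
theorem cfa_comm_of_tower (hcomm : ∀ g h : Ω ≃ₐ[K] Ω, g * h = h * g) (g h : Ω ≃ₐ[E] Ω) :
    g * h = h * g := by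
  apply AlgEquiv.restrictScalars_injective K
  exact hcomm (g.restrictScalars K) (h.restrictScalars K)

end generic

section Tower

variable (K L : Type*) [Field K] [NumberField K] [Field L] [NumberField L] [Algebra K L]
  (ℓ₀ ℓ₁ : ℕ) [NeZero ℓ₀] [NeZero ℓ₁]

/-- `hcomm` of T1 on the concrete carrier: for `L/K` abelian and any `K ⊆ E ⊆ Ω`, the group
`Gal(Ω/E)` is commutative. -/
theorem cfa_comm_Om_over [IsGalois K L] (hcomm : ∀ a b : L ≃ₐ[K] L, a * b = b * a)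
    (E : Type*) [Field E] [Algebra K E] [Algebra E (cfa_Om L ℓ₀ ℓ₁)]
    [IsScalarTower K E (cfa_Om L ℓ₀ ℓ₁)]
    (g h : cfa_Om L ℓ₀ ℓ₁ ≃ₐ[E] cfa_Om L ℓ₀ ℓ₁) : g * h = h * g :=
  cfa_comm_of_tower (K := K) (cfa_comm_Om (K := K) (L := L) (ℓ₀ := ℓ₀) (ℓ₁ := ℓ₁) hcomm) g h

/-- The hypothesis of (D3) in `CrossData.lean`, on the concrete carrier. -/
theorem cfa_indep_hyp (hℓ₁ : ℓ₁.Prime) (h : Irreducible (cyclotomic ℓ₁ (cfa_Om0 L ℓ₀))) :
    ∀ (g : cfa_Om L ℓ₀ ℓ₁ ≃ₐ[K] cfa_Om L ℓ₀ ℓ₁) (t : ℕ), ¬ ℓ₁ ∣ t →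
      ∃ g' : cfa_Om L ℓ₀ ℓ₁ ≃ₐ[K] cfa_Om L ℓ₀ ℓ₁,
        (∀ x : L, g' (algebraMap L (cfa_Om L ℓ₀ ℓ₁) x) = g (algebraMap L (cfa_Om L ℓ₀ ℓ₁) x)) ∧
        g' (cfa_zeta0 L ℓ₀ ℓ₁) = g (cfa_zeta0 L ℓ₀ ℓ₁) ∧
        g' (cfa_zeta1 L ℓ₀ ℓ₁) = cfa_zeta1 L ℓ₀ ℓ₁ ^ t :=
  fun g t ht => cfa_independence' hℓ₁ h g t ht

/-! ### Instance checks for `E : IntermediateField K Ω` on the concrete carrier

Everything `FixedSetting.lean` (lead) and T1 need for `E := ↥(fixedField H)` resolves by instance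
search. -/

section checks

variable [IsGalois K L] (E : IntermediateField K (cfa_Om L ℓ₀ ℓ₁))

noncomputable example : NumberField (cfa_Om L ℓ₀ ℓ₁) := inferInstance
noncomputable example : NumberField E := inferInstance
noncomputable example : Algebra K E := inferInstance
noncomputable example : Algebra E (cfa_Om L ℓ₀ ℓ₁) := inferInstance
noncomputable example : IsScalarTower K E (cfa_Om L ℓ₀ ℓ₁) := inferInstance
noncomputable example : IsScalarTower K L (cfa_Om L ℓ₀ ℓ₁) := inferInstance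
noncomputable example : IsGalois K (cfa_Om L ℓ₀ ℓ₁) := inferInstance
noncomputable example : IsGalois E (cfa_Om L ℓ₀ ℓ₁) := inferInstance
noncomputable example : FiniteDimensional K (cfa_Om L ℓ₀ ℓ₁) := inferInstance
noncomputable example : IntermediateField E (cfa_Om L ℓ₀ ℓ₁) := cfn_M K L E (cfa_Om L ℓ₀ ℓ₁)
noncomputable example : NumberField (cfn_M K L E (cfa_Om L ℓ₀ ℓ₁)) := inferInstance
noncomputable example : Algebra L (cfn_M K L E (cfa_Om L ℓ₀ ℓ₁)) := inferInstance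
noncomputable example : IsScalarTower K L (cfn_M K L E (cfa_Om L ℓ₀ ℓ₁)) := inferInstance
noncomputable example : IsScalarTower K E (cfn_M K L E (cfa_Om L ℓ₀ ℓ₁)) := inferInstance
noncomputable example : IsScalarTower E (cfn_M K L E (cfa_Om L ℓ₀ ℓ₁)) (cfa_Om L ℓ₀ ℓ₁) :=
  inferInstance
noncomputable example : IsGalois E (cfn_M K L E (cfa_Om L ℓ₀ ℓ₁)) := inferInstance
noncomputable example (H : Subgroup (cfa_Om L ℓ₀ ℓ₁ ≃ₐ[K] cfa_Om L ℓ₀ ℓ₁)) :
    IsGalois (IntermediateField.fixedField H) (cfa_Om L ℓ₀ ℓ₁) := inferInstance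
noncomputable example (H : Subgroup (cfa_Om L ℓ₀ ℓ₁ ≃ₐ[K] cfa_Om L ℓ₀ ℓ₁)) :
    NumberField (IntermediateField.fixedField H) := inferInstance

end checks

end Tower

end Fermat.Agent.Lib.CFT
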