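/-
S14 (CFT route): irreducibility of the `ℓ`-th cyclotomic polynomial over a number field `F`
for all primes `ℓ` outside a finite set (Eisenstein at a prime of `𝓞 F` above an unramified `ℓ`).
Input for linear disjointness in Artin's lemma / the crossing argument.
-/
import Mathlib

namespace Fermat.Agent.Lib.CFT

open Polynomial NumberField

/-- **Eisenstein**: if some prime `𝔏` of `𝓞 F` contains `ℓ` but `ℓ ∉ 𝔏 ^ 2`, then the `ℓ`-th
cyclotomic polynomial is irreducible over `F`. -/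
theorem cfc_cyclotomic_irreducible {F : Type*} [Field F] [NumberField F] (ℓ : ℕ)
    [hℓ : Fact ℓ.Prime] (𝔏 : Ideal (𝓞 F)) [𝔏.IsPrime] (h1 : (ℓ : 𝓞 F) ∈ 𝔏)
    (h2 : (ℓ : 𝓞 F) ∉ 𝔏 ^ 2) : Irreducible (cyclotomic ℓ F) := by
  set g : ℤ[X] := (cyclotomic ℓ ℤ).comp (X + 1) with hg
  set f : (𝓞 F)[X] := (cyclotomic ℓ (𝓞 F)).comp (X + 1) with hf
  have hgE := cyclotomic_comp_X_add_one_isEisensteinAt ℓ
  have hfg : f = g.map (Int.castRingHom (𝓞 F)) := by
    rw [hf, hg, Polynomial.map_comp, map_cyclotomic]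
    simp
  have hgmonic : g.Monic := by
    rw [hg, show (X + 1 : ℤ[X]) = X + C 1 by simp]
    exact (cyclotomic.monic ℓ ℤ).comp (monic_X_add_C 1)
      (by rw [natDegree_X_add_C]; exact one_ne_zero)
  have hfmonic : f.Monic := by rw [hfg]; exact hgmonic.map _
  have hdeg : f.natDegree = g.natDegree := by rw [hfg]; exact hgmonic.natDegree_map _
  have hgdeg : g.natDegree = ℓ - 1 := by
    rw [hg, natDegree_comp, natDegree_cyclotomic, Nat.totient_prime hℓ.1,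
      show (X + 1 : ℤ[X]) = X + C 1 by simp, natDegree_X_add_C, mul_one]
  have hfE : f.IsEisensteinAt 𝔏 := by
    refine hfmonic.isEisensteinAt_of_mem_of_notMem (Ideal.IsPrime.ne_top inferInstance) ?_ ?_
    · intro n hn
      rw [hdeg] at hn
      have hmem := hgE.mem hn
      rw [Ideal.mem_span_singleton] at hmem
      obtain ⟨c, hc⟩ := hmem
      rw [hfg, coeff_map, hc]
      simp only [eq_intCast, Int.cast_mul, Int.cast_natCast]
      exact Ideal.mul_mem_right _ _ h1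
    · have h0 : f.coeff 0 = (ℓ : 𝓞 F) := by
        rw [coeff_zero_eq_eval_zero, hf, eval_comp]
        simp [eval_one_cyclotomic_prime]
      rw [h0]
      exact h2
  have hirr : Irreducible f :=
    hfE.irreducible inferInstance hfmonic.isPrimitive (by
      rw [hdeg, hgdeg]
      have := hℓ.1.two_le
      omega)
  have hirrF : Irreducible (f.map (algebraMap (𝓞 F) F)) :=
    (hfmonic.irreducible_iff_irreducible_map_fraction_map).mp hirr
  have hmap : f.map (algebraMap (𝓞 F) F) = algEquivAevalXAddC 1 (cyclotomic ℓ F) := by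
    rw [algEquivAevalXAddC_apply, hf, Polynomial.map_comp, map_cyclotomic, ← comp_eq_aeval]
    simp
  rw [hmap] at hirrF
  exact (MulEquiv.irreducible_iff (algEquivAevalXAddC (1 : F))).mp hirrF

/-- Outside the finite set of prime divisors of the discriminant every rational prime `ℓ` is
unramified in `F`: `ℓ ∉ 𝔏 ^ 2` for every prime `𝔏` of `𝓞 F` containing `ℓ`. -/
theorem cfc_finite_ramified (F : Type*) [Field F] [NumberField F] :
    ∃ S : Finset ℕ, ∀ ℓ : ℕ, ℓ.Prime → ℓ ∉ S → ∀ (𝔏 : Ideal (𝓞 F)) [𝔏.IsPrime],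
      (ℓ : 𝓞 F) ∈ 𝔏 → (ℓ : 𝓞 F) ∉ 𝔏 ^ 2 := by
  refine ⟨(discr F).natAbs.primeFactors, ?_⟩
  intro ℓ hℓ hS 𝔏 _ hmem hsq
  apply hS
  have : Fact ℓ.Prime := ⟨hℓ⟩
  have hpmax : (Ideal.span {(ℓ : ℤ)}).IsMaximal := Int.ideal_span_isMaximal_of_prime ℓ
  have hpbot : Ideal.span {(ℓ : ℤ)} ≠ ⊥ := by
    rw [Ne, Ideal.span_singleton_eq_bot]
    exact_mod_cast hℓ.ne_zero
  have hmap : (Ideal.span {(ℓ : ℤ)}).map (algebraMap ℤ (𝓞 F)) = Ideal.span {(ℓ : 𝓞 F)} := by
    rw [Ideal.map_span, Set.image_singleton]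
    simp
  have hdvd : 𝔏 ^ 2 ∣ (Ideal.span {(ℓ : ℤ)}).map (algebraMap ℤ (𝓞 F)) := by
    rw [hmap, Ideal.dvd_iff_le, Ideal.span_singleton_le_iff_mem]
    exact hsq
  have h3 := pow_sub_one_dvd_differentIdeal ℤ 𝔏 2 hpbot hdvd
  rw [show 2 - 1 = 1 from rfl, pow_one] at h3
  have h4 := Ideal.absNorm_dvd_absNorm_of_le (Ideal.dvd_iff_le.mp h3)
  rw [absNorm_differentIdeal F (𝓞 F)] at h4
  have h5 : ℓ ∣ Ideal.absNorm 𝔏 := by
    have h6 := Ideal.absNorm_dvd_absNorm_of_le ((Ideal.span_singleton_le_iff_mem _).mpr hmem)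
    rw [Ideal.absNorm_span_natCast] at h6
    obtain ⟨j, -, hj⟩ := (Nat.dvd_prime_pow hℓ).mp h6
    rcases Nat.eq_zero_or_pos j with rfl | hjpos
    · rw [pow_zero, Ideal.absNorm_eq_one_iff] at hj
      exact absurd hj (Ideal.IsPrime.ne_top inferInstance)
    · rw [hj]
      exact dvd_pow_self ℓ hjpos.ne'
  rw [Nat.mem_primeFactors]
  exact ⟨hℓ, dvd_trans h5 h4, by rw [Ne, Int.natAbs_eq_zero]; exact discr_ne_zero F⟩

/-- For all primes `ℓ` outside a finite set, the `ℓ`-th cyclotomic polynomial is irreducible over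
the number field `F`. -/
theorem cfc_cyclotomic_irreducible_of_notMem (F : Type*) [Field F] [NumberField F] :
    ∃ S : Finset ℕ, ∀ ℓ : ℕ, ℓ.Prime → ℓ ∉ S → Irreducible (cyclotomic ℓ F) := by
  obtain ⟨S, hS⟩ := cfc_finite_ramified F
  refine ⟨S, fun ℓ hℓ hℓS => ?_⟩
  have : Fact ℓ.Prime := ⟨hℓ⟩
  -- a prime of `𝓞 F` above `ℓ`
  have hne : Ideal.span {(ℓ : 𝓞 F)} ≠ ⊤ := by
    rw [Ne, Ideal.span_singleton_eq_top]
    intro hu
    have h1 : Ideal.absNorm (Ideal.span {(ℓ : 𝓞 F)}) = 1 := by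
      rw [Ideal.absNorm_eq_one_iff, Ideal.span_singleton_eq_top]
      exact hu
    rw [Ideal.absNorm_span_natCast] at h1
    have h2 : Module.finrank ℤ (𝓞 F) ≠ 0 := by
      rw [RingOfIntegers.rank]
      exact Module.finrank_pos.ne'
    have h3 : 1 < ℓ ^ Module.finrank ℤ (𝓞 F) := Nat.one_lt_pow h2 hℓ.one_lt
    omega
  obtain ⟨𝔏, h𝔏max, h𝔏le⟩ := Ideal.exists_le_maximal _ hne
  have h𝔏 : 𝔏.IsPrime := h𝔏max.isPrime
  have hmem : (ℓ : 𝓞 F) ∈ 𝔏 := h𝔏le (Ideal.mem_span_singleton_self _)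
  exact cfc_cyclotomic_irreducible ℓ 𝔏 hmem (hS ℓ hℓ hℓS 𝔏 hmem)

end Fermat.Agent.Lib.CFT
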