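/-
S14 (CFT route): choice of the auxiliary primes `ℓ₀, ℓ₁` for Artin's crossing argument.
-/
import Mathlib
import Fermat.Agent.Lib.CFT.ArtinLemmaArith
import Fermat.Agent.Lib.CFT.CycloIrred

set_option autoImplicit false

namespace Fermat.Agent.Lib.CFT

open Polynomial NumberField

/-- **Choice of the crossing primes.** For a number field `L`, an odd prime `p`, integers
`a₀, a₁ ≥ 2` and a finite set `S` of naturals there are distinct primes `ℓ₀, ℓ₁ ∉ S`, different from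
`p`, with `ℓ_i ∤ a_i`, `p ∣ ord_{ℓ_i}(a_i)`, and such that the `ℓ₁`-th cyclotomic polynomial is
irreducible over `L(ζ_{ℓ₀})`. -/
theorem cfc_exists_cross_primes (L : Type*) [Field L] [NumberField L] (p : ℕ) [hp : Fact p.Prime]
    (hp2 : p ≠ 2) (a₀ a₁ : ℕ) (ha₀ : 2 ≤ a₀) (ha₁ : 2 ≤ a₁) (S : Finset ℕ) :
    ∃ ℓ₀ ℓ₁ : ℕ, ℓ₀.Prime ∧ ℓ₁.Prime ∧ ℓ₀ ≠ ℓ₁ ∧ ℓ₀ ∉ S ∧ ℓ₁ ∉ S ∧ ℓ₀ ≠ p ∧ ℓ₁ ≠ p ∧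
      ¬ ℓ₀ ∣ a₀ ∧ ¬ ℓ₁ ∣ a₁ ∧ p ∣ orderOf ((a₀ : ℕ) : ZMod ℓ₀) ∧
      p ∣ orderOf ((a₁ : ℕ) : ZMod ℓ₁) ∧
      Irreducible (cyclotomic ℓ₁ (CyclotomicField ℓ₀ L)) := by
  classical
  obtain ⟨ℓ₀, hℓ₀, hℓ₀S, hℓ₀p, hℓ₀a, hord₀⟩ := cfc_exists_prime_dvd_orderOf p hp2 a₀ ha₀ S
  have : NeZero ℓ₀ := ⟨hℓ₀.ne_zero⟩
  obtain ⟨S₁, hS₁⟩ := cfc_cyclotomic_irreducible_of_notMem (CyclotomicField ℓ₀ L)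
  obtain ⟨ℓ₁, hℓ₁, hℓ₁S, hℓ₁p, hℓ₁a, hord₁⟩ :=
    cfc_exists_prime_dvd_orderOf p hp2 a₁ ha₁ (S ∪ S₁ ∪ {ℓ₀})
  have h1 : ℓ₁ ∉ S := fun h => hℓ₁S (Finset.mem_union_left _ (Finset.mem_union_left _ h))
  have h2 : ℓ₁ ∉ S₁ := fun h => hℓ₁S (Finset.mem_union_left _ (Finset.mem_union_right _ h))
  have h3 : ℓ₀ ≠ ℓ₁ := fun h =>
    hℓ₁S (Finset.mem_union_right _ (Finset.mem_singleton.mpr h.symm))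
  exact ⟨ℓ₀, ℓ₁, hℓ₀, hℓ₁, h3, hℓ₀S, h1, hℓ₀p, hℓ₁p, hℓ₀a, hℓ₁a, hord₀, hord₁,
    hS₁ ℓ₁ hℓ₁ h2⟩

end Fermat.Agent.Lib.CFT
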