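/-
S14 (CFT route): the degree-one prime lemma (item (e) of FT1).
If a Frobenius at `𝔓` (for `Ω/K`) fixes the intermediate field `E`, then `𝔓 ∩ 𝓞 E` has residue
degree one over `K`, i.e. `relNorm (𝔓 ∩ 𝓞 E) = 𝔓 ∩ 𝓞 K`.
-/
import Mathlib
import Fermat.Agent.Lib.CFT.Artin

set_option autoImplicit false
set_option linter.unusedSectionVars false

namespace Fermat.Agent.Lib.CFT

open NumberField
open scoped nonZeroDivisors Pointwise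

section degone

/-- A finite field all of whose elements satisfy `t ^ q = t` has at most `q` elements. -/
lemma cfh_card_le_of_pow_eq {F : Type*} [Field F] [Finite F] {q : ℕ} (hq : 1 < q)
    (h : ∀ t : F, t ^ q = t) : Nat.card F ≤ q := by
  classical
  have := Fintype.ofFinite F
  rw [Nat.card_eq_fintype_card, ← Finset.card_univ]
  have hne : (Polynomial.X ^ q - Polynomial.X : Polynomial F) ≠ 0 :=
    FiniteField.X_pow_card_sub_X_ne_zero F hq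
  have hdeg := FiniteField.X_pow_card_sub_X_natDegree_eq F hq
  rw [← hdeg]
  apply Polynomial.card_le_degree_of_subset_roots
  intro t _
  rw [Polynomial.mem_roots hne]
  simp [h t]

variable {K E Ω : Type*} [Field K] [NumberField K] [Field E] [NumberField E]
  [Field Ω] [NumberField Ω] [Algebra K E] [Algebra E Ω] [Algebra K Ω] [IsScalarTower K E Ω]
  [IsGalois K Ω]

/-- **Degree-one prime.** If a Frobenius `φ ∈ Gal(Ω/K)` at the prime `𝔓` of `Ω` fixes the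
intermediate field `E` pointwise, then the prime `𝔓 ∩ 𝓞 E` of `E` has residue degree one over `K`:
its relative norm is the prime of `K` below it. -/
theorem cfh_relNorm_under_of_isFrobAt {𝔓 : Ideal (𝓞 Ω)} [𝔓.IsPrime] (h𝔓 : 𝔓 ≠ ⊥)
    {φ : Gal(Ω/K)} (hφ : cft_IsFrobAt φ 𝔓)
    (hfix : ∀ x : E, φ (algebraMap E Ω x) = algebraMap E Ω x) :
    Ideal.relNorm (𝓞 K) (𝔓.under (𝓞 E)) = 𝔓.under (𝓞 K) := by
  set 𝔔 := 𝔓.under (𝓞 E) with h𝔔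
  set 𝔮 := 𝔓.under (𝓞 K) with h𝔮
  have hlo1 : 𝔓.LiesOver 𝔔 := ⟨rfl⟩
  have hlo2 : 𝔔.LiesOver 𝔮 := ⟨(Ideal.under_under (A := 𝓞 K) (B := 𝓞 E) 𝔓).symm⟩
  have h𝔔0 : 𝔔 ≠ ⊥ := fun h => h𝔓 (Ideal.eq_bot_of_liesOver_bot (𝓞 E) 𝔓 (h := h ▸ hlo1))
  have h𝔮0 : 𝔮 ≠ ⊥ := fun h => h𝔔0 (Ideal.eq_bot_of_liesOver_bot (𝓞 K) 𝔔 (h := h ▸ hlo2))
  have h𝔔max : 𝔔.IsMaximal := Ideal.IsPrime.isMaximal inferInstance h𝔔0
  have h𝔮max : 𝔮.IsMaximal := Ideal.IsPrime.isMaximal inferInstance h𝔮0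
  have hfin𝔔 : Finite (𝓞 E ⧸ 𝔔) := 𝔔.finiteQuotientOfFreeOfNeBot h𝔔0
  have hfin𝔮 : Finite (𝓞 K ⧸ 𝔮) := 𝔮.finiteQuotientOfFreeOfNeBot h𝔮0
  rw [Ideal.relNorm_eq_pow_of_isMaximal 𝔔 𝔮, Ideal.inertiaDeg_eq_of_isMaximal 𝔮 𝔔]
  let _ : Field (𝓞 K ⧸ 𝔮) := Ideal.Quotient.field 𝔮
  let _ : Field (𝓞 E ⧸ 𝔔) := Ideal.Quotient.field 𝔔
  set q := Nat.card (𝓞 K ⧸ 𝔮) with hq
  have hq1 : 1 < q := Finite.one_lt_card
  have hpow : ∀ t : 𝓞 E ⧸ 𝔔, t ^ q = t := by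
    intro t
    obtain ⟨x, rfl⟩ := Ideal.Quotient.mk_surjective t
    rw [← map_pow, Ideal.Quotient.eq, h𝔔, Ideal.under_def, Ideal.mem_comap, map_sub, map_pow]
    have h1 := (cft_isFrobAt_iff' φ 𝔓).mp hφ (algebraMap (𝓞 E) (𝓞 Ω) x)
    have h2 : φ • algebraMap (𝓞 E) (𝓞 Ω) x = algebraMap (𝓞 E) (𝓞 Ω) x := by
      apply RingOfIntegers.ext
      exact hfix (x : E)
    rw [h2] at h1
    have := neg_mem h1
    rwa [neg_sub] at this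
  have hcard := cfh_card_le_of_pow_eq hq1 hpow
  have hpowcard : Nat.card (𝓞 E ⧸ 𝔔) = q ^ Module.finrank (𝓞 K ⧸ 𝔮) (𝓞 E ⧸ 𝔔) :=
    Module.natCard_eq_pow_finrank (K := 𝓞 K ⧸ 𝔮) (V := 𝓞 E ⧸ 𝔔)
  have hf1 : Module.finrank (𝓞 K ⧸ 𝔮) (𝓞 E ⧸ 𝔔) = 1 := by
    have hpos : 0 < Module.finrank (𝓞 K ⧸ 𝔮) (𝓞 E ⧸ 𝔔) := Module.finrank_pos
    by_contra hne
    have h2 : 2 ≤ Module.finrank (𝓞 K ⧸ 𝔮) (𝓞 E ⧸ 𝔔) := by omega
    have : q ^ 2 ≤ q := by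
      calc q ^ 2 ≤ q ^ Module.finrank (𝓞 K ⧸ 𝔮) (𝓞 E ⧸ 𝔔) := Nat.pow_le_pow_right (by omega) h2
        _ = Nat.card (𝓞 E ⧸ 𝔔) := hpowcard.symm
        _ ≤ q := hcard
    nlinarith
  rw [hf1, pow_one]

end degone
end Fermat.Agent.Lib.CFT
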