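/-
S14 / WP-B: the `p`-th power residue character and the vanishing of Jacobi sums modulo `𝔮`.

Abstract setting: `R` an integral domain, `F` a finite field, `red : R →+* F` a ring
homomorphism ("reduction mod `𝔮`"), `ζ : R` a primitive `p`-th root of unity with `red ζ ≠ 1`,
`#F = p * N + 1`.
-/
import Mathlib

namespace Fermat.Agent.Lib.CFT

open Finset

variable {R F : Type*} [CommRing R] [Field F] [Fintype F]

/-- The `p`-th power residue character: `χ x ≡ x ^ N` modulo the kernel of `red`. -/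
theorem cfc_exists_char {p N : ℕ} (hp : p.Prime) (red : R →+* F) {ζ : R}
    (hζ : IsPrimitiveRoot ζ p) (hz : red ζ ≠ 1) (hcard : Fintype.card F = p * N + 1) :
    ∃ χ : MulChar F R, χ ^ p = 1 ∧ χ ≠ 1 ∧ (∀ x : F, red (χ x) = x ^ N) ∧
      (∀ x : Fˣ, ∃ i : ℕ, χ x = ζ ^ i) := by
  classical
  have : Fact p.Prime := ⟨hp⟩
  have : NeZero p := ⟨hp.ne_zero⟩
  have hp0 : 0 < p := hp.pos
  have hN : 0 < N := by
    rcases Nat.eq_zero_or_pos N with h | h
    · subst h
      have := Fintype.one_lt_card (α := F)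
      omega
    · exact h
  -- `z` is a primitive `p`-th root of unity in `F`
  set z : F := red ζ with hzdef
  have hzp : z ^ p = 1 := by rw [hzdef, ← map_pow, hζ.pow_eq_one, map_one]
  have hzprim : IsPrimitiveRoot z p := by
    have h2 : orderOf z = p := orderOf_eq_prime hzp hz
    rw [← h2]; exact IsPrimitiveRoot.orderOf z
  -- the exponent
  have hex : ∀ x : Fˣ, ∃ i : ℕ, i < p ∧ z ^ i = (x : F) ^ N := by
    intro x
    have hx : ((x : F) ^ N) ^ p = 1 := by
      rw [← pow_mul, mul_comm, ← Nat.add_sub_cancel (n := p * N) (m := 1), ← hcard]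
      exact FiniteField.pow_card_sub_one_eq_one _ x.ne_zero
    exact hzprim.eq_pow_of_pow_eq_one hx
  choose i hi hzi using hex
  have hζu : IsUnit ζ := hζ.isUnit hp0.ne'
  set ζu : Rˣ := hζu.unit with hζudef
  have hζuval : (ζu : R) = ζ := hζu.unit_spec
  have hζup : ζu ^ p = 1 := by
    apply Units.ext
    rw [Units.val_pow_eq_pow_val, hζuval, hζ.pow_eq_one, Units.val_one]
  -- congruence of exponents
  have key : ∀ a b : ℕ, z ^ a = z ^ b → ζu ^ a = ζu ^ b := by
    intro a b hab
    have hzfin : IsOfFinOrder z := isOfFinOrder_iff_pow_eq_one.mpr ⟨p, hp0, hzp⟩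
    have hζfin : IsOfFinOrder ζ := isOfFinOrder_iff_pow_eq_one.mpr ⟨p, hp0, hζ.pow_eq_one⟩
    have hmod : a ≡ b [MOD p] := by
      have := hzfin.pow_eq_pow_iff_modEq.mp hab
      rwa [← hzprim.eq_orderOf] at this
    apply Units.ext
    rw [Units.val_pow_eq_pow_val, Units.val_pow_eq_pow_val, hζuval]
    apply hζfin.pow_eq_pow_iff_modEq.mpr
    rwa [← hζ.eq_orderOf]
  let f : Fˣ →* Rˣ :=
    { toFun := fun x => ζu ^ i x
      map_one' := by
        have : z ^ i 1 = z ^ 0 := by rw [hzi 1]; simp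
        rw [key _ _ this, pow_zero]
      map_mul' := by
        intro x y
        have : z ^ i (x * y) = z ^ (i x + i y) := by
          rw [hzi (x * y), pow_add, hzi x, hzi y, Units.val_mul, mul_pow]
        rw [key _ _ this, pow_add] }
  have hf : ∀ x : Fˣ, ((f x : Rˣ) : R) = ζ ^ i x := by
    intro x
    show ((ζu ^ i x : Rˣ) : R) = ζ ^ i x
    rw [Units.val_pow_eq_pow_val, hζuval]
  refine ⟨MulChar.ofUnitHom f, ?_, ?_, ?_, ?_⟩
  · -- order divides p
    ext x
    rw [MulChar.pow_apply_coe, MulChar.ofUnitHom_coe, MulChar.one_apply_coe, hf, ← pow_mul,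
      mul_comm, pow_mul, hζ.pow_eq_one, one_pow]
  · -- nontrivial
    intro h1
    obtain ⟨g, hg⟩ := IsCyclic.exists_generator (α := Fˣ)
    have hordg : orderOf g = p * N := by
      rw [orderOf_eq_card_of_forall_mem_zpowers hg, Nat.card_eq_fintype_card, Fintype.card_units,
        hcard, Nat.add_sub_cancel]
    have hgN : (g : F) ^ N ≠ 1 := by
      intro h
      have h' : g ^ N = 1 := by
        apply Units.ext; rw [Units.val_pow_eq_pow_val, h, Units.val_one]
      have := orderOf_dvd_of_pow_eq_one h'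
      rw [hordg] at this
      have hle := Nat.le_of_dvd hN this
      have : 2 ≤ p := hp.two_le
      nlinarith
    have h2 : (MulChar.ofUnitHom f) g = 1 := by rw [h1, MulChar.one_apply_coe]
    rw [MulChar.ofUnitHom_coe, hf] at h2
    have h3 : i g = 0 := by
      have := (hζ.pow_eq_one_iff_dvd (i g)).mp h2
      exact Nat.eq_zero_of_dvd_of_lt this (hi g)
    have := hzi g
    rw [h3, pow_zero] at this
    exact hgN this.symm
  · -- congruence
    intro x
    by_cases hx : x = 0
    · subst hx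
      rw [MulChar.map_zero, map_zero, zero_pow hN.ne']
    · have hxu : IsUnit x := isUnit_iff_ne_zero.mpr hx
      have : x = (hxu.unit : F) := hxu.unit_spec.symm
      rw [this, MulChar.ofUnitHom_coe, hf, map_pow, ← hzdef, hzi]
  · intro x
    exact ⟨i x, by rw [MulChar.ofUnitHom_coe, hf]⟩

/-- Vanishing of the Jacobi sum `J(χ^a, χ^b)` modulo `𝔮` for `a + b < p`. -/
theorem cfc_jacobi_red_eq_zero {p N : ℕ} (red : R →+* F)
    (hcard : Fintype.card F = p * N + 1) (hN : 0 < N) {χ : MulChar F R}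
    (hχ : ∀ x : F, red (χ x) = x ^ N) {a b : ℕ} (ha : 0 < a) (hb : 0 < b) (hab : a + b < p) :
    red (jacobiSum (χ ^ a) (χ ^ b)) = 0 := by
  classical
  rw [jacobiSum, map_sum]
  have h1 : ∀ x : F, red ((χ ^ a) x * (χ ^ b) (1 - x)) =
      ∑ m ∈ range (b * N + 1), ((-1) ^ m * (b * N).choose m : F) * x ^ (a * N + m) := by
    intro x
    rw [map_mul, MulChar.pow_apply' χ ha.ne', MulChar.pow_apply' χ hb.ne', map_pow, map_pow, hχ,
      hχ, ← pow_mul, ← pow_mul, mul_comm N a, mul_comm N b]
    have : (1 - x) ^ (b * N) = ∑ m ∈ range (b * N + 1), (-x) ^ m * ((b * N).choose m : F) := by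
      rw [show (1 - x) = -x + 1 by ring, add_pow]
      simp
    rw [this, mul_sum]
    refine sum_congr rfl fun m _ => ?_
    rw [neg_pow, pow_add]; ring
  simp_rw [h1]
  rw [sum_comm]
  refine sum_eq_zero fun m hm => ?_
  rw [← mul_sum]
  have hlt : a * N + m < Fintype.card F - 1 := by
    rw [hcard, Nat.add_sub_cancel]
    have hm' : m ≤ b * N := Nat.lt_succ_iff.mp (mem_range.mp hm)
    calc a * N + m ≤ a * N + b * N := by omega
      _ = (a + b) * N := by ring
      _ < p * N := Nat.mul_lt_mul_of_pos_right hab hN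
  rw [FiniteField.sum_pow_lt_card_sub_one F _ hlt, mul_zero]

omit [Fintype F] in
/-- Twisting by an endomorphism `s` of `R` with `s ζ = ζ ^ t` raises the character to the
`t`-th power. -/
theorem cfc_ringHomComp_eq_pow {ζ : R} {χ : MulChar F R}
    (hχ : ∀ x : Fˣ, ∃ i : ℕ, χ x = ζ ^ i) (s : R →+* R) {t : ℕ} (hs : s ζ = ζ ^ t) :
    χ.ringHomComp s = χ ^ t := by
  ext x
  obtain ⟨i, hi⟩ := hχ x
  rw [MulChar.ringHomComp_apply, MulChar.pow_apply_coe, hi, map_pow, hs, ← pow_mul, ← pow_mul,
    mul_comm]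

end Fermat.Agent.Lib.CFT
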