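/-
S14 / WP-B: Stickelberger's factorisation of the Jacobi sum `J(χ, χ)` for a degree-one prime `𝔮`
of `ℚ(ζ_p)`:  `∏_{0 < t, 2t < p} σ_t⁻¹ 𝔮 = (J(χ, χ))`.
-/
import Mathlib
import Fermat.Prelude.Def_Stickelberger_Basic
import Fermat.Agent.Lib.CFT.JacobiChar

namespace Fermat.Agent.Lib.CFT

open Finset NumberField

section general

variable {S : Type*} [CommRing S]

/-- In a ring quotient of prime cardinality every class is the class of a natural number. -/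
theorem cfc_exists_nat_sub_mem {ℓ : ℕ} (hℓ : ℓ.Prime) (I : Ideal S)
    (hI : Nat.card (S ⧸ I) = ℓ) (x : S) : ∃ n : ℕ, x - (n : S) ∈ I := by
  have : Fact ℓ.Prime := ⟨hℓ⟩
  have h1 : (1 : S ⧸ I) ≠ 0 := by
    intro h
    have hsub : Subsingleton (S ⧸ I) := subsingleton_of_zero_eq_one h.symm
    have hfin : Finite (S ⧸ I) := Nat.finite_of_card_ne_zero (hI ▸ hℓ.ne_zero)
    have := Nat.card_eq_one_iff_unique.mpr ⟨hsub, ⟨0⟩⟩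
    rw [hI] at this
    exact hℓ.one_lt.ne' this
  obtain ⟨n, hn⟩ := mem_multiples_of_prime_card (G := S ⧸ I) hI h1
    (g' := Ideal.Quotient.mk I x)
  refine ⟨n, ?_⟩
  rw [← Ideal.Quotient.eq_zero_iff_mem, map_sub, map_natCast, sub_eq_zero]
  simpa using hn.symm

/-- Comap along a ring automorphism preserves the cardinality of the quotient. -/
theorem cfc_card_quot_comap (s : S ≃+* S) (I : Ideal S) :
    Nat.card (S ⧸ Ideal.comap (s : S →+* S) I) = Nat.card (S ⧸ I) := by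
  have h : I = Ideal.map (s : S →+* S) (Ideal.comap (s : S →+* S) I) :=
    (Ideal.map_comap_of_surjective _ s.surjective I).symm
  exact Nat.card_congr (Ideal.quotientEquiv _ _ s h).toEquiv

end general


section cyclotomic

variable {p : ℕ} [hp : Fact p.Prime] {K : Type*} [Field K] [NumberField K]
  [IsCyclotomicExtension {p} ℚ K]

/-- `ζ - 1` divides `p` in `𝓞 K`. -/
theorem cfc_zeta_sub_one_dvd (ζ : 𝓞 K) (hζ : IsPrimitiveRoot ζ p) : (ζ - 1) ∣ (p : 𝓞 K) := by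
  have hζK : IsPrimitiveRoot (ζ : K) p :=
    hζ.map_of_injective (f := algebraMap (𝓞 K) K) RingOfIntegers.coe_injective
  have h := hζK.toInteger_sub_one_dvd_prime'
  have e : hζK.toInteger = ζ := by ext; rfl
  rwa [e] at h

/-- A prime ideal containing a rational prime `ℓ ≠ p` does not contain `ζ ^ a - ζ ^ b` unless
`a ≡ b mod p`. -/
theorem cfc_pow_sub_pow_not_mem (ζ : 𝓞 K) (hζ : IsPrimitiveRoot ζ p) (𝔮 : Ideal (𝓞 K))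
    [𝔮.IsPrime] {ℓ : ℕ} (hℓ : ℓ.Prime) (hℓp : ℓ ≠ p) (hℓ𝔮 : (ℓ : 𝓞 K) ∈ 𝔮) :
    ζ - 1 ∉ 𝔮 := by
  intro h
  have hp𝔮 : (p : 𝓞 K) ∈ 𝔮 := by
    obtain ⟨c, hc⟩ := cfc_zeta_sub_one_dvd ζ hζ
    rw [hc]; exact Ideal.mul_mem_right _ _ h
  have hcop : Nat.Coprime ℓ p := (Nat.coprime_primes hℓ hp.1).mpr hℓp
  have h1 : (1 : 𝓞 K) ∈ 𝔮 := by
    have hb := Nat.Coprime.isCoprime hcop
    obtain ⟨a, b, hab⟩ := hb
    have : (1 : 𝓞 K) = (a : 𝓞 K) * (ℓ : 𝓞 K) + (b : 𝓞 K) * (p : 𝓞 K) := by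
      have := congrArg (fun z : ℤ => (z : 𝓞 K)) hab
      simp only [Int.cast_add, Int.cast_mul, Int.cast_natCast, Int.cast_one] at this
      exact this.symm
    rw [this]
    exact Ideal.add_mem _ (Ideal.mul_mem_left _ _ hℓ𝔮) (Ideal.mul_mem_left _ _ hp𝔮)
  exact (Ideal.IsPrime.ne_top inferInstance) ((Ideal.eq_top_iff_one 𝔮).mpr h1)


/-- **Core of Stickelberger for Jacobi sums**: for a degree-one prime `𝔮 ∤ p` there are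
`J, J' ∈ 𝓞 K` (`J = J(χ,χ)`, `J' = J(χ⁻¹,χ⁻¹)`) with `J J' = ℓ`, `σ_t J ∈ 𝔮` for `0 < 2t < p`
and `σ_t J' ∈ 𝔮` for `p < 2t < 2p`. -/
theorem cfc_jacobi_core (hp2 : p ≠ 2) (ζ : 𝓞 K) (hζ : IsPrimitiveRoot ζ p)
    (s : ℕ → (𝓞 K ≃+* 𝓞 K)) (hs : ∀ t, 0 < t → t < p → s t ζ = ζ ^ t)
    (𝔮 : Ideal (𝓞 K)) [𝔮.IsPrime] (ℓ : ℕ) (hℓ : ℓ.Prime) (hℓp : ℓ ≠ p)
    (hcard : Nat.card (𝓞 K ⧸ 𝔮) = ℓ) :
    (ℓ : 𝓞 K) ∈ 𝔮 ∧ ∃ J J' : 𝓞 K, J * J' = (ℓ : 𝓞 K) ∧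
      (∀ t, 0 < t → 2 * t < p → s t J ∈ 𝔮) ∧ (∀ t, t < p → p < 2 * t → s t J' ∈ 𝔮) := by
  classical
  have hfin : Finite (𝓞 K ⧸ 𝔮) := Nat.finite_of_card_ne_zero (hcard ▸ hℓ.ne_zero)
  -- `ℓ ∈ 𝔮`
  have hℓ𝔮 : (ℓ : 𝓞 K) ∈ 𝔮 := by
    rw [← Ideal.Quotient.eq_zero_iff_mem, map_natCast]
    have := card_nsmul_eq_zero' (G := 𝓞 K ⧸ 𝔮) (x := 1)
    rw [hcard] at this
    simpa using this
  refine ⟨hℓ𝔮, ?_⟩
  have hne : 𝔮 ≠ ⊥ := by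
    rintro rfl
    have h0 : (ℓ : 𝓞 K) = 0 := by simpa using hℓ𝔮
    exact hℓ.ne_zero (by exact_mod_cast h0)
  have hmax : 𝔮.IsMaximal := Ideal.IsPrime.isMaximal inferInstance hne
  letI : Field (𝓞 K ⧸ 𝔮) := Ideal.Quotient.field 𝔮
  letI : Fintype (𝓞 K ⧸ 𝔮) := Fintype.ofFinite _
  have hcardF : Fintype.card (𝓞 K ⧸ 𝔮) = ℓ := by rw [← Nat.card_eq_fintype_card, hcard]
  set red : 𝓞 K →+* (𝓞 K ⧸ 𝔮) := Ideal.Quotient.mk 𝔮 with hred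
  have hz : red ζ ≠ 1 := by
    intro h
    refine cfc_pow_sub_pow_not_mem ζ hζ 𝔮 hℓ hℓp hℓ𝔮 ?_
    rw [← Ideal.Quotient.eq_zero_iff_mem, map_sub, map_one]
    exact sub_eq_zero.mpr h
  -- `p ∣ ℓ - 1`
  have hzp : (red ζ) ^ p = 1 := by rw [← map_pow, hζ.pow_eq_one, map_one]
  have hz0 : red ζ ≠ 0 := by
    intro h; rw [h, zero_pow hp.1.ne_zero] at hzp; exact zero_ne_one hzp
  have hord : orderOf (red ζ) = p := orderOf_eq_prime hzp hz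
  have hdvd : p ∣ ℓ - 1 := by
    rw [← hord, ← hcardF]
    exact orderOf_dvd_of_pow_eq_one (FiniteField.pow_card_sub_one_eq_one _ hz0)
  obtain ⟨N, hN⟩ := hdvd
  have hℓ2 := hℓ.two_le
  have hcard' : Fintype.card (𝓞 K ⧸ 𝔮) = p * N + 1 := by rw [hcardF]; omega
  have hNpos : 0 < N := by
    rcases Nat.eq_zero_or_pos N with h | h
    · subst h; omega
    · exact h
  obtain ⟨χ, hχp, hχ1, hχred, hχpow⟩ := cfc_exists_char hp.1 red hζ hz hcard'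
  have hp3 : 3 ≤ p := by
    have := hp.1.two_le
    omega
  -- the inverse character
  have hinv : χ⁻¹ = χ ^ (p - 1) := by
    apply inv_eq_of_mul_eq_one_right
    rw [← pow_succ', Nat.sub_add_cancel hp.1.pos, hχp]
  refine ⟨jacobiSum χ χ, jacobiSum χ⁻¹ χ⁻¹, ?_, ?_, ?_⟩
  · -- `J J' = ℓ`
    have hinj : Function.Injective (algebraMap (𝓞 K) K) := RingOfIntegers.coe_injective
    apply hinj
    have hchar : ringChar K ≠ ringChar (𝓞 K ⧸ 𝔮) := by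
      rw [ringChar.eq_zero]
      exact (CharP.ringChar_ne_zero_of_finite _).symm
    have hχK : χ.ringHomComp (algebraMap (𝓞 K) K) ≠ 1 :=
      (MulChar.ringHomComp_ne_one_iff hinj).mpr hχ1
    have hχ2 : χ * χ ≠ 1 := by
      intro h2
      apply hχ1
      have h3 : orderOf χ ∣ 2 := orderOf_dvd_of_pow_eq_one (by rw [pow_two]; exact h2)
      have h4 : orderOf χ ∣ p := orderOf_dvd_of_pow_eq_one hχp
      have h5 : orderOf χ ∣ Nat.gcd 2 p := Nat.dvd_gcd h3 h4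
      have h6 : Nat.gcd 2 p = 1 :=
        (Nat.coprime_primes Nat.prime_two hp.1).mpr (Ne.symm hp2)
      rw [h6, Nat.dvd_one] at h5
      exact orderOf_eq_one_iff.mp h5
    have hχK2 : χ.ringHomComp (algebraMap (𝓞 K) K) * χ.ringHomComp (algebraMap (𝓞 K) K) ≠ 1 := by
      rw [← MulChar.ringHomComp_mul]
      exact (MulChar.ringHomComp_ne_one_iff hinj).mpr hχ2
    have := jacobiSum_mul_jacobiSum_inv hchar hχK hχK hχK2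
    rw [map_mul, ← jacobiSum_ringHomComp, ← jacobiSum_ringHomComp, ← MulChar.ringHomComp_inv,
      this, hcardF, map_natCast]
  · -- `σ_t J ∈ 𝔮`
    intro t ht0 ht
    have htp : t < p := by omega
    have h1 := cfc_ringHomComp_eq_pow hχpow (s t : 𝓞 K →+* 𝓞 K) (hs t ht0 htp)
    have h2 : (s t) (jacobiSum χ χ) = jacobiSum (χ ^ t) (χ ^ t) := by
      rw [← h1]
      exact (jacobiSum_ringHomComp χ χ (s t : 𝓞 K →+* 𝓞 K)).symm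
    rw [h2, ← Ideal.Quotient.eq_zero_iff_mem]
    exact cfc_jacobi_red_eq_zero red hcard' hNpos hχred ht0 ht0 (by omega)
  · -- `σ_t J' ∈ 𝔮`
    intro t htp ht
    have ht0 : 0 < t := by omega
    have hpow : ∀ x : (𝓞 K ⧸ 𝔮)ˣ, ∃ i : ℕ, (χ ^ (p - 1)) x = ζ ^ i := by
      intro x
      obtain ⟨i, hi⟩ := hχpow x
      exact ⟨i * (p - 1), by rw [MulChar.pow_apply_coe, hi, ← pow_mul]⟩
    have h1 := cfc_ringHomComp_eq_pow hpow (s t : 𝓞 K →+* 𝓞 K) (hs t ht0 htp)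
    have h3 : (χ ^ (p - 1)) ^ t = χ ^ (p - t) := by
      rw [← pow_mul]
      have e : (p - 1) * t = p * (t - 1) + (p - t) := by
        obtain ⟨u, rfl⟩ : ∃ u, t = u + 1 := ⟨t - 1, by omega⟩
        obtain ⟨w, rfl⟩ : ∃ w, p = u + 1 + w + 1 := ⟨p - (u + 1) - 1, by omega⟩
        simp only [Nat.add_sub_cancel]
        have e2 : u + 1 + w + 1 - (u + 1) = w + 1 := by omega
        rw [e2]; ring
      rw [e, pow_add, pow_mul, hχp, one_pow, one_mul]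
    have h2 : (s t) (jacobiSum χ⁻¹ χ⁻¹) = jacobiSum (χ ^ (p - t)) (χ ^ (p - t)) := by
      rw [hinv, ← h3, ← h1]
      exact (jacobiSum_ringHomComp _ _ (s t : 𝓞 K →+* 𝓞 K)).symm
    rw [h2, ← Ideal.Quotient.eq_zero_iff_mem]
    exact cfc_jacobi_red_eq_zero red hcard' hNpos hχred (by omega) (by omega) (by omega)

/-- The reduction of `ζ` modulo a prime not above `p` has order `p`. -/
theorem cfc_orderOf_mk (ζ : 𝓞 K) (hζ : IsPrimitiveRoot ζ p) (𝔮 : Ideal (𝓞 K))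
    [𝔮.IsPrime] {ℓ : ℕ} (hℓ : ℓ.Prime) (hℓp : ℓ ≠ p) (hℓ𝔮 : (ℓ : 𝓞 K) ∈ 𝔮) :
    orderOf (Ideal.Quotient.mk 𝔮 ζ) = p := by
  apply orderOf_eq_prime
  · rw [← map_pow, hζ.pow_eq_one, map_one]
  · intro h
    refine cfc_pow_sub_pow_not_mem ζ hζ 𝔮 hℓ hℓp hℓ𝔮 ?_
    rw [← Ideal.Quotient.eq_zero_iff_mem, map_sub, map_one]
    exact sub_eq_zero.mpr h

omit hp [IsCyclotomicExtension {p} ℚ K] in
/-- Basic facts on the conjugates `σ⁻¹ 𝔮` of a degree-one prime. -/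
theorem cfc_comap_facts (σ : 𝓞 K ≃+* 𝓞 K) (𝔮 : Ideal (𝓞 K)) [𝔮.IsPrime] {ℓ : ℕ}
    (hℓ : ℓ.Prime) (hcard : Nat.card (𝓞 K ⧸ 𝔮) = ℓ) (hℓ𝔮 : (ℓ : 𝓞 K) ∈ 𝔮) :
    (ℓ : 𝓞 K) ∈ Ideal.comap σ 𝔮 ∧ (Ideal.comap σ 𝔮).IsMaximal ∧
      Ideal.absNorm (Ideal.comap σ 𝔮) = ℓ := by
  have hmem : (ℓ : 𝓞 K) ∈ Ideal.comap σ 𝔮 := by
    rw [Ideal.mem_comap, map_natCast]; exact hℓ𝔮
  refine ⟨hmem, ?_, ?_⟩
  · have hprime : (Ideal.comap σ 𝔮).IsPrime := Ideal.comap_isPrime σ 𝔮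
    refine Ideal.IsPrime.isMaximal hprime ?_
    intro h
    rw [h] at hmem
    have h0 : (ℓ : 𝓞 K) = 0 := by simpa using hmem
    exact hℓ.ne_zero (by exact_mod_cast h0)
  · rw [Ideal.absNorm_apply, Submodule.cardQuot_apply]
    have := cfc_card_quot_comap σ 𝔮
    rw [hcard] at this
    exact this

/-- The conjugates `σ_t⁻¹ 𝔮`, `0 < t < p`, are pairwise distinct. -/
theorem cfc_comap_inj (ζ : 𝓞 K) (hζ : IsPrimitiveRoot ζ p)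
    (s : ℕ → (𝓞 K ≃+* 𝓞 K)) (hs : ∀ t, 0 < t → t < p → s t ζ = ζ ^ t)
    (𝔮 : Ideal (𝓞 K)) [𝔮.IsPrime] {ℓ : ℕ} (hℓ : ℓ.Prime) (hℓp : ℓ ≠ p)
    (hcard : Nat.card (𝓞 K ⧸ 𝔮) = ℓ) (hℓ𝔮 : (ℓ : 𝓞 K) ∈ 𝔮) {t t' : ℕ}
    (ht0 : 0 < t) (htp : t < p) (ht0' : 0 < t') (htp' : t' < p)
    (h : Ideal.comap (s t) 𝔮 = Ideal.comap (s t') 𝔮) : t = t' := by
  have hc : Nat.card (𝓞 K ⧸ Ideal.comap (s t) 𝔮) = ℓ := by
    have := cfc_card_quot_comap (s t) 𝔮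
    rw [hcard] at this
    exact this
  obtain ⟨n, hn⟩ := cfc_exists_nat_sub_mem hℓ (Ideal.comap (s t) 𝔮) hc ζ
  have h1 : ζ ^ t - (n : 𝓞 K) ∈ 𝔮 := by
    have := hn
    rw [Ideal.mem_comap, map_sub, map_natCast, hs t ht0 htp] at this
    exact this
  have h2 : ζ ^ t' - (n : 𝓞 K) ∈ 𝔮 := by
    have := hn
    rw [h, Ideal.mem_comap, map_sub, map_natCast, hs t' ht0' htp'] at this
    exact this
  have h3 : ζ ^ t - ζ ^ t' ∈ 𝔮 := by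
    have := Ideal.sub_mem _ h1 h2
    simpa using this
  have h4 : (Ideal.Quotient.mk 𝔮 ζ) ^ t = (Ideal.Quotient.mk 𝔮 ζ) ^ t' := by
    rw [← map_pow, ← map_pow, Ideal.Quotient.eq]
    exact h3
  have hfin : IsOfFinOrder (Ideal.Quotient.mk 𝔮 ζ) :=
    isOfFinOrder_iff_pow_eq_one.mpr
      ⟨p, hp.1.pos, by rw [← map_pow, hζ.pow_eq_one, map_one]⟩
  have h5 := hfin.pow_eq_pow_iff_modEq.mp h4
  rw [cfc_orderOf_mk ζ hζ 𝔮 hℓ hℓp hℓ𝔮] at h5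
  exact Nat.ModEq.eq_of_lt_of_lt h5 htp htp'

/-- A product of pairwise distinct conjugates `σ_t⁻¹ 𝔮` divides every ideal contained in all
of them. -/
theorem cfc_prod_dvd (ζ : 𝓞 K) (hζ : IsPrimitiveRoot ζ p)
    (s : ℕ → (𝓞 K ≃+* 𝓞 K)) (hs : ∀ t, 0 < t → t < p → s t ζ = ζ ^ t)
    (𝔮 : Ideal (𝓞 K)) [𝔮.IsPrime] {ℓ : ℕ} (hℓ : ℓ.Prime) (hℓp : ℓ ≠ p)
    (hcard : Nat.card (𝓞 K ⧸ 𝔮) = ℓ) (hℓ𝔮 : (ℓ : 𝓞 K) ∈ 𝔮) (T : Finset ℕ)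
    (hT : ∀ t ∈ T, 0 < t ∧ t < p) (I : Ideal (𝓞 K))
    (hI : ∀ t ∈ T, I ≤ Ideal.comap (s t) 𝔮) :
    ∏ t ∈ T, Ideal.comap (s t) 𝔮 ∣ I := by
  apply Finset.prod_dvd_of_coprime
  · intro t ht t' ht' hne
    show IsCoprime (Ideal.comap (s t) 𝔮) (Ideal.comap (s t') 𝔮)
    rw [Ideal.isCoprime_iff_sup_eq]
    apply Ideal.IsMaximal.coprime_of_ne (cfc_comap_facts (s t) 𝔮 hℓ hcard hℓ𝔮).2.1
      (cfc_comap_facts (s t') 𝔮 hℓ hcard hℓ𝔮).2.1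
    intro h
    exact hne (cfc_comap_inj ζ hζ s hs 𝔮 hℓ hℓp hcard hℓ𝔮 (hT t ht).1 (hT t ht).2
      (hT t' ht').1 (hT t' ht').2 h)
  · intro t ht
    exact Ideal.dvd_iff_le.mpr (hI t ht)

/-- `∏_{0 < t < p} σ_t⁻¹ 𝔮 = (ℓ)` for a degree-one prime `𝔮 ∣ ℓ ≠ p`. -/
theorem cfc_prod_conj_eq_span_ell (ζ : 𝓞 K) (hζ : IsPrimitiveRoot ζ p)
    (s : ℕ → (𝓞 K ≃+* 𝓞 K)) (hs : ∀ t, 0 < t → t < p → s t ζ = ζ ^ t)
    (𝔮 : Ideal (𝓞 K)) [𝔮.IsPrime] {ℓ : ℕ} (hℓ : ℓ.Prime) (hℓp : ℓ ≠ p)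
    (hcard : Nat.card (𝓞 K ⧸ 𝔮) = ℓ) (hℓ𝔮 : (ℓ : 𝓞 K) ∈ 𝔮) :
    ∏ t ∈ Finset.Ioo 0 p, Ideal.comap (s t) 𝔮 = Ideal.span {(ℓ : 𝓞 K)} := by
  have hT : ∀ t ∈ Finset.Ioo 0 p, 0 < t ∧ t < p := fun t ht => Finset.mem_Ioo.mp ht
  have hdvd := cfc_prod_dvd ζ hζ s hs 𝔮 hℓ hℓp hcard hℓ𝔮 (Finset.Ioo 0 p) hT
    (Ideal.span {(ℓ : 𝓞 K)}) (fun t _ => by
      rw [Ideal.span_singleton_le_iff_mem]
      exact (cfc_comap_facts (s t) 𝔮 hℓ hcard hℓ𝔮).1)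
  obtain ⟨C, hC⟩ := hdvd
  have hnorm1 : Ideal.absNorm (∏ t ∈ Finset.Ioo 0 p, Ideal.comap (s t) 𝔮) = ℓ ^ (p - 1) := by
    rw [map_prod, Finset.prod_congr rfl
      (fun t _ => (cfc_comap_facts (s t) 𝔮 hℓ hcard hℓ𝔮).2.2), Finset.prod_const,
      Nat.card_Ioo, Nat.sub_zero]
  have hnorm2 : Ideal.absNorm (Ideal.span {(ℓ : 𝓞 K)}) = ℓ ^ (p - 1) := by
    have : NeZero p := ⟨hp.1.ne_zero⟩
    rw [Ideal.absNorm_span_natCast, RingOfIntegers.rank, IsCyclotomicExtension.Rat.finrank p K,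
      Nat.totient_prime hp.1]
  have hC1 : Ideal.absNorm C = 1 := by
    have := congrArg Ideal.absNorm hC
    rw [map_mul, hnorm1, hnorm2] at this
    have hpos : 0 < ℓ ^ (p - 1) := pow_pos hℓ.pos _
    exact (Nat.eq_of_mul_eq_mul_left hpos (by rw [← this, mul_one])).symm
  rw [Ideal.absNorm_eq_one_iff] at hC1
  rw [hC, hC1, Ideal.mul_top]

/-- **Stickelberger's theorem for degree-one primes of `ℚ(ζ_p)`** (Jacobi-sum form):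
`∏_{0 < t, 2 t < p} σ_t⁻¹ 𝔮` is principal, generated by the Jacobi sum `J(χ, χ)`. -/
theorem cfc_stickelberger_principal (hp2 : p ≠ 2) (ζ : 𝓞 K) (hζ : IsPrimitiveRoot ζ p)
    (s : ℕ → (𝓞 K ≃+* 𝓞 K)) (hs : ∀ t, 0 < t → t < p → s t ζ = ζ ^ t)
    (𝔮 : Ideal (𝓞 K)) [𝔮.IsPrime] (ℓ : ℕ) (hℓ : ℓ.Prime) (hℓp : ℓ ≠ p)
    (hcard : Nat.card (𝓞 K ⧸ 𝔮) = ℓ) :
    ∃ J : 𝓞 K, ∏ t ∈ Stickelberger.exponentSet p, Ideal.comap (s t) 𝔮 = Ideal.span {J} := by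
  classical
  obtain ⟨hℓ𝔮, J, J', hJJ', hJ, hJ'⟩ := cfc_jacobi_core hp2 ζ hζ s hs 𝔮 ℓ hℓ hℓp hcard
  refine ⟨J, ?_⟩
  set S₁ : Finset ℕ := Stickelberger.exponentSet p with hS₁
  set S₂ : Finset ℕ := (Finset.Ioo 0 p).filter (fun t => p < 2 * t) with hS₂
  have hS₁mem : ∀ t ∈ S₁, 0 < t ∧ 2 * t < p := fun t ht => Stickelberger.mem_exponentSet.mp ht
  have hS₂mem : ∀ t ∈ S₂, (0 < t ∧ t < p) ∧ p < 2 * t := fun t ht => by
    rw [hS₂, Finset.mem_filter, Finset.mem_Ioo] at ht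
    exact ht
  have hdisj : Disjoint S₁ S₂ := by
    rw [Finset.disjoint_left]
    intro t h1 h2
    have := hS₁mem t h1
    have := hS₂mem t h2
    omega
  have hunion : S₁ ∪ S₂ = Finset.Ioo 0 p := by
    ext t
    rw [Finset.mem_union, hS₁, Stickelberger.mem_exponentSet, hS₂, Finset.mem_filter,
      Finset.mem_Ioo]
    constructor
    · rintro (h | h)
      · exact ⟨h.1, by omega⟩
      · exact h.1
    · rintro ⟨h0, hlt⟩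
      have hodd : 2 * t ≠ p := by
        intro h
        have h2 : 2 ∣ p := ⟨t, h.symm⟩
        rcases (Nat.dvd_prime hp.1).mp h2 with h3 | h3
        · omega
        · exact hp2 h3.symm
      rcases lt_or_gt_of_ne hodd with h | h
      · exact Or.inl ⟨h0, h⟩
      · exact Or.inr ⟨⟨h0, hlt⟩, h⟩
  set A : Ideal (𝓞 K) := ∏ t ∈ S₁, Ideal.comap (s t) 𝔮 with hA
  set B : Ideal (𝓞 K) := ∏ t ∈ S₂, Ideal.comap (s t) 𝔮 with hB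
  have hAB : A * B = Ideal.span {(ℓ : 𝓞 K)} := by
    rw [hA, hB, ← Finset.prod_union hdisj, hunion]
    exact cfc_prod_conj_eq_span_ell ζ hζ s hs 𝔮 hℓ hℓp hcard hℓ𝔮
  have hAdvd : A ∣ Ideal.span {J} :=
    cfc_prod_dvd ζ hζ s hs 𝔮 hℓ hℓp hcard hℓ𝔮 S₁
      (fun t ht => ⟨(hS₁mem t ht).1, by have := (hS₁mem t ht).2; omega⟩) _
      (fun t ht => by
        rw [Ideal.span_singleton_le_iff_mem, Ideal.mem_comap]
        exact hJ t (hS₁mem t ht).1 (hS₁mem t ht).2)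
  have hBdvd : B ∣ Ideal.span {J'} :=
    cfc_prod_dvd ζ hζ s hs 𝔮 hℓ hℓp hcard hℓ𝔮 S₂ (fun t ht => (hS₂mem t ht).1) _
      (fun t ht => by
        rw [Ideal.span_singleton_le_iff_mem, Ideal.mem_comap]
        exact hJ' t (hS₂mem t ht).1.2 (hS₂mem t ht).2)
  obtain ⟨X, hX⟩ := hAdvd
  obtain ⟨Y, hY⟩ := hBdvd
  have hspan : Ideal.span {J} * Ideal.span {J'} = Ideal.span {(ℓ : 𝓞 K)} := by
    rw [Ideal.span_singleton_mul_span_singleton, hJJ']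
  have hne : A * B ≠ 0 := by
    rw [hAB, Ne, Ideal.zero_eq_bot, Ideal.span_singleton_eq_bot]
    exact_mod_cast hℓ.ne_zero
  have hXY : X * Y = 1 := by
    have h1 : (A * B) * (X * Y) = (A * B) * 1 :=
      calc (A * B) * (X * Y) = (A * X) * (B * Y) := by ring
        _ = Ideal.span {J} * Ideal.span {J'} := by rw [← hX, ← hY]
        _ = Ideal.span {(ℓ : 𝓞 K)} := hspan
        _ = A * B := hAB.symm
        _ = (A * B) * 1 := (mul_one _).symm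
    exact mul_left_cancel₀ hne h1
  have hXtop : X = ⊤ := by
    rw [Ideal.one_eq_top] at hXY
    have : X * Y ≤ X := Ideal.mul_le_left
    rw [hXY] at this
    exact top_le_iff.mp this
  rw [hX, hXtop, Ideal.mul_top]

end cyclotomic

end Fermat.Agent.Lib.CFT
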