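/-
S14 (CFT route), WP-D: the ENDGAME.  `K = ℚ(ζ_p)`, `L/K` cyclic of degree `p`, everywhere
unramified, Galois over `ℚ`, with `Gal(K/ℚ)` acting on `Gal(L/K)` through `ω⁻¹` (the
`Δ`-condition of `cft_NoExt`).  Inputs (as interface Props):
* `cfd_IfaceRecip p`    : the Artin symbol of `L/K` kills the principal ideals (reciprocity);
* `cfd_IfaceNonsplit p` : there is a degree-one prime `𝔮 ∤ p` of `K` which does not split
                          completely in `L` (analytic input, `cfi_infinite_nonsplit`).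
Then: Stickelberger (`cfc_stickelberger_principal`) gives `∏_{0<t<p/2} σ_t⁻¹𝔮` principal, the
`Δ`-condition gives `Frob(σ_t⁻¹ 𝔮) = Frob(𝔮)^t`, hence `Frob(𝔮)^((p²-1)/8) = 1`, hence `Frob(𝔮) = 1`
and `𝔮` splits completely: contradiction.  Conclusion `cfd_noExt : cft_NoExt p`.
-/
import Mathlib
import Fermat.Prelude.Def_Stickelberger_Basic
import Fermat.Agent.Lib.CFT.Defs
import Fermat.Agent.Lib.CFT.Artin
import Fermat.Agent.Lib.CFT.JacobiIdeal
import Fermat.Agent.Lib.CFT.Iface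

set_option autoImplicit false
set_option linter.unusedSectionVars false
set_option linter.style.haveILetI false

namespace Fermat.Agent.Lib.CFT

open NumberField
open scoped Pointwise

section conj

variable {K L : Type*} [Field K] [NumberField K] [Field L] [NumberField L] [Algebra K L]
  [IsGalois K L]

/-- the action of `σ ∈ Gal(L/K)` on `𝓞 L` is that of `σ.restrictScalars ℚ` -/
theorem cfd_restrictScalars_smul (σ : L ≃ₐ[K] L) (x : 𝓞 L) :
    (σ.restrictScalars ℚ) • x = σ • x := by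
  apply RingOfIntegers.ext
  rfl

/-- **Conjugation equivariance of Frobenius elements** under `Gal(L/ℚ)`. -/
theorem cfd_isFrobAt_conj (τ : L ≃ₐ[ℚ] L) {σ σ' : L ≃ₐ[K] L}
    (hσ' : σ'.restrictScalars ℚ = τ * σ.restrictScalars ℚ * τ⁻¹) {Q : Ideal (𝓞 L)}
    (hN : Nat.card (𝓞 K ⧸ (τ • Q).under (𝓞 K)) = Nat.card (𝓞 K ⧸ Q.under (𝓞 K)))
    (hσ : cft_IsFrobAt σ Q) : cft_IsFrobAt σ' (τ • Q) := by
  rw [cft_isFrobAt_iff'] at hσ ⊢
  intro x
  rw [hN, Ideal.mem_pointwise_smul_iff_inv_smul_mem, smul_sub, smul_pow']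
  have h1 : τ⁻¹ • σ' • x = σ • τ⁻¹ • x := by
    rw [← cfd_restrictScalars_smul σ', ← cfd_restrictScalars_smul σ, hσ', ← mul_smul, ← mul_smul]
    congr 1
    group
  rw [h1]
  exact hσ (τ⁻¹ • x)

end conj

section grp

/-- a group of prime order is commutative -/
theorem cfd_isMulCommutative_of_card {G : Type*} [Group G] {p : ℕ} [Fact p.Prime]
    (h : Nat.card G = p) : IsMulCommutative G := by
  have : IsCyclic G := isCyclic_of_prime_card h
  exact ⟨⟨fun a b => IsCyclic.commGroup.mul_comm a b⟩⟩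

theorem cfd_eq_one_of_pow {G : Type*} [Group G] {p : ℕ} [Fact p.Prime]
    (h : Nat.card G = p) (g : G) (n : ℕ) (hn : ¬ p ∣ n) (hg : g ^ n = 1) : g = 1 := by
  have h1 : orderOf g ∣ n := orderOf_dvd_of_pow_eq_one hg
  have h2 : orderOf g ∣ p := h ▸ orderOf_dvd_natCard g
  rcases (Nat.dvd_prime (Fact.out : p.Prime)).mp h2 with h3 | h3
  · exact orderOf_eq_one_iff.mp h3
  · exact absurd (h3 ▸ h1) hn

end grp

section triv

variable {K L : Type*} [Field K] [NumberField K] [Field L] [NumberField L] [Algebra K L]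
  [IsGalois K L]

/-- If the trivial automorphism is a Frobenius at `Q`, the residue field of `Q` is no bigger
than that of the prime below. -/
theorem cfd_absNorm_le_of_isFrobAt_one {Q : Ideal (𝓞 L)} [Q.IsPrime] (hQ : Q ≠ ⊥)
    (h1 : cft_IsFrobAt (1 : L ≃ₐ[K] L) Q) :
    Ideal.absNorm Q ≤ Ideal.absNorm (Q.under (𝓞 K)) := by
  classical
  rw [cft_isFrobAt_iff'] at h1
  have hmax : Q.IsMaximal := Ring.DimensionLEOne.maximalOfPrime hQ inferInstance
  letI : Field (𝓞 L ⧸ Q) := Ideal.Quotient.field Q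
  have hfin : Finite (𝓞 L ⧸ Q) := Q.finiteQuotientOfFreeOfNeBot hQ
  letI : Fintype (𝓞 L ⧸ Q) := Fintype.ofFinite _
  set N := Nat.card (𝓞 K ⧸ Q.under (𝓞 K)) with hN
  have hNabs : Ideal.absNorm (Q.under (𝓞 K)) = N := by
    rw [Ideal.absNorm_apply, Submodule.cardQuot_apply]
  have hq0 : Q.under (𝓞 K) ≠ ⊥ := by
    have : Q.LiesOver (Q.under (𝓞 K)) := ⟨rfl⟩
    intro h
    exact hQ (Ideal.eq_bot_of_liesOver_bot (𝓞 K) Q (h := h ▸ this))
  have hqprime : (Q.under (𝓞 K)).IsPrime := inferInstance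
  have hN2 : 1 < N := by
    have hfinq : Finite (𝓞 K ⧸ Q.under (𝓞 K)) := (Q.under (𝓞 K)).finiteQuotientOfFreeOfNeBot hq0
    have : Nontrivial (𝓞 K ⧸ Q.under (𝓞 K)) := Ideal.Quotient.nontrivial_iff.mpr hqprime.ne_top
    exact Finite.one_lt_card
  have hroot : ∀ y : 𝓞 L ⧸ Q, y ^ N = y := by
    intro y
    obtain ⟨x, rfl⟩ := Ideal.Quotient.mk_surjective y
    have := h1 x
    rw [one_smul] at this
    rw [← map_pow, eq_comm]
    exact (Ideal.Quotient.mk_eq_mk_iff_sub_mem _ _).mpr this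
  have hcard : Fintype.card (𝓞 L ⧸ Q) ≤ N := by
    have hsub : (Finset.univ : Finset (𝓞 L ⧸ Q)).val ⊆
        (Polynomial.X ^ N - Polynomial.X : Polynomial (𝓞 L ⧸ Q)).roots := by
      intro y _
      rw [Polynomial.mem_roots (FiniteField.X_pow_card_sub_X_ne_zero _ hN2)]
      simp [hroot y]
    have := Polynomial.card_le_degree_of_subset_roots hsub
    rwa [FiniteField.X_pow_card_sub_X_natDegree_eq _ hN2, Finset.card_univ] at this
  rw [hNabs, Ideal.absNorm_apply, Submodule.cardQuot_apply, Nat.card_eq_fintype_card]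
  exact hcard

end triv

section triv

variable {K L : Type*} [Field K] [NumberField K] [Field L] [NumberField L] [Algebra K L]

theorem cfd_absNorm_under_le (Q : Ideal (𝓞 L)) [Q.IsPrime] (hQ : Q ≠ ⊥) :
    Ideal.absNorm (Q.under (𝓞 K)) ≤ Ideal.absNorm Q := by
  have hq0 : Q.under (𝓞 K) ≠ ⊥ := by
    have : Q.LiesOver (Q.under (𝓞 K)) := ⟨rfl⟩
    intro h
    exact hQ (Ideal.eq_bot_of_liesOver_bot (𝓞 K) Q (h := h ▸ this))
  have : (Q.under (𝓞 K)).IsMaximal := Ring.DimensionLEOne.maximalOfPrime hq0 inferInstance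
  have : Q.LiesOver (Q.under (𝓞 K)) := ⟨rfl⟩
  have : Q.IsMaximal := Ring.DimensionLEOne.maximalOfPrime hQ inferInstance
  have hN : Ideal.relNorm (𝓞 K) Q = (Q.under (𝓞 K)) ^ Q.inertiaDeg (𝓞 K) :=
    Ideal.relNorm_eq_pow_of_isMaximal Q (Q.under (𝓞 K))
  have h := Ideal.absNorm_relNorm (R := 𝓞 K) (S := 𝓞 L) Q
  rw [hN, map_pow] at h
  rw [← h]
  have hpos : Ideal.absNorm (Q.under (𝓞 K)) ≠ 0 := by
    rw [Ne, Ideal.absNorm_eq_zero_iff]
    exact hq0
  exact Nat.le_self_pow (Ideal.inertiaDeg_pos Q (𝓞 K)).ne' _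

end triv

section delta

variable {K L : Type*} [Field K] [NumberField K] [Field L] [NumberField L] [Algebra K L]
  [IsGalois ℚ K]

/-- the ring automorphism of `𝓞 K` induced by the restriction to `K` of `τ ∈ Gal(L/ℚ)` -/
noncomputable def cfd_resEquiv (τ : L ≃ₐ[ℚ] L) : 𝓞 K ≃+* 𝓞 K :=
  MulSemiringAction.toRingEquiv (K ≃ₐ[ℚ] K) (𝓞 K) (τ.restrictNormal K)

theorem cfd_resEquiv_apply (τ : L ≃ₐ[ℚ] L) (x : 𝓞 K) :
    algebraMap (𝓞 K) (𝓞 L) (cfd_resEquiv τ x) = τ • algebraMap (𝓞 K) (𝓞 L) x := by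
  apply RingOfIntegers.ext
  exact AlgEquiv.restrictNormal_commutes τ K (x : K)

theorem cfd_under_inv_smul (τ : L ≃ₐ[ℚ] L) (Q : Ideal (𝓞 L)) :
    (τ⁻¹ • Q).under (𝓞 K) = Ideal.comap (cfd_resEquiv (K := K) τ) (Q.under (𝓞 K)) := by
  ext x
  rw [Ideal.mem_comap, Ideal.mem_comap, Ideal.mem_comap,
    Ideal.mem_pointwise_smul_iff_inv_smul_mem, inv_inv, cfd_resEquiv_apply]

end delta

section delta

variable {K L : Type*} [Field K] [NumberField K] [Field L] [NumberField L] [Algebra K L]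
  [IsGalois ℚ K] [IsGalois K L]

theorem cfd_restrictScalars_pow (σ : L ≃ₐ[K] L) (t : ℕ) :
    (σ ^ t).restrictScalars ℚ = (σ.restrictScalars ℚ) ^ t := by
  induction t with
  | zero => rfl
  | succ n ih => rw [pow_succ, pow_succ, ← ih]; rfl

/-- **Δ-equivariance of the Frobenius**: if conjugation by `τ⁻¹` raises `Gal(L/K)` to the `t`-th
power, then `Frob (σ_τ⁻¹ 𝔮) = Frob(𝔮) ^ t`. -/
theorem cfd_frob_comap [IsMulCommutative (L ≃ₐ[K] L)] (hun : cft_Unram K L)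
    (τ : L ≃ₐ[ℚ] L) (t : ℕ)
    (hΔ : ∀ σ : L ≃ₐ[K] L, τ * (σ.restrictScalars ℚ) ^ t * τ⁻¹ = σ.restrictScalars ℚ)
    (𝔮 : Ideal (𝓞 K)) [𝔮.IsPrime] (h𝔮 : 𝔮 ≠ ⊥) :
    cft_frob K L (Ideal.comap (cfd_resEquiv (K := K) τ) 𝔮) = (cft_frob K L 𝔮) ^ t := by
  set φ := cft_frob K L 𝔮 with hφ
  have hφ𝔮 : cft_IsFrob 𝔮 φ := cft_isFrob_frob K L 𝔮 h𝔮
  obtain ⟨Q, hQ, hlo⟩ := (Ideal.nonempty_primesOver (S := 𝓞 L) 𝔮).some
  have hQ0 : Q ≠ ⊥ := Ideal.ne_bot_of_liesOver_of_ne_bot h𝔮 Q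
  have hφQ : cft_IsFrobAt φ Q := hφ𝔮 Q hQ hlo
  have hunder : (τ⁻¹ • Q).under (𝓞 K) = Ideal.comap (cfd_resEquiv (K := K) τ) 𝔮 := by
    rw [cfd_under_inv_smul, ← hlo.over]
  have hconj : (φ ^ t).restrictScalars ℚ = τ⁻¹ * φ.restrictScalars ℚ * τ⁻¹⁻¹ := by
    rw [cfd_restrictScalars_pow, inv_inv]
    have := hΔ φ
    calc (φ.restrictScalars ℚ) ^ t = τ⁻¹ * (τ * (φ.restrictScalars ℚ) ^ t * τ⁻¹) * τ := by group
      _ = τ⁻¹ * φ.restrictScalars ℚ * τ := by rw [this]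
  have hcard : Nat.card (𝓞 K ⧸ (τ⁻¹ • Q).under (𝓞 K)) = Nat.card (𝓞 K ⧸ Q.under (𝓞 K)) := by
    rw [hunder, ← hlo.over]
    exact cfc_card_quot_comap _ 𝔮
  have h1 : cft_IsFrobAt (φ ^ t) (τ⁻¹ • Q) := cfd_isFrobAt_conj τ⁻¹ hconj hcard hφQ
  have h2 := cft_isFrob_of_isFrobAt h1
  rw [hunder] at h2
  have hprime : (Ideal.comap (cfd_resEquiv (K := K) τ) 𝔮).IsPrime := Ideal.comap_isPrime _ 𝔮
  have hne : Ideal.comap (cfd_resEquiv (K := K) τ) 𝔮 ≠ ⊥ := by
    intro h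
    apply h𝔮
    rw [eq_bot_iff]
    intro x hx
    have : (cfd_resEquiv (K := K) τ).symm x ∈ Ideal.comap (cfd_resEquiv (K := K) τ) 𝔮 := by
      rw [Ideal.mem_comap]
      simpa using hx
    rw [h, Ideal.mem_bot] at this
    simpa using this
  exact cft_frob_eq hun _ hne h2

end delta

section sum

theorem cfd_sum_exponentSet (m : ℕ) :
    8 * (∑ c ∈ Stickelberger.exponentSet (2 * m + 1), c) + 1 = (2 * m + 1) ^ 2 := by
  have h1 : ∑ c ∈ Stickelberger.exponentSet (2 * m + 1), c = ∑ c ∈ Finset.range (m + 1), c := by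
    apply Finset.sum_subset
    · intro c hc
      rw [Stickelberger.mem_exponentSet] at hc
      rw [Finset.mem_range]
      omega
    · intro c hc hc'
      rw [Stickelberger.mem_exponentSet] at hc'
      rw [Finset.mem_range] at hc
      omega
  have h2 := Finset.sum_range_id_mul_two (m + 1)
  rw [h1]
  simp only [Nat.add_sub_cancel] at h2
  nlinarith [h2]

theorem cfd_not_dvd_sum_exponentSet {p : ℕ} (hp : p.Prime) (hp3 : 3 ≤ p) :
    ¬ p ∣ ∑ c ∈ Stickelberger.exponentSet p, c := by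
  intro hdvd
  obtain ⟨m, hm⟩ : ∃ m, p = 2 * m + 1 := by
    rcases hp.eq_two_or_odd with h | h
    · omega
    · exact ⟨p / 2, by omega⟩
  have h := cfd_sum_exponentSet m
  rw [← hm] at h
  have h2 : p ∣ 1 := by
    have h3 : p ∣ 8 * (∑ c ∈ Stickelberger.exponentSet p, c) := Dvd.dvd.mul_left hdvd 8
    have h4 : p ∣ p ^ 2 := dvd_pow_self p two_ne_zero
    rw [← h] at h4
    exact (Nat.dvd_add_right h3).mp h4
  exact hp.one_lt.ne' (Nat.dvd_one.mp h2)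

end sum

section main

variable {p : ℕ} [Fact p.Prime]
variable {K L : Type*} [Field K] [NumberField K] [Field L] [NumberField L] [Algebra K L]
  [IsGalois K L] [IsGalois ℚ L]

/-- lifts of the cyclotomic automorphisms to `Gal(L/ℚ)` -/
theorem cfd_exists_lift (ζ : K) (hζ : IsPrimitiveRoot ζ p) (t : ℕ) (ht0 : 0 < t) (htp : t < p) :
    ∃ τ : L ≃ₐ[ℚ] L, τ (algebraMap K L ζ) = algebraMap K L ζ ^ t := by
  have hp : p.Prime := Fact.out
  have h1 : IsPrimitiveRoot (algebraMap K L ζ) p :=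
    hζ.map_of_injective (algebraMap K L).injective
  have hcop : Nat.Coprime t p :=
    Nat.Coprime.symm ((Nat.Prime.coprime_iff_not_dvd hp).mpr (Nat.not_dvd_of_pos_of_lt ht0 htp))
  have h2 : IsPrimitiveRoot (algebraMap K L ζ ^ t) p := h1.pow_of_coprime t hcop
  have hconj : IsConjRoot ℚ (algebraMap K L ζ ^ t) (algebraMap K L ζ) := by
    unfold IsConjRoot
    rw [← Polynomial.cyclotomic_eq_minpoly_rat h1 hp.pos,
      ← Polynomial.cyclotomic_eq_minpoly_rat h2 hp.pos]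
  exact hconj.exists_algEquiv

end main

section main2

variable {p : ℕ} [Fact p.Prime]
variable {K L : Type*} [Field K] [NumberField K] [Field L] [NumberField L] [Algebra K L]
  [IsGalois K L] [IsGalois ℚ L] [IsCyclotomicExtension {p} ℚ K]

/-- **Degree-one primes have trivial Frobenius** (Stickelberger + reciprocity for principal ideals
+ the `ω⁻¹`-condition). -/
theorem cfd_frob_eq_one [IsMulCommutative (L ≃ₐ[K] L)] (hp3 : 3 ≤ p)
    (ζ : K) (hζ : IsPrimitiveRoot ζ p) (hdeg : Module.finrank K L = p) (hun : cft_Unram K L)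
    (hΔ : ∀ (τ : L ≃ₐ[ℚ] L) (σ : L ≃ₐ[K] L) (k : ℕ),
      τ (algebraMap K L ζ) = algebraMap K L ζ ^ k →
        τ * (σ.restrictScalars ℚ) ^ k * τ⁻¹ = σ.restrictScalars ℚ)
    (hR : ∀ γ : 𝓞 K, γ ≠ 0 → cft_artin K L (Ideal.span {γ}) = 1)
    (𝔮 : Ideal (𝓞 K)) [𝔮.IsPrime] (ℓ : ℕ) (hℓ : ℓ.Prime) (hℓp : ℓ ≠ p)
    (hcard : Nat.card (𝓞 K ⧸ 𝔮) = ℓ) :
    cft_frob K L 𝔮 = 1 := by
  classical
  have hp : p.Prime := Fact.out
  have hp2 : p ≠ 2 := by omega
  have : IsGalois ℚ K := IsCyclotomicExtension.isGalois {p} ℚ K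
  -- the lifts
  have hex : ∀ t : ℕ, ∃ τ : L ≃ₐ[ℚ] L, 0 < t → t < p →
      τ (algebraMap K L ζ) = algebraMap K L ζ ^ t := by
    intro t
    by_cases h : 0 < t ∧ t < p
    · obtain ⟨τ, hτ⟩ := cfd_exists_lift (L := L) ζ hζ t h.1 h.2
      exact ⟨τ, fun _ _ => hτ⟩
    · exact ⟨1, fun h1 h2 => absurd ⟨h1, h2⟩ h⟩
  choose τ hτ using hex
  set s : ℕ → (𝓞 K ≃+* 𝓞 K) := fun t => cfd_resEquiv (K := K) (τ t) with hs_def
  set ζ' : 𝓞 K := hζ.toInteger with hζ'_def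
  have hζ' : IsPrimitiveRoot ζ' p := hζ.toInteger_isPrimitiveRoot
  have hs : ∀ t, 0 < t → t < p → s t ζ' = ζ' ^ t := by
    intro t ht0 htp
    apply FaithfulSMul.algebraMap_injective (𝓞 K) (𝓞 L)
    rw [hs_def, cfd_resEquiv_apply, map_pow]
    apply RingOfIntegers.ext
    exact hτ t ht0 htp
  -- 𝔮 ≠ ⊥
  have h𝔮 : 𝔮 ≠ ⊥ := by
    rintro rfl
    have h0 : Nat.card (𝓞 K ⧸ (⊥ : Ideal (𝓞 K))) = 0 := by
      have := Ideal.absNorm_bot (S := 𝓞 K)
      rwa [Ideal.absNorm_apply, Submodule.cardQuot_apply] at this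
    rw [h0] at hcard
    exact hℓ.ne_zero hcard.symm
  obtain ⟨J, hJ⟩ := cfc_stickelberger_principal hp2 ζ' hζ' s hs 𝔮 ℓ hℓ hℓp hcard
  set φ := cft_frob K L 𝔮 with hφ
  -- primes
  have hprime : ∀ t, (Ideal.comap (s t) 𝔮).IsPrime := fun t => Ideal.comap_isPrime _ 𝔮
  have hne : ∀ t, Ideal.comap (s t) 𝔮 ≠ ⊥ := by
    intro t h
    apply h𝔮
    rw [eq_bot_iff]
    intro x hx
    have : (s t).symm x ∈ Ideal.comap (s t) 𝔮 := by
      rw [Ideal.mem_comap]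
      simpa using hx
    rw [h, Ideal.mem_bot] at this
    simpa using this
  have hfrob : ∀ t, 0 < t → t < p → cft_artin K L (Ideal.comap (s t) 𝔮) = φ ^ t := by
    intro t ht0 htp
    have := cft_artin_prime K L ⟨Ideal.comap (s t) 𝔮, hprime t, hne t⟩
    rw [this]
    exact cfd_frob_comap hun (τ t) t (fun σ => hΔ (τ t) σ t (hτ t ht0 htp)) 𝔮 h𝔮
  -- induction
  have hind : ∀ S : Finset ℕ, (∀ t ∈ S, 0 < t ∧ t < p) →
      (∏ t ∈ S, Ideal.comap (s t) 𝔮 ≠ ⊥) ∧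
      cft_artin K L (∏ t ∈ S, Ideal.comap (s t) 𝔮) = φ ^ (∑ t ∈ S, t) := by
    intro S
    induction S using Finset.induction_on with
    | empty =>
      intro _
      refine ⟨?_, ?_⟩
      · rw [Finset.prod_empty, Ideal.one_eq_top]
        exact top_ne_bot
      · rw [Finset.prod_empty, Finset.sum_empty, pow_zero, Ideal.one_eq_top, cft_artin_top]
    | insert a S ha ih =>
      intro hS
      have hS' : ∀ t ∈ S, 0 < t ∧ t < p := fun t ht => hS t (Finset.mem_insert_of_mem ht)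
      obtain ⟨ih1, ih2⟩ := ih hS'
      have ha' := hS a (Finset.mem_insert_self a S)
      refine ⟨?_, ?_⟩
      · rw [Finset.prod_insert ha]
        exact mul_ne_zero (hne a) ih1
      · rw [Finset.prod_insert ha, Finset.sum_insert ha, cft_artin_mul K L (hne a) ih1, ih2,
          hfrob a ha'.1 ha'.2, pow_add]
  obtain ⟨h1, h2⟩ := hind (Stickelberger.exponentSet p) (fun t ht => by
    rw [Stickelberger.mem_exponentSet] at ht
    exact ⟨ht.1, by omega⟩)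
  rw [hJ] at h1 h2
  have hJ0 : J ≠ 0 := by
    rintro rfl
    apply h1
    simp
  rw [hR J hJ0] at h2
  have hcardG : Nat.card (L ≃ₐ[K] L) = p := by
    rw [IsGalois.card_aut_eq_finrank, hdeg]
  exact cfd_eq_one_of_pow hcardG φ _ (cfd_not_dvd_sum_exponentSet hp hp3) h2.symm

end main2

section final

/-- **(R)** interface: reciprocity for principal ideals, for the extensions of `cft_NoExt`. -/
def cfd_IfaceRecip (p : ℕ) : Prop :=
  ∀ (K L : Type) [Field K] [NumberField K] [Field L] [NumberField L] [Algebra K L]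
    [IsCyclotomicExtension {p} ℚ K] [IsGalois K L] [IsGalois ℚ L]
    [IsMulCommutative (L ≃ₐ[K] L)] (ζ : K),
    IsPrimitiveRoot ζ p → Module.finrank K L = p → cft_Unram K L →
    (∀ (τ : L ≃ₐ[ℚ] L) (σ : L ≃ₐ[K] L) (k : ℕ),
      τ (algebraMap K L ζ) = algebraMap K L ζ ^ k →
      τ * (σ.restrictScalars ℚ) ^ k * τ⁻¹ = σ.restrictScalars ℚ) →
    ∀ γ : 𝓞 K, γ ≠ 0 → cft_artin K L (Ideal.span {γ}) = 1

/-- **(Z)** interface: a degree-one prime of `K`, not above `p`, with a prime of `L` above it of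
bigger norm. -/
def cfd_IfaceNonsplit (p : ℕ) : Prop :=
  ∀ (K L : Type) [Field K] [NumberField K] [Field L] [NumberField L] [Algebra K L]
    [IsCyclotomicExtension {p} ℚ K] [IsGalois K L] [IsGalois ℚ L] (ζ : K),
    IsPrimitiveRoot ζ p → Module.finrank K L = p → cft_Unram K L →
    ∃ (𝔮 : Ideal (𝓞 K)) (𝔔 : Ideal (𝓞 L)), 𝔮.IsPrime ∧ (Ideal.absNorm 𝔮).Prime ∧
      Ideal.absNorm 𝔮 ≠ p ∧ 𝔔.IsPrime ∧ 𝔔.LiesOver 𝔮 ∧ Ideal.absNorm 𝔔 ≠ Ideal.absNorm 𝔮

/-- **Endgame**: reciprocity for principal ideals + one non-split degree-one prime ⇒ the master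
Prop `cft_NoExt p`. -/
theorem cfd_noExt {p : ℕ} [Fact p.Prime] (hp3 : 3 ≤ p) (hR : cfd_IfaceRecip p)
    (hZ : cfd_IfaceNonsplit p) : cft_NoExt p := by
  intro K L _ _ _ _ _ _ _ _ ζ hζ hdeg hun hΔ
  have hcardG : Nat.card (L ≃ₐ[K] L) = p := by rw [IsGalois.card_aut_eq_finrank, hdeg]
  have : IsMulCommutative (L ≃ₐ[K] L) := cfd_isMulCommutative_of_card hcardG
  obtain ⟨𝔮, 𝔔, h𝔮, hℓ, hℓp, h𝔔, hlo, hne⟩ := hZ K L ζ hζ hdeg hun
  have hcard : Nat.card (𝓞 K ⧸ 𝔮) = Ideal.absNorm 𝔮 := by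
    rw [Ideal.absNorm_apply, Submodule.cardQuot_apply]
  have h1 := cfd_frob_eq_one hp3 ζ hζ hdeg hun hΔ (hR K L ζ hζ hdeg hun hΔ) 𝔮 _ hℓ hℓp hcard
  have h𝔮0 : 𝔮 ≠ ⊥ := by
    rintro rfl
    rw [Ideal.absNorm_bot] at hℓ
    exact Nat.not_prime_zero hℓ
  have hfrob := cft_isFrob_frob K L 𝔮 h𝔮0 𝔔 h𝔔 hlo
  rw [h1] at hfrob
  have h𝔔0 : 𝔔 ≠ ⊥ := Ideal.ne_bot_of_liesOver_of_ne_bot h𝔮0 𝔔
  have hle := cfd_absNorm_le_of_isFrobAt_one h𝔔0 hfrob
  have hge := cfd_absNorm_under_le (K := K) 𝔔 h𝔔0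
  rw [← hlo.over] at hle hge
  exact hne (le_antisymm hle hge)

end final

end Fermat.Agent.Lib.CFT
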