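/-
S14 (WP-A1, part 1): linear algebra of an extension `0 → C → V → V/C → 0` of `𝔽_p[G]`-modules with
`G` acting trivially on `C` and through a character `χ` on `V/C` (abstract group `G`; no Galois
theory here).
* `cff_split_of_trivial`: if `ker χ` acts trivially on `V`, the extension splits;
* `cff_conj_pow`: for `σ ∈ ker χ`, `τ ∈ G` and `k ≡ χ τ`, `τ σ^k τ⁻¹` and `σ` act in the same way;
* `cff_kerHom`: the homomorphism `ker χ → C`, `σ ↦ σ e - e`, whose kernel is the kernel of the
  action.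
-/
import Mathlib

set_option autoImplicit false

namespace Fermat.Agent.Lib.CFT

section dim

variable {p : ℕ} [Fact p.Prime] {V : Type*} [AddCommGroup V] [Module (ZMod p) V]

/-- `C` of cardinality `p` in `V` of cardinality `p²`: there is `e ∉ C`. -/
theorem cff_exists_not_mem (C : Submodule (ZMod p) V) (hC : Nat.card C = p)
    (hV : Nat.card V = p ^ 2) : ∃ e : V, e ∉ C := by
  by_contra hcon
  simp only [not_exists, not_not] at hcon
  have htop : C = ⊤ := eq_top_iff.mpr fun x _ => hcon x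
  have h1 : Nat.card C = Nat.card V := by
    rw [htop]
    exact Nat.card_congr (Submodule.topEquiv (R := ZMod p) (M := V)).toEquiv
  rw [hC, hV] at h1
  have hp := (Fact.out : p.Prime).one_lt
  nlinarith

/-- `V = C + 𝔽_p e` for `e ∉ C`. -/
theorem cff_exists_decomp (C : Submodule (ZMod p) V) (hC : Nat.card C = p)
    (hV : Nat.card V = p ^ 2) {e : V} (he : e ∉ C) (x : V) :
    ∃ c ∈ C, ∃ a : ZMod p, x = c + a • e := by
  have hp := (Fact.out : p.Prime)
  have : Finite V := Nat.finite_of_card_ne_zero (by rw [hV]; exact pow_ne_zero _ hp.ne_zero)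
  have : Module.Finite (ZMod p) V := Module.Finite.of_finite
  have hcardV : Nat.card V = p ^ Module.finrank (ZMod p) V := by
    have := Module.natCard_eq_pow_finrank (K := ZMod p) (V := V)
    rwa [Nat.card_zmod] at this
  have hcardC : Nat.card C = p ^ Module.finrank (ZMod p) C := by
    have := Module.natCard_eq_pow_finrank (K := ZMod p) (V := C)
    rwa [Nat.card_zmod] at this
  have hfV : Module.finrank (ZMod p) V = 2 :=
    Nat.pow_right_injective hp.two_le (by show p ^ _ = p ^ 2; rw [← hcardV, hV])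
  have hfC : Module.finrank (ZMod p) C = 1 :=
    Nat.pow_right_injective hp.two_le (by show p ^ _ = p ^ 1; rw [← hcardC, hC, pow_one])
  set W : Submodule (ZMod p) V := C ⊔ Submodule.span (ZMod p) {e} with hW
  have hlt : C < W := by
    refine lt_of_le_of_ne le_sup_left ?_
    intro hCW
    apply he
    rw [hCW]
    exact Submodule.mem_sup_right (Submodule.mem_span_singleton_self e)
  have h2 : Module.finrank (ZMod p) W = Module.finrank (ZMod p) V := by
    have h3 := Submodule.finrank_lt_finrank_of_lt hlt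
    have h4 := Submodule.finrank_le W
    omega
  have htop : W = ⊤ := Submodule.eq_top_of_finrank_eq h2
  have hx : x ∈ W := by rw [htop]; trivial
  obtain ⟨c, hc, y, hy, rfl⟩ := Submodule.mem_sup.mp hx
  obtain ⟨a, rfl⟩ := Submodule.mem_span_singleton.mp hy
  exact ⟨c, hc, a, rfl⟩

end dim

section lin

variable {p : ℕ} [Fact p.Prime] {G : Type*} [Group G] {V : Type*} [AddCommGroup V]
  [Module (ZMod p) V] [DistribMulAction G V] [SMulCommClass G (ZMod p) V]

/-- The hypotheses on `(V, C, χ)`. -/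
structure cff_Ext (C : Submodule (ZMod p) V) (χ : G →* (ZMod p)ˣ) : Prop where
  fixed : ∀ (σ : G), ∀ x ∈ C, σ • x = x
  quot : ∀ (σ : G) (x : V), σ • x - ((χ σ : (ZMod p)ˣ) : ZMod p) • x ∈ C

variable {C : Submodule (ZMod p) V} {χ : G →* (ZMod p)ˣ}

omit [SMulCommClass G (ZMod p) V] in
theorem cff_Ext.sub_mem (h : cff_Ext C χ) {σ : G} (hσ : χ σ = 1) (x : V) : σ • x - x ∈ C := by
  have := h.quot σ x
  rwa [hσ, Units.val_one, one_smul] at this

omit [SMulCommClass G (ZMod p) V] in
/-- elements of `ker χ` commute, on `V`, with everything up to the trivial action: if `ker χ` acts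
trivially then any two elements of `G` commute on `V`. -/
theorem cff_Ext.comm_of_trivial (_h : cff_Ext C χ)
    (htriv : ∀ σ : G, χ σ = 1 → ∀ x : V, σ • x = x) (σ τ : G) (x : V) :
    σ • τ • x = τ • σ • x := by
  have hc : χ (τ⁻¹ * σ⁻¹ * τ * σ) = 1 := by
    rw [map_mul, map_mul, map_mul, map_inv, map_inv]
    have : (χ τ)⁻¹ * (χ σ)⁻¹ * χ τ * χ σ = 1 := by
      rw [mul_comm (χ τ)⁻¹, mul_assoc (χ σ)⁻¹, inv_mul_cancel, mul_one, inv_mul_cancel]
    exact this
  have h1 := htriv _ hc x
  have h2 : σ • τ • (τ⁻¹ * σ⁻¹ * τ * σ) • x = τ • σ • x := by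
    simp only [← mul_smul]
    congr 1
    group
  rw [← h2, h1]

/-- **Splitting.** If `ker χ` acts trivially on `V` then `C` has a `G`-stable complement. -/
theorem cff_split_of_trivial (h : cff_Ext C χ)
    (htriv : ∀ σ : G, χ σ = 1 → ∀ x : V, σ • x = x) :
    ∃ C' : Submodule (ZMod p) V, (∀ σ : G, ∀ x ∈ C', σ • x ∈ C') ∧ IsCompl C C' := by
  by_cases hχ : ∃ σ₀ : G, χ σ₀ ≠ 1
  · obtain ⟨σ₀, hσ₀⟩ := hχ
    set a : ZMod p := ((χ σ₀ : (ZMod p)ˣ) : ZMod p) with ha
    have ha1 : (1 : ZMod p) - a ≠ 0 := by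
      intro h0
      apply hσ₀
      apply Units.ext
      rw [Units.val_one, ← ha]
      exact (sub_eq_zero.mp h0).symm
    -- the eigenspace
    let f : V →ₗ[ZMod p] V := DistribSMul.toLinearMap (ZMod p) V σ₀ - a • LinearMap.id
    have hf : ∀ x, f x = σ₀ • x - a • x := fun x => rfl
    refine ⟨LinearMap.ker f, ?_, ?_⟩
    · intro τ x hx
      rw [LinearMap.mem_ker, hf] at hx ⊢
      rw [h.comm_of_trivial htriv σ₀ τ x, ← smul_comm τ a x, ← smul_sub, hx, smul_zero]
    · rw [isCompl_iff]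
      constructor
      · rw [Submodule.disjoint_def]
        intro x hxC hx
        rw [LinearMap.mem_ker, hf, h.fixed σ₀ x hxC] at hx
        have : ((1 : ZMod p) - a) • x = 0 := by rw [sub_smul, one_smul]; exact hx
        exact (smul_eq_zero.mp this).resolve_left ha1
      · rw [codisjoint_iff, eq_top_iff]
        intro x _
        obtain ⟨c, hc⟩ : ∃ c : V, c = σ₀ • x - a • x := ⟨_, rfl⟩
        have hcC : c ∈ C := by rw [hc]; exact h.quot σ₀ x
        have hx' : x = ((1 - a)⁻¹ • c) + (x - (1 - a)⁻¹ • c) := by abel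
        rw [hx']
        refine Submodule.add_mem_sup (C.smul_mem _ hcC) ?_
        rw [LinearMap.mem_ker, hf, smul_sub, smul_sub, smul_comm σ₀ ((1 - a)⁻¹) c,
          h.fixed σ₀ c hcC]
        have e1 : σ₀ • x = c + a • x := by rw [hc]; abel
        rw [e1]
        have e2 : c = ((1 - a) * (1 - a)⁻¹) • c := by rw [mul_inv_cancel₀ ha1, one_smul]
        have e3 : a • (1 - a)⁻¹ • c = (a * (1 - a)⁻¹) • c := by rw [mul_smul]
        rw [e3]
        nth_rewrite 1 [e2]
        rw [sub_mul, one_mul, sub_smul]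
        abel
  · simp only [not_exists, not_not] at hχ
    obtain ⟨C', hC'⟩ := Submodule.exists_isCompl C
    refine ⟨C', fun σ x hx => ?_, hC'⟩
    rw [htriv σ (hχ σ) x]
    exact hx

/-! ### The action of `ker χ` -/

omit [SMulCommClass G (ZMod p) V] in
/-- For `σ ∈ ker χ`: `σ^k x = x + k (σ x - x)`. -/
theorem cff_Ext.pow_smul (h : cff_Ext C χ) {σ : G} (hσ : χ σ = 1) (k : ℕ) (x : V) :
    σ ^ k • x = x + k • (σ • x - x) := by
  induction k with
  | zero => simp
  | succ k ih =>
    rw [pow_succ', mul_smul, ih, smul_add, smul_comm σ k, h.fixed σ _ (h.sub_mem hσ x), succ_nsmul]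
    abel

/-- **The `Δ`-condition.** For `σ ∈ ker χ`, `τ ∈ G` and `k ≡ χ τ mod p`, the elements
`τ σ^k τ⁻¹` and `σ` act on `V` in the same way. -/
theorem cff_Ext.conj_pow_smul (h : cff_Ext C χ) {σ : G} (hσ : χ σ = 1) (τ : G) (k : ℕ)
    (hk : (k : ZMod p) = ((χ τ : (ZMod p)ˣ) : ZMod p)) (x : V) :
    (τ * σ ^ k * τ⁻¹) • x = σ • x := by
  set b : ZMod p := ((χ τ : (ZMod p)ˣ) : ZMod p) with hb
  have hbinv : ((χ τ⁻¹ : (ZMod p)ˣ) : ZMod p) = b⁻¹ := by
    rw [map_inv, Units.val_inv_eq_inv_val]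
  have hb0 : b ≠ 0 := (χ τ).ne_zero
  obtain ⟨y, hy⟩ : ∃ y : V, y = τ⁻¹ • x := ⟨_, rfl⟩
  -- `y = b⁻¹ x + c` with `c ∈ C`
  obtain ⟨c, hc⟩ : ∃ c : V, c = y - b⁻¹ • x := ⟨_, rfl⟩
  have hcC : c ∈ C := by
    rw [hc, hy, ← hbinv]; exact h.quot τ⁻¹ x
  have hy' : y = b⁻¹ • x + c := by rw [hc]; abel
  have hd : σ • y - y = b⁻¹ • (σ • x - x) := by
    rw [hy', smul_add, h.fixed σ c hcC, smul_comm σ b⁻¹ x, smul_sub]
    abel
  have hdC : σ • y - y ∈ C := h.sub_mem hσ y
  have hτy : τ • y = x := by rw [hy, smul_inv_smul]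
  rw [mul_smul, mul_smul, ← hy, h.pow_smul hσ k y, smul_add, smul_comm τ k, h.fixed τ _ hdC, hd,
    hτy]
  have : k • b⁻¹ • (σ • x - x) = σ • x - x := by
    rw [← Nat.cast_smul_eq_nsmul (ZMod p) k, hk, ← mul_smul, mul_inv_cancel₀ hb0, one_smul]
  rw [this]
  abel

/-- The homomorphism `ker χ → C`, `σ ↦ σ e - e`. -/
def cff_kerHom (h : cff_Ext C χ) (e : V) : χ.ker →* Multiplicative C where
  toFun σ := Multiplicative.ofAdd ⟨(σ : G) • e - e, h.sub_mem σ.2 e⟩
  map_one' := by
    apply Multiplicative.toAdd.injective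
    apply Subtype.ext
    simp
  map_mul' σ τ := by
    apply Multiplicative.toAdd.injective
    apply Subtype.ext
    change ((σ : G) * (τ : G)) • e - e = ((σ : G) • e - e) + ((τ : G) • e - e)
    have h1 : (σ : G) • ((τ : G) • e - e) = (τ : G) • e - e :=
      h.fixed σ _ (h.sub_mem τ.2 e)
    rw [mul_smul]
    rw [smul_sub] at h1
    rw [← sub_eq_zero]
    have : (σ : G) • (τ : G) • e - e - ((σ : G) • e - e + ((τ : G) • e - e))
        = ((σ : G) • (τ : G) • e - (σ : G) • e) - ((τ : G) • e - e) := by abel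
    rw [this, h1, sub_self]

omit [SMulCommClass G (ZMod p) V] in
theorem cff_kerHom_apply (h : cff_Ext C χ) (e : V) (σ : χ.ker) :
    ((Multiplicative.toAdd (cff_kerHom h e σ) : C) : V) = (σ : G) • e - e := rfl

/-- If `V = C + 𝔽_p e`, the kernel of `cff_kerHom` is the kernel of the action. -/
theorem cff_kerHom_eq_one_iff (h : cff_Ext C χ) (e : V)
    (hV : ∀ x : V, ∃ c ∈ C, ∃ a : ZMod p, x = c + a • e) (σ : χ.ker) :
    cff_kerHom h e σ = 1 ↔ ∀ x : V, (σ : G) • x = x := by
  constructor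
  · intro h1 x
    have h2 : (σ : G) • e - e = 0 := by
      have := congrArg (fun t : Multiplicative C => ((Multiplicative.toAdd t : C) : V)) h1
      simpa [cff_kerHom_apply] using this
    obtain ⟨c, hc, a, rfl⟩ := hV x
    rw [smul_add, h.fixed _ c hc, smul_comm (σ : G) a e, sub_eq_zero.mp h2]
  · intro h1
    apply Multiplicative.toAdd.injective
    apply Subtype.ext
    change (σ : G) • e - e = 0
    rw [h1 e, sub_self]

/-! ### The kernel of the action -/

variable (G V) in
/-- The kernel of the action of `G` on `V`. -/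
def cff_actKer : Subgroup G := (MulAction.toPermHom G V).ker

omit [Fact p.Prime] [Module (ZMod p) V] [SMulCommClass G (ZMod p) V] in
theorem cff_mem_actKer {σ : G} : σ ∈ cff_actKer G V ↔ ∀ x : V, σ • x = x := by
  rw [cff_actKer, MonoidHom.mem_ker]
  constructor
  · intro h x
    have := congrArg (fun f : Equiv.Perm V => f x) h
    simpa using this
  · intro h
    ext x
    simpa using h x

instance : (cff_actKer G V).Normal := by
  unfold cff_actKer; infer_instance

omit [SMulCommClass G (ZMod p) V] in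
/-- The kernel of the action is contained in `ker χ` (as `C ≠ V`). -/
theorem cff_actKer_le (h : cff_Ext C χ) {e : V} (he : e ∉ C) : cff_actKer G V ≤ χ.ker := by
  intro σ hσ
  rw [cff_mem_actKer] at hσ
  rw [MonoidHom.mem_ker]
  by_contra hne
  have h1 := h.quot σ e
  rw [hσ e] at h1
  have h2 : ((1 : ZMod p) - ((χ σ : (ZMod p)ˣ) : ZMod p)) • e ∈ C := by
    rw [sub_smul, one_smul]; exact h1
  have h3 : (1 : ZMod p) - ((χ σ : (ZMod p)ˣ) : ZMod p) ≠ 0 := by
    intro h0
    apply hne
    apply Units.ext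
    rw [Units.val_one]
    exact (sub_eq_zero.mp h0).symm
  apply he
  have := C.smul_mem ((1 : ZMod p) - ((χ σ : (ZMod p)ˣ) : ZMod p))⁻¹ h2
  rwa [← mul_smul, inv_mul_cancel₀ h3, one_smul] at this

/-- `[ker χ : kernel of the action]` divides `p`. -/
theorem cff_relIndex_dvd (h : cff_Ext C χ) (hC : Nat.card C = p) (hV : Nat.card V = p ^ 2) :
    (cff_actKer G V).relIndex χ.ker ∣ p := by
  obtain ⟨e, he⟩ := cff_exists_not_mem C hC hV
  have hker : (cff_actKer G V).subgroupOf χ.ker = (cff_kerHom h e).ker := by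
    ext σ
    rw [Subgroup.mem_subgroupOf, cff_mem_actKer, MonoidHom.mem_ker,
      cff_kerHom_eq_one_iff h e (cff_exists_decomp C hC hV he)]
  rw [Subgroup.relIndex, hker, Subgroup.index_ker]
  have h1 := Subgroup.card_subgroup_dvd_card (cff_kerHom h e).range
  have h2 : Nat.card (Multiplicative C) = p :=
    (Nat.card_congr Multiplicative.toAdd).trans hC
  rwa [h2] at h1

/-- In the non-split case `[ker χ : kernel of the action] = p`. -/
theorem cff_relIndex_eq (h : cff_Ext C χ) (hC : Nat.card C = p) (hV : Nat.card V = p ^ 2)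
    (hns : ¬ ∃ C' : Submodule (ZMod p) V, (∀ σ : G, ∀ x ∈ C', σ • x ∈ C') ∧ IsCompl C C') :
    (cff_actKer G V).relIndex χ.ker = p := by
  have hp := (Fact.out : p.Prime)
  rcases (Nat.dvd_prime hp).mp (cff_relIndex_dvd h hC hV) with h1 | h1
  · exfalso
    apply hns
    apply cff_split_of_trivial h
    intro σ hσ
    rw [Subgroup.relIndex_eq_one] at h1
    exact cff_mem_actKer.mp (h1 (MonoidHom.mem_ker.mpr hσ))
  · exact h1

end lin

end Fermat.Agent.Lib.CFT
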