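import Mathlib
import Fermat.Prelude.Def_ExtCitation_AdmissibleExtension_v2
import Fermat.Agent.Lib.CFT.GalRedLin

set_option autoImplicit false

namespace Fermat.Agent.Lib.CFT

open ExtCitation

/-- `ℚ̄` -/
abbrev cff_Qbar := AlgebraicClosure ℚ
/-- `Gal(ℚ̄/ℚ)` -/
abbrev cff_G := AlgebraicClosure ℚ ≃ₐ[ℚ] AlgebraicClosure ℚ

instance cff_isGalois : IsGalois ℚ cff_Qbar := by
  have : IsAlgClosure ℚ (AlgebraicClosure ℚ) := AlgebraicClosure.instIsAlgClosure ℚ
  exact IsAlgClosure.isGalois ℚ (AlgebraicClosure ℚ)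

section chi

variable (p : ℕ) [Fact p.Prime]

/-- coercion `G →* (Q̄ ≃+* Q̄)` -/
noncomputable def cff_toRingEquiv : cff_G →* (cff_Qbar ≃+* cff_Qbar) where
  toFun σ := (σ : cff_Qbar ≃+* cff_Qbar)
  map_one' := rfl
  map_mul' _ _ := rfl

/-- the mod `p` cyclotomic character on `G_ℚ` -/
noncomputable def cff_chi : cff_G →* (ZMod p)ˣ :=
  haveI : NeZero p := ⟨(Fact.out : p.Prime).ne_zero⟩
  (modularCyclotomicCharacter cff_Qbar (card_rootsOfUnity_eq_self p)).comp cff_toRingEquiv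

theorem cff_cycloExp_cast (σ : cff_G) :
    ((cycloExp p σ : ℕ) : ZMod p) = ((cff_chi p σ : (ZMod p)ˣ) : ZMod p) := by
  have : NeZero p := ⟨(Fact.out : p.Prime).ne_zero⟩
  unfold cycloExp
  exact ZMod.natCast_zmod_val _

theorem cff_chi_spec (σ : cff_G) {ζ : cff_Qbar} (hζ : ζ ^ p = 1) :
    σ ζ = ζ ^ ((cff_chi p σ : (ZMod p)ˣ) : ZMod p).val := by
  have : NeZero p := ⟨(Fact.out : p.Prime).ne_zero⟩
  have hp0 : p ≠ 0 := (Fact.out : p.Prime).ne_zero
  have hζ0 : ζ ≠ 0 := by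
    rintro rfl
    rw [zero_pow hp0] at hζ
    exact zero_ne_one hζ
  have ht : Units.mk0 ζ hζ0 ∈ rootsOfUnity p cff_Qbar := by
    rw [mem_rootsOfUnity]
    apply Units.ext
    simpa using hζ
  exact modularCyclotomicCharacter.spec cff_Qbar (card_rootsOfUnity_eq_self p)
    (σ : cff_Qbar ≃+* cff_Qbar) ht

variable {p}

theorem cff_chi_eq_one_iff {ζ : cff_Qbar} (hζ : IsPrimitiveRoot ζ p) (σ : cff_G) :
    cff_chi p σ = 1 ↔ σ ζ = ζ := by
  have : NeZero p := ⟨(Fact.out : p.Prime).ne_zero⟩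
  have hp1 : 1 < p := (Fact.out : p.Prime).one_lt
  have hspec := cff_chi_spec p σ hζ.pow_eq_one
  constructor
  · intro h
    rw [hspec, h, Units.val_one, ZMod.val_one'' (by omega), pow_one]
  · intro h
    rw [h] at hspec
    have h1 : ((cff_chi p σ : (ZMod p)ˣ) : ZMod p).val = 1 := by
      have := hζ.pow_inj (ZMod.val_lt _) hp1 (by rw [pow_one]; exact hspec.symm)
      exact this
    apply Units.ext
    rw [Units.val_one]
    apply ZMod.val_injective
    rw [h1, ZMod.val_one'' (by omega)]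

theorem cff_chi_eq_of_pow {ζ : cff_Qbar} (hζ : IsPrimitiveRoot ζ p) (τ : cff_G) (k : ℕ)
    (hk : τ ζ = ζ ^ k) : (k : ZMod p) = ((cff_chi p τ : (ZMod p)ˣ) : ZMod p) := by
  have : NeZero p := ⟨(Fact.out : p.Prime).ne_zero⟩
  have hspec := cff_chi_spec p τ hζ.pow_eq_one
  rw [hk] at hspec
  have hp0 : 0 < p := (Fact.out : p.Prime).pos
  have e : ζ ^ k = ζ ^ (k % p) := by
    conv_lhs => rw [← Nat.div_add_mod k p]
    rw [pow_add, pow_mul, hζ.pow_eq_one, one_pow, one_mul]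
  rw [e] at hspec
  have h1 := hζ.pow_inj (Nat.mod_lt k hp0) (ZMod.val_lt _) hspec
  have h2 : (k : ZMod p) = ((k % p : ℕ) : ZMod p) := by
    rw [ZMod.natCast_eq_natCast_iff]
    exact (Nat.mod_modEq k p).symm
  rw [h2, h1, ZMod.natCast_zmod_val]

end chi

end Fermat.Agent.Lib.CFT
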