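/-
S14 (WP-A1, part 3): from a NON-split admissible extension `0 → C → V → μ_p → 0` (Prelude
`ExtCitation.IsAdmissibleExtensionCts`) to the finite-level datum inside `ℚ̄`: a primitive `p`-th root
of unity `ζ` and a finite Galois extension `L/ℚ` containing `ζ` with `[L : ℚ] = p (p - 1)`
(so `[L : ℚ(ζ)] = p`), on which every inertia group at `ℓ ≠ p` and every `D_p ∩ G_{ℚ(ζ)}` acts
trivially, and with the `Δ`-condition `τ σ^k τ⁻¹ = σ` on `L` for `σ ∈ G_{ℚ(ζ)}`, `τ ζ = ζ^k`.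
-/
import Mathlib
import Fermat.Agent.Lib.CFT.GalRedChi

set_option autoImplicit false

namespace Fermat.Agent.Lib.CFT

open ExtCitation IntermediateField

section main

variable {p : ℕ} [Fact p.Prime] {V : Type} [AddCommGroup V] [Module (ZMod p) V]
  [DistribMulAction cff_G V] [SMulCommClass cff_G (ZMod p) V] {C : Submodule (ZMod p) V}

omit [SMulCommClass cff_G (ZMod p) V] in
theorem cff_ext_of_adm (hadm : IsAdmissibleExtensionCts p V C) : cff_Ext C (cff_chi p) where
  fixed := hadm.fixed_sub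
  quot σ x := by
    have := hadm.cyclo_quot σ x
    rwa [cff_cycloExp_cast] at this

/-- the fixing subgroup of `ℚ(ζ)` is the kernel of the cyclotomic character -/
theorem cff_fixingSubgroup_adjoin {ζ : cff_Qbar} (hζ : IsPrimitiveRoot ζ p) :
    (ℚ⟮ζ⟯).fixingSubgroup = (cff_chi p).ker := by
  ext σ
  rw [IntermediateField.mem_fixingSubgroup_iff, MonoidHom.mem_ker, cff_chi_eq_one_iff hζ]
  constructor
  · intro h
    exact h ζ (mem_adjoin_simple_self ℚ ζ)
  · intro h x hx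
    induction hx using IntermediateField.adjoin_induction with
    | mem y hy =>
      rw [Set.mem_singleton_iff] at hy
      rw [hy, h]
    | algebraMap r => exact σ.commutes r
    | add x y _ _ hx hy => rw [map_add, hx, hy]
    | inv x _ hx => rw [map_inv₀, hx]
    | mul x y _ _ hx hy => rw [map_mul, hx, hy]

/-- `[ℚ(ζ_p) : ℚ] = p - 1` -/
theorem cff_finrank_adjoin {ζ : cff_Qbar} (hζ : IsPrimitiveRoot ζ p) :
    Module.finrank ℚ ℚ⟮ζ⟯ = p - 1 := by
  have : NeZero p := ⟨(Fact.out : p.Prime).ne_zero⟩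
  have hcyc : IsCyclotomicExtension {p} ℚ ℚ⟮ζ⟯ :=
    hζ.intermediateField_adjoin_isCyclotomicExtension ℚ
  rw [IsCyclotomicExtension.finrank (n := p) ℚ⟮ζ⟯ (Polynomial.cyclotomic.irreducible_rat
    (Fact.out : p.Prime).pos), Nat.totient_prime Fact.out]

theorem cff_exists_fields (hadm : IsAdmissibleExtensionCts p V C)
    (hns : ¬ SplitsGlobally C) :
    ∃ (ζ : cff_Qbar) (L : IntermediateField ℚ cff_Qbar),
      IsPrimitiveRoot ζ p ∧ ζ ∈ L ∧ FiniteDimensional ℚ L ∧ IsGalois ℚ L ∧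
      Module.finrank ℚ L = p * (p - 1) ∧
      (∀ ℓ : ℕ, ℓ.Prime → ℓ ≠ p → ∀ A : ValuationSubring cff_Qbar, A.LiesOverPrime ℓ →
        ∀ σ ∈ A.inertiaSubgroupIn ℚ, ∀ x ∈ L, σ x = x) ∧
      (∀ A : ValuationSubring cff_Qbar, A.LiesOverPrime p →
        ∀ σ ∈ A.decompositionSubgroup ℚ, σ ζ = ζ → ∀ x ∈ L, σ x = x) ∧
      (∀ (τ σ : cff_G) (k : ℕ), σ ζ = ζ → τ ζ = ζ ^ k → ∀ x ∈ L, (τ * σ ^ k * τ⁻¹) x = σ x) := by
  have hp := (Fact.out : p.Prime)
  have : NeZero p := ⟨hp.ne_zero⟩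
  have hext := cff_ext_of_adm hadm
  have hC := hadm.card_sub
  have hV := hadm.card_total
  -- a primitive root
  obtain ⟨ζ, hζ⟩ : ∃ ζ : cff_Qbar, IsPrimitiveRoot ζ p :=
    HasEnoughRootsOfUnity.exists_primitiveRoot cff_Qbar p
  -- the kernel of the action
  set N : Subgroup cff_G := cff_actKer cff_G V with hN
  have hNopen : IsOpen (N : Set cff_G) := by
    have : (N : Set cff_G) = {σ : cff_G | ∀ v : V, σ • v = v} := by
      ext σ
      exact cff_mem_actKer
    rw [this]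
    exact hadm.open_kernel
  have hNclosed : IsClosed (N : Set cff_G) := Subgroup.isClosed_of_isOpen N hNopen
  set L : IntermediateField ℚ cff_Qbar := IntermediateField.fixedField N with hL
  have hfix : L.fixingSubgroup = N :=
    InfiniteGalois.fixingSubgroup_fixedField ⟨N, hNclosed⟩
  have hfd : FiniteDimensional ℚ L := by
    rw [← InfiniteGalois.isOpen_iff_finite, hfix]
    exact hNopen
  have hgal : IsGalois ℚ L :=
    (InfiniteGalois.normal_iff_isGalois L).mp (by rw [hfix]; infer_instance)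
  -- `N ≤ ker χ`
  obtain ⟨e, he⟩ := cff_exists_not_mem C hC hV
  have hNle : N ≤ (cff_chi p).ker := cff_actKer_le hext he
  have hζL : ζ ∈ L := by
    rw [hL, IntermediateField.mem_fixedField_iff]
    intro σ hσ
    exact (cff_chi_eq_one_iff hζ σ).mp (MonoidHom.mem_ker.mp (hNle hσ))
  have hmemL : ∀ σ : cff_G, σ ∈ N → ∀ x ∈ L, σ x = x := by
    intro σ hσ x hx
    exact (IntermediateField.mem_fixedField_iff _ _).mp hx σ hσ
  -- the degree
  have hrel : N.relIndex (cff_chi p).ker = p := cff_relIndex_eq hext hC hV hns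
  have hdeg : Module.finrank ℚ L = p * (p - 1) := by
    rw [IntermediateField.finrank_eq_fixingSubgroup_index, hfix,
      ← Subgroup.relIndex_mul_index hNle, hrel, ← cff_fixingSubgroup_adjoin hζ,
      ← IntermediateField.finrank_eq_fixingSubgroup_index, cff_finrank_adjoin hζ]
  refine ⟨ζ, L, hζ, hζL, hfd, hgal, hdeg, ?_, ?_, ?_⟩
  · intro ℓ hℓ hℓp A hA σ hσ x hx
    refine hmemL σ ?_ x hx
    rw [hN, cff_mem_actKer]
    exact hadm.unramified_outside ℓ hℓ hℓp A hA σ hσ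
  · intro A hA σ hσ hσζ x hx
    refine hmemL σ ?_ x hx
    rw [hN, cff_mem_actKer]
    have hχ : cff_chi p σ = 1 := (cff_chi_eq_one_iff hζ σ).mpr hσζ
    obtain ⟨C', hC'stab, hC'⟩ := hadm.locally_split A hA
    intro v
    have hv : v ∈ C ⊔ C' := by rw [hC'.sup_eq_top]; trivial
    obtain ⟨c, hc, c', hc', rfl⟩ := Submodule.mem_sup.mp hv
    rw [smul_add, hext.fixed σ c hc]
    congr 1
    have h1 : σ • c' - c' ∈ C := hext.sub_mem hχ c'
    have h2 : σ • c' - c' ∈ C' := C'.sub_mem (hC'stab σ hσ c' hc') hc'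
    have h3 : σ • c' - c' ∈ C ⊓ C' := ⟨h1, h2⟩
    rw [hC'.inf_eq_bot, Submodule.mem_bot] at h3
    exact sub_eq_zero.mp h3
  · intro τ σ k hσ hτ x hx
    have hχ : cff_chi p σ = 1 := (cff_chi_eq_one_iff hζ σ).mpr hσ
    have hk := cff_chi_eq_of_pow hζ τ k hτ
    -- `σ⁻¹ τ σ^k τ⁻¹ ∈ N`
    have hmem : σ⁻¹ * (τ * σ ^ k * τ⁻¹) ∈ N := by
      rw [hN, cff_mem_actKer]
      intro v
      rw [mul_smul, hext.conj_pow_smul hχ τ k hk v, inv_smul_smul]
    have := hmemL _ hmem x hx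
    rw [AlgEquiv.mul_apply] at this
    have h2 := congrArg σ this
    rwa [← AlgEquiv.mul_apply, mul_inv_cancel, AlgEquiv.one_apply] at h2

end main

end Fermat.Agent.Lib.CFT
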