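/-
S14, interfaces and final reduction (owner helper6).
* `cft_NoExt p` — the MASTER PROP proved by the class-field-theory work packages: there is no
  everywhere unramified cyclic extension `L` of degree `p` of `K = ℚ(ζ_p)`, Galois over `ℚ`, on whose
  Galois group `Gal(K/ℚ)` acts through `ω⁻¹` (`τ σ^k τ⁻¹ = σ` whenever `τ ζ = ζ^k`).
* `cff_IfaceBridge p` — the ramification bridge (WP-A2): infinite-level triviality of inertia /
  decomposition groups on `L` ⇒ `cft_Unram K L`.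
* `cff_extVanishing : cft_NoExt p → cff_IfaceBridge p → ExtCitation.ExtVanishingCts p` (= S14).
-/
import Mathlib
import Fermat.Agent.Lib.CFT.Defs
import Fermat.Agent.Lib.CFT.GalRed

set_option autoImplicit false

namespace Fermat.Agent.Lib.CFT

open NumberField IntermediateField ExtCitation

/-- **Master Prop**: no everywhere unramified cyclic degree-`p` extension `L` of `K = ℚ(ζ_p)` which
is Galois over `ℚ` with `Gal(K/ℚ)` acting on `Gal(L/K)` through `ω⁻¹`. -/
def cft_NoExt (p : ℕ) : Prop :=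
  ∀ (K L : Type) [Field K] [NumberField K] [Field L] [NumberField L] [Algebra K L]
    [IsCyclotomicExtension {p} ℚ K] [IsGalois K L] [IsGalois ℚ L] (ζ : K),
    IsPrimitiveRoot ζ p → Module.finrank K L = p → cft_Unram K L →
    (∀ (τ : L ≃ₐ[ℚ] L) (σ : L ≃ₐ[K] L) (k : ℕ),
      τ (algebraMap K L ζ) = algebraMap K L ζ ^ k →
      τ * (σ.restrictScalars ℚ) ^ k * τ⁻¹ = σ.restrictScalars ℚ) → False

/-- The ramification bridge (WP-A2) as an interface Prop. -/
def cff_IfaceBridge (p : ℕ) : Prop :=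
  ∀ (K : IntermediateField ℚ cff_Qbar) (L : IntermediateField K cff_Qbar)
    [NumberField K] [NumberField L] [IsGalois ℚ L],
    (∀ ℓ : ℕ, ℓ.Prime → ℓ ≠ p → ∀ A : ValuationSubring cff_Qbar, A.LiesOverPrime ℓ →
        ∀ σ ∈ A.inertiaSubgroupIn ℚ, ∀ x ∈ L, σ x = x) →
    (∀ A : ValuationSubring cff_Qbar, A.LiesOverPrime p →
        ∀ σ ∈ A.decompositionSubgroup ℚ, (∀ x ∈ K, σ x = x) → ∀ x ∈ L, σ x = x) →
    cft_Unram K L

section pack

variable {p : ℕ} [Fact p.Prime]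

theorem cff_false_of_fields (hNo : cft_NoExt p) (hBr : cff_IfaceBridge p)
    (ζ : cff_Qbar) (hζ : IsPrimitiveRoot ζ p) (L : IntermediateField ℚ cff_Qbar)
    (hζL : ζ ∈ L) (hfd : FiniteDimensional ℚ L) (hgal : IsGalois ℚ L)
    (hdeg : Module.finrank ℚ L = p * (p - 1))
    (h1 : ∀ ℓ : ℕ, ℓ.Prime → ℓ ≠ p → ∀ A : ValuationSubring cff_Qbar, A.LiesOverPrime ℓ →
        ∀ σ ∈ A.inertiaSubgroupIn ℚ, ∀ x ∈ L, σ x = x)
    (h2 : ∀ A : ValuationSubring cff_Qbar, A.LiesOverPrime p →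
        ∀ σ ∈ A.decompositionSubgroup ℚ, σ ζ = ζ → ∀ x ∈ L, σ x = x)
    (hΔ : ∀ (τ σ : cff_G) (k : ℕ), σ ζ = ζ → τ ζ = ζ ^ k → ∀ x ∈ L,
        (τ * σ ^ k * τ⁻¹) x = σ x) : False := by
  have hp := (Fact.out : p.Prime)
  have : NeZero p := ⟨hp.ne_zero⟩
  set K : IntermediateField ℚ cff_Qbar := ℚ⟮ζ⟯ with hK
  have hζK : ζ ∈ K := mem_adjoin_simple_self ℚ ζ
  have hKL : K ≤ L := adjoin_simple_le_iff.mpr hζL
  set L' : IntermediateField K cff_Qbar := IntermediateField.extendScalars hKL with hL'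
  have hmemL' : ∀ x : cff_Qbar, x ∈ L' ↔ x ∈ L := fun x => Iff.rfl
  have hKfd : FiniteDimensional ℚ K := by
    have : FiniteDimensional ℚ ℚ⟮ζ⟯ :=
      IntermediateField.adjoin.finiteDimensional (hζ.isIntegral hp.pos).tower_top
    exact this
  have hNK : NumberField K := ⟨⟩
  have hL'fd : FiniteDimensional ℚ L' := hfd
  have hNL : NumberField L' := ⟨⟩
  have hcyc : IsCyclotomicExtension {p} ℚ K := hζ.intermediateField_adjoin_isCyclotomicExtension ℚ
  have hgal' : IsGalois ℚ L' := hgal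
  have hgalK : IsGalois K L' := IsGalois.tower_top_of_isGalois ℚ K L'
  -- the primitive root in `K`
  set ζ' : K := ⟨ζ, hζK⟩ with hζ'
  have hζ'p : IsPrimitiveRoot ζ' p := by
    have : IsPrimitiveRoot ((algebraMap K cff_Qbar) ζ') p := hζ
    exact IsPrimitiveRoot.of_map_of_injective (f := algebraMap K cff_Qbar) this
      (algebraMap K cff_Qbar).injective
  -- the degree
  have hdegK : Module.finrank ℚ K = p - 1 := cff_finrank_adjoin hζ
  have hdegL' : Module.finrank ℚ L' = p * (p - 1) := hdeg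
  have hdeg' : Module.finrank K L' = p := by
    have h := Module.finrank_mul_finrank ℚ K L'
    rw [hdegK, hdegL'] at h
    have hp1 : 0 < p - 1 := by have := hp.two_le; omega
    have : (p - 1) * Module.finrank K L' = (p - 1) * p := by rw [h]; ring
    exact Nat.eq_of_mul_eq_mul_left hp1 this
  -- unramified
  have hun : cft_Unram K L' := by
    refine hBr K L' ?_ ?_
    · intro ℓ hℓ hℓp A hA σ hσ x hx
      exact h1 ℓ hℓ hℓp A hA σ hσ x hx
    · intro A hA σ hσ hK x hx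
      exact h2 A hA σ hσ (hK ζ hζK) x hx
  -- the Δ-condition
  refine hNo K L' ζ' hζ'p hdeg' hun ?_
  intro τ σ k hτ
  obtain ⟨τ', hτ'⟩ := AlgEquiv.restrictNormalHom_surjective (F := ℚ) (K₁ := L') cff_Qbar τ
  obtain ⟨σ', hσ'⟩ := AlgEquiv.restrictNormalHom_surjective (F := ℚ) (K₁ := L') cff_Qbar
    (σ.restrictScalars ℚ)
  have hcomm : ∀ (χ : cff_G) (x : L'),
      ((AlgEquiv.restrictNormalHom L' χ x : L') : cff_Qbar) = χ (x : cff_Qbar) := fun χ x =>
    AlgEquiv.restrictNormal_commutes χ L' x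
  -- `σ'` fixes `ζ`
  have hσζ : σ' ζ = ζ := by
    have hz : (ζ : cff_Qbar) = ((algebraMap K L' ζ' : L') : cff_Qbar) := rfl
    rw [hz, ← hcomm σ', hσ']
    congr 1
    exact σ.commutes ζ'
  have hτζ : τ' ζ = ζ ^ k := by
    have hz : (ζ : cff_Qbar) = ((algebraMap K L' ζ' : L') : cff_Qbar) := rfl
    rw [hz, ← hcomm τ', hτ', hτ]
    rfl
  rw [← hτ', ← hσ', ← map_pow, ← map_inv, ← map_mul, ← map_mul]
  ext x
  rw [hcomm, hcomm]
  exact hΔ τ' σ' k hσζ hτζ x x.2

end pack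

/-- **S14 from the master Prop and the bridge.** -/
theorem cff_extVanishing {p : ℕ} [Fact p.Prime] (hNo : cft_NoExt p) (hBr : cff_IfaceBridge p) :
    ExtVanishingCts p := by
  intro V _ _ _ _ C hadm
  by_contra hns
  obtain ⟨ζ, L, hζ, hζL, hfd, hgal, hdeg, h1, h2, hΔ⟩ := cff_exists_fields hadm hns
  exact cff_false_of_fields hNo hBr ζ hζ L hζL hfd hgal hdeg h1 h2 hΔ

end Fermat.Agent.Lib.CFT
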