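import Mathlib
import Fermat.Agent.Lib.CFT.Defs

/-!
# Finite level: trivial inertia group implies unramified

`K ⊆ L` number fields, `L/K` Galois.  Pure Mathlib (`Ideal.card_inertia_eq_ramificationIdxIn`,
`Ideal.ramificationIdxIn_eq_ramificationIdx`, `Ideal.ramificationIdx_eq_one_iff`).
-/

set_option autoImplicit false

namespace Fermat.Agent.Lib.CFT

open NumberField
open scoped Pointwise

variable {K L : Type*} [Field K] [NumberField K] [Field L] [NumberField L] [Algebra K L]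
  [IsGalois K L]

/-- If the only element of `Gal(L/K)` acting trivially on `𝓞 L / Q` is the identity, then `Q` is
unramified over `𝓞 K`.  (Action of `Gal(L/K)` on `𝓞 L` = Mathlib's `MulSemiringAction`.) -/
theorem cfg_isUnramifiedAt_of_inertia (Q : Ideal (𝓞 L)) [Q.IsPrime] (_hQ : Q ≠ ⊥)
    (h : ∀ σ : L ≃ₐ[K] L, (∀ x : 𝓞 L, σ • x - x ∈ Q) → σ = 1) :
    Algebra.IsUnramifiedAt (𝓞 K) Q := by
  have hlo : Q.LiesOver (Q.under (𝓞 K)) := ⟨rfl⟩
  have hcard : Nat.card (Q.inertia (L ≃ₐ[K] L)) = 1 := by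
    rw [Nat.card_eq_one_iff_unique]
    refine ⟨⟨fun a b => ?_⟩, ⟨1⟩⟩
    have ha : (a : L ≃ₐ[K] L) = 1 := h a (fun x => AddSubgroup.mem_inertia.mp a.2 x)
    have hb : (b : L ≃ₐ[K] L) = 1 := h b (fun x => AddSubgroup.mem_inertia.mp b.2 x)
    exact Subtype.ext (ha.trans hb.symm)
  rw [← Ideal.ramificationIdx_eq_one_iff,
    ← Ideal.ramificationIdxIn_eq_ramificationIdx (Q.under (𝓞 K)) Q (L ≃ₐ[K] L),
    ← Ideal.card_inertia_eq_ramificationIdxIn (G := L ≃ₐ[K] L) (Q.under (𝓞 K)) Q, hcard]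

/-- The same with the action written through `galRestrict`. -/
theorem cfg_isUnramifiedAt_of_inertia' (Q : Ideal (𝓞 L)) [Q.IsPrime] (hQ : Q ≠ ⊥)
    (h : ∀ σ : L ≃ₐ[K] L, (∀ x : 𝓞 L, galRestrict (𝓞 K) K L (𝓞 L) σ x - x ∈ Q) → σ = 1) :
    Algebra.IsUnramifiedAt (𝓞 K) Q := by
  refine cfg_isUnramifiedAt_of_inertia Q hQ fun σ hσ => h σ fun x => ?_
  have hx : galRestrict (𝓞 K) K L (𝓞 L) σ x = σ • x := by
    apply RingOfIntegers.ext
    exact algebraMap_galRestrict_apply (𝓞 K) σ x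
  rw [hx]
  exact hσ x

/-- Conversely, at an unramified prime the inertia group is trivial. -/
theorem cfg_eq_one_of_isUnramifiedAt (Q : Ideal (𝓞 L)) [Q.IsPrime] (_hQ : Q ≠ ⊥)
    [hun : Algebra.IsUnramifiedAt (𝓞 K) Q] (σ : L ≃ₐ[K] L) (hσ : ∀ x : 𝓞 L, σ • x - x ∈ Q) :
    σ = 1 := by
  have hlo : Q.LiesOver (Q.under (𝓞 K)) := ⟨rfl⟩
  have hcard : Nat.card (Q.inertia (L ≃ₐ[K] L)) = 1 := by
    rw [Ideal.card_inertia_eq_ramificationIdxIn (G := L ≃ₐ[K] L) (Q.under (𝓞 K)) Q,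
      Ideal.ramificationIdxIn_eq_ramificationIdx (Q.under (𝓞 K)) Q (L ≃ₐ[K] L),
      Ideal.ramificationIdx_eq_one_iff]
    exact hun
  have hsub := (Nat.card_eq_one_iff_unique.mp hcard).1
  have h1 : (⟨σ, AddSubgroup.mem_inertia.mpr hσ⟩ : Q.inertia (L ≃ₐ[K] L)) = 1 :=
    Subsingleton.elim _ _
  exact congrArg Subtype.val h1

/-- Trivial inertia at all nonzero primes implies `cft_Unram`. -/
theorem cfg_unram_of_inertia_trivial
    (h : ∀ (Q : Ideal (𝓞 L)) [Q.IsPrime], Q ≠ ⊥ → ∀ τ : L ≃ₐ[K] L,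
      (∀ x : 𝓞 L, τ • x - x ∈ Q) → τ = 1) : cft_Unram K L :=
  fun Q _ hQ => cfg_isUnramifiedAt_of_inertia Q hQ (h Q hQ)

end Fermat.Agent.Lib.CFT
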