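import Mathlib
import Fermat.Agent.Lib.Frey.Ord
import Fermat.Agent.Lib.Frey.OrdInertia
import Fermat.Prelude.Def_FLTPrelim_Ramification

/-!
# Valuation subrings of an algebraic extension of `ℚ` and the ring of all algebraic integers

Let `Ω` be a field of characteristic zero, algebraic over `ℚ`, and let `A` be a valuation subring
of `Ω` whose maximal ideal contains a prime number `ℓ`.  We show that `A` is the localisation of
the ring `integralClosure ℤ Ω` of all algebraic integers at its centre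
`cfg_center A = A.nonunits ∩ integralClosure ℤ Ω`:

* `cfg_exists_integral_mul` : every `x ∈ A` can be written `x = a / s` with `a`, `s` algebraic
  integers and `s` a unit of `A`.
* `cfg_center_isMaximal` : the centre is a maximal ideal.
* `cfg_le_of_center_le` , `cfg_eq_of_center_eq`: `A` is determined by its centre.
* `cfg_exists_sub_mem_nonunits` : the residue field of `A` is the residue field of the centre.
* `cfg_mem_inertiaSubgroupIn_of_center` : criterion for membership of the inertia subgroup in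
  terms of the action on algebraic integers.
-/

set_option autoImplicit false

namespace Fermat.Agent.Lib.CFT

open Polynomial Fermat.Agent.Lib.Frey

section tails

variable {Ω : Type*} [Field Ω]

/-- The `j`-th tail `∑_{i ≥ j} c_i x ^ (i - j)` of the value `f(x)`. -/
noncomputable def cfg_tail (f : ℤ[X]) (x : Ω) (j : ℕ) : Ω :=
  ∑ i ∈ Finset.range (f.natDegree + 1 - j), (f.coeff (j + i) : Ω) * x ^ i

lemma cfg_pow_mul_tail (f : ℤ[X]) (x : Ω) (hf : aeval x f = 0) {j : ℕ} (hj : j ≤ f.natDegree + 1) :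
    x ^ j * cfg_tail f x j = - ∑ m ∈ Finset.range j, (f.coeff m : Ω) * x ^ m := by
  have h1 : aeval x f = ∑ i ∈ Finset.range (j + (f.natDegree + 1 - j)), (f.coeff i : Ω) * x ^ i := by
    rw [aeval_eq_sum_range, Nat.add_sub_cancel' hj]
    refine Finset.sum_congr rfl fun i _ => ?_
    rw [zsmul_eq_mul]
  rw [Finset.sum_range_add, hf] at h1
  have h2 : x ^ j * cfg_tail f x j
      = ∑ i ∈ Finset.range (f.natDegree + 1 - j), (f.coeff (j + i) : Ω) * x ^ (j + i) := by
    rw [cfg_tail, Finset.mul_sum]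
    refine Finset.sum_congr rfl fun i _ => ?_
    rw [pow_add]; ring
  rw [h2]
  exact eq_neg_of_add_eq_zero_right h1.symm

/-- The `ℤ`-span of `1, x, …, x ^ (n - 1)`. -/
noncomputable def cfg_powSpan (x : Ω) (n : ℕ) : Submodule ℤ Ω :=
  Submodule.span ℤ ((fun m : ℕ => x ^ m) '' (Set.Iio n))

lemma cfg_pow_mem_powSpan (x : Ω) {n m : ℕ} (h : m < n) : x ^ m ∈ cfg_powSpan x n :=
  Submodule.subset_span ⟨m, h, rfl⟩

lemma cfg_powSpan_fg (x : Ω) (n : ℕ) : (cfg_powSpan x n).FG :=
  Submodule.fg_span ((Set.finite_Iio n).image _)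

lemma cfg_tail_mul_pow_mem (f : ℤ[X]) (x : Ω) (hf : aeval x f = 0) (j : ℕ) {i : ℕ}
    (hi : i ≤ f.natDegree) : cfg_tail f x j * x ^ i ∈ cfg_powSpan x f.natDegree := by
  rcases lt_or_ge i j with hij | hij
  · rw [cfg_tail, Finset.sum_mul]
    refine Submodule.sum_mem _ fun m hm => ?_
    rw [Finset.mem_range] at hm
    have : (f.coeff (j + m) : Ω) * x ^ m * x ^ i = (f.coeff (j + m)) • x ^ (m + i) := by
      rw [zsmul_eq_mul, pow_add]; ring
    rw [this]
    exact Submodule.smul_mem _ _ (cfg_pow_mem_powSpan x (by omega))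
  · have h1 : cfg_tail f x j * x ^ i = x ^ (i - j) * (x ^ j * cfg_tail f x j) := by
      rw [← mul_assoc, ← pow_add, Nat.sub_add_cancel hij, mul_comm]
    rw [h1, cfg_pow_mul_tail f x hf (by omega), mul_neg, Finset.mul_sum]
    refine Submodule.neg_mem _ (Submodule.sum_mem _ fun m hm => ?_)
    rw [Finset.mem_range] at hm
    have : x ^ (i - j) * ((f.coeff m : Ω) * x ^ m) = (f.coeff m) • x ^ (i - j + m) := by
      rw [zsmul_eq_mul, pow_add]; ring
    rw [this]
    exact Submodule.smul_mem _ _ (cfg_pow_mem_powSpan x (by omega))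

lemma cfg_isIntegral_of_mul_pow_mem (x : Ω) {n : ℕ} (hn : 0 < n) (t : Ω)
    (ht : ∀ m < n, t * x ^ m ∈ cfg_powSpan x n) : IsIntegral ℤ t := by
  refine isIntegral_of_smul_mem_submodule (M := Ω) (cfg_powSpan x n) ?_ (cfg_powSpan_fg x n) t ?_
  · intro h
    have h1 : x ^ 0 ∈ cfg_powSpan x n := cfg_pow_mem_powSpan x hn
    rw [h, Submodule.mem_bot, pow_zero] at h1
    exact one_ne_zero h1
  · intro y hy
    induction hy using Submodule.span_induction with
    | mem y hy =>
      obtain ⟨m, hm, rfl⟩ := hy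
      exact ht m hm
    | zero => rw [smul_zero]; exact Submodule.zero_mem _
    | add y z _ _ hy hz => rw [smul_add]; exact Submodule.add_mem _ hy hz
    | smul c y _ hy => rw [smul_comm]; exact Submodule.smul_mem _ _ hy

lemma cfg_isIntegral_tail (f : ℤ[X]) (x : Ω) (hf : aeval x f = 0) (hn : 0 < f.natDegree) (j : ℕ) :
    IsIntegral ℤ (cfg_tail f x j) :=
  cfg_isIntegral_of_mul_pow_mem x hn _ fun _ hm => cfg_tail_mul_pow_mem f x hf j hm.le

lemma cfg_isIntegral_mul_tail (f : ℤ[X]) (x : Ω) (hf : aeval x f = 0) (hn : 0 < f.natDegree)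
    (j : ℕ) : IsIntegral ℤ (x * cfg_tail f x j) := by
  refine cfg_isIntegral_of_mul_pow_mem x hn _ fun m hm => ?_
  have : x * cfg_tail f x j * x ^ m = cfg_tail f x j * x ^ (m + 1) := by rw [pow_succ]; ring
  rw [this]
  exact cfg_tail_mul_pow_mem f x hf j hm

end tails

section lemmaF

variable {Ω : Type*} [Field Ω] [CharZero Ω] (A : ValuationSubring Ω)

omit [CharZero Ω] in
/-- Algebraic integers belong to every valuation subring. -/
lemma cfg_mem_of_isIntegral {x : Ω} (hx : IsIntegral ℤ x) : x ∈ A := by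
  have h1 : IsIntegral A x := hx.tower_top
  obtain ⟨y, hy⟩ := (IsIntegrallyClosed.isIntegral_iff (R := A) (K := Ω)).mp h1
  rw [← hy]
  exact y.2

variable {A}

/-- If all coefficients of `f` above degree `k` are divisible by `ℓ` and the `k`-th one is not,
the `k`-th tail of `f(x)` is a unit of `A`. -/
lemma cfg_val_tail_eq_one {ℓ : ℕ} (hℓ : ℓ.Prime) (hA : (ℓ : Ω) ∈ A.nonunits) (f : ℤ[X]) {x : Ω}
    (hxA : x ∈ A) {k : ℕ} (hk : k ≤ f.natDegree) (hk1 : ¬ (ℓ : ℤ) ∣ f.coeff k)
    (hk2 : ∀ i, k < i → (ℓ : ℤ) ∣ f.coeff i) : A.valuation (cfg_tail f x k) = 1 := by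
  have hsplit : f.natDegree + 1 - k = (f.natDegree - k) + 1 := by omega
  rw [cfg_tail, hsplit, Finset.sum_range_succ', add_comm]
  have h0 : A.valuation ((f.coeff (k + 0) : Ω) * x ^ 0) = 1 := by
    rw [pow_zero, mul_one, add_zero]
    exact ford_val_intCast_of_not_dvd hℓ hA hk1
  have hx1 : A.valuation x ≤ 1 := (A.valuation_le_one_iff x).mpr hxA
  have hrest : A.valuation (∑ i ∈ Finset.range (f.natDegree - k),
      (f.coeff (k + (i + 1)) : Ω) * x ^ (i + 1)) < 1 := by
    refine Valuation.map_sum_lt _ one_ne_zero fun i _ => ?_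
    obtain ⟨d, hd⟩ := hk2 (k + (i + 1)) (by omega)
    rw [hd, map_mul, map_pow]
    have h1 : A.valuation (((ℓ : ℤ) * d : ℤ) : Ω) < 1 := by
      rw [Int.cast_mul, map_mul, Int.cast_natCast]
      exact mul_lt_one_of_nonneg_of_lt_one_left zero_le (A.mem_nonunits_iff.mp hA)
        (ford_val_intCast_le_one A d)
    exact mul_lt_one_of_nonneg_of_lt_one_left zero_le h1 (pow_le_one₀ zero_le hx1)
  rw [← h0]
  refine Valuation.map_add_eq_of_lt_left _ ?_
  rw [h0]
  exact hrest

/-- **Lemma F**: every element `x` of a valuation subring `A` over `ℓ` which is algebraic over `ℤ`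
is a quotient `a / s` of algebraic integers with `s` a unit of `A`. -/
theorem cfg_exists_integral_mul {ℓ : ℕ} (hℓ : ℓ.Prime) (hA : (ℓ : Ω) ∈ A.nonunits) {x : Ω}
    (hxA : x ∈ A) (hx : IsAlgebraic ℤ x) :
    ∃ s : Ω, IsIntegral ℤ s ∧ IsIntegral ℤ (x * s) ∧ A.valuation s = 1 := by
  obtain ⟨g, hg0, hgx⟩ := hx
  set f := g.primPart with hf_def
  have hfx : aeval x f = 0 := aeval_primPart_eq_zero hg0 hgx
  have hprim : f.IsPrimitive := isPrimitive_primPart g
  -- some coefficient is prime to `ℓ`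
  have hex : ∃ i, i ≤ f.natDegree ∧ ¬ (ℓ : ℤ) ∣ f.coeff i := by
    by_contra hcon
    have hall : ∀ i, (ℓ : ℤ) ∣ f.coeff i := by
      intro i
      by_cases hi : i ≤ f.natDegree
      · by_contra h
        exact hcon ⟨i, hi, h⟩
      · rw [coeff_eq_zero_of_natDegree_lt (not_le.mp hi)]
        exact dvd_zero _
    have hu : IsUnit (ℓ : ℤ) := hprim _ ((C_dvd_iff_dvd_coeff _ _).mpr hall)
    exact (Nat.prime_iff_prime_int.mp hℓ).not_isUnit hu
  classical
  let S : Finset ℕ := (Finset.range (f.natDegree + 1)).filter fun i => ¬ (ℓ : ℤ) ∣ f.coeff i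
  have hS : S.Nonempty := by
    obtain ⟨i, hi, hi'⟩ := hex
    exact ⟨i, Finset.mem_filter.mpr ⟨Finset.mem_range.mpr (by omega), hi'⟩⟩
  set k := S.max' hS with hk_def
  have hkS : k ∈ S := Finset.max'_mem S hS
  obtain ⟨hkn, hk1⟩ := Finset.mem_filter.mp hkS
  rw [Finset.mem_range] at hkn
  have hk2 : ∀ i, k < i → (ℓ : ℤ) ∣ f.coeff i := by
    intro i hi
    by_cases hin : i ≤ f.natDegree
    · by_contra h
      have hiS : i ∈ S := Finset.mem_filter.mpr ⟨Finset.mem_range.mpr (by omega), h⟩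
      exact absurd (Finset.le_max' S i hiS) (not_le.mpr hi)
    · rw [coeff_eq_zero_of_natDegree_lt (not_le.mp hin)]
      exact dvd_zero _
  have hval : A.valuation (cfg_tail f x k) = 1 :=
    cfg_val_tail_eq_one hℓ hA f hxA (by omega) hk1 hk2
  have hk0 : 0 < k := by
    rcases Nat.eq_zero_or_pos k with h0 | h0
    · exfalso
      have h1 := cfg_pow_mul_tail f x hfx (j := 0) (by omega)
      rw [pow_zero, one_mul, Finset.range_zero, Finset.sum_empty, neg_zero] at h1
      rw [h0, h1, map_zero] at hval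
      exact zero_ne_one hval
    · exact h0
  have hn : 0 < f.natDegree := by omega
  exact ⟨cfg_tail f x k, cfg_isIntegral_tail f x hfx hn k, cfg_isIntegral_mul_tail f x hfx hn k, hval⟩

end lemmaF

section center

open NumberField

variable {Ω : Type*} [Field Ω] [CharZero Ω] (A : ValuationSubring Ω)

omit [CharZero Ω] in
lemma cfg_coe_mem (b : 𝓞 Ω) : algebraMap (𝓞 Ω) Ω b ∈ A :=
  cfg_mem_of_isIntegral A (RingOfIntegers.isIntegral_coe b)

/-- The centre of the valuation subring `A` on the ring of all algebraic integers of `Ω`. -/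
def cfg_center : Ideal (𝓞 Ω) where
  carrier := {b | algebraMap (𝓞 Ω) Ω b ∈ A.nonunits}
  add_mem' := by
    intro a b ha hb
    simp only [Set.mem_ofPred_eq, ValuationSubring.mem_nonunits_iff, map_add] at ha hb ⊢
    exact Valuation.map_add_lt _ ha hb
  zero_mem' := by
    simp only [Set.mem_ofPred_eq, ValuationSubring.mem_nonunits_iff, map_zero]
    exact zero_lt_one
  smul_mem' := by
    intro c b hb
    simp only [Set.mem_ofPred_eq, ValuationSubring.mem_nonunits_iff, smul_eq_mul, map_mul] at hb ⊢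
    exact mul_lt_one_of_nonneg_of_lt_one_right
      ((A.valuation_le_one_iff _).mpr (cfg_coe_mem A c)) zero_le hb

variable {A}

omit [CharZero Ω] in
lemma cfg_mem_center_iff {b : 𝓞 Ω} : b ∈ cfg_center A ↔ algebraMap (𝓞 Ω) Ω b ∈ A.nonunits :=
  Iff.rfl

omit [CharZero Ω] in
lemma cfg_mem_center_iff_val {b : 𝓞 Ω} :
    b ∈ cfg_center A ↔ A.valuation (algebraMap (𝓞 Ω) Ω b) < 1 :=
  A.mem_nonunits_iff

omit [CharZero Ω] in
lemma cfg_not_mem_center_iff_val {b : 𝓞 Ω} :
    b ∉ cfg_center A ↔ A.valuation (algebraMap (𝓞 Ω) Ω b) = 1 := by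
  rw [cfg_mem_center_iff_val, not_lt]
  exact ⟨fun h => le_antisymm ((A.valuation_le_one_iff _).mpr (cfg_coe_mem A b)) h, fun h => h.ge⟩

omit [CharZero Ω] in
lemma cfg_center_ne_top : cfg_center A ≠ ⊤ := by
  intro h
  have h1 : (1 : 𝓞 Ω) ∈ cfg_center A := h ▸ Submodule.mem_top
  rw [cfg_mem_center_iff_val, map_one, map_one] at h1
  exact lt_irrefl _ h1

omit [CharZero Ω] in
instance cfg_center_isPrime : (cfg_center A).IsPrime := by
  refine ⟨cfg_center_ne_top, ?_⟩
  intro a b hab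
  by_contra hcon
  rw [not_or] at hcon
  have ha := cfg_not_mem_center_iff_val.mp hcon.1
  have hb := cfg_not_mem_center_iff_val.mp hcon.2
  rw [cfg_mem_center_iff_val, map_mul, map_mul, ha, hb, one_mul] at hab
  exact lt_irrefl _ hab

omit [CharZero Ω] in
lemma cfg_natCast_mem_center {ℓ : ℕ} (hA : (ℓ : Ω) ∈ A.nonunits) : (ℓ : 𝓞 Ω) ∈ cfg_center A := by
  rw [cfg_mem_center_iff, map_natCast]
  exact hA

omit [CharZero Ω] in
/-- The centre of a valuation subring over `ℓ` is a maximal ideal. -/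
theorem cfg_center_isMaximal {ℓ : ℕ} (hℓ : ℓ.Prime) (hA : (ℓ : Ω) ∈ A.nonunits) :
    (cfg_center A).IsMaximal := by
  refine Ideal.isMaximal_of_isIntegral_of_isMaximal_comap (R := ℤ) (cfg_center A) ?_
  have hmax : (Ideal.span {(ℓ : ℤ)}).IsMaximal :=
    (Ideal.span_singleton_prime (by exact_mod_cast hℓ.ne_zero)).mpr
      (Nat.prime_iff_prime_int.mp hℓ) |>.isMaximal (by
        rw [Ne, Ideal.span_singleton_eq_bot]; exact_mod_cast hℓ.ne_zero)
  have hle : Ideal.span {(ℓ : ℤ)} ≤ Ideal.comap (algebraMap ℤ (𝓞 Ω)) (cfg_center A) := by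
    rw [Ideal.span_le, Set.singleton_subset_iff]
    change algebraMap ℤ (𝓞 Ω) (ℓ : ℤ) ∈ cfg_center A
    rw [map_natCast]
    exact cfg_natCast_mem_center hA
  have hne : Ideal.comap (algebraMap ℤ (𝓞 Ω)) (cfg_center A) ≠ ⊤ :=
    Ideal.comap_ne_top _ cfg_center_ne_top
  rw [← hmax.eq_of_le hne hle]
  exact hmax

variable [Algebra ℚ Ω] [Algebra.IsAlgebraic ℚ Ω]

omit [CharZero Ω] in
lemma cfg_isAlgebraic_int (x : Ω) : IsAlgebraic ℤ x :=
  (IsFractionRing.isAlgebraic_iff ℤ ℚ Ω).mpr (Algebra.IsAlgebraic.isAlgebraic x)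

/-- Every element of `A` is a quotient of algebraic integers with denominator outside the
centre. -/
theorem cfg_exists_eq_div {ℓ : ℕ} (hℓ : ℓ.Prime) (hA : (ℓ : Ω) ∈ A.nonunits) {x : Ω}
    (hxA : x ∈ A) :
    ∃ a s : 𝓞 Ω, s ∉ cfg_center A ∧ x * algebraMap (𝓞 Ω) Ω s = algebraMap (𝓞 Ω) Ω a := by
  obtain ⟨s, hs, hxs, hv⟩ := cfg_exists_integral_mul hℓ hA hxA (cfg_isAlgebraic_int x)
  exact ⟨⟨x * s, hxs⟩, ⟨s, hs⟩, cfg_not_mem_center_iff_val.mpr hv, rfl⟩

/-- **(U)** A valuation subring over `ℓ` is determined by its centre: inclusion form. -/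
theorem cfg_le_of_center_le {ℓ : ℕ} (hℓ : ℓ.Prime) (hA : (ℓ : Ω) ∈ A.nonunits)
    {A' : ValuationSubring Ω} (h : cfg_center A' ≤ cfg_center A) : A ≤ A' := by
  intro x hxA
  obtain ⟨a, s, hs, hxs⟩ := cfg_exists_eq_div hℓ hA hxA
  have hs' : s ∉ cfg_center A' := fun h' => hs (h h')
  have hv : A'.valuation (algebraMap (𝓞 Ω) Ω s) = 1 := cfg_not_mem_center_iff_val.mp hs'
  rw [← A'.valuation_le_one_iff]
  have h1 : A'.valuation (x * algebraMap (𝓞 Ω) Ω s) ≤ 1 := by
    rw [hxs]; exact (A'.valuation_le_one_iff _).mpr (cfg_coe_mem A' a)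
  rwa [map_mul, hv, mul_one] at h1

/-- **(U)** A valuation subring over `ℓ` is determined by its centre. -/
theorem cfg_eq_of_center_eq {ℓ : ℕ} (hℓ : ℓ.Prime) (hA : (ℓ : Ω) ∈ A.nonunits)
    {A' : ValuationSubring Ω} (h : cfg_center A' = cfg_center A) : A = A' := by
  have hA' : (ℓ : Ω) ∈ A'.nonunits := by
    have := cfg_natCast_mem_center (Ω := Ω) hA
    rw [← h, cfg_mem_center_iff, map_natCast] at this
    exact this
  exact le_antisymm (cfg_le_of_center_le hℓ hA h.le) (cfg_le_of_center_le hℓ hA' h.ge)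

/-- **(R)** Every element of `A` is congruent to an algebraic integer modulo the maximal ideal. -/
theorem cfg_exists_sub_mem_nonunits {ℓ : ℕ} (hℓ : ℓ.Prime) (hA : (ℓ : Ω) ∈ A.nonunits) {x : Ω}
    (hxA : x ∈ A) : ∃ a : 𝓞 Ω, x - algebraMap (𝓞 Ω) Ω a ∈ A.nonunits := by
  obtain ⟨a, s, hs, hxs⟩ := cfg_exists_eq_div hℓ hA hxA
  obtain ⟨t, i, hi, hti⟩ := (cfg_center_isMaximal hℓ hA).exists_inv hs
  refine ⟨a * t, ?_⟩
  have h1 : x - algebraMap (𝓞 Ω) Ω (a * t) = x * algebraMap (𝓞 Ω) Ω i := by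
    have h2 : algebraMap (𝓞 Ω) Ω t * algebraMap (𝓞 Ω) Ω s + algebraMap (𝓞 Ω) Ω i = 1 := by
      rw [← map_mul, ← map_add, hti, map_one]
    rw [map_mul, ← hxs]
    linear_combination (-x) * h2
  rw [h1, A.mem_nonunits_iff, map_mul]
  exact mul_lt_one_of_nonneg_of_lt_one_right ((A.valuation_le_one_iff _).mpr hxA) zero_le
    (cfg_mem_center_iff_val.mp hi)

end center

section criterion

open scoped Pointwise

variable {K Ω : Type*} [Field K] [Field Ω] [Algebra K Ω] (A : ValuationSubring Ω)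

/-- An automorphism mapping `A` into itself in both directions is in the decomposition group. -/
theorem cfg_mem_decompositionSubgroup (σ : Ω ≃ₐ[K] Ω) (h1 : ∀ a ∈ A, σ a ∈ A)
    (h2 : ∀ a ∈ A, σ.symm a ∈ A) : σ ∈ A.decompositionSubgroup K := by
  change σ • A = A
  refine le_antisymm ?_ ?_
  · intro x hx
    obtain ⟨a, ha, rfl⟩ := (ValuationSubring.mem_smul_pointwise_iff_exists σ x A).mp hx
    exact h1 a ha
  · intro x hx
    refine (ValuationSubring.mem_smul_pointwise_iff_exists σ x A).mpr ⟨σ.symm x, h2 x hx, ?_⟩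
    exact σ.apply_symm_apply x

/-- Converse of `ford_inertia_spec`: an element of the decomposition group acting trivially
modulo the maximal ideal is in the inertia group. -/
theorem cfg_mem_inertiaSubgroupIn (σ : Ω ≃ₐ[K] Ω) (hσ : σ ∈ A.decompositionSubgroup K)
    (h : ∀ a ∈ A, σ a - a ∈ A.nonunits) : σ ∈ A.inertiaSubgroupIn K := by
  refine ⟨⟨σ, hσ⟩, ?_, rfl⟩
  change (⟨σ, hσ⟩ : A.decompositionSubgroup K) ∈ MonoidHom.ker _
  rw [MonoidHom.mem_ker]
  ext r
  obtain ⟨a, rfl⟩ := IsLocalRing.residue_surjective r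
  change (⟨σ, hσ⟩ : A.decompositionSubgroup K) • IsLocalRing.residue A a = IsLocalRing.residue A a
  rw [← IsLocalRing.ResidueField.residue_smul]
  refine (Ideal.Quotient.eq).mpr ?_
  rw [← ValuationSubring.coe_mem_nonunits_iff]
  exact h a.1 a.2

/-- An automorphism whose inverse preserves `A` preserves the maximal ideal. -/
lemma cfg_map_mem_nonunits (σ : Ω ≃ₐ[K] Ω) (h2 : ∀ a ∈ A, σ.symm a ∈ A) {x : Ω}
    (hx : x ∈ A.nonunits) : σ x ∈ A.nonunits := by
  rw [ValuationSubring.mem_nonunits_iff_or] at hx ⊢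
  rcases hx with rfl | hx
  · exact Or.inl (map_zero σ)
  · refine Or.inr fun h => hx ?_
    have := h2 _ h
    rwa [map_inv₀, σ.symm_apply_apply] at this

end criterion

section criterionIntegral

open NumberField

variable {K Ω : Type*} [Field K] [Field Ω] [CharZero Ω] [Algebra K Ω] [Algebra ℚ Ω]
  [Algebra.IsAlgebraic ℚ Ω] {A : ValuationSubring Ω}

/-- An automorphism preserving (in both directions) the algebraic integers of the maximal ideal of
`A` belongs to the decomposition group. -/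
theorem cfg_mem_decompositionSubgroup_of_integral {ℓ : ℕ} (hℓ : ℓ.Prime)
    (hA : (ℓ : Ω) ∈ A.nonunits) (σ : Ω ≃ₐ[K] Ω)
    (h1 : ∀ b : Ω, IsIntegral ℤ b → b ∈ A.nonunits → σ b ∈ A.nonunits)
    (h2 : ∀ b : Ω, IsIntegral ℤ b → b ∈ A.nonunits → σ.symm b ∈ A.nonunits) :
    σ ∈ A.decompositionSubgroup K := by
  have key : ∀ τ : Ω ≃ₐ[K] Ω,
      (∀ b : Ω, IsIntegral ℤ b → b ∈ A.nonunits → τ.symm b ∈ A.nonunits) →
      ∀ a ∈ A, τ a ∈ A := by
    intro τ hτ a ha
    obtain ⟨s, hs, has, hv⟩ := cfg_exists_integral_mul hℓ hA ha (cfg_isAlgebraic_int a)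
    have hτs : IsIntegral ℤ (τ s) := map_isIntegral_int (τ : Ω →+* Ω) hs
    have hτas : IsIntegral ℤ (τ (a * s)) := map_isIntegral_int (τ : Ω →+* Ω) has
    have hv' : A.valuation (τ s) = 1 := by
      refine le_antisymm ((A.valuation_le_one_iff _).mpr (cfg_mem_of_isIntegral A hτs))
        (not_lt.mp fun hlt => ?_)
      have := hτ (τ s) hτs (A.mem_nonunits_iff.mpr hlt)
      rw [τ.symm_apply_apply, A.mem_nonunits_iff, hv] at this
      exact lt_irrefl _ this
    have h3 : A.valuation (τ (a * s)) ≤ 1 :=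
      (A.valuation_le_one_iff _).mpr (cfg_mem_of_isIntegral A hτas)
    rw [map_mul, map_mul, hv', mul_one] at h3
    exact (A.valuation_le_one_iff _).mp h3
  refine cfg_mem_decompositionSubgroup A σ (key σ h2) (key σ.symm ?_)
  intro b hb hbA
  exact h1 b hb hbA

/-- An automorphism acting trivially on algebraic integers modulo the maximal ideal of `A` belongs
to the inertia group. -/
theorem cfg_mem_inertiaSubgroupIn_of_integral {ℓ : ℕ} (hℓ : ℓ.Prime)
    (hA : (ℓ : Ω) ∈ A.nonunits) (σ : Ω ≃ₐ[K] Ω)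
    (h3 : ∀ b : Ω, IsIntegral ℤ b → σ b - b ∈ A.nonunits) : σ ∈ A.inertiaSubgroupIn K := by
  have h1 : ∀ b : Ω, IsIntegral ℤ b → b ∈ A.nonunits → σ b ∈ A.nonunits := by
    intro b hb hbA
    have := A.nonunits.add_mem (h3 b hb) hbA
    rwa [sub_add_cancel] at this
  have h2 : ∀ b : Ω, IsIntegral ℤ b → b ∈ A.nonunits → σ.symm b ∈ A.nonunits := by
    intro b hb hbA
    have hc : IsIntegral ℤ (σ.symm b) := map_isIntegral_int (σ.symm : Ω →+* Ω) hb
    have := A.nonunits.sub_mem hbA (h3 _ hc)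
    rwa [σ.apply_symm_apply, sub_sub_cancel] at this
  have hσ : σ ∈ A.decompositionSubgroup K :=
    cfg_mem_decompositionSubgroup_of_integral hℓ hA σ h1 h2
  refine cfg_mem_inertiaSubgroupIn A σ hσ ?_
  intro a ha
  obtain ⟨b, hb⟩ := cfg_exists_sub_mem_nonunits hℓ hA ha
  have hσm : σ (a - algebraMap (𝓞 Ω) Ω b) ∈ A.nonunits := by
    refine cfg_map_mem_nonunits A σ ?_ hb
    have hσ' : σ⁻¹ ∈ A.decompositionSubgroup K := inv_mem hσ
    exact ford_decomposition_mem A σ⁻¹ hσ'
  have h4 := h3 _ (RingOfIntegers.isIntegral_coe b)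
  have h5 : σ a - a = σ (a - algebraMap (𝓞 Ω) Ω b) - (a - algebraMap (𝓞 Ω) Ω b)
      + (σ (algebraMap (𝓞 Ω) Ω b) - algebraMap (𝓞 Ω) Ω b) := by
    rw [map_sub]; ring
  rw [h5]
  exact A.nonunits.add_mem (A.nonunits.sub_mem hσm hb) h4

end criterionIntegral

section existence

open NumberField

variable {Ω : Type*} [Field Ω]

/-- Every maximal ideal of the ring of algebraic integers is the centre of a valuation subring. -/
theorem cfg_exists_center_eq (Q : Ideal (𝓞 Ω)) [hQ : Q.IsMaximal] :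
    ∃ A : ValuationSubring Ω, cfg_center A = Q := by
  let f : 𝓞 Ω →+* Ω := algebraMap (𝓞 Ω) Ω
  let R : Subring Ω := f.range
  let I : Ideal R := Q.map f.rangeRestrict
  have hsurj : Function.Surjective f.rangeRestrict := f.rangeRestrict_surjective
  have hinj : Function.Injective f.rangeRestrict := by
    intro a b hab
    have : f a = f b := congrArg (Subtype.val : R → Ω) hab
    exact RingOfIntegers.coe_injective this
  have hI : I ≠ ⊤ := by
    intro h
    have h1 : (1 : R) ∈ I := h ▸ Submodule.mem_top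
    obtain ⟨q, hq, hq1⟩ := (Ideal.mem_map_iff_of_surjective _ hsurj).mp h1
    have : q = 1 := hinj (by rw [hq1, map_one])
    rw [this] at hq
    exact hQ.ne_top ((Ideal.eq_top_iff_one Q).mpr hq)
  obtain ⟨B, -, hB⟩ := Ideal.image_subset_nonunits_valuationSubring I hI
  refine ⟨B, (hQ.eq_of_le cfg_center_ne_top ?_).symm⟩
  intro q hq
  rw [cfg_mem_center_iff]
  exact hB ⟨f.rangeRestrict q, Ideal.mem_map_of_mem _ hq, rfl⟩

end existence

end Fermat.Agent.Lib.CFT
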