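import Mathlib
import Fermat.Agent.Lib.CFT.RamBridgeVal

/-!
# Lifting decomposition and inertia groups from a number field to an infinite Galois extension

`Ω` is a Galois extension of `ℚ` (for instance `AlgebraicClosure ℚ`), `F` a number field with an
embedding `Algebra F Ω`.  Using Mathlib's results on profinite groups acting on rings
(`Mathlib/RingTheory/Invariant/Profinite.lean`) for `Gal(Ω/F)` acting on `𝓞 Ω`, we show:

* `cfg_exists_lifts_stabilizer` : an automorphism `τ` of `F` stabilising the prime `Q ∩ 𝓞 F` lifts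
  to an automorphism of `Ω` stabilising the prime `Q` of `𝓞 Ω`;
* `cfg_exists_lifts_inertia` : if moreover `τ` acts trivially on `𝓞 F / (Q ∩ 𝓞 F)`, the lift can
  be chosen to act trivially on `𝓞 Ω / Q`;
* `cfg_exists_valuationSubring` : the resulting statement for valuation subrings of `Ω`, in the
  language of the Prelude (`ValuationSubring.inertiaSubgroupIn`, `decompositionSubgroup`).
-/

set_option autoImplicit false
set_option linter.unusedSectionVars false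

namespace Fermat.Agent.Lib.CFT

open NumberField
open scoped Pointwise

section setup

variable {Ω : Type*} [Field Ω] [Algebra ℚ Ω] [IsGalois ℚ Ω]

lemma cfg_isAlgebraic_int_alg : Algebra.IsAlgebraic ℤ Ω :=
  (IsFractionRing.comap_isAlgebraic_iff (A := ℤ) (K := ℚ) (C := Ω)).mpr inferInstance

lemma cfg_isFractionRing : IsFractionRing (𝓞 Ω) Ω := by
  have := cfg_isAlgebraic_int_alg (Ω := Ω)
  have : CharZero Ω := algebraRat.charZero Ω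
  exact integralClosure.isFractionRing_of_algebraic (A := ℤ) (L := Ω)
    (fun x hx => by simpa using hx)

variable (F : Type*) [Field F] [NumberField F] [Algebra F Ω]

lemma cfg_isGalois_top : IsGalois F Ω := IsGalois.tower_top_of_isGalois ℚ F Ω

lemma cfg_isIntegral_top : Algebra.IsIntegral (𝓞 F) (𝓞 Ω) :=
  Algebra.IsIntegral.tower_top ℤ

lemma cfg_isGaloisGroup : IsGaloisGroup (Ω ≃ₐ[F] Ω) (𝓞 F) (𝓞 Ω) := by
  have := cfg_isGalois_top (Ω := Ω) F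
  have := cfg_isIntegral_top (Ω := Ω) F
  have := cfg_isFractionRing (Ω := Ω)
  exact IsGaloisGroup.of_isFractionRing (Ω ≃ₐ[F] Ω) (𝓞 F) (𝓞 Ω) F Ω

end setup

section profinite

variable {Ω : Type*} [Field Ω] [Algebra ℚ Ω] [IsGalois ℚ Ω]
variable (F : Type*) [Field F] [NumberField F] [Algebra F Ω]

lemma cfg_stabilizer_isOpen (b : 𝓞 Ω) :
    IsOpen (MulAction.stabilizer (Ω ≃ₐ[F] Ω) b : Set (Ω ≃ₐ[F] Ω)) := by
  have := cfg_isGalois_top (Ω := Ω) F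
  have h := stabilizer_isOpen_of_isIntegral (K := F) (L := Ω) (algebraMap (𝓞 Ω) Ω b)
  convert h using 1
  ext g
  simp only [SetLike.mem_coe, MulAction.mem_stabilizer_iff]
  constructor
  · intro hg; exact congrArg (algebraMap (𝓞 Ω) Ω) hg
  · intro hg; exact RingOfIntegers.ext hg

/-- `Gal(Ω/F)` acts transitively on the primes of `𝓞 Ω` over a given prime of `𝓞 F`. -/
theorem cfg_exists_smul_eq (Q Q' : Ideal (𝓞 Ω)) [Q.IsPrime] [Q'.IsPrime]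
    (h : Q.under (𝓞 F) = Q'.under (𝓞 F)) : ∃ g : Ω ≃ₐ[F] Ω, Q' = g • Q := by
  have := cfg_isGalois_top (Ω := Ω) F
  have hG := cfg_isGaloisGroup (Ω := Ω) F
  have := hG.commutes
  have := hG.isInvariant
  let _ : TopologicalSpace (𝓞 Ω) := ⊥
  have : DiscreteTopology (𝓞 Ω) := ⟨rfl⟩
  have : ContinuousSMul (Ω ≃ₐ[F] Ω) (𝓞 Ω) :=
    continuousSMul_iff_stabilizer_isOpen.mpr (cfg_stabilizer_isOpen F)
  exact Algebra.IsInvariant.exists_smul_of_under_eq_of_profinite (A := 𝓞 F) (G := Ω ≃ₐ[F] Ω) Q Q' h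

/-- The stabilizer of `Q` in `Gal(Ω/F)` surjects onto the automorphism group of the residue
extension. -/
theorem cfg_stabilizerHom_surjective (P : Ideal (𝓞 F)) (Q : Ideal (𝓞 Ω)) [Q.IsPrime]
    [Q.LiesOver P] :
    haveI := (cfg_isGaloisGroup (Ω := Ω) F).commutes
    Function.Surjective (Ideal.Quotient.stabilizerHom Q P (Ω ≃ₐ[F] Ω)) := by
  have := cfg_isGalois_top (Ω := Ω) F
  have hG := cfg_isGaloisGroup (Ω := Ω) F
  have := hG.commutes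
  have := hG.isInvariant
  let _ : TopologicalSpace (𝓞 Ω) := ⊥
  have : DiscreteTopology (𝓞 Ω) := ⟨rfl⟩
  have : ContinuousSMul (Ω ≃ₐ[F] Ω) (𝓞 Ω) :=
    continuousSMul_iff_stabilizer_isOpen.mpr (cfg_stabilizer_isOpen F)
  exact Ideal.Quotient.stabilizerHom_surjective_of_profinite (G := Ω ≃ₐ[F] Ω) P Q

end profinite

section lift

variable {Ω : Type*} [Field Ω] [Algebra ℚ Ω] [IsGalois ℚ Ω]
variable {F : Type*} [Field F] [NumberField F] [Algebra F Ω]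

/-- `σ : Gal(Ω/ℚ)` restricts to `τ : Gal(F/ℚ)`. -/
def cfg_Lifts (σ : Ω ≃ₐ[ℚ] Ω) (τ : F ≃ₐ[ℚ] F) : Prop :=
  ∀ x : F, σ (algebraMap F Ω x) = algebraMap F Ω (τ x)

lemma cfg_Lifts.smul_algebraMap {σ : Ω ≃ₐ[ℚ] Ω} {τ : F ≃ₐ[ℚ] F} (h : cfg_Lifts σ τ) (y : 𝓞 F) :
    σ • algebraMap (𝓞 F) (𝓞 Ω) y = algebraMap (𝓞 F) (𝓞 Ω) (τ • y) := by
  apply RingOfIntegers.ext
  exact h (algebraMap (𝓞 F) F y)

lemma cfg_Lifts.inv {σ : Ω ≃ₐ[ℚ] Ω} {τ : F ≃ₐ[ℚ] F} (h : cfg_Lifts σ τ) : cfg_Lifts σ⁻¹ τ⁻¹ := by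
  intro x
  have := h (τ⁻¹ x)
  rw [show τ (τ⁻¹ x) = x from τ.apply_symm_apply x] at this
  rw [← this]
  exact σ.symm_apply_apply _

lemma cfg_exists_lifts (τ : F ≃ₐ[ℚ] F) : ∃ σ : Ω ≃ₐ[ℚ] Ω, cfg_Lifts σ τ :=
  ⟨τ.liftNormal Ω, fun x => τ.liftNormal_commutes Ω x⟩

/-- The element of `Gal(Ω/ℚ)` underlying an element of `Gal(Ω/F)`. -/
def cfg_res (g : Ω ≃ₐ[F] Ω) : Ω ≃ₐ[ℚ] Ω := g.restrictScalars ℚ

lemma cfg_res_smul (g : Ω ≃ₐ[F] Ω) (b : 𝓞 Ω) : cfg_res g • b = g • b := rfl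

lemma cfg_res_smul_ideal (g : Ω ≃ₐ[F] Ω) (Q : Ideal (𝓞 Ω)) : cfg_res g • Q = g • Q := by
  ext b
  rw [Ideal.mem_pointwise_smul_iff_inv_smul_mem, Ideal.mem_pointwise_smul_iff_inv_smul_mem]
  rfl

lemma cfg_res_lifts (g : Ω ≃ₐ[F] Ω) : cfg_Lifts (cfg_res g) (1 : F ≃ₐ[ℚ] F) := by
  intro x
  exact g.commutes x

lemma cfg_Lifts.mul {σ σ' : Ω ≃ₐ[ℚ] Ω} {τ τ' : F ≃ₐ[ℚ] F} (h : cfg_Lifts σ τ)
    (h' : cfg_Lifts σ' τ') : cfg_Lifts (σ * σ') (τ * τ') := by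
  intro x
  change σ (σ' (algebraMap F Ω x)) = algebraMap F Ω (τ (τ' x))
  rw [h' x, h (τ' x)]

/-- The prime below `σ • Q` is `τ • (Q ∩ 𝓞 F)`. -/
lemma cfg_under_smul {σ : Ω ≃ₐ[ℚ] Ω} {τ : F ≃ₐ[ℚ] F} (h : cfg_Lifts σ τ) (Q : Ideal (𝓞 Ω)) :
    (σ • Q).under (𝓞 F) = τ • Q.under (𝓞 F) := by
  ext y
  rw [Ideal.under_def, Ideal.mem_comap, Ideal.mem_pointwise_smul_iff_inv_smul_mem,
    Ideal.mem_pointwise_smul_iff_inv_smul_mem, Ideal.under_def, Ideal.mem_comap,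
    h.inv.smul_algebraMap]

/-- **Lifting the decomposition group.** -/
theorem cfg_exists_lifts_stabilizer (Q : Ideal (𝓞 Ω)) [Q.IsPrime] (τ : F ≃ₐ[ℚ] F)
    (hτ : τ • Q.under (𝓞 F) = Q.under (𝓞 F)) :
    ∃ σ : Ω ≃ₐ[ℚ] Ω, cfg_Lifts σ τ ∧ σ • Q = Q := by
  obtain ⟨σ₀, hσ₀⟩ := cfg_exists_lifts (Ω := Ω) τ
  have h1 : (σ₀ • Q).under (𝓞 F) = Q.under (𝓞 F) := by rw [cfg_under_smul hσ₀, hτ]
  obtain ⟨g, hg⟩ := cfg_exists_smul_eq F (σ₀ • Q) Q h1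
  refine ⟨cfg_res g * σ₀, ?_, ?_⟩
  · have := (cfg_res_lifts g).mul hσ₀
    rwa [one_mul] at this
  · rw [mul_smul, cfg_res_smul_ideal, ← hg]

end lift

section liftI

variable {Ω : Type*} [Field Ω] [Algebra ℚ Ω] [IsGalois ℚ Ω]
variable {F : Type*} [Field F] [NumberField F] [Algebra F Ω]

/-- An element of the inertia group stabilises the prime. -/
lemma cfg_smul_eq_of_inertia (P : Ideal (𝓞 F)) (τ : F ≃ₐ[ℚ] F) (hτ : ∀ y : 𝓞 F, τ • y - y ∈ P) :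
    τ • P = P := by
  have h1 : ∀ y ∈ P, τ • y ∈ P := by
    intro y hy
    have := P.add_mem (hτ y) hy
    rwa [sub_add_cancel] at this
  have h2 : ∀ y ∈ P, τ⁻¹ • y ∈ P := by
    intro y hy
    have := P.sub_mem hy (hτ (τ⁻¹ • y))
    rwa [smul_inv_smul, sub_sub_cancel] at this
  ext y
  rw [Ideal.mem_pointwise_smul_iff_inv_smul_mem]
  refine ⟨fun h => ?_, fun h => h2 y h⟩
  have := h1 _ h
  rwa [smul_inv_smul] at this

/-- **Lifting the inertia group.** -/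
theorem cfg_exists_lifts_inertia (P : Ideal (𝓞 F)) (Q : Ideal (𝓞 Ω)) [Q.IsPrime] [Q.LiesOver P]
    (τ : F ≃ₐ[ℚ] F) (hτ : ∀ y : 𝓞 F, τ • y - y ∈ P) :
    ∃ σ : Ω ≃ₐ[ℚ] Ω, cfg_Lifts σ τ ∧ σ • Q = Q ∧ ∀ b : 𝓞 Ω, σ • b - b ∈ Q := by
  have hPQ : P = Q.under (𝓞 F) := Ideal.LiesOver.over
  have hτP : τ • Q.under (𝓞 F) = Q.under (𝓞 F) := by
    rw [← hPQ]; exact cfg_smul_eq_of_inertia P τ hτ
  obtain ⟨σ₁, hσ₁, hσ₁Q⟩ := cfg_exists_lifts_stabilizer Q τ hτP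
  have := (cfg_isGaloisGroup (Ω := Ω) F).commutes
  -- the automorphism of the residue ring induced by `σ₁`
  let f : 𝓞 Ω ≃+* 𝓞 Ω := MulSemiringAction.toRingEquiv (Ω ≃ₐ[ℚ] Ω) (𝓞 Ω) σ₁
  have hf : Q = Q.map (f : 𝓞 Ω →+* 𝓞 Ω) := hσ₁Q.symm
  let e : (𝓞 Ω ⧸ Q) ≃+* (𝓞 Ω ⧸ Q) := Ideal.quotientEquiv Q Q f hf
  have he : ∀ x : 𝓞 F ⧸ P, e (algebraMap (𝓞 F ⧸ P) (𝓞 Ω ⧸ Q) x) =
      algebraMap (𝓞 F ⧸ P) (𝓞 Ω ⧸ Q) x := by
    intro x
    obtain ⟨y, rfl⟩ := Ideal.Quotient.mk_surjective x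
    rw [Ideal.Quotient.algebraMap_mk_of_liesOver, Ideal.quotientEquiv_mk]
    change Ideal.Quotient.mk Q (σ₁ • algebraMap (𝓞 F) (𝓞 Ω) y) = _
    rw [hσ₁.smul_algebraMap, Ideal.Quotient.eq, ← map_sub]
    have h1 := hτ y
    rw [hPQ] at h1
    exact h1
  let E : (𝓞 Ω ⧸ Q) ≃ₐ[𝓞 F ⧸ P] (𝓞 Ω ⧸ Q) := AlgEquiv.ofRingEquiv (f := e) he
  obtain ⟨⟨h, hh⟩, hE⟩ := cfg_stabilizerHom_surjective F P Q E
  have hcong : ∀ b : 𝓞 Ω, h • b - σ₁ • b ∈ Q := by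
    intro b
    have h1 := congrArg (fun φ => φ (Ideal.Quotient.mk Q b)) hE
    simp only [Ideal.Quotient.stabilizerHom_apply] at h1
    rw [← Ideal.Quotient.eq]
    exact h1
  have hhQ : h • Q = Q := hh
  refine ⟨(cfg_res h)⁻¹ * σ₁, ?_, ?_, ?_⟩
  · have := (cfg_res_lifts h).inv.mul hσ₁
    rwa [inv_one, one_mul] at this
  · rw [mul_smul, hσ₁Q, inv_smul_eq_iff, cfg_res_smul_ideal, hhQ]
  · intro b
    have h1 : ((cfg_res h)⁻¹ * σ₁) • b - b = (cfg_res h)⁻¹ • (σ₁ • b - h • b) := by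
      rw [mul_smul, smul_sub, ← cfg_res_smul h b, inv_smul_smul]
    rw [h1]
    have h2 : σ₁ • b - h • b ∈ Q := by
      have := Q.neg_mem (hcong b)
      rwa [neg_sub] at this
    have h3 : (cfg_res h)⁻¹ • Q = Q := by
      rw [inv_smul_eq_iff, cfg_res_smul_ideal, hhQ]
    rw [← h3]
    exact Ideal.smul_mem_pointwise_smul _ _ _ h2

end liftI

section main

variable {Ω : Type*} [Field Ω] [Algebra ℚ Ω] [IsGalois ℚ Ω]
variable {F : Type*} [Field F] [NumberField F] [Algebra F Ω]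

lemma cfg_algebraMap_injective : Function.Injective (algebraMap (𝓞 F) (𝓞 Ω)) := by
  intro a b hab
  apply RingOfIntegers.ext
  have h1 : algebraMap (𝓞 Ω) Ω (algebraMap (𝓞 F) (𝓞 Ω) a)
      = algebraMap (𝓞 Ω) Ω (algebraMap (𝓞 F) (𝓞 Ω) b) := by rw [hab]
  exact (algebraMap F Ω).injective h1

/-- Existence of a prime of `𝓞 Ω` over a maximal ideal of `𝓞 F`. -/
lemma cfg_exists_over (P : Ideal (𝓞 F)) [P.IsMaximal] :
    ∃ Q : Ideal (𝓞 Ω), Q.IsMaximal ∧ Q.LiesOver P := by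
  have := cfg_isIntegral_top (Ω := Ω) F
  obtain ⟨Q, hQ, hQP⟩ := Ideal.exists_ideal_over_maximal_of_isIntegral (S := 𝓞 Ω) P (by
    rw [(RingHom.injective_iff_ker_eq_bot _).mp (cfg_algebraMap_injective (Ω := Ω) (F := F))]
    exact bot_le)
  exact ⟨Q, hQ, ⟨hQP.symm⟩⟩

/-- **The bridge between finite and infinite level.**  For a maximal ideal `P` of `𝓞 F` over `ℓ`
there is a valuation subring `A` of `Ω` with centre `P` on `𝓞 F` such that the inertia (resp.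
decomposition) group of `P` in `Aut(F/ℚ)` is the image of the inertia (resp. decomposition) group
of `A`. -/
theorem cfg_exists_valuationSubring (P : Ideal (𝓞 F)) [P.IsMaximal] {ℓ : ℕ} (hℓ : ℓ.Prime)
    (hP : (ℓ : 𝓞 F) ∈ P) :
    ∃ A : ValuationSubring Ω, (ℓ : Ω) ∈ A.nonunits ∧
      (∀ x : 𝓞 F, algebraMap (𝓞 F) Ω x ∈ A.nonunits ↔ x ∈ P) ∧
      (∀ τ : F ≃ₐ[ℚ] F, (∀ y : 𝓞 F, τ • y - y ∈ P) →
        ∃ σ ∈ A.inertiaSubgroupIn ℚ, ∀ x : F, σ (algebraMap F Ω x) = algebraMap F Ω (τ x)) ∧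
      (∀ τ : F ≃ₐ[ℚ] F, τ • P = P →
        ∃ σ ∈ A.decompositionSubgroup ℚ, ∀ x : F, σ (algebraMap F Ω x) = algebraMap F Ω (τ x)) := by
  have : CharZero Ω := algebraRat.charZero Ω
  obtain ⟨Q, hQmax, hQP⟩ := cfg_exists_over (Ω := Ω) P
  have hPQ : P = Q.under (𝓞 F) := Ideal.LiesOver.over
  obtain ⟨A, hAQ⟩ := cfg_exists_center_eq Q
  have hA : (ℓ : Ω) ∈ A.nonunits := by
    have h1 : (ℓ : 𝓞 Ω) ∈ Q := by
      rw [hPQ, Ideal.under_def, Ideal.mem_comap, map_natCast] at hP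
      exact hP
    rw [← hAQ, cfg_mem_center_iff, map_natCast] at h1
    exact h1
  have hint : ∀ (σ : Ω ≃ₐ[ℚ] Ω) (b : 𝓞 Ω),
      algebraMap (𝓞 Ω) Ω (σ • b) = σ (algebraMap (𝓞 Ω) Ω b) := fun _ _ => rfl
  have hex : ∀ b : Ω, IsIntegral ℤ b → ∃ b' : 𝓞 Ω, algebraMap (𝓞 Ω) Ω b' = b :=
    fun b hb => (IsIntegralClosure.isIntegral_iff (A := 𝓞 Ω)).mp hb
  refine ⟨A, hA, ?_, ?_, ?_⟩
  · intro x
    rw [hPQ, Ideal.under_def, Ideal.mem_comap, ← hAQ, cfg_mem_center_iff,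
      ← IsScalarTower.algebraMap_apply]
  · intro τ hτ
    obtain ⟨σ, hσ, -, hσI⟩ := cfg_exists_lifts_inertia P Q τ hτ
    refine ⟨σ, cfg_mem_inertiaSubgroupIn_of_integral hℓ hA σ ?_, hσ⟩
    intro b hb
    obtain ⟨b', rfl⟩ := hex b hb
    have h1 := hσI b'
    rw [← hAQ, cfg_mem_center_iff, map_sub, hint] at h1
    exact h1
  · intro τ hτ
    obtain ⟨σ, hσ, hσQ⟩ := cfg_exists_lifts_stabilizer Q τ (by rw [← hPQ]; exact hτ)
    have hσQ' : σ⁻¹ • Q = Q := by rw [inv_smul_eq_iff, hσQ]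
    refine ⟨σ, cfg_mem_decompositionSubgroup_of_integral hℓ hA σ ?_ ?_, hσ⟩
    · intro b hb hbA
      obtain ⟨b', rfl⟩ := hex b hb
      have h1 : b' ∈ Q := by rw [← hAQ, cfg_mem_center_iff]; exact hbA
      have h2 : σ • b' ∈ σ • Q := Ideal.smul_mem_pointwise_smul _ _ _ h1
      rw [hσQ, ← hAQ, cfg_mem_center_iff, hint] at h2
      exact h2
    · intro b hb hbA
      obtain ⟨b', rfl⟩ := hex b hb
      have h1 : b' ∈ Q := by rw [← hAQ, cfg_mem_center_iff]; exact hbA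
      have h2 : σ⁻¹ • b' ∈ σ⁻¹ • Q := Ideal.smul_mem_pointwise_smul _ _ _ h1
      rw [hσQ', ← hAQ, cfg_mem_center_iff, hint] at h2
      exact h2

end main

end Fermat.Agent.Lib.CFT
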