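import Mathlib
import Fermat.Agent.Lib.CFT.Defs
import Fermat.Agent.Lib.CFT.RamBridgeGal
import Fermat.Agent.Lib.CFT.RamBridgeFin

/-!
# WP-A2: from the Prelude's ramification conditions to `cft_Unram`

`cfg_unram` : let `K ⊆ L` be number fields embedded in `AlgebraicClosure ℚ` with `L/ℚ` Galois.
If every inertia group `A.inertiaSubgroupIn ℚ` at a valuation subring `A` over a prime `ℓ ≠ p`
fixes `L` pointwise, and every element of a decomposition group `A.decompositionSubgroup ℚ` at a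
valuation subring over `p` which fixes `K` pointwise also fixes `L` pointwise, then every nonzero
prime of `𝓞 L` is unramified over `𝓞 K` (`cft_Unram K L`).
-/

set_option autoImplicit false
set_option linter.unusedSectionVars false

namespace Fermat.Agent.Lib.CFT

open NumberField
open scoped Pointwise

/-- Every nonzero prime of the ring of integers of a number field contains a prime number. -/
lemma cfg_exists_prime_mem {L : Type*} [Field L] [NumberField L] (Q : Ideal (𝓞 L)) [Q.IsPrime]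
    (hQ : Q ≠ ⊥) : ∃ ℓ : ℕ, ℓ.Prime ∧ (ℓ : 𝓞 L) ∈ Q := by
  obtain ⟨n, hn : Q.under ℤ = Ideal.span {n}⟩ := IsPrincipalIdealRing.principal (Q.under ℤ)
  have hn0 : n ≠ 0 := by
    rintro rfl
    have h1 : Q.under ℤ = ⊥ := by rw [hn]; simp
    exact hQ (Ideal.eq_bot_of_comap_eq_bot h1)
  have hprime : Prime n := by
    rw [← Ideal.span_singleton_prime hn0, ← hn]; infer_instance
  refine ⟨n.natAbs, Int.prime_iff_natAbs_prime.mp hprime, ?_⟩
  have h1 : n ∈ Q.under ℤ := by rw [hn]; exact Ideal.mem_span_singleton_self n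
  have h2 : ((n : ℤ) : 𝓞 L) ∈ Q := by simpa [Ideal.under_def] using h1
  rcases Int.natAbs_eq n with h | h
  · rw [h] at h2; simpa using h2
  · rw [h] at h2
    have := Q.neg_mem h2
    simpa using this

section main

variable {Ω : Type*} [Field Ω] [Algebra ℚ Ω] [IsGalois ℚ Ω]

/-- **WP-A2, general form.**  `K ⊆ L` number fields embedded in a Galois extension `Ω/ℚ`, with
`L/ℚ` Galois.  If every inertia group of `Ω/ℚ` at a place over `ℓ ≠ p` fixes `L` pointwise, and
every element of a decomposition group at a place over `p` fixing `K` pointwise fixes `L`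
pointwise, then `L/K` is unramified at all finite primes. -/
theorem cfg_unram_of_galois {p : ℕ} {K L : Type*} [Field K] [NumberField K] [Field L]
    [NumberField L] [Algebra K L] [Algebra K Ω] [Algebra L Ω] [IsScalarTower K L Ω] [IsGalois ℚ L]
    (h1 : ∀ ℓ : ℕ, ℓ.Prime → ℓ ≠ p → ∀ A : ValuationSubring Ω, A.LiesOverPrime ℓ →
      ∀ σ ∈ A.inertiaSubgroupIn ℚ, ∀ x : L, σ (algebraMap L Ω x) = algebraMap L Ω x)
    (h2 : ∀ A : ValuationSubring Ω, A.LiesOverPrime p → ∀ σ ∈ A.decompositionSubgroup ℚ,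
      (∀ x : K, σ (algebraMap K Ω x) = algebraMap K Ω x) →
        ∀ x : L, σ (algebraMap L Ω x) = algebraMap L Ω x) :
    cft_Unram K L := by
  have : IsGalois K L := IsGalois.tower_top_of_isGalois ℚ K L
  refine cfg_unram_of_inertia_trivial ?_
  intro Q _ hQ τ hτ
  have hQmax : Q.IsMaximal := Ideal.IsPrime.isMaximal inferInstance hQ
  obtain ⟨ℓ, hℓ, hℓQ⟩ := cfg_exists_prime_mem Q hQ
  obtain ⟨A, hA, -, hI, hD⟩ := cfg_exists_valuationSubring (Ω := Ω) Q hℓ hℓQ
  have hτ' : ∀ y : 𝓞 L, (τ.restrictScalars ℚ) • y - y ∈ Q := hτ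
  have key : ∀ σ : Ω ≃ₐ[ℚ] Ω,
      (∀ x : L, σ (algebraMap L Ω x) = algebraMap L Ω ((τ.restrictScalars ℚ) x)) →
      (∀ x : L, σ (algebraMap L Ω x) = algebraMap L Ω x) → τ = 1 := by
    intro σ hσ hfix
    ext x
    apply (algebraMap L Ω).injective
    change algebraMap L Ω (τ x) = algebraMap L Ω x
    rw [← hfix x, hσ x]
    rfl
  by_cases hℓp : ℓ = p
  · subst hℓp
    obtain ⟨σ, hσA, hσ⟩ := hD (τ.restrictScalars ℚ) (cfg_smul_eq_of_inertia Q _ hτ')
    refine key σ hσ (h2 A hA σ hσA ?_)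
    intro k
    rw [IsScalarTower.algebraMap_apply K L Ω, hσ]
    congr 1
    exact τ.commutes k
  · obtain ⟨σ, hσA, hσ⟩ := hI (τ.restrictScalars ℚ) hτ'
    exact key σ hσ (h1 ℓ hℓ hℓp A hA σ hσA)

end main

section QBar

/-- `AlgebraicClosure ℚ` is Galois over `ℚ` (for the `ℚ`-algebra structure found by instance
resolution, `DivisionRing.toRatAlgebra`). -/
theorem cfg_isGalois_QBar : IsGalois ℚ (AlgebraicClosure ℚ) := by
  have h0 : (DivisionRing.toRatAlgebra : Algebra ℚ (AlgebraicClosure ℚ)) =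
      AlgebraicClosure.instAlgebra ℚ := Subsingleton.elim _ _
  have h1 : Algebra.IsAlgebraic ℚ (AlgebraicClosure ℚ) := by
    have h := AlgebraicClosure.isAlgebraic ℚ
    rw [← h0] at h
    exact h
  have h2 : IsAlgClosure ℚ (AlgebraicClosure ℚ) := ⟨inferInstance, inferInstance⟩
  exact IsAlgClosure.isGalois ℚ (AlgebraicClosure ℚ)

/-- **WP-A2** for `Ω = AlgebraicClosure ℚ`. -/
theorem cfg_unram {p : ℕ} {K L : Type*} [Field K] [NumberField K] [Field L]
    [NumberField L] [Algebra K L] [Algebra K (AlgebraicClosure ℚ)] [Algebra L (AlgebraicClosure ℚ)]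
    [IsScalarTower K L (AlgebraicClosure ℚ)] [IsGalois ℚ L]
    (h1 : ∀ ℓ : ℕ, ℓ.Prime → ℓ ≠ p → ∀ A : ValuationSubring (AlgebraicClosure ℚ),
      A.LiesOverPrime ℓ → ∀ σ ∈ A.inertiaSubgroupIn ℚ,
        ∀ x : L, σ (algebraMap L (AlgebraicClosure ℚ) x) = algebraMap L (AlgebraicClosure ℚ) x)
    (h2 : ∀ A : ValuationSubring (AlgebraicClosure ℚ), A.LiesOverPrime p →
      ∀ σ ∈ A.decompositionSubgroup ℚ,
      (∀ x : K, σ (algebraMap K (AlgebraicClosure ℚ) x) = algebraMap K (AlgebraicClosure ℚ) x) →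
        ∀ x : L, σ (algebraMap L (AlgebraicClosure ℚ) x) = algebraMap L (AlgebraicClosure ℚ) x) :
    cft_Unram K L := by
  have := cfg_isGalois_QBar
  exact cfg_unram_of_galois h1 h2

/-- **WP-A2** for nested intermediate fields of `AlgebraicClosure ℚ`. -/
theorem cfg_unram_intermediateField {p : ℕ} (K : IntermediateField ℚ (AlgebraicClosure ℚ))
    (L : IntermediateField K (AlgebraicClosure ℚ)) [NumberField K] [NumberField L] [IsGalois ℚ L]
    (h1 : ∀ ℓ : ℕ, ℓ.Prime → ℓ ≠ p → ∀ A : ValuationSubring (AlgebraicClosure ℚ),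
      A.LiesOverPrime ℓ → ∀ σ ∈ A.inertiaSubgroupIn ℚ, ∀ x ∈ L, σ x = x)
    (h2 : ∀ A : ValuationSubring (AlgebraicClosure ℚ), A.LiesOverPrime p →
      ∀ σ ∈ A.decompositionSubgroup ℚ, (∀ x ∈ K, σ x = x) → ∀ x ∈ L, σ x = x) :
    cft_Unram K L := by
  refine cfg_unram (p := p) ?_ ?_
  · intro ℓ hℓ hℓp A hA σ hσ x
    exact h1 ℓ hℓ hℓp A hA σ hσ x x.2
  · intro A hA σ hσ hK x
    exact h2 A hA σ hσ (fun k hk => hK ⟨k, hk⟩) x x.2

end QBar

end Fermat.Agent.Lib.CFT
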