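import Mathlib
import Fermat.Agent.Lib.CFT.RamBridge
import Fermat.Agent.Lib.CFT.Iface

/-!
# WP-A2: the ramification bridge in the shape of `cff_IfaceBridge`
-/

set_option autoImplicit false

namespace Fermat.Agent.Lib.CFT

/-- The ramification bridge: infinite-level triviality of inertia (away from `p`) and of
`D_A ∩ G_K` (above `p`) on `L` implies that `L/K` is unramified at all finite primes. -/
theorem cfg_ifaceBridge (p : ℕ) : cff_IfaceBridge p :=
  fun K L _ _ _ h1 h2 => cfg_unram_intermediateField K L h1 h2

end Fermat.Agent.Lib.CFT
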