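/-
S14 (CFT route), WP-D: the analytic interface `cfd_IfaceNonsplit p` of the endgame, discharged by
`cfi_infinite_nonsplit` (WP-Z, Z4), and the resulting reduction of the master Prop `cft_NoExt p`
to reciprocity for principal ideals alone.
-/
import Mathlib
import Fermat.Agent.Lib.CFT.ZetaSplit
import Fermat.Agent.Lib.CFT.Endgame
import Fermat.Agent.Lib.CFT.RamBridgeIface

set_option autoImplicit false

namespace Fermat.Agent.Lib.CFT

open NumberField IsDedekindDomain

/-- the set of height one primes of a given absolute norm is finite -/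
theorem cfd_finite_absNorm_eq (F : Type*) [Field F] [NumberField F] (n : ℕ) :
    {𝔮 : HeightOneSpectrum (𝓞 F) | Ideal.absNorm 𝔮.asIdeal = n}.Finite := by
  have h := Ideal.finite_setOfPred_absNorm_eq (S := 𝓞 F) n
  refine Set.Finite.of_finite_image (f := fun 𝔮 : HeightOneSpectrum (𝓞 F) => 𝔮.asIdeal)
    (h.subset ?_) ?_
  · rintro _ ⟨𝔮, h𝔮, rfl⟩
    exact h𝔮
  · intro 𝔮 _ 𝔮' _ hh
    exact HeightOneSpectrum.ext hh

/-- **(Z)**: the interface `cfd_IfaceNonsplit p` holds. -/
theorem cfd_ifaceNonsplit {p : ℕ} [Fact p.Prime] : cfd_IfaceNonsplit p := by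
  intro K L _ _ _ _ _ _ _ _ ζ _ hdeg hun
  have hp : p.Prime := Fact.out
  obtain ⟨𝔮, h𝔮T, hprime, 𝔔, h𝔔, hlo, hne⟩ :=
    (cfi_infinite_nonsplit K L hp hdeg (cfd_finite_absNorm_eq K p).toFinset hun).nonempty
  refine ⟨𝔮.asIdeal, 𝔔, 𝔮.isPrime, hprime, ?_, h𝔔, hlo, hne⟩
  intro h
  apply h𝔮T
  rw [Set.Finite.mem_toFinset]
  exact h

/-- The master Prop `cft_NoExt p` follows from reciprocity for principal ideals. -/
theorem cfd_noExt_of_recip {p : ℕ} [Fact p.Prime] (hp3 : 3 ≤ p) (hR : cfd_IfaceRecip p) :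
    cft_NoExt p :=
  cfd_noExt hp3 hR cfd_ifaceNonsplit

/-- **S14 modulo reciprocity**: `ExtVanishingCts p` follows from reciprocity for principal ideals
in unramified cyclic degree-`p` extensions of `ℚ(ζ_p)`. -/
theorem cfd_extVanishing_of_recip {p : ℕ} [Fact p.Prime] (hp3 : 3 ≤ p) (hR : cfd_IfaceRecip p) :
    ExtCitation.ExtVanishingCts p :=
  cff_extVanishing (cfd_noExt_of_recip hp3 hR) (cfg_ifaceBridge p)

end Fermat.Agent.Lib.CFT
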