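/-
S14 / WP-C7 (first inequality): abstract counting lemmas on finite groups.

* `cfe_card_range_le_card_fixed` : for a finite commutative group `M`, an endomorphism `s`
  and a homomorphism `N` with `N ∘ s = N`:  `#(range N) ≤ #{m | s m = m}`.
* `cfe_card_le_mul_of_separating` : a function `φ : F → X` on a subgroup `F ≥ H` which separates
  the cosets of `H` bounds `#F ≤ #H * #X`.
* `cfe_index_le_of_separating` : a function `θ : Z → J` separating the cosets of `B ≤ Z`
  bounds the index of `B` by `#J`.
-/
import Mathlib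

set_option autoImplicit false
set_option linter.style.haveILetI false
set_option linter.unusedSectionVars false
set_option linter.overlappingInstances false

namespace Fermat.Agent.Lib.CFT

section Fixed

variable {M A : Type*} [CommGroup M] [Finite M] [Group A]

/-- `m ↦ s m / m`. -/
def cfe_dHom (s : M →* M) : M →* M where
  toFun m := s m / m
  map_one' := by simp
  map_mul' a b := by rw [map_mul, mul_div_mul_comm]

theorem cfe_dHom_apply (s : M →* M) (m : M) : cfe_dHom s m = s m / m := rfl

theorem cfe_mem_ker_dHom (s : M →* M) (m : M) : m ∈ (cfe_dHom s).ker ↔ s m = m := by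
  rw [MonoidHom.mem_ker, cfe_dHom_apply, div_eq_one]

theorem cfe_card_range_le_card_fixed (s : M →* M) (N : M →* A) (hN : ∀ m, N (s m) = N m) :
    Nat.card N.range ≤ Nat.card (cfe_dHom s).ker := by
  have hle : (cfe_dHom s).range ≤ N.ker := by
    rintro _ ⟨m, rfl⟩
    rw [MonoidHom.mem_ker, cfe_dHom_apply, map_div, hN, div_self']
  have h1 : Nat.card N.ker * Nat.card N.range = Nat.card M := by
    rw [← Nat.card_congr (QuotientGroup.quotientKerEquivRange N).toEquiv, mul_comm]
    exact (Subgroup.card_eq_card_quotient_mul_card_subgroup N.ker).symm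
  have h2 : Nat.card (cfe_dHom s).ker * Nat.card (cfe_dHom s).range = Nat.card M := by
    rw [← Nat.card_congr (QuotientGroup.quotientKerEquivRange (cfe_dHom s)).toEquiv, mul_comm]
    exact (Subgroup.card_eq_card_quotient_mul_card_subgroup (cfe_dHom s).ker).symm
  have h3 : Nat.card (cfe_dHom s).range ≤ Nat.card N.ker := Subgroup.card_le_of_le hle
  have hpos : 0 < Nat.card N.ker := Nat.card_pos
  have h4 : Nat.card N.ker * Nat.card N.range ≤ Nat.card N.ker * Nat.card (cfe_dHom s).ker := by
    rw [h1, ← h2, mul_comm]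
    exact Nat.mul_le_mul_right _ h3
  exact Nat.le_of_mul_le_mul_left h4 hpos

end Fixed

section Separating

variable {Z : Type*} [Group Z]

/-- A function `θ : Z → J` separating the cosets of `B ≤ Z` bounds the index of `B`. -/
theorem cfe_index_le_of_separating {J : Type*} [Finite J] (B : Subgroup Z)
    (θ : Z → J) (hθ : ∀ u u' : Z, θ u = θ u' → u⁻¹ * u' ∈ B) :
    B.index ≤ Nat.card J ∧ B.index ≠ 0 := by
  have hinj : Function.Injective (fun q : Z ⧸ B => θ (Quotient.out q)) := by
    intro q q' h
    have h1 := hθ _ _ h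
    have h2 : (QuotientGroup.mk (Quotient.out q) : Z ⧸ B) = QuotientGroup.mk (Quotient.out q') :=
      QuotientGroup.eq.mpr h1
    rwa [QuotientGroup.out_eq', QuotientGroup.out_eq'] at h2
  haveI : Finite (Z ⧸ B) := Finite.of_injective _ hinj
  refine ⟨?_, ?_⟩
  · rw [Subgroup.index]
    exact Nat.card_le_card_of_injective _ hinj
  · rw [Subgroup.index]
    exact Nat.card_pos.ne'

/-- A function `φ : F → X` on a subgroup `F ≥ H` of a finite group separating the cosets of `H`
bounds `#F ≤ #H * #X`. -/
theorem cfe_card_le_mul_of_separating [Finite Z] {X : Type*} [Finite X] (F H : Subgroup Z)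
    (hHF : H ≤ F) (φ : F → X) (hφ : ∀ m m' : F, φ m = φ m' → (m : Z)⁻¹ * (m' : Z) ∈ H) :
    Nat.card F ≤ Nat.card H * Nat.card X := by
  have h1 := cfe_index_le_of_separating (H.subgroupOf F) φ (fun u u' h => by
    rw [Subgroup.mem_subgroupOf]
    simpa using hφ u u' h)
  have h2 : Nat.card F = (H.subgroupOf F).index * Nat.card (H.subgroupOf F) :=
    (Subgroup.index_mul_card (H.subgroupOf F)).symm
  have h3 : Nat.card (H.subgroupOf F) = Nat.card H :=
    Nat.card_congr (Subgroup.subgroupOfEquivOfLe hHF).toEquiv
  rw [h2, h3, mul_comm]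
  exact Nat.mul_le_mul_left _ h1.1

end Separating

end Fermat.Agent.Lib.CFT
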