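/-
S14 / WP-C7: the first inequality for an unramified cyclic extension `L/K` of prime degree of
number fields: the norm classes do not fill the class group of `K`.
-/
import Fermat.Agent.Lib.CFT.FirstIneqGroup
import Fermat.Agent.Lib.CFT.FirstIneqMaps

set_option autoImplicit false
set_option linter.style.haveILetI false
set_option linter.unusedSectionVars false
set_option linter.overlappingInstances false

open NumberField
open scoped nonZeroDivisors Pointwise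

namespace Fermat.Agent.Lib.CFT

variable {K L : Type} [Field K] [Field L] [NumberField K] [NumberField L] [Algebra K L]
  [IsGalois K L]

/-- An ideal fixed by a generator of the Galois group is fixed by the whole group. -/
theorem cfe_invariant_of_generator (σ : L ≃ₐ[K] L) (hσ : ∀ τ : L ≃ₐ[K] L, τ ∈ Subgroup.zpowers σ)
    {I : Ideal (𝓞 L)} (hI : σ • I = I) (τ : L ≃ₐ[K] L) : τ • I = I := by
  have h1 : Subgroup.zpowers σ ≤ MulAction.stabilizer (L ≃ₐ[K] L) I := by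
    rw [Subgroup.zpowers_le]
    exact hI
  exact h1 (hσ τ)

theorem cfe_coe_intNorm (x : 𝓞 L) :
    Algebra.intNorm (𝓞 K) (𝓞 L) x = RingOfIntegers.norm K x := by
  apply RingOfIntegers.ext
  rw [RingOfIntegers.coe_norm]
  exact Algebra.algebraMap_intNorm (A := 𝓞 K) (K := K) (L := L) (B := 𝓞 L) x

theorem cfe_norm_smul (σ : L ≃ₐ[K] L) (x : 𝓞 L) :
    RingOfIntegers.norm K (σ • x) = RingOfIntegers.norm K x := by
  apply RingOfIntegers.ext
  rw [RingOfIntegers.coe_norm, RingOfIntegers.coe_norm]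
  exact Algebra.norm_eq_of_algEquiv σ (x : L)


/-- From `(x) σ𝔄 = (y) 𝔄` one gets `N y = v N x` for a unit `v` of `𝓞 K`. -/
theorem cfe_norm_unit (σ : L ≃ₐ[K] L) {x y : 𝓞 L} {𝔄 : Ideal (𝓞 L)} (h𝔄 : 𝔄 ≠ ⊥)
    (h : Ideal.span {x} * σ • 𝔄 = Ideal.span {y} * 𝔄) :
    ∃ v : (𝓞 K)ˣ, RingOfIntegers.norm K y = v * RingOfIntegers.norm K x := by
  have h1 := congrArg (Ideal.relNorm (𝓞 K)) h
  rw [map_mul, map_mul, Ideal.relNorm_smul, Ideal.relNorm_singleton, Ideal.relNorm_singleton,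
    cfe_coe_intNorm, cfe_coe_intNorm] at h1
  have hne : Ideal.relNorm (𝓞 K) 𝔄 ≠ 0 := by
    rw [Ideal.zero_eq_bot, Ne, Ideal.relNorm_eq_bot_iff]
    exact h𝔄
  have h2 := mul_right_cancel₀ hne h1
  rw [Ideal.span_singleton_eq_span_singleton] at h2
  obtain ⟨v, hv⟩ := h2
  exact ⟨v, by rw [← hv, mul_comm]⟩


theorem cfe_isAlgebraic_int (w : L) : IsAlgebraic ℤ w :=
  (IsFractionRing.isAlgebraic_iff ℤ ℚ L).mpr (Algebra.IsAlgebraic.isAlgebraic w)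

/-- Hilbert 90 with an integral solution: if `t ∈ L` has norm `1` then `t = a / σ a` for some
nonzero `a ∈ 𝓞 L`. -/
theorem cfe_hilbert90_integral (σ : L ≃ₐ[K] L) (hσ : ∀ τ : L ≃ₐ[K] L, τ ∈ Subgroup.zpowers σ)
    {t : L} (ht : Algebra.norm K t = 1) :
    ∃ a : 𝓞 L, a ≠ 0 ∧ (a : L) = t * σ (a : L) := by
  haveI : IsCyclic (L ≃ₐ[K] L) := ⟨⟨σ, hσ⟩⟩
  obtain ⟨w, hw⟩ := groupCohomology.exists_div_of_norm_eq_one (K := K) (L := L) hσ ht
  obtain ⟨d, hd, hint⟩ := (cfe_isAlgebraic_int (w : L)).exists_integral_multiple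
  have hw0 : (w : L) ≠ 0 := w.ne_zero
  have hσw0 : σ (w : L) ≠ 0 := by
    rw [Ne, map_eq_zero]; exact hw0
  refine ⟨IsIntegralClosure.mk' (𝓞 L) (d • (w : L)) hint, ?_, ?_⟩
  · intro h0
    have h1 := congrArg (algebraMap (𝓞 L) L) h0
    rw [IsIntegralClosure.algebraMap_mk', map_zero, smul_eq_zero] at h1
    exact h1.elim hd hw0
  · have h1 : ((IsIntegralClosure.mk' (𝓞 L) (d • (w : L)) hint : 𝓞 L) : L) = d • (w : L) :=
      IsIntegralClosure.algebraMap_mk' (𝓞 L) (d • (w : L)) hint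
    rw [h1, map_zsmul, ← hw]
    rw [zsmul_eq_mul, zsmul_eq_mul]
    field_simp


/-- The hypothesis "unramified" in the form used here. -/
def cfe_Unr (K L : Type) [Field K] [Field L] [NumberField K] [NumberField L] [Algebra K L] : Prop :=
  ∀ Q : Ideal (𝓞 L), Q.IsPrime → Q ≠ ⊥ → Q.ramificationIdx (𝓞 K) = 1

theorem cfe_unr_of_unram (h : cft_Unram K L) : cfe_Unr K L := by
  intro Q hQ hQ0
  haveI := hQ
  haveI := h Q hQ0
  exact Ideal.ramificationIdx_eq_one Q (𝓞 K)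

/-- Key claim: if `(X) σℭ = (Y) ℭ` and `N Y = N ε · N X` for a unit `ε`, then `ℭ` is, up to a
principal ideal, extended from `K`. -/
theorem cfe_claim (hunr : cfe_Unr K L) (σ : L ≃ₐ[K] L)
    (hσ : ∀ τ : L ≃ₐ[K] L, τ ∈ Subgroup.zpowers σ)
    {ℭ : Ideal (𝓞 L)} (hℭ : ℭ ≠ ⊥) {X Y : 𝓞 L} (hX : X ≠ 0) (hY : Y ≠ 0)
    (h : Ideal.span {X} * σ • ℭ = Ideal.span {Y} * ℭ) (ε : (𝓞 L)ˣ)
    (hN : RingOfIntegers.norm K Y = RingOfIntegers.norm K (ε : 𝓞 L) * RingOfIntegers.norm K X) :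
    ∃ 𝔠 : Ideal (𝓞 K), 𝔠 ≠ ⊥ ∧ ∃ a : 𝓞 L, a ≠ 0 ∧
      Ideal.span {a} * ℭ = 𝔠.map (algebraMap (𝓞 K) (𝓞 L)) := by
  have hXL : (X : L) ≠ 0 := by rwa [Ne, RingOfIntegers.coe_eq_zero_iff]
  have hYL : (Y : L) ≠ 0 := by rwa [Ne, RingOfIntegers.coe_eq_zero_iff]
  have hεL : ((ε : 𝓞 L) : L) ≠ 0 := by
    rw [Ne, RingOfIntegers.coe_eq_zero_iff]; exact ε.ne_zero
  have ht : Algebra.norm K ((Y : L) / (((ε : 𝓞 L) : L) * (X : L))) = 1 := by
    have h1 := congrArg (fun z : 𝓞 K => (z : K)) hN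
    simp only [map_mul, RingOfIntegers.coe_norm] at h1
    rw [div_eq_mul_inv, map_mul, Algebra.norm_inv, map_mul, h1]
    have h2 : Algebra.norm K (((ε : 𝓞 L) : L)) * Algebra.norm K (X : L) ≠ 0 := by
      rw [← map_mul, Ne, Algebra.norm_eq_zero_iff]
      exact mul_ne_zero hεL hXL
    exact mul_inv_cancel₀ h2
  obtain ⟨a, ha0, ha⟩ := cfe_hilbert90_integral σ hσ ht
  have haL : (a : L) ≠ 0 := by rwa [Ne, RingOfIntegers.coe_eq_zero_iff]
  -- the key relation in `𝓞 L`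
  have hrel : a * (ε : 𝓞 L) * X = Y * σ • a := by
    apply RingOfIntegers.ext
    simp only [map_mul]
    have h3 : (algebraMap (𝓞 L) L) (σ • a) = σ ((algebraMap (𝓞 L) L) a) := rfl
    have ha' : (algebraMap (𝓞 L) L) a = (algebraMap (𝓞 L) L) Y /
        ((algebraMap (𝓞 L) L) (ε : 𝓞 L) * (algebraMap (𝓞 L) L) X) * σ ((algebraMap (𝓞 L) L) a) := ha
    have hXL' : (algebraMap (𝓞 L) L) X ≠ 0 := hXL
    have hεL' : (algebraMap (𝓞 L) L) (ε : 𝓞 L) ≠ 0 := hεL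
    rw [h3]
    rw [div_mul_eq_mul_div, eq_div_iff (mul_ne_zero hεL' hXL')] at ha'
    linear_combination ha'
  -- `ℭ₁ = (a) ℭ` is σ-invariant
  have hinv : σ • (Ideal.span {a} * ℭ) = Ideal.span {a} * ℭ := by
    have hXne : Ideal.span ({X} : Set (𝓞 L)) ≠ 0 := by
      rw [Ideal.zero_eq_bot, Ne, Ideal.span_singleton_eq_bot]; exact hX
    apply mul_left_cancel₀ hXne
    rw [MulDistribMulAction.smul_mul, cfe_smul_span_singleton]
    calc Ideal.span {X} * (Ideal.span {σ • a} * σ • ℭ)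
        = Ideal.span {σ • a} * (Ideal.span {X} * σ • ℭ) := mul_left_comm _ _ _
      _ = Ideal.span {σ • a} * (Ideal.span {Y} * ℭ) := by rw [h]
      _ = Ideal.span {Y * σ • a} * ℭ := by
          rw [← mul_assoc, Ideal.span_singleton_mul_span_singleton, mul_comm (σ • a) Y]
      _ = Ideal.span {a * (ε : 𝓞 L) * X} * ℭ := by rw [hrel]
      _ = Ideal.span {X} * (Ideal.span {a} * ℭ) := by
          rw [← mul_assoc, Ideal.span_singleton_mul_span_singleton,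
            ← Ideal.span_singleton_mul_right_unit ε.isUnit (X * a),
            show a * (ε : 𝓞 L) * X = X * a * (ε : 𝓞 L) by ring]
  have hℭ₁ : Ideal.span {a} * ℭ ≠ ⊥ := by
    rw [← Ideal.zero_eq_bot]
    refine mul_ne_zero ?_ (by rwa [Ideal.zero_eq_bot])
    rw [Ideal.zero_eq_bot, Ne, Ideal.span_singleton_eq_bot]; exact ha0
  obtain ⟨𝔠, h𝔠⟩ := cfe_invariant_ideal_extended hunr _ hℭ₁
    (cfe_invariant_of_generator σ hσ hinv)
  refine ⟨𝔠, ?_, a, ha0, h𝔠.symm⟩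
  intro h0
  rw [h0, Ideal.map_bot] at h𝔠
  exact hℭ₁ h𝔠.symm


/-! ### The map `φ : M^σ → (𝓞 K)ˣ / N (𝓞 L)ˣ` (as a relation) -/

/-- `v` is a value of `φ` at the class `m`. -/
def cfe_PhiData (σ : L ≃ₐ[K] L) (m : ClassGroup (𝓞 L)) (v : (𝓞 K)ˣ) : Prop :=
  ∃ (𝔄 : (Ideal (𝓞 L))⁰) (x y : 𝓞 L), ClassGroup.mk0 𝔄 = m ∧ x ≠ 0 ∧ y ≠ 0 ∧
    Ideal.span {x} * σ • (𝔄 : Ideal (𝓞 L)) = Ideal.span {y} * (𝔄 : Ideal (𝓞 L)) ∧
    RingOfIntegers.norm K y = (v : 𝓞 K) * RingOfIntegers.norm K x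

theorem cfe_exists_phiData (σ : L ≃ₐ[K] L) (m : ClassGroup (𝓞 L))
    (hm : cfe_sigmaM σ m = m) : ∃ v : (𝓞 K)ˣ, cfe_PhiData σ m v := by
  obtain ⟨𝔄, rfl⟩ := ClassGroup.mk0_surjective m
  rw [cfe_sigmaM_mk0] at hm
  obtain ⟨x, y, hx, hy, hxy⟩ := ClassGroup.mk0_eq_mk0_iff.mp hm
  rw [cfe_actIdeal0_coe] at hxy
  obtain ⟨v, hv⟩ := cfe_norm_unit σ (cfe_mem_nzd_iff.mp 𝔄.2) hxy
  exact ⟨v, 𝔄, x, y, rfl, hx, hy, hxy, hv⟩

theorem cfe_mk0_eq_of_span_mul_eq {I J : (Ideal (𝓞 L))⁰} {a : 𝓞 L} (ha : a ≠ 0)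
    (h : Ideal.span {a} * (I : Ideal (𝓞 L)) = (J : Ideal (𝓞 L))) :
    ClassGroup.mk0 I = ClassGroup.mk0 J := by
  rw [ClassGroup.mk0_eq_mk0_iff]
  exact ⟨a, 1, ha, one_ne_zero, by rw [h, Ideal.span_singleton_one, Ideal.top_mul]⟩

/-- Separation property of `φ`. -/
theorem cfe_phi_separates (hunr : cfe_Unr K L) (σ : L ≃ₐ[K] L)
    (hσ : ∀ τ : L ≃ₐ[K] L, τ ∈ Subgroup.zpowers σ) {m m' : ClassGroup (𝓞 L)} {v v' : (𝓞 K)ˣ}
    (hv : cfe_PhiData σ m v) (hv' : cfe_PhiData σ m' v')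
    (h : v⁻¹ * v' ∈ (cfe_unitNorm K L).range) : m⁻¹ * m' ∈ (cfe_extM K L).range := by
  obtain ⟨𝔄, x, y, rfl, hx, hy, hxy, hN⟩ := hv
  obtain ⟨𝔄', x', y', rfl, hx', hy', hxy', hN'⟩ := hv'
  obtain ⟨ε, hε⟩ := h
  obtain ⟨𝔅, h𝔅⟩ := ClassGroup.mk0_surjective (ClassGroup.mk0 𝔄)⁻¹
  have h1 : ClassGroup.mk0 (𝔄 * 𝔅) = 1 := by rw [map_mul, h𝔅, mul_inv_cancel]
  rw [ClassGroup.mk0_eq_one_iff (𝔄 * 𝔅).2] at h1
  obtain ⟨⟨g, hg⟩⟩ := h1
  rw [Submonoid.coe_mul] at hg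
  change (𝔄 : Ideal (𝓞 L)) * (𝔅 : Ideal (𝓞 L)) = Ideal.span {g} at hg
  have hg0 : g ≠ 0 := by
    intro h0
    rw [h0, Ideal.span_singleton_eq_bot.mpr rfl] at hg
    have := mul_eq_zero.mp (hg.trans Ideal.zero_eq_bot.symm)
    rcases this with h | h
    · exact cfe_mem_nzd_iff.mp 𝔄.2 h
    · exact cfe_mem_nzd_iff.mp 𝔅.2 h
  -- the ideal `ℭ = 𝔅 𝔄'` and its data
  have hE0 : σ • (𝔄 : Ideal (𝓞 L)) * σ • (𝔅 : Ideal (𝓞 L)) = Ideal.span {σ • g} := by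
    rw [← MulDistribMulAction.smul_mul, hg, cfe_smul_span_singleton]
  have hE1 : Ideal.span {y * g} * σ • (𝔅 : Ideal (𝓞 L)) =
      Ideal.span {x * σ • g} * (𝔅 : Ideal (𝓞 L)) := by
    calc Ideal.span {y * g} * σ • (𝔅 : Ideal (𝓞 L))
        = (Ideal.span {y} * (𝔄 : Ideal (𝓞 L))) * ((𝔅 : Ideal (𝓞 L)) * σ • (𝔅 : Ideal (𝓞 L))) := by
          rw [← Ideal.span_singleton_mul_span_singleton, ← hg]
          simp only [mul_assoc]
      _ = (Ideal.span {x} * σ • (𝔄 : Ideal (𝓞 L))) *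
            ((𝔅 : Ideal (𝓞 L)) * σ • (𝔅 : Ideal (𝓞 L))) := by rw [hxy]
      _ = Ideal.span {x} * (σ • (𝔄 : Ideal (𝓞 L)) * σ • (𝔅 : Ideal (𝓞 L))) *
            (𝔅 : Ideal (𝓞 L)) := by
          simp only [mul_assoc, mul_comm, mul_left_comm]
      _ = Ideal.span {x * σ • g} * (𝔅 : Ideal (𝓞 L)) := by
          rw [hE0, Ideal.span_singleton_mul_span_singleton]
  have hℭ : (𝔅 : Ideal (𝓞 L)) * (𝔄' : Ideal (𝓞 L)) ≠ ⊥ := by
    rw [← Ideal.zero_eq_bot]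
    exact mul_ne_zero (by rw [Ideal.zero_eq_bot]; exact cfe_mem_nzd_iff.mp 𝔅.2)
      (by rw [Ideal.zero_eq_bot]; exact cfe_mem_nzd_iff.mp 𝔄'.2)
  have hXY : Ideal.span {y * g * x'} * σ • ((𝔅 : Ideal (𝓞 L)) * (𝔄' : Ideal (𝓞 L))) =
      Ideal.span {x * σ • g * y'} * ((𝔅 : Ideal (𝓞 L)) * (𝔄' : Ideal (𝓞 L))) := by
    rw [MulDistribMulAction.smul_mul]
    calc Ideal.span {y * g * x'} * (σ • (𝔅 : Ideal (𝓞 L)) * σ • (𝔄' : Ideal (𝓞 L)))
        = (Ideal.span {y * g} * σ • (𝔅 : Ideal (𝓞 L))) *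
            (Ideal.span {x'} * σ • (𝔄' : Ideal (𝓞 L))) := by
          rw [← Ideal.span_singleton_mul_span_singleton (y * g) x']
          simp only [mul_assoc, mul_comm, mul_left_comm]
      _ = (Ideal.span {x * σ • g} * (𝔅 : Ideal (𝓞 L))) *
            (Ideal.span {y'} * (𝔄' : Ideal (𝓞 L))) := by rw [hE1, hxy']
      _ = Ideal.span {x * σ • g * y'} * ((𝔅 : Ideal (𝓞 L)) * (𝔄' : Ideal (𝓞 L))) := by
          rw [← Ideal.span_singleton_mul_span_singleton (x * σ • g) y']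
          simp only [mul_assoc, mul_comm, mul_left_comm]
  have hX0 : y * g * x' ≠ 0 := mul_ne_zero (mul_ne_zero hy hg0) hx'
  have hY0 : x * σ • g * y' ≠ 0 := by
    refine mul_ne_zero (mul_ne_zero hx ?_) hy'
    rw [Ne, smul_eq_zero_iff_eq]; exact hg0
  have hNε : RingOfIntegers.norm K (ε : 𝓞 L) = ((v⁻¹ * v' : (𝓞 K)ˣ) : 𝓞 K) := by
    rw [← hε]; rfl
  have hNXY : RingOfIntegers.norm K (x * σ • g * y') =
      RingOfIntegers.norm K (ε : 𝓞 L) * RingOfIntegers.norm K (y * g * x') := by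
    rw [hNε]
    simp only [map_mul, cfe_norm_smul, hN, hN', Units.val_mul]
    have hvv : (v : 𝓞 K) * ((v⁻¹ : (𝓞 K)ˣ) : 𝓞 K) = 1 := by
      rw [← Units.val_mul, mul_inv_cancel, Units.val_one]
    linear_combination (-(RingOfIntegers.norm K x * RingOfIntegers.norm K g * (v' : 𝓞 K) *
      RingOfIntegers.norm K x')) * hvv
  obtain ⟨𝔠, h𝔠0, a, ha0, ha⟩ := cfe_claim hunr σ hσ hℭ hX0 hY0 hXY ε hNXY
  let 𝔠0 : (Ideal (𝓞 K))⁰ := ⟨𝔠, cfe_mem_nzd_iff.mpr h𝔠0⟩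
  refine ⟨ClassGroup.mk0 𝔠0, ?_⟩
  rw [cfe_extM_mk0, ← h𝔅, ← map_mul]
  symm
  apply cfe_mk0_eq_of_span_mul_eq ha0
  rw [Submonoid.coe_mul, cfe_extHom_coe]
  exact ha


/-! ### The map `θ : ker N_unit → ker j` (as a relation) -/

/-- `𝔞` is a value of `θ` at the unit `u`. -/
def cfe_ThetaData (σ : L ≃ₐ[K] L) (u : (𝓞 L)ˣ) (𝔞 : (Ideal (𝓞 K))⁰) : Prop :=
  ∃ y : 𝓞 L, y ≠ 0 ∧ y = (u : 𝓞 L) * σ • y ∧
    Ideal.span {y} = (𝔞 : Ideal (𝓞 K)).map (algebraMap (𝓞 K) (𝓞 L))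

theorem cfe_exists_thetaData (hunr : cfe_Unr K L) (σ : L ≃ₐ[K] L)
    (hσ : ∀ τ : L ≃ₐ[K] L, τ ∈ Subgroup.zpowers σ) (u : (𝓞 L)ˣ)
    (hu : u ∈ (cfe_unitNorm K L).ker) : ∃ 𝔞 : (Ideal (𝓞 K))⁰, cfe_ThetaData σ u 𝔞 := by
  have ht : Algebra.norm K (((u : 𝓞 L)) : L) = 1 := by
    rw [MonoidHom.mem_ker] at hu
    have h1 := congrArg (fun w : (𝓞 K)ˣ => ((w : 𝓞 K) : K)) hu
    simpa [cfe_unitNorm_coe] using h1
  obtain ⟨y, hy0, hy⟩ := cfe_hilbert90_integral σ hσ ht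
  have hy' : y = (u : 𝓞 L) * σ • y := by
    apply RingOfIntegers.ext
    rw [hy]
    rfl
  have hinv : σ • Ideal.span ({y} : Set (𝓞 L)) = Ideal.span {y} := by
    rw [cfe_smul_span_singleton]
    conv_rhs => rw [hy']
    rw [Ideal.span_singleton_mul_left_unit u.isUnit]
  have hne : Ideal.span ({y} : Set (𝓞 L)) ≠ ⊥ := by
    rw [Ne, Ideal.span_singleton_eq_bot]; exact hy0
  obtain ⟨𝔞, h𝔞⟩ := cfe_invariant_ideal_extended hunr _ hne
    (cfe_invariant_of_generator σ hσ hinv)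
  have h𝔞0 : 𝔞 ≠ ⊥ := by
    intro h0
    rw [h0, Ideal.map_bot] at h𝔞
    exact hne h𝔞.symm
  exact ⟨⟨𝔞, cfe_mem_nzd_iff.mpr h𝔞0⟩, y, hy0, hy', h𝔞.symm⟩

theorem cfe_thetaData_mem_ker (σ : L ≃ₐ[K] L) {u : (𝓞 L)ˣ} {𝔞 : (Ideal (𝓞 K))⁰}
    (h : cfe_ThetaData σ u 𝔞) : ClassGroup.mk0 𝔞 ∈ (cfe_extM K L).ker := by
  obtain ⟨y, hy0, -, hy⟩ := h
  rw [MonoidHom.mem_ker, cfe_extM_mk0, ClassGroup.mk0_eq_one_iff (cfe_extHom K L 𝔞).2,
    cfe_extHom_coe, ← hy]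
  exact ⟨⟨y, rfl⟩⟩

/-- Separation property of `θ`. -/
theorem cfe_theta_separates (σ : L ≃ₐ[K] L) {u u' : (𝓞 L)ˣ} {𝔞 𝔞' : (Ideal (𝓞 K))⁰}
    (h : cfe_ThetaData σ u 𝔞) (h' : cfe_ThetaData σ u' 𝔞')
    (heq : ClassGroup.mk0 𝔞 = ClassGroup.mk0 𝔞') : u⁻¹ * u' ∈ (cfe_unitD σ).range := by
  obtain ⟨y, hy0, hy, hya⟩ := h
  obtain ⟨y', hy0', hy', hya'⟩ := h'
  obtain ⟨c, c', hc, hc', hcc⟩ := ClassGroup.mk0_eq_mk0_iff.mp heq
  have h1 := congrArg (Ideal.map (algebraMap (𝓞 K) (𝓞 L))) hcc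
  rw [Ideal.map_mul, Ideal.map_mul, Ideal.map_span, Ideal.map_span, Set.image_singleton,
    Set.image_singleton, ← hya, ← hya', Ideal.span_singleton_mul_span_singleton,
    Ideal.span_singleton_mul_span_singleton, Ideal.span_singleton_eq_span_singleton] at h1
  obtain ⟨η, hη⟩ := h1
  set fc := algebraMap (𝓞 K) (𝓞 L) c with hfc
  set fc' := algebraMap (𝓞 K) (𝓞 L) c' with hfc'
  have hfc0 : fc ≠ 0 := by
    rw [hfc, Ne, map_eq_zero_iff _ (FaithfulSMul.algebraMap_injective (𝓞 K) (𝓞 L))]; exact hc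
  -- apply σ
  have h2 : fc * σ • y * σ • (η : 𝓞 L) = fc' * σ • y' := by
    have := congrArg (fun z : 𝓞 L => σ • z) hη
    simp only [smul_mul', hfc, hfc', smul_algebraMap] at this
    exact this
  have hσy0 : σ • y ≠ 0 := by
    rw [Ne, smul_eq_zero_iff_eq]; exact hy0
  have h3 : (u : 𝓞 L) * (η : 𝓞 L) = (u' : 𝓞 L) * σ • (η : 𝓞 L) := by
    have h4 : fc * σ • y * ((u : 𝓞 L) * (η : 𝓞 L)) = fc * σ • y * ((u' : 𝓞 L) * σ • (η : 𝓞 L)) := by
      calc fc * σ • y * ((u : 𝓞 L) * (η : 𝓞 L))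
          = fc * ((u : 𝓞 L) * σ • y) * η := by ring
        _ = fc * y * η := by rw [← hy]
        _ = fc' * y' := hη
        _ = fc' * ((u' : 𝓞 L) * σ • y') := by rw [← hy']
        _ = (u' : 𝓞 L) * (fc' * σ • y') := by ring
        _ = (u' : 𝓞 L) * (fc * σ • y * σ • (η : 𝓞 L)) := by rw [h2]
        _ = fc * σ • y * ((u' : 𝓞 L) * σ • (η : 𝓞 L)) := by ring
    exact mul_left_cancel₀ (mul_ne_zero hfc0 hσy0) h4
  have h5 : u * η = u' * cfe_unitAct σ η := by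
    apply Units.ext
    rw [Units.val_mul, Units.val_mul]
    exact h3
  refine ⟨η⁻¹, ?_⟩
  rw [map_inv, inv_eq_iff_eq_inv, mul_inv_rev, inv_inv]
  show cfe_unitAct σ η / η = u'⁻¹ * u
  rw [div_eq_iff_eq_mul, mul_assoc, h5, inv_mul_cancel_left]


/-! ### The first inequality -/

/-- Counting form: `p · #(norm classes) ≤ h_K`. -/
theorem cfe_mul_card_range_normM_le (hunr : cfe_Unr K L) {p : ℕ} (σ : L ≃ₐ[K] L)
    (hσ : ∀ τ : L ≃ₐ[K] L, τ ∈ Subgroup.zpowers σ)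
    (hH0 : (cfe_unitNorm K L).range.index ≠ 0)
    (hH : p * (cfe_unitNorm K L).range.index ≤
      ((cfe_unitD σ).range.subgroupOf (cfe_unitNorm K L).ker).index) :
    p * Nat.card (cfe_normM K L).range ≤ Nat.card (ClassGroup (𝓞 K)) := by
  classical
  set s := cfe_sigmaM σ with hs
  set F : Subgroup (ClassGroup (𝓞 L)) := (cfe_dHom s).ker with hF
  set H : Subgroup (ClassGroup (𝓞 L)) := (cfe_extM K L).range with hHdef
  have hHF : H ≤ F := by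
    rintro _ ⟨a, rfl⟩
    rw [hF, cfe_mem_ker_dHom]
    exact cfe_sigmaM_extM σ a
  -- step 2
  have step2 : Nat.card (cfe_normM K L).range ≤ Nat.card F :=
    cfe_card_range_le_card_fixed s (cfe_normM K L) (cfe_normM_sigmaM σ)
  -- step 1
  haveI : (cfe_unitNorm K L).range.FiniteIndex := ⟨hH0⟩
  haveI : Finite ((𝓞 K)ˣ ⧸ (cfe_unitNorm K L).range) := Subgroup.finite_quotient_of_finiteIndex
  have hfix : ∀ m : F, cfe_sigmaM σ (m : ClassGroup (𝓞 L)) = m := fun m =>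
    (cfe_mem_ker_dHom s _).mp m.2
  let φ : F → (𝓞 K)ˣ ⧸ (cfe_unitNorm K L).range := fun m =>
    QuotientGroup.mk (cfe_exists_phiData σ m (hfix m)).choose
  have hφ : ∀ m m' : F, φ m = φ m' →
      (m : ClassGroup (𝓞 L))⁻¹ * (m' : ClassGroup (𝓞 L)) ∈ H := by
    intro m m' h
    have h1 := QuotientGroup.eq.mp h
    exact cfe_phi_separates hunr σ hσ (cfe_exists_phiData σ m (hfix m)).choose_spec
      (cfe_exists_phiData σ m' (hfix m')).choose_spec h1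
  have step1 : Nat.card F ≤ Nat.card H * (cfe_unitNorm K L).range.index :=
    cfe_card_le_mul_of_separating F H hHF φ hφ
  -- step 3
  let θ : (cfe_unitNorm K L).ker → (cfe_extM K L).ker := fun u =>
    ⟨ClassGroup.mk0 (cfe_exists_thetaData hunr σ hσ u u.2).choose,
      cfe_thetaData_mem_ker σ (cfe_exists_thetaData hunr σ hσ u u.2).choose_spec⟩
  have hθ : ∀ u u' : (cfe_unitNorm K L).ker, θ u = θ u' →
      u⁻¹ * u' ∈ (cfe_unitD σ).range.subgroupOf (cfe_unitNorm K L).ker := by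
    intro u u' h
    rw [Subgroup.mem_subgroupOf]
    have h1 : ClassGroup.mk0 (cfe_exists_thetaData hunr σ hσ u u.2).choose =
        ClassGroup.mk0 (cfe_exists_thetaData hunr σ hσ u' u'.2).choose :=
      congrArg Subtype.val h
    have := cfe_theta_separates σ (cfe_exists_thetaData hunr σ hσ u u.2).choose_spec
      (cfe_exists_thetaData hunr σ hσ u' u'.2).choose_spec h1
    simpa using this
  have step3 : ((cfe_unitD σ).range.subgroupOf (cfe_unitNorm K L).ker).index ≤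
      Nat.card (cfe_extM K L).ker :=
    (cfe_index_le_of_separating _ θ hθ).1
  -- step 4
  have step4 : Nat.card (cfe_extM K L).ker * Nat.card H = Nat.card (ClassGroup (𝓞 K)) := by
    rw [hHdef, ← Nat.card_congr (QuotientGroup.quotientKerEquivRange (cfe_extM K L)).toEquiv,
      mul_comm]
    exact (Subgroup.card_eq_card_quotient_mul_card_subgroup (cfe_extM K L).ker).symm
  calc p * Nat.card (cfe_normM K L).range
      ≤ p * (Nat.card H * (cfe_unitNorm K L).range.index) :=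
        Nat.mul_le_mul_left _ (step2.trans step1)
    _ = Nat.card H * (p * (cfe_unitNorm K L).range.index) := by ring
    _ ≤ Nat.card H * Nat.card (cfe_extM K L).ker :=
        Nat.mul_le_mul_left _ (hH.trans step3)
    _ = Nat.card (ClassGroup (𝓞 K)) := by rw [mul_comm, step4]

/-- **First inequality** for an unramified cyclic extension `L/K` of number fields, given the
Herbrand quotient of the unit group: the norm classes do not fill the class group of `K`. -/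
theorem cfe_normClasses_ne_top {p : ℕ} (hp : p.Prime) (σ : L ≃ₐ[K] L)
    (hσ : ∀ τ : L ≃ₐ[K] L, τ ∈ Subgroup.zpowers σ) (hunr : cft_Unram K L)
    (hH0 : (cfe_unitNorm K L).range.index ≠ 0)
    (hH : p * (cfe_unitNorm K L).range.index ≤
      ((cfe_unitD σ).range.subgroupOf (cfe_unitNorm K L).ker).index) :
    cft_normClasses K L ≠ ⊤ := by
  intro htop
  have h1 := cfe_mul_card_range_normM_le (cfe_unr_of_unram hunr) σ hσ hH0 hH
  rw [cfe_range_normM, htop] at h1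
  have h2 : Nat.card (⊤ : Subgroup (ClassGroup (𝓞 K))) = Nat.card (ClassGroup (𝓞 K)) :=
    Nat.card_congr Subgroup.topEquiv.toEquiv
  rw [h2] at h1
  have hpos : 0 < Nat.card (ClassGroup (𝓞 K)) := Nat.card_pos
  have hp2 := hp.two_le
  nlinarith

end Fermat.Agent.Lib.CFT
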