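import Mathlib

set_option autoImplicit false

namespace Fermat.Agent.Lib.CFT

open Module Polynomial Finset

section IndexLemma

variable {A A' : Type*} [AddCommGroup A] [AddCommGroup A']

/-- index lemma: `[C : B] = [fC : fB] * [ker f ⊓ C : ker f ⊓ B]` -/
theorem cfa_relIndex_eq_map_mul_ker (f : A →+ A') {B C : AddSubgroup A} (hBC : B ≤ C) :
    B.relIndex C = (B.map f).relIndex (C.map f) * (f.ker ⊓ B).relIndex (f.ker ⊓ C) := by
  have h1 : (B.map f).relIndex (C.map f) = (B ⊔ (f.ker ⊓ C)).relIndex C := by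
    rw [AddSubgroup.relIndex_map_map]
    have e1 : C ⊔ f.ker = (B ⊔ f.ker) ⊔ C := by
      rw [sup_comm B, sup_assoc, sup_eq_right.mpr hBC, sup_comm]
    rw [e1, AddSubgroup.relIndex_sup_left, ← AddSubgroup.inf_relIndex_right,
      sup_inf_assoc_of_le _ hBC]
  have h2 : (f.ker ⊓ B).relIndex (f.ker ⊓ C) = B.relIndex (B ⊔ (f.ker ⊓ C)) := by
    have e2 : B ⊓ (f.ker ⊓ C) = f.ker ⊓ B := by
      rw [inf_comm f.ker C, ← inf_assoc, inf_eq_left.mpr hBC, inf_comm]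
    rw [AddSubgroup.relIndex_sup_left]
    conv_rhs => rw [← AddSubgroup.inf_relIndex_right, e2]
  rw [h1, h2, mul_comm]
  exact (AddSubgroup.relIndex_mul_relIndex _ _ _ le_sup_left (sup_le hBC inf_le_right)).symm

end IndexLemma

section Herbrand

variable {A : Type*} [AddCommGroup A]

/-- `cfa_q f g B = [ker f ⊓ B : g B]` -/
noncomputable def cfa_q (f g : A →+ A) (B : AddSubgroup A) : ℕ :=
  (B.map g).relIndex (f.ker ⊓ B)

theorem cfa_q_top (f g : A →+ A) : cfa_q f g ⊤ = g.range.relIndex f.ker := by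
  rw [cfa_q, inf_top_eq, AddMonoidHom.range_eq_map]

theorem cfa_map_le_ker_inf (f g : A →+ A) (hfg : ∀ x, f (g x) = 0) {B : AddSubgroup A}
    (hgB : B.map g ≤ B) : B.map g ≤ f.ker ⊓ B := by
  refine le_inf ?_ hgB
  rintro _ ⟨x, -, rfl⟩
  exact hfg x

theorem cfa_q_mul_aux (f g : A →+ A) (hfg : ∀ x, f (g x) = 0) {B C : AddSubgroup A}
    (hBC : B ≤ C) (hgB : B.map g ≤ B) (hgC : C.map g ≤ C) :
    (B.map g).relIndex (C.map g) * cfa_q f g C =
      cfa_q f g B * (f.ker ⊓ B).relIndex (f.ker ⊓ C) := by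
  unfold cfa_q
  rw [AddSubgroup.relIndex_mul_relIndex _ _ _ (AddSubgroup.map_mono hBC)
      (cfa_map_le_ker_inf f g hfg hgC),
    AddSubgroup.relIndex_mul_relIndex _ _ _ (cfa_map_le_ker_inf f g hfg hgB)
      (inf_le_inf_left _ hBC)]

/-- invariance of the Herbrand quotient under passage to a finite-index stable subgroup -/
theorem cfa_q_invariance (f g : A →+ A) (hfg : ∀ x, f (g x) = 0) (hgf : ∀ x, g (f x) = 0)
    {B C : AddSubgroup A} (hBC : B ≤ C) (hfB : B.map f ≤ B) (hgB : B.map g ≤ B)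
    (hfC : C.map f ≤ C) (hgC : C.map g ≤ C) (hn : B.relIndex C ≠ 0) :
    cfa_q f g C * cfa_q g f B = cfa_q f g B * cfa_q g f C := by
  have e1 := cfa_q_mul_aux f g hfg hBC hgB hgC
  have e2 := cfa_q_mul_aux g f hgf hBC hfB hfC
  have i1 := cfa_relIndex_eq_map_mul_ker f hBC
  have i2 := cfa_relIndex_eq_map_mul_ker g hBC
  set xg := (B.map g).relIndex (C.map g)
  set xf := (B.map f).relIndex (C.map f)
  set uf := (f.ker ⊓ B).relIndex (f.ker ⊓ C)
  set ug := (g.ker ⊓ B).relIndex (g.ker ⊓ C)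
  set n := B.relIndex C
  have hn2 : n * n ≠ 0 := mul_ne_zero hn hn
  apply Nat.eq_of_mul_eq_mul_left (Nat.pos_of_ne_zero hn2)
  calc n * n * (cfa_q f g C * cfa_q g f B)
      = (xg * ug) * (xf * uf) * (cfa_q f g C * cfa_q g f B) := by rw [← i1, ← i2]
    _ = (xg * cfa_q f g C) * ug * (xf * uf) * cfa_q g f B := by ring
    _ = (cfa_q f g B * uf) * ug * (xf * uf) * cfa_q g f B := by rw [e1]
    _ = cfa_q f g B * (xf * (cfa_q g f B * ug)) * uf * uf := by ring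
    _ = cfa_q f g B * (xf * (xf * cfa_q g f C)) * uf * uf := by rw [← e2]
    _ = (xf * uf) * (xf * uf) * (cfa_q f g B * cfa_q g f C) := by ring
    _ = n * n * (cfa_q f g B * cfa_q g f C) := by rw [← i1]

end Herbrand
/-- `∏_{1 ≤ i < p} (1 - X^i) ≡ p mod Φ_p` in `ℤ[X]`. -/
theorem cfa_cyclotomic_dvd_prod_sub {p : ℕ} (hp : p.Prime) :
    (∑ i ∈ range p, (X : ℤ[X]) ^ i) ∣
      (∏ k ∈ range (p - 1), (1 - (X : ℤ[X]) ^ (k + 1))) - C (p : ℤ) := by
  have : Fact p.Prime := ⟨hp⟩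
  have hμ : IsPrimitiveRoot (Complex.exp (2 * Real.pi * Complex.I / p)) p :=
    Complex.isPrimitiveRoot_exp p hp.ne_zero
  set μ := Complex.exp (2 * Real.pi * Complex.I / p)
  rw [← cyclotomic_prime ℤ p, cyclotomic_eq_minpoly hμ hp.pos]
  apply minpoly.isIntegrallyClosed_dvd (hμ.isIntegral hp.pos)
  have hp1 : p - 1 + 1 = p := Nat.sub_add_cancel hp.one_le
  have hμ' : IsPrimitiveRoot μ (p - 1 + 1) := by rwa [hp1]
  have := hμ'.prod_one_sub_pow_eq_order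
  simp only [map_sub, map_prod, map_one, map_pow, aeval_X, map_natCast]
  rw [this]
  have : ((p - 1 : ℕ) : ℂ) + 1 = p := by
    rw [← Nat.cast_one (R := ℂ), ← Nat.cast_add, hp1]
  rw [this, sub_self]
section Ev

variable {A : Type*} [AddCommGroup A] (σ : AddMonoid.End A)

/-- evaluation of an integer polynomial at the endomorphism `σ` -/
noncomputable def cfa_ev (P : ℤ[X]) : A →+ A := Polynomial.aeval σ P

theorem cfa_ev_mul (P Q : ℤ[X]) (x : A) : cfa_ev σ (P * Q) x = cfa_ev σ P (cfa_ev σ Q x) := by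
  unfold cfa_ev
  rw [map_mul]
  rfl

theorem cfa_ev_add (P Q : ℤ[X]) (x : A) : cfa_ev σ (P + Q) x = cfa_ev σ P x + cfa_ev σ Q x := by
  unfold cfa_ev
  rw [map_add]
  rfl

theorem cfa_ev_sub (P Q : ℤ[X]) (x : A) : cfa_ev σ (P - Q) x = cfa_ev σ P x - cfa_ev σ Q x := by
  unfold cfa_ev
  rw [map_sub]
  rfl

theorem cfa_ev_X (x : A) : cfa_ev σ X x = σ x := by
  unfold cfa_ev
  rw [aeval_X]
  rfl

theorem cfa_ev_one (x : A) : cfa_ev σ 1 x = x := by
  unfold cfa_ev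
  rw [map_one]
  rfl

theorem cfa_ev_X_pow (i : ℕ) (x : A) : cfa_ev σ (X ^ i) x = (σ ^ i) x := by
  unfold cfa_ev
  rw [map_pow, aeval_X]
  rfl

theorem cfa_ev_C (n : ℤ) (x : A) : cfa_ev σ (C n) x = n • x := by
  unfold cfa_ev
  rw [aeval_C]
  show ((n : AddMonoid.End A)) x = n • x
  rfl

theorem cfa_ev_comm (P Q : ℤ[X]) (x : A) :
    cfa_ev σ P (cfa_ev σ Q x) = cfa_ev σ Q (cfa_ev σ P x) := by
  rw [← cfa_ev_mul, ← cfa_ev_mul, mul_comm]

theorem cfa_ev_mem {B : AddSubgroup A} (hB : ∀ x ∈ B, σ x ∈ B) (P : ℤ[X]) :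
    ∀ x ∈ B, cfa_ev σ P x ∈ B := by
  induction P using Polynomial.induction_on with
  | C a => intro x hx; rw [cfa_ev_C]; exact B.zsmul_mem hx a
  | add P Q hP hQ => intro x hx; rw [cfa_ev_add]; exact B.add_mem (hP x hx) (hQ x hx)
  | monomial n a h =>
    intro x hx
    rw [pow_succ, ← mul_assoc, cfa_ev_mul, cfa_ev_X]
    exact h _ (hB x hx)

end Ev

section Core

variable {A : Type*} [AddCommGroup A] (σ : AddMonoid.End A) {p : ℕ}

/-- the polynomial `1 + X + ... + X^(p-1)` -/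
noncomputable def cfa_PN (p : ℕ) : ℤ[X] := ∑ i ∈ range p, X ^ i

theorem cfa_ev_one_sub_X_pow (i : ℕ) (x : A) : cfa_ev σ (1 - X ^ i) x = x - (σ ^ i) x := by
  rw [cfa_ev_sub, cfa_ev_one, cfa_ev_X_pow]

theorem cfa_ev_one_sub_X (x : A) : cfa_ev σ (1 - X) x = x - σ x := by
  rw [cfa_ev_sub, cfa_ev_one, cfa_ev_X]

theorem cfa_ev_PN_apply (x : A) : cfa_ev σ (cfa_PN p) x = ∑ i ∈ range p, (σ ^ i) x := by
  unfold cfa_PN
  induction p with
  | zero =>
    simp only [range_zero, sum_empty]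
    unfold cfa_ev
    rw [map_zero]
    rfl
  | succ n ih => rw [sum_range_succ, sum_range_succ, cfa_ev_add, ih, cfa_ev_X_pow]

theorem cfa_pow_apply_of_fixed {x : A} (hx : σ x = x) (i : ℕ) : (σ ^ i) x = x := by
  induction i with
  | zero => rfl
  | succ n ih =>
    rw [pow_succ]
    show (σ ^ n) (σ x) = x
    rw [hx, ih]

theorem cfa_PN_apply_of_fixed {x : A} (hx : σ x = x) : cfa_ev σ (cfa_PN p) x = p • x := by
  rw [cfa_ev_PN_apply]
  simp only [cfa_pow_apply_of_fixed σ hx, sum_const, card_range]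

theorem cfa_pow_mul_apply (hσ : σ ^ p = 1) (t : ℕ) (x : A) : (σ ^ (p * t + 1)) x = σ x := by
  rw [pow_succ, pow_mul, hσ, one_pow, one_mul]

theorem cfa_exists_pow_mul (hp : p.Prime) (hσ : σ ^ p = 1) {i : ℕ} (hi : 0 < i) (hip : i < p) :
    ∃ m : ℕ, σ ^ (i * m) = σ := by
  have hcop : Nat.Coprime i p := (Nat.coprime_of_lt_prime hi.ne' hip hp).symm
  obtain ⟨m, -, hm⟩ := Nat.exists_mul_mod_eq_one_of_coprime hcop hp.one_lt
  refine ⟨m, ?_⟩
  have h := Nat.div_add_mod (i * m) p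
  rw [hm] at h
  rw [← h, pow_succ, pow_mul, hσ, one_pow, one_mul]



theorem cfa_fixed_of_pow_fixed (hp : p.Prime) (hσ : σ ^ p = 1) {i : ℕ} (hi : 0 < i)
    (hip : i < p) {x : A} (hx : (σ ^ i) x = x) : σ x = x := by
  obtain ⟨m, hm⟩ := cfa_exists_pow_mul σ hp hσ hi hip
  have h2 : ((σ ^ i) ^ m) x = x := cfa_pow_apply_of_fixed (σ ^ i) hx m
  rw [← pow_mul, hm] at h2
  exact h2

theorem cfa_map_congr {B : AddSubgroup A} {f g : A →+ A} (h : ∀ x ∈ B, f x = g x) :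
    B.map f = B.map g := by
  ext y
  simp only [AddSubgroup.mem_map]
  constructor
  · rintro ⟨x, hx, rfl⟩
    exact ⟨x, hx, (h x hx).symm⟩
  · rintro ⟨x, hx, rfl⟩
    exact ⟨x, hx, h x hx⟩

theorem cfa_map_one_sub_pow (hp : p.Prime) (hσ : σ ^ p = 1) {B : AddSubgroup A}
    (hB : ∀ x ∈ B, σ x ∈ B) {i : ℕ} (hi : 0 < i) (hip : i < p) :
    B.map (cfa_ev σ (1 - X ^ i)) = B.map (cfa_ev σ (1 - X)) := by
  apply le_antisymm
  · rintro _ ⟨x, hx, rfl⟩
    refine ⟨cfa_ev σ (∑ j ∈ range i, X ^ j) x, cfa_ev_mem σ hB _ x hx, ?_⟩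
    rw [← cfa_ev_mul, mul_neg_geom_sum]
  · rintro _ ⟨x, hx, rfl⟩
    obtain ⟨m, hm⟩ := cfa_exists_pow_mul σ hp hσ hi hip
    refine ⟨cfa_ev σ (∑ j ∈ range m, (X ^ i) ^ j) x, cfa_ev_mem σ hB _ x hx, ?_⟩
    rw [← cfa_ev_mul, mul_neg_geom_sum, ← pow_mul, cfa_ev_one_sub_X_pow, hm, cfa_ev_one_sub_X]

theorem cfa_inj_on (hp : p.Prime) (hσ : σ ^ p = 1) {B : AddSubgroup A}
    (hBN : ∀ x ∈ B, cfa_ev σ (cfa_PN p) x = 0) (hBt : ∀ x ∈ B, p • x = 0 → x = 0)
    {i : ℕ} (hi : 0 < i) (hip : i < p) :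
    ∀ x ∈ B, cfa_ev σ (1 - X ^ i) x = 0 → x = 0 := by
  intro x hx h0
  rw [cfa_ev_one_sub_X_pow, sub_eq_zero] at h0
  have hfix : σ x = x := cfa_fixed_of_pow_fixed σ hp hσ hi hip h0.symm
  have h1 := cfa_PN_apply_of_fixed (p := p) σ hfix
  rw [hBN x hx] at h1
  exact hBt x hx h1.symm

/-- the polynomial `∏_{k < j} (1 - X^(k+1))` -/
noncomputable def cfa_Q (j : ℕ) : ℤ[X] := ∏ k ∈ range j, (1 - X ^ (k + 1))

theorem cfa_chain (hp : p.Prime) (hσ : σ ^ p = 1) {B : AddSubgroup A}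
    (hB : ∀ x ∈ B, σ x ∈ B)
    (hBN : ∀ x ∈ B, cfa_ev σ (cfa_PN p) x = 0) (hBt : ∀ x ∈ B, p • x = 0 → x = 0) :
    ∀ j : ℕ, j ≤ p - 1 →
      (∀ x ∈ B, cfa_ev σ (cfa_Q j) x = 0 → x = 0) ∧
      (B.map (cfa_ev σ (cfa_Q j))).relIndex B =
        ((B.map (cfa_ev σ (1 - X))).relIndex B) ^ j := by
  intro j
  induction j with
  | zero =>
    intro _
    have h1 : cfa_Q 0 = 1 := by simp [cfa_Q]
    refine ⟨fun x _ hx => by rwa [h1, cfa_ev_one] at hx, ?_⟩
    have : B.map (cfa_ev σ (cfa_Q 0)) = B := by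
      rw [h1]
      have : cfa_ev σ (1 : ℤ[X]) = AddMonoidHom.id A := by
        ext x; rw [cfa_ev_one]; rfl
      rw [this, AddSubgroup.map_id]
    rw [this, AddSubgroup.relIndex_self, pow_zero]
  | succ j ih =>
    intro hj
    obtain ⟨hinj, hidx⟩ := ih (by omega)
    have hjp : j + 1 < p := by have := hp.pos; omega
    have hQ : cfa_Q (j + 1) = cfa_Q j * (1 - X ^ (j + 1)) := by
      simp [cfa_Q, prod_range_succ]
    have hinj' := cfa_inj_on σ hp hσ hBN hBt (Nat.succ_pos j) hjp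
    refine ⟨?_, ?_⟩
    · intro x hx h0
      rw [hQ, cfa_ev_mul] at h0
      exact hinj' x hx (hinj _ (cfa_ev_mem σ hB _ x hx) h0)
    · set ψ := cfa_ev σ (cfa_Q j) with hψ
      set D' := cfa_ev σ (1 - X) with hD'
      have hmap : B.map (cfa_ev σ (cfa_Q (j + 1))) = (B.map D').map ψ := by
        rw [← cfa_map_one_sub_pow σ hp hσ hB (Nat.succ_pos j) hjp, AddSubgroup.map_map]
        apply cfa_map_congr
        intro x _
        rw [hQ, cfa_ev_mul]
        rfl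
      have hDB : B.map D' ≤ B := by
        rintro _ ⟨x, hx, rfl⟩
        exact cfa_ev_mem σ hB _ x hx
      have hψB : B.map ψ ≤ B := by
        rintro _ ⟨x, hx, rfl⟩
        exact cfa_ev_mem σ hB _ x hx
      have hker : ψ.ker ⊓ B = ⊥ := by
        rw [eq_bot_iff]
        rintro x ⟨hx1, hx2⟩
        exact hinj x hx2 hx1
      have hker' : ψ.ker ⊓ B.map D' = ⊥ := by
        rw [eq_bot_iff, ← hker]
        exact inf_le_inf_left _ hDB
      have hidx2 := cfa_relIndex_eq_map_mul_ker ψ hDB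
      rw [hker, hker', AddSubgroup.relIndex_self, mul_one] at hidx2
      rw [hmap, ← AddSubgroup.relIndex_mul_relIndex _ _ _ (AddSubgroup.map_mono hDB) hψB,
        ← hidx2, hidx, pow_succ, mul_comm]

theorem cfa_ev_Q_apply (hp : p.Prime) {x : A} (hx : cfa_ev σ (cfa_PN p) x = 0) :
    cfa_ev σ (cfa_Q (p - 1)) x = p • x := by
  obtain ⟨h, hh⟩ := cfa_cyclotomic_dvd_prod_sub hp
  have e : cfa_Q (p - 1) = C (p : ℤ) + h * cfa_PN p := by
    unfold cfa_Q cfa_PN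
    rw [mul_comm, ← hh]
    ring
  rw [e, cfa_ev_add, cfa_ev_mul, hx, map_zero, add_zero, cfa_ev_C, natCast_zsmul]

theorem cfa_index_pow (hp : p.Prime) (hσ : σ ^ p = 1) {B : AddSubgroup A}
    (hB : ∀ x ∈ B, σ x ∈ B)
    (hBN : ∀ x ∈ B, cfa_ev σ (cfa_PN p) x = 0) (hBt : ∀ x ∈ B, p • x = 0 → x = 0) :
    ((B.map (cfa_ev σ (1 - X))).relIndex B) ^ (p - 1) =
      (B.map (nsmulAddMonoidHom (α := A) p)).relIndex B := by
  rw [← (cfa_chain σ hp hσ hB hBN hBt (p - 1) le_rfl).2]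
  congr 1
  apply cfa_map_congr
  intro x hx
  rw [cfa_ev_Q_apply σ hp (hBN x hx)]
  rfl

end Core

section Split

variable {A : Type*} [AddCommGroup A] (σ : AddMonoid.End A) {p : ℕ}

theorem cfa_kerD_inf_sup {B₁ B₂ : AddSubgroup A} (h1 : ∀ x ∈ B₁, σ x = x)
    (h2N : ∀ x ∈ B₂, cfa_ev σ (cfa_PN p) x = 0) (h2t : ∀ x ∈ B₂, p • x = 0 → x = 0) :
    (cfa_ev σ (1 - X)).ker ⊓ (B₁ ⊔ B₂) = B₁ := by
  ext x
  rw [AddSubgroup.mem_inf, AddMonoidHom.mem_ker]
  constructor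
  · rintro ⟨hx1, hx2⟩
    obtain ⟨y, hy, z, hz, rfl⟩ := AddSubgroup.mem_sup.mp hx2
    rw [map_add, cfa_ev_one_sub_X, cfa_ev_one_sub_X, h1 y hy, sub_self,
      zero_add, sub_eq_zero] at hx1
    have h3 := cfa_PN_apply_of_fixed (p := p) σ hx1.symm
    rw [h2N z hz] at h3
    rw [h2t z hz h3.symm, add_zero]
    exact hy
  · intro hx
    refine ⟨?_, AddSubgroup.mem_sup_left hx⟩
    rw [cfa_ev_one_sub_X, h1 x hx, sub_self]

theorem cfa_kerN_inf_sup {B₁ B₂ : AddSubgroup A} (h1 : ∀ x ∈ B₁, σ x = x)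
    (h1t : ∀ x ∈ B₁, p • x = 0 → x = 0)
    (h2N : ∀ x ∈ B₂, cfa_ev σ (cfa_PN p) x = 0) :
    (cfa_ev σ (cfa_PN p)).ker ⊓ (B₁ ⊔ B₂) = B₂ := by
  ext x
  rw [AddSubgroup.mem_inf, AddMonoidHom.mem_ker]
  constructor
  · rintro ⟨hx1, hx2⟩
    obtain ⟨y, hy, z, hz, rfl⟩ := AddSubgroup.mem_sup.mp hx2
    rw [map_add, h2N z hz, add_zero,
      cfa_PN_apply_of_fixed σ (h1 y hy)] at hx1
    rw [h1t y hy hx1, zero_add]
    exact hz
  · intro hx
    exact ⟨h2N x hx, AddSubgroup.mem_sup_right hx⟩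

theorem cfa_mapN_sup {B₁ B₂ : AddSubgroup A} (h1 : ∀ x ∈ B₁, σ x = x)
    (h2N : ∀ x ∈ B₂, cfa_ev σ (cfa_PN p) x = 0) :
    (B₁ ⊔ B₂).map (cfa_ev σ (cfa_PN p)) = B₁.map (nsmulAddMonoidHom (α := A) p) := by
  rw [AddSubgroup.map_sup]
  have : B₂.map (cfa_ev σ (cfa_PN p)) = ⊥ := by
    rw [eq_bot_iff]
    rintro _ ⟨x, hx, rfl⟩
    exact h2N x hx
  rw [this, sup_bot_eq]
  apply cfa_map_congr
  intro x hx
  rw [cfa_PN_apply_of_fixed σ (h1 x hx)]
  rfl

theorem cfa_mapD_sup {B₁ B₂ : AddSubgroup A} (h1 : ∀ x ∈ B₁, σ x = x) :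
    (B₁ ⊔ B₂).map (cfa_ev σ (1 - X)) = B₂.map (cfa_ev σ (1 - X)) := by
  rw [AddSubgroup.map_sup]
  have : B₁.map (cfa_ev σ (1 - X)) = ⊥ := by
    rw [eq_bot_iff]
    rintro _ ⟨x, hx, rfl⟩
    rw [cfa_ev_one_sub_X, h1 x hx, sub_self]
    exact AddSubgroup.zero_mem _
  rw [this, bot_sup_eq]

end Split
section Torsion

variable (A : Type*) [AddCommGroup A] [Module.Finite ℤ A]

theorem cfa_exists_kill_torsion :
    ∃ k : ℕ, 0 < k ∧ ∀ x : A, ∀ n : ℕ, n ≠ 0 → n • x = 0 → k • x = 0 := by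
  have hfin : _root_.Finite ↥(Submodule.torsion ℤ A) :=
    Module.finite_of_fg_torsion _ Submodule.torsion_isTorsion
  refine ⟨Nat.card ↥(Submodule.torsion ℤ A), Nat.card_pos, ?_⟩
  intro x n hn hx
  have hxT : x ∈ Submodule.torsion ℤ A := by
    rw [Submodule.mem_torsion_iff]
    refine ⟨⟨(n : ℤ), mem_nonZeroDivisors_of_ne_zero (by exact_mod_cast hn)⟩, ?_⟩
    show (n : ℤ) • x = 0
    rw [natCast_zsmul]
    exact hx
  have := card_nsmul_eq_zero' (G := ↥(Submodule.torsion ℤ A)) (x := ⟨x, hxT⟩)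
  exact congrArg Subtype.val this

theorem cfa_index_nsmul_ne_zero {n : ℕ} (hn : n ≠ 0) :
    (nsmulAddMonoidHom (α := A) n).range.index ≠ 0 := by
  have hfg : AddGroup.FG A := Module.Finite.iff_addGroup_fg.mp inferInstance
  have hfin : _root_.Finite (A ⧸ (nsmulAddMonoidHom (α := A) n).range) := by
    apply AddCommGroup.finite_of_fg_isAddTorsion
    intro x
    induction x using QuotientAddGroup.induction_on with
    | H y =>
      rw [isOfFinAddOrder_iff_nsmul_eq_zero]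
      refine ⟨n, Nat.pos_of_ne_zero hn, ?_⟩
      rw [← QuotientAddGroup.mk_nsmul, QuotientAddGroup.eq_zero_iff]
      exact ⟨y, rfl⟩
  exact AddSubgroup.index_ne_zero_of_finite

end Torsion
section Rank

theorem cfa_finrank_range_add_ker {X Y : Type*} [AddCommGroup X] [AddCommGroup Y]
    [Module.Finite ℤ X] (g : X →ₗ[ℤ] Y) :
    finrank ℤ (LinearMap.range g) + finrank ℤ (LinearMap.ker g) = finrank ℤ X := by
  rw [← g.quotKerEquivRange.finrank_eq]
  exact Submodule.finrank_quotient_add_finrank _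

variable {A : Type*} [AddCommGroup A] [Module.Finite ℤ A]

theorem cfa_finrank_eq_of_nsmul_mem {S T : AddSubgroup A} (hST : S ≤ T) {n : ℕ} (hn : n ≠ 0)
    (h : ∀ x ∈ T, n • x ∈ S) : finrank ℤ S = finrank ℤ T := by
  have h1 : finrank ℤ S ≤ finrank ℤ T :=
    Submodule.finrank_mono (s := S.toIntSubmodule) (t := T.toIntSubmodule) hST
  let g : ↥T.toIntSubmodule →ₗ[ℤ] ↥S.toIntSubmodule :=
    { toFun := fun x => ⟨n • x.1, h x.1 x.2⟩
      map_add' := fun x y => by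
        apply Subtype.ext
        simp [smul_add]
      map_smul' := fun c x => by
        apply Subtype.ext
        show (n • (c • x.1) : A) = c • (n • x.1)
        exact smul_comm _ _ _ }
  have rn := cfa_finrank_range_add_ker g
  have hk : finrank ℤ (LinearMap.ker g) = 0 := by
    rw [Module.finrank_eq_zero_iff_isTorsion]
    intro x
    refine ⟨⟨(n : ℤ), mem_nonZeroDivisors_of_ne_zero (by exact_mod_cast hn)⟩, ?_⟩
    have hx : g x.1 = 0 := x.2
    apply Subtype.ext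
    apply Subtype.ext
    have h5 : (n • (x.1.1 : A)) = 0 := congrArg Subtype.val hx
    show ((n : ℤ) • (x.1.1 : A)) = 0
    rw [natCast_zsmul]
    exact h5
  have hr : finrank ℤ (LinearMap.range g) ≤ finrank ℤ ↥S.toIntSubmodule := Submodule.finrank_le _
  have e1 : finrank ℤ ↥S.toIntSubmodule = finrank ℤ S := rfl
  have e2 : finrank ℤ ↥T.toIntSubmodule = finrank ℤ T := rfl
  omega

omit [Module.Finite ℤ A] in
theorem cfa_isTorsionFree (B : AddSubgroup A)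
    (h : ∀ x ∈ B, ∀ n : ℕ, n ≠ 0 → n • x = 0 → x = 0) :
    Module.IsTorsionFree ℤ ↥B.toIntSubmodule := by
  apply Module.IsTorsionFree.of_smul_eq_zero
  intro r m hrm
  by_cases hr : r = 0
  · exact Or.inl hr
  · right
    apply Subtype.ext
    apply h m.1 m.2 r.natAbs (Int.natAbs_ne_zero.mpr hr)
    have h2 : r • (m.1 : A) = 0 := by
      have := congrArg Subtype.val hrm
      simpa using this
    rcases Int.natAbs_eq r with h3 | h3
    · rw [h3, natCast_zsmul] at h2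
      exact h2
    · rw [h3, neg_smul, natCast_zsmul, neg_eq_zero] at h2
      exact h2

end Rank

section Main

theorem cfa_q_ne_zero {A : Type*} [AddCommGroup A] (f g : A →+ A) (hfg : ∀ x, f (g x) = 0)
    {B C : AddSubgroup A} (hBC : B ≤ C) (hgB : B.map g ≤ B) (hgC : C.map g ≤ C)
    (hn : B.relIndex C ≠ 0) (hB : cfa_q f g B ≠ 0) : cfa_q f g C ≠ 0 := by
  have e1 := cfa_q_mul_aux f g hfg hBC hgB hgC
  have i1 := cfa_relIndex_eq_map_mul_ker f hBC
  have huf : (f.ker ⊓ B).relIndex (f.ker ⊓ C) ≠ 0 := by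
    intro h0
    rw [h0, mul_zero] at i1
    exact hn i1
  intro h0
  rw [h0, mul_zero] at e1
  exact (mul_ne_zero hB huf) e1.symm

variable {M : Type*} [AddCommGroup M] [Module.Finite ℤ M]

theorem cfa_herbrand_aux {p : ℕ} (hp : p.Prime) (σ : AddMonoid.End M) (hσ : σ ^ p = 1) :
    (cfa_ev σ (cfa_PN p)).range.relIndex (cfa_ev σ (1 - X)).ker ≠ 0 ∧
    (cfa_ev σ (1 - X)).range.relIndex (cfa_ev σ (cfa_PN p)).ker ≠ 0 ∧
    ∃ b : ℕ, finrank ℤ M = finrank ℤ (cfa_ev σ (1 - X)).ker + (p - 1) * b ∧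
      (cfa_ev σ (1 - X)).range.relIndex (cfa_ev σ (cfa_PN p)).ker *
          p ^ finrank ℤ (cfa_ev σ (1 - X)).ker =
        (cfa_ev σ (cfa_PN p)).range.relIndex (cfa_ev σ (1 - X)).ker * p ^ b := by
  set D' : M →+ M := cfa_ev σ (1 - X) with hD'
  set N : M →+ M := cfa_ev σ (cfa_PN p) with hN
  have hone : ∀ x : M, (σ ^ p) x = x := fun x => by rw [hσ]; rfl
  have hDN : ∀ x, D' (N x) = 0 := by
    intro x
    rw [hD', hN, ← cfa_ev_mul, cfa_PN, mul_neg_geom_sum, cfa_ev_one_sub_X_pow, hone, sub_self]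
  have hND : ∀ x, N (D' x) = 0 := by
    intro x
    rw [hD', hN, cfa_ev_comm]
    exact hDN x
  have hD'fix : ∀ x, D' x = 0 → σ x = x := by
    intro x hx
    rw [hD', cfa_ev_one_sub_X, sub_eq_zero] at hx
    exact hx.symm
  obtain ⟨k, hk0, hk⟩ := cfa_exists_kill_torsion M
  set B₁ : AddSubgroup M := D'.ker.map (nsmulAddMonoidHom (α := M) k) with hB₁
  set B₂ : AddSubgroup M := N.ker.map (nsmulAddMonoidHom (α := M) k) with hB₂
  have f1 : ∀ x ∈ B₁, σ x = x := by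
    rintro _ ⟨y, hy, rfl⟩
    show σ (k • y) = k • y
    rw [map_nsmul, hD'fix y hy]
  have f2 : ∀ x ∈ B₂, N x = 0 := by
    rintro _ ⟨y, hy, rfl⟩
    show N (k • y) = 0
    rw [map_nsmul, (show N y = 0 from hy), smul_zero]
  have f3 : ∀ y : M, ∀ n : ℕ, n ≠ 0 → n • (k • y) = 0 → k • y = 0 := by
    intro y n hn h
    rw [← mul_nsmul'] at h
    exact hk y (n * k) (Nat.mul_ne_zero hn hk0.ne') h
  have t1 : ∀ x ∈ B₁, ∀ n : ℕ, n ≠ 0 → n • x = 0 → x = 0 := by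
    rintro _ ⟨y, -, rfl⟩ n hn h
    exact f3 y n hn h
  have t2 : ∀ x ∈ B₂, ∀ n : ℕ, n ≠ 0 → n • x = 0 → x = 0 := by
    rintro _ ⟨y, -, rfl⟩ n hn h
    exact f3 y n hn h
  have f4 : ∀ x ∈ B₂, σ x ∈ B₂ := by
    rintro _ ⟨y, hy, rfl⟩
    refine ⟨σ y, ?_, ?_⟩
    · show N (σ y) = 0
      rw [← cfa_ev_X σ y, hN, cfa_ev_comm, cfa_ev_X]
      rw [show cfa_ev σ (cfa_PN p) y = 0 from hy, map_zero]
    · show k • σ y = σ (k • y)
      rw [map_nsmul]
  set B : AddSubgroup M := B₁ ⊔ B₂ with hB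
  have hBσ : ∀ x ∈ B, σ x ∈ B := by
    intro x hx
    obtain ⟨y, hy, z, hz, rfl⟩ := AddSubgroup.mem_sup.mp hx
    rw [map_add, f1 y hy]
    exact AddSubgroup.add_mem _ (AddSubgroup.mem_sup_left hy) (AddSubgroup.mem_sup_right (f4 z hz))
  have sD : B.map D' ≤ B := by
    rintro _ ⟨x, hx, rfl⟩
    exact cfa_ev_mem σ hBσ _ x hx
  have sN : B.map N ≤ B := by
    rintro _ ⟨x, hx, rfl⟩
    exact cfa_ev_mem σ hBσ _ x hx
  have hidx : B.relIndex ⊤ ≠ 0 := by
    rw [AddSubgroup.relIndex_top_right]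
    have hle : (nsmulAddMonoidHom (α := M) (k * p)).range ≤ B := by
      rintro _ ⟨x, rfl⟩
      have hNx : σ (N x) = N x := hD'fix _ (hDN x)
      have e : (k * p) • x = k • (N x) + k • (p • x - N x) := by
        rw [← smul_add, add_sub_cancel, mul_nsmul']
      show (k * p) • x ∈ B
      rw [e]
      refine AddSubgroup.add_mem _ (AddSubgroup.mem_sup_left ⟨N x, hDN x, rfl⟩)
        (AddSubgroup.mem_sup_right ⟨p • x - N x, ?_, rfl⟩)
      show N (p • x - N x) = 0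
      rw [map_sub, map_nsmul, hN, cfa_PN_apply_of_fixed σ hNx, sub_self]
    exact fun h0 => cfa_index_nsmul_ne_zero M (Nat.mul_ne_zero hk0.ne' hp.ne_zero)
      (Nat.eq_zero_of_zero_dvd (h0 ▸ AddSubgroup.index_dvd_of_le hle))
  -- the quotients for `B`
  have qDN_B : cfa_q D' N B = (B₁.map (nsmulAddMonoidHom (α := M) p)).relIndex B₁ := by
    unfold cfa_q
    rw [hB, cfa_kerD_inf_sup σ f1 f2 (fun x hx => t2 x hx p hp.ne_zero), cfa_mapN_sup σ f1 f2]
  have qND_B : cfa_q N D' B = (B₂.map D').relIndex B₂ := by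
    unfold cfa_q
    rw [hB, cfa_kerN_inf_sup σ f1 (fun x hx => t1 x hx p hp.ne_zero) f2, cfa_mapD_sup σ f1]
  have : Module.IsTorsionFree ℤ ↥B₁.toIntSubmodule := cfa_isTorsionFree B₁ t1
  have : Module.IsTorsionFree ℤ ↥B₂.toIntSubmodule := cfa_isTorsionFree B₂ t2
  have r1 : (B₁.map (nsmulAddMonoidHom (α := M) p)).relIndex B₁ = p ^ finrank ℤ B₁ :=
    AddSubgroup.relIndex_map_nsmul p B₁
  have r2 : (B₂.map (nsmulAddMonoidHom (α := M) p)).relIndex B₂ = p ^ finrank ℤ B₂ :=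
    AddSubgroup.relIndex_map_nsmul p B₂
  have r3 := cfa_index_pow σ hp hσ f4 f2 (fun x hx => t2 x hx p hp.ne_zero)
  rw [r2] at r3
  -- ranks
  have k1 : finrank ℤ B₁ = finrank ℤ D'.ker :=
    cfa_finrank_eq_of_nsmul_mem (by rintro _ ⟨y, hy, rfl⟩; exact D'.ker.nsmul_mem hy k)
      hk0.ne' (fun x hx => ⟨x, hx, rfl⟩)
  have k2 : finrank ℤ B₂ = finrank ℤ N.ker :=
    cfa_finrank_eq_of_nsmul_mem (by rintro _ ⟨y, hy, rfl⟩; exact N.ker.nsmul_mem hy k)
      hk0.ne' (fun x hx => ⟨x, hx, rfl⟩)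
  have k3 : finrank ℤ N.range = finrank ℤ D'.ker :=
    cfa_finrank_eq_of_nsmul_mem (by rintro _ ⟨y, rfl⟩; exact hDN y) hp.ne_zero
      (fun x hx => ⟨x, by
        show N x = p • x
        rw [hN, cfa_PN_apply_of_fixed σ (hD'fix x hx)]⟩)
  have k4 : finrank ℤ N.range + finrank ℤ N.ker = finrank ℤ M := by
    have := cfa_finrank_range_add_ker N.toIntLinearMap
    have e1 : LinearMap.range N.toIntLinearMap = N.range.toIntSubmodule := by
      ext x; simp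
    have e2 : LinearMap.ker N.toIntLinearMap = N.ker.toIntSubmodule := by
      ext x; simp
    rw [e1, e2] at this
    exact this
  -- `c` is a power of `p`
  set c := (B₂.map D').relIndex B₂ with hc
  have hp1 : p - 1 ≠ 0 := by have := hp.two_le; omega
  obtain ⟨b, -, hb⟩ := (Nat.dvd_prime_pow hp).mp (r3 ▸ dvd_pow_self c hp1)
  have hb2 : b * (p - 1) = finrank ℤ B₂ := by
    rw [hb, ← pow_mul] at r3
    exact Nat.pow_right_injective hp.two_le r3
  have hinv := cfa_q_invariance D' N hDN hND (le_top : B ≤ ⊤) sD sN le_top le_top hidx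
  rw [qDN_B, qND_B, r1, hb, cfa_q_top, cfa_q_top, k1] at hinv
  have hq0B : cfa_q D' N B ≠ 0 := by rw [qDN_B, r1]; exact pow_ne_zero _ hp.ne_zero
  have hq1B : cfa_q N D' B ≠ 0 := by rw [qND_B, hb]; exact pow_ne_zero _ hp.ne_zero
  have n0 := cfa_q_ne_zero D' N hDN (le_top : B ≤ ⊤) sN le_top hidx hq0B
  have n1 := cfa_q_ne_zero N D' hND (le_top : B ≤ ⊤) sD le_top hidx hq1B
  rw [cfa_q_top] at n0 n1
  refine ⟨n0, n1, b, ?_, ?_⟩
  · rw [← k4, k3, ← k2, ← hb2, mul_comm]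
  · rw [mul_comm (D'.range.relIndex N.ker), hinv]

end Main

section Final

theorem cfa_end_sum_apply {A : Type*} [AddCommGroup A] (σ : AddMonoid.End A) (n : ℕ) (x : A) :
    (∑ i ∈ Finset.range n, σ ^ i : AddMonoid.End A) x = ∑ i ∈ Finset.range n, (σ ^ i) x := by
  induction n with
  | zero => rfl
  | succ n ih =>
    rw [Finset.sum_range_succ, Finset.sum_range_succ]
    show (∑ i ∈ Finset.range n, σ ^ i : AddMonoid.End A) x + (σ ^ n) x = _
    rw [ih]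

/-- **Herbrand quotient of a cyclic group of prime order in terms of ranks.**
For a finitely generated abelian group `M` with an endomorphism `σ`, `σ ^ p = 1`, put
`D = σ - 1`, `N = 1 + σ + ... + σ^(p-1)`.  Then `|H^1| * p^a = |Ĥ^0| * p^b` where
`a = rk M^σ` and `rk M = a + (p-1) b`; both cohomology groups are finite. -/
theorem cfa_herbrand {M : Type*} [AddCommGroup M] [Module.Finite ℤ M] {p : ℕ} (hp : p.Prime)
    (σ : AddMonoid.End M) (hσ : σ ^ p = 1) :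
    let D : M →+ M := (σ - 1 : AddMonoid.End M)
    let N : M →+ M := (∑ i ∈ Finset.range p, σ ^ i : AddMonoid.End M)
    N.range.relIndex D.ker ≠ 0 ∧ D.range.relIndex N.ker ≠ 0 ∧
    ∃ b : ℕ, Module.finrank ℤ M = Module.finrank ℤ D.ker + (p - 1) * b ∧
      D.range.relIndex N.ker * p ^ Module.finrank ℤ D.ker = N.range.relIndex D.ker * p ^ b := by
  intro D N
  have hDx : ∀ x, D x = σ x - x := fun x => rfl
  have hN : N = cfa_ev σ (cfa_PN p) := by
    ext x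
    rw [cfa_ev_PN_apply]
    exact cfa_end_sum_apply σ p x
  have hker : D.ker = (cfa_ev σ (1 - X)).ker := by
    ext x
    rw [AddMonoidHom.mem_ker, AddMonoidHom.mem_ker, cfa_ev_one_sub_X, hDx, sub_eq_zero,
      sub_eq_zero, eq_comm]
  have hrange : D.range = (cfa_ev σ (1 - X)).range := by
    ext y
    rw [AddMonoidHom.mem_range, AddMonoidHom.mem_range]
    constructor
    · rintro ⟨x, rfl⟩
      refine ⟨-x, ?_⟩
      rw [cfa_ev_one_sub_X, hDx, map_neg]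
      abel
    · rintro ⟨x, rfl⟩
      refine ⟨-x, ?_⟩
      rw [cfa_ev_one_sub_X, hDx, map_neg]
      abel
  rw [hN, hker, hrange]
  exact cfa_herbrand_aux hp σ hσ

end Final

end Fermat.Agent.Lib.CFT
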