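import Mathlib
import Fermat.Agent.Lib.CFT.HerbrandRank
import Fermat.Agent.Lib.CFT.FirstIneqDefs

set_option autoImplicit false

open NumberField Module

namespace Fermat.Agent.Lib.CFT

section Units

variable (K L : Type) [Field K] [Field L] [NumberField K] [NumberField L] [Algebra K L]

/-- inclusion of the units of `𝓞 K` into those of `𝓞 L` -/
noncomputable def cfa_unitIncl : (𝓞 K)ˣ →* (𝓞 L)ˣ :=
  Units.map (algebraMap (𝓞 K) (𝓞 L) : 𝓞 K →* 𝓞 L)

omit [NumberField K] [NumberField L] in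
theorem cfa_unitIncl_coe (u : (𝓞 K)ˣ) :
    (((cfa_unitIncl K L u : (𝓞 L)ˣ) : 𝓞 L) : L) = algebraMap K L ((u : 𝓞 K) : K) := rfl

omit [NumberField K] [NumberField L] in
theorem cfa_unitIncl_injective : Function.Injective (cfa_unitIncl K L) := by
  intro u v h
  have h2 := congrArg (fun w : (𝓞 L)ˣ => ((w : 𝓞 L) : L)) h
  simp only [cfa_unitIncl_coe] at h2
  have h3 := (algebraMap K L).injective h2
  exact Units.ext (RingOfIntegers.ext h3)

variable {K L}

/-- the norm as the product of conjugates, for a generator `σ` of a cyclic Galois group of order `p` -/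
theorem cfa_prod_pow_eq_norm [IsGalois K L] {p : ℕ} (hdeg : Module.finrank K L = p)
    (σ : L ≃ₐ[K] L) (hσ : ∀ τ : L ≃ₐ[K] L, τ ∈ Subgroup.zpowers σ) (x : L) :
    ∏ i ∈ Finset.range p, (σ ^ i) x = algebraMap K L (Algebra.norm K x) := by
  rw [Algebra.norm_eq_prod_automorphisms]
  have hcard : Nat.card (L ≃ₐ[K] L) = p := by rw [IsGalois.card_aut_eq_finrank, hdeg]
  have hord : orderOf σ = p := by
    rw [← hcard]
    exact orderOf_eq_card_of_forall_mem_zpowers hσ
  have hbij : Function.Bijective (fun i : Fin p => σ ^ (i : ℕ)) := by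
    rw [Fintype.bijective_iff_injective_and_card]
    refine ⟨?_, ?_⟩
    · intro i j hij
      apply Fin.ext
      apply pow_injOn_Iio_orderOf (x := σ)
      · rw [hord]; exact i.2
      · rw [hord]; exact j.2
      · exact hij
    · rw [Fintype.card_fin, ← Nat.card_eq_fintype_card, hcard]
  rw [← Fin.prod_univ_eq_prod_range (fun i => (σ ^ i) x) p]
  exact hbij.prod_comp (fun τ : L ≃ₐ[K] L => τ x)





/-- the units of `𝓞 L` fixed by a generator of the Galois group are the units of `𝓞 K` -/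
theorem cfa_unitD_ker [IsGalois K L] (σ : L ≃ₐ[K] L)
    (hσ : ∀ τ : L ≃ₐ[K] L, τ ∈ Subgroup.zpowers σ) :
    (cfe_unitD σ).ker = (cfa_unitIncl K L).range := by
  ext u
  rw [MonoidHom.mem_ker, MonoidHom.mem_range]
  constructor
  · intro hu
    have h1 : cfe_unitAct σ u = u := by
      have := cfe_unitD_mul σ u
      rw [hu, one_mul] at this
      exact this.symm
    have h2 : σ ((u : 𝓞 L) : L) = ((u : 𝓞 L) : L) := by
      rw [← cfe_unitAct_coe, h1]
    have h3 : ∀ τ : L ≃ₐ[K] L, τ ((u : 𝓞 L) : L) = ((u : 𝓞 L) : L) := by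
      intro τ
      have hle : Subgroup.zpowers σ ≤ MulAction.stabilizer (L ≃ₐ[K] L) ((u : 𝓞 L) : L) := by
        rw [Subgroup.zpowers_le]
        exact h2
      exact hle (hσ τ)
    have h4 : ((u : 𝓞 L) : L) ∈ (⊥ : IntermediateField K L) :=
      (IsGalois.mem_bot_iff_fixed _).mpr h3
    obtain ⟨k, hk⟩ := IntermediateField.mem_bot.mp h4
    have hkint : IsIntegral ℤ k := by
      rw [← isIntegral_algebraMap_iff (algebraMap K L).injective, hk]
      exact RingOfIntegers.isIntegral_coe _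
    have hkinv : algebraMap K L k⁻¹ = (((u⁻¹ : (𝓞 L)ˣ) : 𝓞 L) : L) := by
      rw [map_inv₀, hk]
      have : ((u : 𝓞 L) : L) * (((u⁻¹ : (𝓞 L)ˣ) : 𝓞 L) : L) = 1 := by
        rw [← map_mul, ← Units.val_mul, mul_inv_cancel, Units.val_one, map_one]
      exact inv_eq_of_mul_eq_one_right this
    have hkint' : IsIntegral ℤ k⁻¹ := by
      rw [← isIntegral_algebraMap_iff (algebraMap K L).injective, hkinv]
      exact RingOfIntegers.isIntegral_coe _
    have hk0 : k ≠ 0 := by
      intro h0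
      rw [h0, map_zero] at hk
      have : ((u : 𝓞 L) : L) ≠ 0 := by
        intro h
        have h' : (u : 𝓞 L) = 0 := RingOfIntegers.ext (by rw [h]; rfl)
        exact u.ne_zero h'
      exact this hk.symm
    refine ⟨⟨⟨k, hkint⟩, ⟨k⁻¹, hkint'⟩, ?_, ?_⟩, ?_⟩
    · apply RingOfIntegers.ext
      show k * k⁻¹ = 1
      exact mul_inv_cancel₀ hk0
    · apply RingOfIntegers.ext
      show k⁻¹ * k = 1
      exact inv_mul_cancel₀ hk0
    · apply Units.ext
      apply RingOfIntegers.ext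
      rw [cfa_unitIncl_coe]
      exact hk
  · rintro ⟨v, rfl⟩
    have h1 : cfe_unitAct σ (cfa_unitIncl K L v) = cfa_unitIncl K L v := by
      apply Units.ext
      apply RingOfIntegers.ext
      rw [cfe_unitAct_coe, cfa_unitIncl_coe, AlgEquiv.commutes]
    show cfe_unitAct σ (cfa_unitIncl K L v) / cfa_unitIncl K L v = 1
    rw [h1, div_self']





omit [NumberField K] [NumberField L] in
theorem cfa_unitAct_mul (σ τ : L ≃ₐ[K] L) (u : (𝓞 L)ˣ) :
    cfe_unitAct (σ * τ) u = cfe_unitAct σ (cfe_unitAct τ u) := by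
  apply Units.ext
  apply RingOfIntegers.ext
  rw [cfe_unitAct_coe, cfe_unitAct_coe, cfe_unitAct_coe]
  rfl

omit [NumberField K] [NumberField L] in
theorem cfa_unitAct_one (u : (𝓞 L)ˣ) : cfe_unitAct (1 : L ≃ₐ[K] L) u = u := by
  apply Units.ext
  apply RingOfIntegers.ext
  rw [cfe_unitAct_coe]
  rfl

/-- the additive endomorphism of `Additive (𝓞 L)ˣ` induced by `σ` -/
noncomputable def cfa_sigmaM (σ : L ≃ₐ[K] L) : AddMonoid.End (Additive (𝓞 L)ˣ) :=
  MonoidHom.toAdditive (cfe_unitAct σ)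

omit [NumberField K] [NumberField L] in
theorem cfa_sigmaM_pow_apply (σ : L ≃ₐ[K] L) (n : ℕ) (x : Additive (𝓞 L)ˣ) :
    (cfa_sigmaM σ ^ n) x = Additive.ofMul (cfe_unitAct (σ ^ n) x.toMul) := by
  induction n generalizing x with
  | zero =>
    rw [pow_zero, pow_zero, cfa_unitAct_one]
    rfl
  | succ n ih =>
    rw [pow_succ, pow_succ, cfa_unitAct_mul]
    show (cfa_sigmaM σ ^ n) (cfa_sigmaM σ x) = _
    rw [ih]
    rfl

end Units

section Main

variable (K L : Type) [Field K] [Field L] [NumberField K] [NumberField L] [Algebra K L]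

/-- **Herbrand quotient of the unit group** of a cyclic extension `L/K` of odd prime degree `p`:
`[ker N : im (σ - 1)] = p * [(𝓞 K)ˣ : N (𝓞 L)ˣ]`, and both are finite. -/
theorem cfa_unit_herbrand_eq [IsGalois K L] {p : ℕ} (hp : p.Prime) (hp2 : p ≠ 2)
    (σ : L ≃ₐ[K] L) (hσ : ∀ τ : L ≃ₐ[K] L, τ ∈ Subgroup.zpowers σ)
    (hdeg : Module.finrank K L = p) :
    (cfe_unitNorm K L).range.index ≠ 0 ∧
    ((cfe_unitD σ).range.subgroupOf (cfe_unitNorm K L).ker).index =
      p * (cfe_unitNorm K L).range.index := by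
  have hcard : Nat.card (L ≃ₐ[K] L) = p := by rw [IsGalois.card_aut_eq_finrank, hdeg]
  have hσp : σ ^ p = 1 := by rw [← hcard]; exact pow_card_eq_one'
  set σM := cfa_sigmaM σ with hσM
  have hpow : σM ^ p = 1 := by
    ext x
    rw [cfa_sigmaM_pow_apply, hσp, cfa_unitAct_one]
    rfl
  obtain ⟨h0ne, h1ne, b, hrank, heq⟩ := cfa_herbrand hp σM hpow
  set ι := cfa_unitIncl K L with hι
  have hιinj : Function.Injective ι := cfa_unitIncl_injective K L
  -- identification of `D`
  have hD : ((σM - 1 : AddMonoid.End (Additive (𝓞 L)ˣ)) : Additive (𝓞 L)ˣ →+ Additive (𝓞 L)ˣ) =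
      MonoidHom.toAdditive (cfe_unitD σ) := by
    ext x
    rfl
  -- identification of `N`
  have hNx : ∀ x : Additive (𝓞 L)ˣ,
      (∑ i ∈ Finset.range p, σM ^ i : AddMonoid.End (Additive (𝓞 L)ˣ)) x =
        Additive.ofMul (ι (cfe_unitNorm K L x.toMul)) := by
    intro x
    rw [cfa_end_sum_apply]
    have : ∀ i ∈ Finset.range p, (σM ^ i) x = Additive.ofMul (cfe_unitAct (σ ^ i) x.toMul) :=
      fun i _ => cfa_sigmaM_pow_apply σ i x
    rw [Finset.sum_congr rfl this, ← ofMul_prod]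
    congr 1
    apply Units.ext
    apply RingOfIntegers.ext
    rw [cfa_unitIncl_coe, cfe_unitNorm_coe, ← cfa_prod_pow_eq_norm hdeg σ hσ]
    rw [Units.coe_prod]
    show algebraMap (𝓞 L) L (∏ i ∈ Finset.range p, ((cfe_unitAct (σ ^ i) x.toMul : (𝓞 L)ˣ) : 𝓞 L)) = _
    rw [map_prod]
    exact Finset.prod_congr rfl (fun i _ => cfe_unitAct_coe (σ ^ i) x.toMul)
  have hN : ((∑ i ∈ Finset.range p, σM ^ i : AddMonoid.End (Additive (𝓞 L)ˣ)) :
      Additive (𝓞 L)ˣ →+ Additive (𝓞 L)ˣ) =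
      MonoidHom.toAdditive (ι.comp (cfe_unitNorm K L)) :=
    AddMonoidHom.ext fun x => hNx x
  -- the rank of the fixed units
  have hrK : finrank ℤ ↥(AddMonoidHom.ker
      ((σM - 1 : AddMonoid.End (Additive (𝓞 L)ˣ)) : Additive (𝓞 L)ˣ →+ Additive (𝓞 L)ˣ)) =
      Fintype.card (InfinitePlace K) - 1 := by
    rw [← NumberField.Units.rank, ← NumberField.Units.finrank_eq K]
    let ιM : Additive (𝓞 K)ˣ →ₗ[ℤ] Additive (𝓞 L)ˣ := (MonoidHom.toAdditive ι).toIntLinearMap
    have hinj : Function.Injective ιM := fun x y h => hιinj h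
    have hr := LinearMap.finrank_range_of_inj hinj
    rw [← hr]
    have : (AddMonoidHom.ker ((σM - 1 : AddMonoid.End (Additive (𝓞 L)ˣ)) :
        Additive (𝓞 L)ˣ →+ Additive (𝓞 L)ˣ)).toIntSubmodule = LinearMap.range ιM := by
      rw [hD, MonoidHom.coe_toAdditive_ker, cfa_unitD_ker σ hσ]
      ext x
      constructor
      · rintro ⟨v, rfl⟩
        exact ⟨Additive.ofMul v, rfl⟩
      · rintro ⟨v, rfl⟩
        exact ⟨v.toMul, rfl⟩
    rw [← this]
    rfl
  rw [hrK] at hrank heq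
  rw [hD, hN] at h0ne h1ne heq
  simp only [MonoidHom.coe_toAdditive_range, MonoidHom.coe_toAdditive_ker,
    Subgroup.relIndex_toAddSubgroup] at h0ne h1ne heq
  have hkerN : (ι.comp (cfe_unitNorm K L)).ker = (cfe_unitNorm K L).ker := by
    ext u
    rw [MonoidHom.mem_ker, MonoidHom.mem_ker, MonoidHom.comp_apply]
    constructor
    · intro h
      apply hιinj
      rw [h, map_one]
    · intro h
      rw [h, map_one]
  have hH0 : (ι.comp (cfe_unitNorm K L)).range.relIndex (cfe_unitD σ).ker =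
      (cfe_unitNorm K L).range.index := by
    rw [cfa_unitD_ker σ hσ, MonoidHom.range_comp, MonoidHom.range_eq_map ι,
      Subgroup.relIndex_map_map_of_injective _ _ hιinj, Subgroup.relIndex_top_right]
  rw [hkerN] at h1ne heq
  rw [hH0] at h0ne heq
  -- ranks
  have hodd : Odd (Module.finrank K L) := by rw [hdeg]; exact hp.odd_of_ne_two hp2
  have : IsUnramifiedAtInfinitePlaces K L := IsUnramifiedAtInfinitePlaces_of_odd_finrank hodd
  have hplaces := IsUnramifiedAtInfinitePlaces.card_infinitePlace K L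
  rw [hdeg] at hplaces
  have hrL : finrank ℤ (Additive (𝓞 L)ˣ) = Fintype.card (InfinitePlace L) - 1 :=
    NumberField.Units.finrank_eq L
  have hposK : 0 < Fintype.card (InfinitePlace K) := Fintype.card_pos
  set r := Fintype.card (InfinitePlace K) with hr
  rw [hrL, hplaces] at hrank
  -- `b = r`
  have hp1 : 0 < p - 1 := by have := hp.two_le; omega
  have hb : b = r := by
    have h1 : r * p - 1 = (r - 1) + (p - 1) * r := by
      obtain ⟨r', hr'⟩ : ∃ r', r = r' + 1 := ⟨r - 1, by omega⟩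
      obtain ⟨p', hp'⟩ : ∃ p', p = p' + 1 := ⟨p - 1, by omega⟩
      rw [hr', hp']
      simp only [Nat.add_sub_cancel]
      have : (r' + 1) * (p' + 1) = r' + p' * (r' + 1) + 1 := by ring
      rw [this, Nat.add_sub_cancel]
    rw [h1] at hrank
    have h2 : (p - 1) * r = (p - 1) * b := Nat.add_left_cancel hrank
    exact (Nat.eq_of_mul_eq_mul_left hp1 h2).symm
  refine ⟨h0ne, ?_⟩
  rw [hb] at heq
  have hpr : p ^ r = p ^ (r - 1) * p := by
    rw [← pow_succ]
    congr 1
    omega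
  rw [hpr] at heq
  have hpa : 0 < p ^ (r - 1) := pow_pos hp.pos _
  apply Nat.eq_of_mul_eq_mul_right hpa
  show (cfe_unitD σ).range.relIndex (cfe_unitNorm K L).ker * p ^ (r - 1) = _
  rw [heq]
  ring

/-- the shape requested by the class-group side (`FirstIneq`) -/
theorem cfa_unit_herbrand [IsGalois K L] {p : ℕ} (hp : p.Prime) (hp2 : p ≠ 2)
    (σ : L ≃ₐ[K] L) (hσ : ∀ τ : L ≃ₐ[K] L, τ ∈ Subgroup.zpowers σ)
    (hdeg : Module.finrank K L = p) :
    (cfe_unitNorm K L).range.index ≠ 0 ∧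
    p * (cfe_unitNorm K L).range.index ≤
      ((cfe_unitD σ).range.subgroupOf (cfe_unitNorm K L).ker).index := by
  obtain ⟨h1, h2⟩ := cfa_unit_herbrand_eq K L hp hp2 σ hσ hdeg
  exact ⟨h1, h2.ge⟩

end Main

end Fermat.Agent.Lib.CFT
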