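/-
S14 / WP-C7, final statement: the first inequality for an unramified cyclic extension `L/K` of odd
prime degree `p` of number fields — the classes of norms of ideals of `L` do not fill the class
group of `K` (class-group side `FirstIneq.lean` + unit Herbrand quotient `HerbrandUnits.lean`).
-/
import Fermat.Agent.Lib.CFT.FirstIneq
import Fermat.Agent.Lib.CFT.HerbrandUnits

set_option autoImplicit false

open NumberField

namespace Fermat.Agent.Lib.CFT

/-- **First inequality.** `L/K` cyclic of odd prime degree `p`, everywhere unramified (finite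
primes): `cft_normClasses K L ≠ ⊤`. -/
theorem cfe_first_inequality (K L : Type) [Field K] [Field L] [NumberField K] [NumberField L]
    [Algebra K L] [IsGalois K L] {p : ℕ} (hp : p.Prime) (hp2 : p ≠ 2) (σ : L ≃ₐ[K] L)
    (hσ : ∀ τ : L ≃ₐ[K] L, τ ∈ Subgroup.zpowers σ) (hdeg : Module.finrank K L = p)
    (hunr : cft_Unram K L) : cft_normClasses K L ≠ ⊤ := by
  obtain ⟨h0, h1⟩ := cfa_unit_herbrand K L hp hp2 σ hσ hdeg
  exact cfe_normClasses_ne_top hp σ hσ hunr h0 h1

/-- Counting form of the first inequality: `p * #(norm classes) ≤ h_K`. -/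
theorem cfe_first_inequality_card (K L : Type) [Field K] [Field L] [NumberField K] [NumberField L]
    [Algebra K L] [IsGalois K L] {p : ℕ} (hp : p.Prime) (hp2 : p ≠ 2) (σ : L ≃ₐ[K] L)
    (hσ : ∀ τ : L ≃ₐ[K] L, τ ∈ Subgroup.zpowers σ) (hdeg : Module.finrank K L = p)
    (hunr : cft_Unram K L) :
    p * Nat.card (cft_normClasses K L) ≤ Nat.card (ClassGroup (𝓞 K)) := by
  obtain ⟨h0, h1⟩ := cfa_unit_herbrand K L hp hp2 σ hσ hdeg
  have := cfe_mul_card_range_normM_le (cfe_unr_of_unram hunr) σ hσ h0 h1
  rwa [cfe_range_normM] at this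

end Fermat.Agent.Lib.CFT
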