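/-
S14 (CFT route), step (C8): index bookkeeping.  For `L/K` abelian of prime degree `p`, everywhere
unramified, the *pair lemma* (output of Artin's crossing argument) together with the first
inequality `cft_normClasses K L ≠ ⊤` implies that the Artin symbol kills principal ideals.
-/
import Mathlib
import Fermat.Agent.Lib.CFT.SplitNorm

set_option autoImplicit false
set_option linter.unusedSectionVars false

namespace Fermat.Agent.Lib.CFT

open NumberField IsDedekindDomain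
open scoped nonZeroDivisors

/-- In a group, if `x ^ m` and `x ^ p` lie in a subgroup and `m`, `p` are coprime then so does
`x`. -/
theorem cfc_mem_of_pow_mem_of_coprime {G : Type*} [Group G] (H : Subgroup G) {x : G} {m p : ℕ}
    (hmp : Nat.Coprime m p) (hm : x ^ m ∈ H) (hp : x ^ p ∈ H) : x ∈ H := by
  have h1 : x ^ ((m : ℤ) * Nat.gcdA m p + (p : ℤ) * Nat.gcdB m p) = x ^ (1 : ℤ) := by
    rw [← Nat.gcd_eq_gcd_ab, hmp.gcd_eq_one, Nat.cast_one]
  rw [zpow_one, zpow_add, zpow_mul, zpow_mul, zpow_natCast, zpow_natCast] at h1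
  rw [← h1]
  exact H.mul_mem (H.zpow_mem hm _) (H.zpow_mem hp _)

variable {K L : Type*} [Field K] [NumberField K] [Field L] [NumberField L] [Algebra K L]
  [IsGalois K L] [IsMulCommutative Gal(L/K)]

/-- Shorthand: the class of a nonzero prime. -/
noncomputable def cfc_mk0Prime (q : HeightOneSpectrum (𝓞 K)) : ClassGroup (𝓞 K) :=
  ClassGroup.mk0 ⟨q.asIdeal, mem_nonZeroDivisors_of_ne_zero q.ne_bot⟩

/-- **(C8) Reciprocity from the pair lemma and the first inequality.** -/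
theorem cfc_recip_of_pair {p : ℕ} (hp : p.Prime) (hdeg : Module.finrank K L = p)
    (hfirst : cft_normClasses K L ≠ ⊤)
    (hpair : ∀ (q₀ q₁ : HeightOneSpectrum (𝓞 K)) (d : ℕ), cft_frob K L q₀.asIdeal ≠ 1 →
      cft_frob K L q₁.asIdeal ≠ 1 →
      cft_frob K L q₁.asIdeal = cft_frob K L q₀.asIdeal ^ d →
      cfc_mk0Prime q₁ / cfc_mk0Prime q₀ ^ d ∈ cft_normClasses K L) :
    ∀ γ : 𝓞 K, γ ≠ 0 → cft_artin K L (Ideal.span {γ}) = 1 := by
  classical
  have : Fact p.Prime := ⟨hp⟩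
  have hcard : Nat.card Gal(L/K) = p := by rw [IsGalois.card_aut_eq_finrank, hdeg]
  by_cases hall : ∀ q : HeightOneSpectrum (𝓞 K), cft_frob K L q.asIdeal = 1
  · -- every Frobenius is trivial
    intro γ _
    unfold cft_artin
    simp only [hall, one_pow, finprod_one]
  push Not at hall
  obtain ⟨q₀, hq₀⟩ := hall
  set σ₀ := cft_frob K L q₀.asIdeal with hσ₀
  set Nc := cft_normClasses K L with hNc
  have hσ₀p : σ₀ ^ p = 1 := by rw [← hcard]; exact pow_card_eq_one'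
  -- the key statement for all nonzero ideals
  have key : ∀ I : Ideal (𝓞 K), ∀ hI : I ≠ ⊥, ∃ n : ℕ, cft_artin K L I = σ₀ ^ n ∧
      ClassGroup.mk0 ⟨I, mem_nonZeroDivisors_of_ne_zero hI⟩ / cfc_mk0Prime q₀ ^ n ∈ Nc := by
    intro I
    refine UniqueFactorizationMonoid.induction_on_prime I (fun h => absurd rfl h) ?_ ?_
    · intro A hA hA0
      rw [Ideal.isUnit_iff] at hA
      subst hA
      refine ⟨0, by rw [cft_artin_top, pow_zero], ?_⟩
      rw [pow_zero, div_one]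
      have : ClassGroup.mk0 (⟨⊤, mem_nonZeroDivisors_of_ne_zero hA0⟩ : (Ideal (𝓞 K))⁰) = 1 := by
        rw [ClassGroup.mk0_eq_one_iff]
        exact ⟨⟨1, by rw [Ideal.submodule_span_eq, Ideal.span_singleton_one]⟩⟩
      rw [this]
      exact Nc.one_mem
    · intro A P hA0 hP ih hPA
      have hP0 : P ≠ ⊥ := hP.ne_zero
      have hPprime : P.IsPrime := Ideal.isPrime_of_prime hP
      obtain ⟨nA, hA1, hA2⟩ := ih hA0
      set v : HeightOneSpectrum (𝓞 K) := ⟨P, hPprime, hP0⟩ with hv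
      -- the prime `P`
      have hPkey : ∃ d : ℕ, cft_frob K L P = σ₀ ^ d ∧ cfc_mk0Prime v / cfc_mk0Prime q₀ ^ d ∈ Nc := by
        by_cases h1 : cft_frob K L P = 1
        · refine ⟨0, by rw [h1, pow_zero], ?_⟩
          rw [pow_zero, div_one]
          exact cfc_mk0_mem_of_frob_eq_one v h1
        · obtain ⟨d, hd⟩ := mem_powers_of_prime_card hcard hq₀ (g' := cft_frob K L P)
          have hd' : cft_frob K L v.asIdeal = cft_frob K L q₀.asIdeal ^ d := hd.symm
          exact ⟨d, hd', hpair q₀ v d hq₀ h1 hd'⟩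
      obtain ⟨d, hd1, hd2⟩ := hPkey
      refine ⟨d + nA, ?_, ?_⟩
      · rw [cft_artin_mul K L hP0 hA0, hA1, pow_add]
        congr 1
        rw [← hd1]
        exact cft_artin_prime K L v
      · have hmul : ClassGroup.mk0 ⟨P * A, mem_nonZeroDivisors_of_ne_zero hPA⟩ =
            cfc_mk0Prime v * ClassGroup.mk0 ⟨A, mem_nonZeroDivisors_of_ne_zero hA0⟩ := by
          rw [cfc_mk0Prime, ← map_mul]
          rfl
        rw [hmul, pow_add]
        have : cfc_mk0Prime v * ClassGroup.mk0 ⟨A, mem_nonZeroDivisors_of_ne_zero hA0⟩ /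
            (cfc_mk0Prime q₀ ^ d * cfc_mk0Prime q₀ ^ nA) =
            (cfc_mk0Prime v / cfc_mk0Prime q₀ ^ d) *
            (ClassGroup.mk0 ⟨A, mem_nonZeroDivisors_of_ne_zero hA0⟩ / cfc_mk0Prime q₀ ^ nA) := by
          rw [div_mul_div_comm]
        rw [this]
        exact Nc.mul_mem hd2 hA2
  -- the main argument
  intro γ hγ
  by_contra hne
  apply hfirst
  have hγ0 : Ideal.span {γ} ≠ (⊥ : Ideal (𝓞 K)) := by
    rw [Ne, Ideal.span_singleton_eq_bot]; exact hγ
  obtain ⟨m, hm1, hm2⟩ := key _ hγ0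
  have hprinc : ClassGroup.mk0 (⟨Ideal.span {γ}, mem_nonZeroDivisors_of_ne_zero hγ0⟩ :
      (Ideal (𝓞 K))⁰) = 1 := by
    rw [ClassGroup.mk0_eq_one_iff]
    exact ⟨⟨γ, rfl⟩⟩
  rw [hprinc, one_div, Subgroup.inv_mem_iff] at hm2
  have hpm : ¬ p ∣ m := by
    rintro ⟨c, rfl⟩
    apply hne
    rw [hm1, pow_mul, hσ₀p, one_pow]
  have hcop : Nat.Coprime m p := (Nat.Coprime.symm ((Nat.Prime.coprime_iff_not_dvd hp).mpr hpm))
  have hpp : cfc_mk0Prime q₀ ^ p ∈ Nc := by
    have := cfc_mk0_pow_finrank_mem (K := K) (L := L)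
      ⟨q₀.asIdeal, mem_nonZeroDivisors_of_ne_zero q₀.ne_bot⟩
    rwa [hdeg] at this
  have hq₀mem : cfc_mk0Prime q₀ ∈ Nc := cfc_mem_of_pow_mem_of_coprime Nc hcop hm2 hpp
  rw [eq_top_iff]
  intro C _
  obtain ⟨I, rfl⟩ := ClassGroup.mk0_surjective C
  have hI0 : (I : Ideal (𝓞 K)) ≠ ⊥ := mem_nonZeroDivisors_iff_ne_zero.mp I.2
  obtain ⟨n, -, hn2⟩ := key I hI0
  have hI : ClassGroup.mk0 I = (ClassGroup.mk0 I / cfc_mk0Prime q₀ ^ n) * cfc_mk0Prime q₀ ^ n := by
    rw [div_mul_cancel]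
  rw [hI]
  exact Nc.mul_mem hn2 (Nc.pow_mem hq₀mem n)

end Fermat.Agent.Lib.CFT
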