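/-
S14 (CFT route), WP-D: reduction of the reciprocity interface `cfd_IfaceRecip p` of the endgame to
the *pair lemma* (conclusion of Artin's crossing argument), via the first inequality
(`cfe_first_inequality`) and the index bookkeeping (`cfc_recip_of_pair`).
-/
import Mathlib
import Fermat.Agent.Lib.CFT.FirstIneqFinal
import Fermat.Agent.Lib.CFT.RecipBook
import Fermat.Agent.Lib.CFT.EndgameZ

set_option autoImplicit false

namespace Fermat.Agent.Lib.CFT

open NumberField IsDedekindDomain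

/-- **(P)** interface: the pair lemma for the extensions of `cft_NoExt`. -/
def cfd_IfacePair (p : ℕ) : Prop :=
  ∀ (K L : Type) [Field K] [NumberField K] [Field L] [NumberField L] [Algebra K L]
    [IsCyclotomicExtension {p} ℚ K] [IsGalois K L] [IsGalois ℚ L]
    [IsMulCommutative (L ≃ₐ[K] L)] (ζ : K),
    IsPrimitiveRoot ζ p → Module.finrank K L = p → cft_Unram K L →
    ∀ (q₀ q₁ : HeightOneSpectrum (𝓞 K)) (d : ℕ), cft_frob K L q₀.asIdeal ≠ 1 →
      cft_frob K L q₁.asIdeal ≠ 1 →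
      cft_frob K L q₁.asIdeal = cft_frob K L q₀.asIdeal ^ d →
      cfc_mk0Prime q₁ / cfc_mk0Prime q₀ ^ d ∈ cft_normClasses K L

/-- reciprocity for principal ideals from the pair lemma -/
theorem cfd_ifaceRecip_of_pair {p : ℕ} [Fact p.Prime] (hp3 : 3 ≤ p) (hP : cfd_IfacePair p) :
    cfd_IfaceRecip p := by
  intro K L _ _ _ _ _ _ _ _ _ ζ hζ hdeg hun _
  have hp : p.Prime := Fact.out
  have hp2 : p ≠ 2 := by omega
  have hcardG : Nat.card (L ≃ₐ[K] L) = p := by rw [IsGalois.card_aut_eq_finrank, hdeg]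
  have hcyc : IsCyclic (L ≃ₐ[K] L) := isCyclic_of_prime_card hcardG
  obtain ⟨σ, hσ⟩ := hcyc.exists_generator
  exact cfc_recip_of_pair hp hdeg (cfe_first_inequality K L hp hp2 σ hσ hdeg hun)
    (hP K L ζ hζ hdeg hun)

/-- **S14 modulo the pair lemma.** -/
theorem cfd_extVanishing_of_pair {p : ℕ} [Fact p.Prime] (hp3 : 3 ≤ p) (hP : cfd_IfacePair p) :
    ExtCitation.ExtVanishingCts p :=
  cfd_extVanishing_of_recip hp3 (cfd_ifaceRecip_of_pair hp3 hP)

end Fermat.Agent.Lib.CFT
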