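import Mathlib

/-!
# Counting lattice points in dilates of a set with Lipschitz-parametrised boundary

Generic real analysis (no number theory): for a `ℤ`-lattice `L` in a finite-dimensional real normed
space `E` and a bounded measurable set `S` whose frontier is covered by finitely many Lipschitz
images of the unit cube of dimension `finrank ℝ E - 1`, the number of points of `L` in `t • S` is
`volume S / covolume L * t ^ n + O (t ^ (n - 1))`.
-/

namespace Fermat.Agent.Lib.CFT

open MeasureTheory Metric Set Module Filter Topology Bornology Submodule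
open scoped Pointwise NNReal ENNReal

section tiling

variable {E : Type*} [NormedAddCommGroup E] [NormedSpace ℝ E] [FiniteDimensional ℝ E]
  [MeasurableSpace E] [BorelSpace E]
variable (L : Submodule ℤ E) [DiscreteTopology L] [IsZLattice ℝ L]
variable (μ : Measure E) [μ.IsAddHaarMeasure]

omit [MeasurableSpace E] [BorelSpace E] [IsZLattice ℝ L] in
/-- the lattice points in a bounded set form a finite set -/
theorem cfl_finite_inter {A : Set E} (hA : IsBounded A) : (A ∩ (L : Set E)).Finite := by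
  change (A ∩ L.toAddSubgroup).Finite
  have : DiscreteTopology L.toAddSubgroup := (inferInstance : DiscreteTopology L)
  exact Metric.finite_isBounded_inter_isClosed DiscreteTopology.isDiscrete hA inferInstance

omit [MeasurableSpace E] [BorelSpace E] [IsZLattice ℝ L] in
/-- the translates of a bounded set by lattice vectors that meet a bounded set are finitely many -/
theorem cfl_finite_meet {A F₀ : Set E} (hA : IsBounded A) (hF₀ : IsBounded F₀) :
    {g : L | ((g +ᵥ F₀ : Set E) ∩ A).Nonempty}.Finite := by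
  have hfin := cfl_finite_inter L (hA.sub hF₀)
  refine Set.Finite.of_finite_image (f := ((↑) : L → E)) (hfin.subset ?_)
    (Subtype.coe_injective.injOn)
  rintro _ ⟨g, ⟨x, hx, hxA⟩, rfl⟩
  obtain ⟨y, hy, rfl⟩ := hx
  refine ⟨?_, g.2⟩
  refine ⟨(g : E) + y, hxA, y, hy, ?_⟩
  simp

theorem cfl_tiling {F₀ : Set E} (hF₀ : IsAddFundamentalDomain L F₀ μ) (h0 : (0 : E) ∈ F₀)
    (hF₀b : IsBounded F₀) {A : Set E} (hA : IsBounded A) (Bad : Finset L)
    (hBad : ∀ g : L, ((g +ᵥ F₀ : Set E) ∩ A).Nonempty → ¬ (g +ᵥ F₀ : Set E) ⊆ A → g ∈ Bad) :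
    |μ.real A - μ.real F₀ * (Nat.card (A ∩ (L : Set E) : Set E) : ℝ)| ≤ μ.real F₀ * Bad.card := by
  classical
  have : MeasurableVAdd L E := (inferInstance : MeasurableVAdd L.toAddSubgroup E)
  have : VAddInvariantMeasure L E μ := (inferInstance : VAddInvariantMeasure L.toAddSubgroup E μ)
  have : Countable L := inferInstance
  set T : Finset L := (cfl_finite_meet L hA hF₀b).toFinset with hT
  have hTmem : ∀ g : L, g ∈ T ↔ ((g +ᵥ F₀ : Set E) ∩ A).Nonempty := by
    intro g; simp [hT]
  have hF₀fin : μ F₀ ≠ ⊤ := (hF₀b.measure_lt_top).ne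
  have hvadd : ∀ g : L, μ (g +ᵥ F₀ : Set E) = μ F₀ := fun g => measure_vadd μ g F₀
  -- measure of `A` as a finite sum
  have h1 : μ A = ∑ g ∈ T, μ (A ∩ (g +ᵥ F₀ : Set E)) := by
    rw [hF₀.measure_eq_tsum' A]
    refine tsum_eq_sum fun g hg => ?_
    rw [hTmem, Set.not_nonempty_iff_eq_empty, Set.inter_comm] at hg
    rw [hg, measure_empty]
  have hterm_fin : ∀ g : L, μ (A ∩ (g +ᵥ F₀ : Set E)) ≠ ⊤ := fun g =>
    ((measure_mono Set.inter_subset_right).trans_lt
      (by rw [hvadd]; exact hF₀b.measure_lt_top)).ne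
  have h1' : μ.real A = ∑ g ∈ T, μ.real (A ∩ (g +ᵥ F₀ : Set E)) := by
    simp only [Measure.real, h1]
    exact ENNReal.toReal_sum fun g _ => hterm_fin g
  -- the number of lattice points as a finite sum
  have h2 : (Nat.card (A ∩ (L : Set E) : Set E) : ℝ) =
      ∑ g ∈ T, (if (g : E) ∈ A then (1 : ℝ) else 0) := by
    rw [Finset.sum_ite, Finset.sum_const_zero, add_zero, Finset.sum_const, nsmul_eq_mul, mul_one]
    congr 1
    rw [← Nat.card_eq_finsetCard]
    refine Nat.card_congr ?_
    refine Equiv.ofBijective (fun x => ⟨⟨x.1, x.2.2⟩, ?_⟩) ⟨?_, ?_⟩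
    · rw [Finset.mem_filter, hTmem]
      exact ⟨⟨x.1, ⟨0, h0, by simp⟩, x.2.1⟩, x.2.1⟩
    · intro x y hxy
      simp only [Subtype.mk.injEq] at hxy
      exact Subtype.ext hxy
    · rintro ⟨g, hg⟩
      rw [Finset.mem_filter] at hg
      exact ⟨⟨g, hg.2, g.2⟩, rfl⟩
  rw [h1', h2, Finset.mul_sum, ← Finset.sum_sub_distrib]
  -- term by term
  have hgood : ∀ g ∈ T, g ∉ Bad →
      μ.real (A ∩ (g +ᵥ F₀ : Set E)) - μ.real F₀ * (if (g : E) ∈ A then (1 : ℝ) else 0) = 0 := by
    intro g hgT hgB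
    have hsub : (g +ᵥ F₀ : Set E) ⊆ A := by
      by_contra hcon
      exact hgB (hBad g ((hTmem g).mp hgT) hcon)
    have hgA : (g : E) ∈ A := hsub ⟨0, h0, by simp⟩
    rw [Set.inter_eq_right.mpr hsub, if_pos hgA, mul_one, Measure.real, Measure.real, hvadd,
      sub_self]
  have hbad : ∀ g : L,
      |μ.real (A ∩ (g +ᵥ F₀ : Set E)) - μ.real F₀ * (if (g : E) ∈ A then (1 : ℝ) else 0)| ≤
        μ.real F₀ := by
    intro g
    have hle : μ.real (A ∩ (g +ᵥ F₀ : Set E)) ≤ μ.real F₀ := by
      have := ENNReal.toReal_mono hF₀fin ((measure_mono (μ := μ)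
        (Set.inter_subset_right : A ∩ (g +ᵥ F₀ : Set E) ⊆ _)).trans_eq (hvadd g))
      exact this
    have h0le : 0 ≤ μ.real (A ∩ (g +ᵥ F₀ : Set E)) := measureReal_nonneg
    have h0F : 0 ≤ μ.real F₀ := measureReal_nonneg
    split_ifs
    · rw [mul_one, abs_le]; constructor <;> linarith
    · rw [mul_zero, sub_zero, abs_of_nonneg h0le]; exact hle
  calc |∑ g ∈ T, (μ.real (A ∩ (g +ᵥ F₀ : Set E)) -
          μ.real F₀ * (if (g : E) ∈ A then (1 : ℝ) else 0))|
      ≤ ∑ g ∈ T, |μ.real (A ∩ (g +ᵥ F₀ : Set E)) -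
          μ.real F₀ * (if (g : E) ∈ A then (1 : ℝ) else 0)| := Finset.abs_sum_le_sum_abs _ _
    _ ≤ ∑ g ∈ T, (if g ∈ Bad then μ.real F₀ else 0) := by
        refine Finset.sum_le_sum fun g hg => ?_
        by_cases hgB : g ∈ Bad
        · rw [if_pos hgB]; exact hbad g
        · rw [if_neg hgB, hgood g hg hgB, abs_zero]
    _ ≤ ∑ g ∈ Bad, μ.real F₀ := by
        rw [← Finset.sum_filter]
        refine Finset.sum_le_sum_of_subset_of_nonneg
          (fun g hg => (Finset.mem_filter.mp hg).2) ?_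
        intro _ _ _; exact measureReal_nonneg
    _ = μ.real F₀ * Bad.card := by rw [Finset.sum_const, nsmul_eq_mul, mul_comm]

end tiling

end Fermat.Agent.Lib.CFT
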