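import Fermat.Agent.Lib.CFT.LatticeCount

/-!
# Auxiliary lemmas for lattice-point counting (S14, C3a(i))

* `cfl_preconnected_inter_frontier`: a preconnected set meeting `A` and not contained in `A`
  meets `frontier A`;
* `cfl_card_ball_le`: a ball of fixed radius contains boundedly many lattice points.
-/

namespace Fermat.Agent.Lib.CFT

open MeasureTheory Metric Set Module Filter Topology Bornology Submodule
open scoped Pointwise NNReal ENNReal

section frontier

/-- a preconnected set which meets `A` and is not contained in `A` meets the frontier of `A` -/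
theorem cfl_preconnected_inter_frontier {α : Type*} [TopologicalSpace α] {T A : Set α}
    (hT : IsPreconnected T) (h1 : (T ∩ A).Nonempty) (h2 : ¬ T ⊆ A) : (T ∩ frontier A).Nonempty := by
  by_contra hcon
  rw [Set.not_nonempty_iff_eq_empty] at hcon
  have hsub : T ⊆ interior A ∪ interior Aᶜ := by
    intro x hx
    by_cases hxc : x ∈ closure A
    · left
      by_contra hxi
      have : x ∈ T ∩ frontier A := ⟨hx, hxc, hxi⟩
      rw [hcon] at this; exact this
    · right
      rw [interior_compl]; exact hxc
  have hdisj : Disjoint (interior A) (interior Aᶜ) :=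
    Set.disjoint_of_subset interior_subset interior_subset disjoint_compl_right
  rcases hT.subset_or_subset isOpen_interior isOpen_interior hdisj hsub with h | h
  · exact h2 (h.trans interior_subset)
  · obtain ⟨x, hxT, hxA⟩ := h1
    exact (interior_subset (h hxT)) hxA

variable {E : Type*} [NormedAddCommGroup E] [NormedSpace ℝ E] [FiniteDimensional ℝ E]
variable (L : Submodule ℤ E) [DiscreteTopology L]

/-- uniform bound for the number of lattice points in a ball of given radius -/
theorem cfl_card_ball_le (R : ℝ) :
    ∃ M : ℕ, ∀ x : E, ∀ s : Finset L, (∀ g ∈ s, dist (g : E) x ≤ R) → s.card ≤ M := by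
  classical
  have hfin := cfl_finite_inter L (Metric.isBounded_closedBall (x := (0 : E)) (r := 2 * R))
  refine ⟨hfin.toFinset.card, fun x s hs => ?_⟩
  rcases s.eq_empty_or_nonempty with rfl | ⟨g₀, hg₀⟩
  · simp
  · refine Finset.card_le_card_of_injOn (fun g => ((g - g₀ : L) : E)) ?_ ?_
    · intro g hg
      rw [Finset.mem_coe, Set.Finite.mem_toFinset]
      refine ⟨?_, (g - g₀).2⟩
      rw [Metric.mem_closedBall, dist_zero_right]
      have h1 := hs g hg
      have h2 := hs g₀ hg₀
      rw [dist_eq_norm] at h1 h2
      have : ((g - g₀ : L) : E) = ((g : E) - x) - ((g₀ : E) - x) := by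
        simp
      show ‖((g - g₀ : L) : E)‖ ≤ 2 * R
      rw [this]
      calc ‖((g : E) - x) - ((g₀ : E) - x)‖ ≤ ‖(g : E) - x‖ + ‖(g₀ : E) - x‖ := norm_sub_le _ _
        _ ≤ 2 * R := by linarith
    · intro g _ g' _ h
      have : (g - g₀ : L) = g' - g₀ := Subtype.ext h
      exact sub_left_injective this

end frontier

end Fermat.Agent.Lib.CFT
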