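/-
S14 (CFT route): T2, the pair lemma of the crossing argument (signature of board post #338).
-/
import Mathlib
import Fermat.Agent.Lib.CFT.ArtinTower
import Fermat.Agent.Lib.CFT.NormGood

set_option autoImplicit false
set_option linter.unusedSectionVars false

namespace Fermat.Agent.Lib.CFT

open NumberField
open scoped nonZeroDivisors Pointwise

section T2

variable {K L E₀ E₁ E : Type*} [Field K] [NumberField K] [Field L] [NumberField L]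
  [Field E₀] [NumberField E₀] [Field E₁] [NumberField E₁] [Field E] [NumberField E]
  [Algebra K L] [IsGalois K L] [IsMulCommutative (L ≃ₐ[K] L)]
  [Algebra K E₀] [Algebra K E₁] [Algebra K E] [Algebra E₀ E] [Algebra E₁ E]
  [IsScalarTower K E₀ E] [IsScalarTower K E₁ E]

/-- one half of the pair lemma -/
lemma cft_pair_lemma_aux
    {m₀ : ℕ} (h₀ : cft_NormGood K L E₀ m₀)
    (𝔮₀ : (Ideal (𝓞 K))⁰)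
    (𝔔₀ : (Ideal (𝓞 E₀))⁰) (h𝔔₀ : (Ideal.absNorm (𝔔₀ : Ideal (𝓞 E₀))).Coprime m₀)
    (hN₀ : Ideal.relNorm (𝓞 K) (𝔔₀ : Ideal (𝓞 E₀)) = 𝔮₀)
    (𝔅 : (Ideal (𝓞 E))⁰) (h𝔅 : (Ideal.absNorm (𝔅 : Ideal (𝓞 E))).Coprime m₀)
    (e : ℕ) (he : cft_artin K L (𝔮₀ : Ideal (𝓞 K)) =
      cft_artin K L (Ideal.relNorm (𝓞 K) (𝔅 : Ideal (𝓞 E))) ^ e) :
    ClassGroup.mk0 𝔮₀ / ClassGroup.mk0 (cft_relNorm0 K E 𝔅) ^ e ∈ cft_normClasses K L := by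
  have h𝔅0 : (𝔅 : Ideal (𝓞 E)) ≠ ⊥ := mem_nonZeroDivisors_iff_ne_zero.mp 𝔅.2
  -- the norm of `𝔅` to `E₀`
  set 𝔟₀ : (Ideal (𝓞 E₀))⁰ := cft_relNorm0 E₀ E 𝔅 with h𝔟₀
  have hb0 : Ideal.relNorm (𝓞 K) ((𝔟₀ ^ e : (Ideal (𝓞 E₀))⁰) : Ideal (𝓞 E₀)) =
      Ideal.relNorm (𝓞 K) (𝔅 : Ideal (𝓞 E)) ^ e := by
    rw [SubmonoidClass.coe_pow, map_pow]
    congr 1
    exact Ideal.relNorm_relNorm (R := 𝓞 K) (S := 𝓞 E) (𝓞 E₀) (𝔅 : Ideal (𝓞 E))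
  have hN0 : Ideal.relNorm (𝓞 K) (𝔅 : Ideal (𝓞 E)) ≠ ⊥ :=
    (Ideal.relNorm_eq_bot_iff (R := 𝓞 K)).not.mpr h𝔅0
  have hcop : (Ideal.absNorm ((𝔟₀ ^ e : (Ideal (𝓞 E₀))⁰) : Ideal (𝓞 E₀))).Coprime m₀ := by
    rw [SubmonoidClass.coe_pow, map_pow]
    apply Nat.Coprime.pow_left
    have : Ideal.absNorm (𝔟₀ : Ideal (𝓞 E₀)) = Ideal.absNorm (𝔅 : Ideal (𝓞 E)) :=
      Ideal.absNorm_relNorm (R := 𝓞 E₀) (S := 𝓞 E) (𝔅 : Ideal (𝓞 E))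
    rwa [this]
  have key := h₀ 𝔔₀ (𝔟₀ ^ e) h𝔔₀ hcop (by
    rw [hN₀, he, hb0, cft_artin_pow K L hN0])
  have e1 : cft_relNorm0 K E₀ 𝔔₀ = 𝔮₀ := Subtype.ext hN₀
  have e2 : cft_relNorm0 K E₀ (𝔟₀ ^ e) = cft_relNorm0 K E 𝔅 ^ e := by
    apply Subtype.ext
    show Ideal.relNorm (𝓞 K) ((𝔟₀ ^ e : (Ideal (𝓞 E₀))⁰) : Ideal (𝓞 E₀)) = _
    rw [hb0, SubmonoidClass.coe_pow]
    rfl
  rwa [e1, e2, map_pow] at key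

/-- T2: the pair lemma. -/
theorem cft_pair_lemma {p : ℕ} (hp : p.Prime) (hdeg : Module.finrank K L = p)
    {m₀ m₁ : ℕ} (h₀ : cft_NormGood K L E₀ m₀) (h₁ : cft_NormGood K L E₁ m₁)
    (𝔮₀ 𝔮₁ : (Ideal (𝓞 K))⁰)
    (𝔔₀ : (Ideal (𝓞 E₀))⁰) (h𝔔₀ : (Ideal.absNorm (𝔔₀ : Ideal (𝓞 E₀))).Coprime m₀)
    (hN₀ : Ideal.relNorm (𝓞 K) (𝔔₀ : Ideal (𝓞 E₀)) = 𝔮₀)
    (𝔔₁ : (Ideal (𝓞 E₁))⁰) (h𝔔₁ : (Ideal.absNorm (𝔔₁ : Ideal (𝓞 E₁))).Coprime m₁)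
    (hN₁ : Ideal.relNorm (𝓞 K) (𝔔₁ : Ideal (𝓞 E₁)) = 𝔮₁)
    (𝔅 : (Ideal (𝓞 E))⁰) (h𝔅 : (Ideal.absNorm (𝔅 : Ideal (𝓞 E))).Coprime (m₀ * m₁))
    (h𝔅1 : cft_artin K L (Ideal.relNorm (𝓞 K) (𝔅 : Ideal (𝓞 E))) ≠ 1)
    (d : ℕ) (hd : cft_artin K L (𝔮₁ : Ideal (𝓞 K)) = cft_artin K L (𝔮₀ : Ideal (𝓞 K)) ^ d) :
    ClassGroup.mk0 𝔮₁ / ClassGroup.mk0 𝔮₀ ^ d ∈ cft_normClasses K L := by
  have hcard : Nat.card (L ≃ₐ[K] L) = p := by rw [IsGalois.card_aut_eq_finrank, hdeg]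
  have : Fact p.Prime := ⟨hp⟩
  obtain ⟨e, he⟩ := mem_powers_of_prime_card hcard h𝔅1 (g' := cft_artin K L (𝔮₀ : Ideal (𝓞 K)))
  simp only at he
  have k0 := cft_pair_lemma_aux (E := E) h₀ 𝔮₀ 𝔔₀ h𝔔₀ hN₀ 𝔅
    (Nat.Coprime.coprime_mul_right_right h𝔅) e he.symm
  have k1 := cft_pair_lemma_aux (E := E) h₁ 𝔮₁ 𝔔₁ h𝔔₁ hN₁ 𝔅
    (Nat.Coprime.coprime_mul_left_right h𝔅) (e * d) (by rw [hd, ← he, pow_mul])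
  have := (cft_normClasses K L).mul_mem k1 ((cft_normClasses K L).inv_mem
    ((cft_normClasses K L).pow_mem k0 d))
  convert this using 1
  rw [div_pow, ← pow_mul, div_eq_mul_inv, div_eq_mul_inv, div_eq_mul_inv, mul_inv, inv_inv]
  rw [mul_assoc, mul_comm _ (ClassGroup.mk0 _ ^ (e * d)), ← mul_assoc (_⁻¹), inv_mul_cancel,
    one_mul]

end T2

end Fermat.Agent.Lib.CFT
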