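/-
S14 (CFT route), crossing argument, final assembly (Asm3): the PAIR LEMMA for an abelian unramified
extension `L/K` of odd prime degree `p`:  if `q₀, q₁` are non-split primes of `K` with
`Frob q₁ = (Frob q₀) ^ d`, then `[q₁] ≡ [q₀] ^ d` modulo the norm classes.
-/
import Mathlib
import Fermat.Agent.Lib.CFT.CrossPrimes
import Fermat.Agent.Lib.CFT.CrossData
import Fermat.Agent.Lib.CFT.AsmOne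
import Fermat.Agent.Lib.CFT.AsmMeet
import Fermat.Agent.Lib.CFT.PairT2
import Fermat.Agent.Lib.CFT.RecipBook
import Fermat.Agent.Lib.CFT.ZetaPrime

set_option autoImplicit false
set_option linter.unusedSectionVars false

namespace Fermat.Agent.Lib.CFT

open NumberField IsDedekindDomain Polynomial
open scoped nonZeroDivisors

/-- **The pair lemma** (conclusion of Artin's crossing argument). -/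
theorem cfc_pair_concl {K L : Type*} [Field K] [NumberField K] [Field L] [NumberField L]
    [Algebra K L] [IsGalois K L] [IsMulCommutative (L ≃ₐ[K] L)] {p : ℕ} [hpf : Fact p.Prime]
    (hp2 : p ≠ 2) (hdeg : Module.finrank K L = p) (hun : cft_Unram K L)
    (q₀ q₁ : HeightOneSpectrum (𝓞 K)) (d : ℕ) (h0 : cft_frob K L q₀.asIdeal ≠ 1)
    (h1 : cft_frob K L q₁.asIdeal ≠ 1)
    (hd : cft_frob K L q₁.asIdeal = cft_frob K L q₀.asIdeal ^ d) :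
    cfc_mk0Prime q₁ / cfc_mk0Prime q₀ ^ d ∈ cft_normClasses K L := by
  classical
  have hp : p.Prime := hpf.1
  obtain ⟨ℓ₀, ℓ₁, hℓ₀, hℓ₁, hne, -, -, -, -, hℓ₀a, hℓ₁a, hord₀, hord₁, hirr⟩ :=
    cfc_exists_cross_primes L p hp2 (Ideal.absNorm q₀.asIdeal) (Ideal.absNorm q₁.asIdeal)
      (cfi_two_le_absNorm K q₀) (cfi_two_le_absNorm K q₁) ∅
  have : NeZero ℓ₀ := ⟨hℓ₀.ne_zero⟩
  have : NeZero ℓ₁ := ⟨hℓ₁.ne_zero⟩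
  have hζ₀ := cfa_zeta0_spec L ℓ₀ ℓ₁
  have hζ₁ := cfa_zeta1_spec L ℓ₀ ℓ₁
  have hcommL : ∀ a b : L ≃ₐ[K] L, a * b = b * a := fun a b => mul_comm' a b
  have hcommΩ : ∀ g h : cfa_Om L ℓ₀ ℓ₁ ≃ₐ[K] cfa_Om L ℓ₀ ℓ₁, g * h = h * g :=
    fun g h => cfa_comm_Om hcommL g h
  have hcop₀ : (Ideal.absNorm q₀.asIdeal).Coprime ℓ₀ :=
    ((Nat.Prime.coprime_iff_not_dvd hℓ₀).mpr hℓ₀a).symm
  have hcop₁ : (Ideal.absNorm q₁.asIdeal).Coprime ℓ₁ :=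
    ((Nat.Prime.coprime_iff_not_dvd hℓ₁).mpr hℓ₁a).symm
  -- Frobenius data
  obtain ⟨𝔓₀, φ₀, h𝔓₀prime, h𝔓₀0, h𝔓₀q, hφ₀, hres₀, -, -, -⟩ :=
    cfc_exists_frob_data (L := L) (Ω := cfa_Om L ℓ₀ ℓ₁) hun q₀ (m := ℓ₀) hcop₀
  obtain ⟨𝔓₁, φ₁, h𝔓₁prime, h𝔓₁0, h𝔓₁q, hφ₁, hres₁, -, -, hz₁⟩ :=
    cfc_exists_frob_data (L := L) (Ω := cfa_Om L ℓ₀ ℓ₁) hun q₁ (m := ℓ₁) hcop₁
  -- the two auxiliary fields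
  obtain ⟨hNG₀, 𝔔₀, h𝔔₀, hN₀⟩ := cfc_asmOne hp hp2 hdeg hun hcommΩ hℓ₀ _ hζ₀ q₀ h0 hℓ₀a hord₀
    𝔓₀ h𝔓₀0 h𝔓₀q φ₀ hφ₀
  obtain ⟨hNG₁, 𝔔₁, h𝔔₁, hN₁⟩ := cfc_asmOne hp hp2 hdeg hun hcommΩ hℓ₁ _ hζ₁ q₁ h1 hℓ₁a hord₁
    𝔓₁ h𝔓₁0 h𝔓₁q φ₁ hφ₁
  -- the composite field and the ideal `𝔅`
  have hφ₁ζ₁ : φ₁ (cfa_zeta1 L ℓ₀ ℓ₁) = cfa_zeta1 L ℓ₀ ℓ₁ ^ Ideal.absNorm q₁.asIdeal :=
    hz₁ _ hζ₁.pow_eq_one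
  have hd' : cft_res K L K (cfa_Om L ℓ₀ ℓ₁) φ₁ = cft_res K L K (cfa_Om L ℓ₀ ℓ₁) φ₀ ^ d := by
    rw [hres₁, hres₀, hd]
  have hne₁ : cft_res K L K (cfa_Om L ℓ₀ ℓ₁) φ₁ ≠ 1 := by rw [hres₁]; exact h1
  obtain ⟨𝔅, h𝔅, h𝔅1⟩ := cfa_asmMeet_ideal K L ℓ₀ ℓ₁ hp hdeg hun hℓ₁ hirr φ₀ φ₁
    (Ideal.absNorm q₁.asIdeal) hℓ₁a hφ₁ζ₁ d hd' hne₁ (ℓ₀ * ℓ₁)
    (Nat.mul_ne_zero hℓ₀.ne_zero hℓ₁.ne_zero)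
  -- algebra structures between the fixed fields
  letI a₀ := cfn_algebraOfLE (K := K) (Ω := cfa_Om L ℓ₀ ℓ₁)
    (cfn_fixedField_le (inf_le_left :
      cft_decompH K L φ₀ (cfa_zeta0 L ℓ₀ ℓ₁) ⊓ cft_decompH K L φ₁ (cfa_zeta1 L ℓ₀ ℓ₁) ≤
        cft_decompH K L φ₀ (cfa_zeta0 L ℓ₀ ℓ₁)))
  letI a₁ := cfn_algebraOfLE (K := K) (Ω := cfa_Om L ℓ₀ ℓ₁)
    (cfn_fixedField_le (inf_le_right :
      cft_decompH K L φ₀ (cfa_zeta0 L ℓ₀ ℓ₁) ⊓ cft_decompH K L φ₁ (cfa_zeta1 L ℓ₀ ℓ₁) ≤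
        cft_decompH K L φ₁ (cfa_zeta1 L ℓ₀ ℓ₁)))
  haveI t₀ := cfn_isScalarTower_bot (K := K) (Ω := cfa_Om L ℓ₀ ℓ₁)
    (cfn_fixedField_le (inf_le_left :
      cft_decompH K L φ₀ (cfa_zeta0 L ℓ₀ ℓ₁) ⊓ cft_decompH K L φ₁ (cfa_zeta1 L ℓ₀ ℓ₁) ≤
        cft_decompH K L φ₀ (cfa_zeta0 L ℓ₀ ℓ₁)))
  haveI t₁ := cfn_isScalarTower_bot (K := K) (Ω := cfa_Om L ℓ₀ ℓ₁)
    (cfn_fixedField_le (inf_le_right :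
      cft_decompH K L φ₀ (cfa_zeta0 L ℓ₀ ℓ₁) ⊓ cft_decompH K L φ₁ (cfa_zeta1 L ℓ₀ ℓ₁) ≤
        cft_decompH K L φ₁ (cfa_zeta1 L ℓ₀ ℓ₁)))
  -- the pair lemma
  have hd'' : cft_artin K L q₁.asIdeal = cft_artin K L q₀.asIdeal ^ d := by
    rw [cft_artin_prime K L q₁, cft_artin_prime K L q₀, hd]
  exact cft_pair_lemma hp hdeg hNG₀ hNG₁
    ⟨q₀.asIdeal, mem_nonZeroDivisors_of_ne_zero q₀.ne_bot⟩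
    ⟨q₁.asIdeal, mem_nonZeroDivisors_of_ne_zero q₁.ne_bot⟩ 𝔔₀ h𝔔₀ hN₀ 𝔔₁ h𝔔₁ hN₁ 𝔅 h𝔅 h𝔅1 d hd''

end Fermat.Agent.Lib.CFT
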