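/-
S14 (class field theory route), final assembly of the crossing argument: the pair lemma
`cfd_IfacePair p` from the choice of the crossing primes, the Frobenius data on
`Ω = L(ζ_{ℓ₀}, ζ_{ℓ₁})`, (Asm1) for both auxiliary fields, the crossing element and (Asm2) for the
composite field, and the pair lemma T2.
-/
import Mathlib
import Fermat.Agent.Lib.CFT.AsmOne
import Fermat.Agent.Lib.CFT.AsmMeet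
import Fermat.Agent.Lib.CFT.CrossPrimes
import Fermat.Agent.Lib.CFT.PairT2
import Fermat.Agent.Lib.CFT.EndgameR
import Fermat.Agent.Lib.CFT.ZetaPrime

set_option autoImplicit false

namespace Fermat.Agent.Lib.CFT

open NumberField Ideal IsDedekindDomain Polynomial
open scoped nonZeroDivisors

/-- The pair lemma for a general unramified cyclic extension of odd prime degree. -/
theorem cfi_pair_general {K L : Type*} [Field K] [NumberField K] [Field L] [NumberField L]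
    [Algebra K L] [IsGalois K L] [IsMulCommutative (L ≃ₐ[K] L)] {p : ℕ} [Fact p.Prime]
    (hp2 : p ≠ 2) (hdeg : Module.finrank K L = p) (hun : cft_Unram K L)
    (q₀ q₁ : HeightOneSpectrum (𝓞 K)) (d : ℕ) (hq₀ : cft_frob K L q₀.asIdeal ≠ 1)
    (hq₁ : cft_frob K L q₁.asIdeal ≠ 1)
    (hd : cft_frob K L q₁.asIdeal = cft_frob K L q₀.asIdeal ^ d) :
    cfc_mk0Prime q₁ / cfc_mk0Prime q₀ ^ d ∈ cft_normClasses K L := by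
  have hp : p.Prime := Fact.out
  obtain ⟨ℓ₀, ℓ₁, hℓ₀, hℓ₁, -, -, -, -, -, hℓ₀a, hℓ₁a, hord₀, hord₁, hirr⟩ :=
    cfc_exists_cross_primes L p hp2 (absNorm q₀.asIdeal) (absNorm q₁.asIdeal)
      (cfi_two_le_absNorm K q₀) (cfi_two_le_absNorm K q₁) ∅
  have : NeZero ℓ₀ := ⟨hℓ₀.ne_zero⟩
  have : NeZero ℓ₁ := ⟨hℓ₁.ne_zero⟩
  have hcommΩ : ∀ g h : cfa_Om L ℓ₀ ℓ₁ ≃ₐ[K] cfa_Om L ℓ₀ ℓ₁, g * h = h * g :=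
    cfa_comm_Om (fun a b => mul_comm' a b)
  have hcop₀ : (absNorm q₀.asIdeal).Coprime ℓ₀ :=
    Nat.Coprime.symm ((Nat.Prime.coprime_iff_not_dvd hℓ₀).mpr hℓ₀a)
  have hcop₁ : (absNorm q₁.asIdeal).Coprime ℓ₁ :=
    Nat.Coprime.symm ((Nat.Prime.coprime_iff_not_dvd hℓ₁).mpr hℓ₁a)
  obtain ⟨𝔓₀, φ₀, h𝔓₀p, h𝔓₀0, h𝔓₀q, hφ₀, hres₀, -, -, hζ₀⟩ :=
    cfc_exists_frob_data (Ω := cfa_Om L ℓ₀ ℓ₁) hun q₀ (m := ℓ₀) hcop₀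
  obtain ⟨𝔓₁, φ₁, h𝔓₁p, h𝔓₁0, h𝔓₁q, hφ₁, hres₁, -, -, hζ₁⟩ :=
    cfc_exists_frob_data (Ω := cfa_Om L ℓ₀ ℓ₁) hun q₁ (m := ℓ₁) hcop₁
  obtain ⟨hgood₀, 𝔔₀, h𝔔₀, hN₀⟩ := cfc_asmOne hp hp2 hdeg hun hcommΩ hℓ₀ (cfa_zeta0 L ℓ₀ ℓ₁)
    (cfa_zeta0_spec L ℓ₀ ℓ₁) q₀ hq₀ hℓ₀a hord₀ 𝔓₀ h𝔓₀0 h𝔓₀q φ₀ hφ₀
  obtain ⟨hgood₁, 𝔔₁, h𝔔₁, hN₁⟩ := cfc_asmOne hp hp2 hdeg hun hcommΩ hℓ₁ (cfa_zeta1 L ℓ₀ ℓ₁)
    (cfa_zeta1_spec L ℓ₀ ℓ₁) q₁ hq₁ hℓ₁a hord₁ 𝔓₁ h𝔓₁0 h𝔓₁q φ₁ hφ₁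
  obtain ⟨𝔅, h𝔅, h𝔅1⟩ := cfa_asmMeet_ideal K L ℓ₀ ℓ₁ hp hdeg hun hℓ₁ hirr φ₀ φ₁
    (absNorm q₁.asIdeal) hℓ₁a (hζ₁ _ (cfa_zeta1_spec L ℓ₀ ℓ₁).pow_eq_one) d
    (by rw [hres₀, hres₁, hd]) (by rw [hres₁]; exact hq₁) (ℓ₀ * ℓ₁)
    (Nat.mul_ne_zero hℓ₀.ne_zero hℓ₁.ne_zero)
  -- the algebra structures `E_i → E`
  let a₀ := cfn_algebraOfLE (cfn_fixedField_le (inf_le_left :
    cft_decompH K L φ₀ (cfa_zeta0 L ℓ₀ ℓ₁) ⊓ cft_decompH K L φ₁ (cfa_zeta1 L ℓ₀ ℓ₁) ≤ _))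
  let a₁ := cfn_algebraOfLE (cfn_fixedField_le (inf_le_right :
    cft_decompH K L φ₀ (cfa_zeta0 L ℓ₀ ℓ₁) ⊓ cft_decompH K L φ₁ (cfa_zeta1 L ℓ₀ ℓ₁) ≤ _))
  have t₀ := cfn_isScalarTower_bot (cfn_fixedField_le (inf_le_left :
    cft_decompH K L φ₀ (cfa_zeta0 L ℓ₀ ℓ₁) ⊓ cft_decompH K L φ₁ (cfa_zeta1 L ℓ₀ ℓ₁) ≤ _))
  have t₁ := cfn_isScalarTower_bot (cfn_fixedField_le (inf_le_right :
    cft_decompH K L φ₀ (cfa_zeta0 L ℓ₀ ℓ₁) ⊓ cft_decompH K L φ₁ (cfa_zeta1 L ℓ₀ ℓ₁) ≤ _))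
  have key := cft_pair_lemma (K := K) (L := L) hp hdeg hgood₀ hgood₁
    ⟨q₀.asIdeal, mem_nonZeroDivisors_of_ne_zero q₀.ne_bot⟩
    ⟨q₁.asIdeal, mem_nonZeroDivisors_of_ne_zero q₁.ne_bot⟩ 𝔔₀ h𝔔₀ hN₀ 𝔔₁ h𝔔₁ hN₁ 𝔅 h𝔅 h𝔅1 d
    (by
      show cft_artin K L q₁.asIdeal = cft_artin K L q₀.asIdeal ^ d
      rw [cft_artin_prime K L q₁, cft_artin_prime K L q₀, hd])
  exact key

/-- The pair interface of the endgame. -/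
theorem cfi_ifacePair {p : ℕ} [Fact p.Prime] (hp3 : 3 ≤ p) : cfd_IfacePair p := by
  intro K L _ _ _ _ _ _ _ _ _ ζ _ hdeg hun q₀ q₁ d hq₀ hq₁ hd
  exact cfi_pair_general (by omega) hdeg hun q₀ q₁ d hq₀ hq₁ hd

end Fermat.Agent.Lib.CFT
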