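/-
S14 (CFT route): the pair interface `cfd_IfacePair p` of the endgame, from the pair lemma
`cfc_pair_concl`; hence `ExtVanishingCts p` for every prime `p ≥ 3`.
-/
import Mathlib
import Fermat.Agent.Lib.CFT.PairConcl
import Fermat.Agent.Lib.CFT.EndgameR

set_option autoImplicit false

namespace Fermat.Agent.Lib.CFT

/-- The pair interface of the endgame. -/
theorem cfc_ifacePair {p : ℕ} [Fact p.Prime] (hp3 : 3 ≤ p) : cfd_IfacePair p := by
  intro K L _ _ _ _ _ _ _ _ _ ζ _ hdeg hun q₀ q₁ d h0 h1 hd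
  exact cfc_pair_concl (by omega) hdeg hun q₀ q₁ d h0 h1 hd

/-- **Ext-vanishing (S14)**: for every prime `p ≥ 3`. -/
theorem cfc_extVanishingCts {p : ℕ} [Fact p.Prime] (hp3 : 3 ≤ p) :
    ExtCitation.ExtVanishingCts p :=
  cfd_extVanishing_of_pair hp3 (cfc_ifacePair hp3)

end Fermat.Agent.Lib.CFT
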