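import Fermat.Agent.Lib.CFT.Defs
import Fermat.Agent.Lib.CFT.ZetaEuler

/-!
# S14, WP-C3b (second inequality): local Euler factors of `ζ_L` over the primes of `F`

`L/F` Galois of prime degree `p`, everywhere unramified.  The primes `𝔔` of `𝓞 L` are grouped
according to the prime `𝔮 = 𝔔 ∩ 𝓞 F` below (`cfb_hasProd_fibre`); above `𝔮` there are either
`p` primes of norm `N𝔮` (and then `𝔮` is a norm, `cfb_mem_normClasses_of_inertiaDegIn_eq_one`)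
or one prime of norm `N𝔮 ^ p` (`cfb_local_factor`).
-/

namespace Fermat.Agent.Lib.CFT

open NumberField Ideal IsDedekindDomain nonZeroDivisors

variable {F L : Type*} [Field F] [NumberField F] [Field L] [NumberField L] [Algebra F L]

noncomputable def cfb_fibreEquiv (𝔮 : HeightOneSpectrum (𝓞 F)) :
    {𝔔 : HeightOneSpectrum (𝓞 L) // HeightOneSpectrum.under (𝓞 F) 𝔔 = 𝔮} ≃
      𝔮.asIdeal.primesOver (𝓞 L) where
  toFun 𝔔 := ⟨𝔔.1.asIdeal, 𝔔.1.isPrime, ⟨by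
    have := congrArg HeightOneSpectrum.asIdeal 𝔔.2
    exact this.symm⟩⟩
  invFun Q := ⟨⟨Q.1, Q.2.1, by
      have := Q.2.2
      exact Ideal.ne_bot_of_liesOver_of_ne_bot 𝔮.ne_bot Q.1⟩, by
    apply HeightOneSpectrum.ext
    have := Q.2.2
    exact (Q.1.over_def 𝔮.asIdeal).symm⟩
  left_inv _ := rfl
  right_inv _ := rfl

/-- the primes above a given prime form a finite type -/
noncomputable instance cfb_fintypeFibre (𝔮 : HeightOneSpectrum (𝓞 F)) :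
    Fintype {𝔔 : HeightOneSpectrum (𝓞 L) // HeightOneSpectrum.under (𝓞 F) 𝔔 = 𝔮} :=
  Fintype.ofEquiv _ (cfb_fibreEquiv (L := L) 𝔮).symm

/-- regrouping an Euler product over the primes of `L` according to the primes of `F` below -/
theorem cfb_hasProd_fibre {f : HeightOneSpectrum (𝓞 L) → ℝ} {a : ℝ} (hf : HasProd f a) :
    HasProd (fun 𝔮 : HeightOneSpectrum (𝓞 F) =>
      ∏ 𝔔 : {𝔔 : HeightOneSpectrum (𝓞 L) // HeightOneSpectrum.under (𝓞 F) 𝔔 = 𝔮}, f 𝔔.1) a := by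
  have h1 := (Equiv.sigmaFiberEquiv (HeightOneSpectrum.under (𝓞 F)
    (B := 𝓞 L))).hasProd_iff.mpr hf
  exact h1.sigma (fun 𝔮 => hasProd_fintype _)

variable [IsGalois F L]

/-- fundamental identity in the unramified Galois case: `g * f = [L : F]` -/
theorem cfb_ncard_mul_inertiaDegIn (hun : cft_Unram F L) (q : Ideal (𝓞 F)) [q.IsPrime]
    (hq : q ≠ ⊥) :
    (q.primesOver (𝓞 L)).ncard * q.inertiaDegIn (𝓞 L) = Module.finrank F L := by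
  have hG : IsGaloisGroup Gal(L/F) (𝓞 F) (𝓞 L) :=
    IsGaloisGroup.of_isFractionRing Gal(L/F) (𝓞 F) (𝓞 L) F L
  have h := Ideal.ncard_primesOver_mul_ramificationIdxIn_mul_inertiaDegIn q (𝓞 L) Gal(L/F)
  obtain ⟨Q, hQ, hlo⟩ := (Ideal.nonempty_primesOver (S := 𝓞 L) q).some
  have hQ0 : Q ≠ ⊥ := Ideal.ne_bot_of_liesOver_of_ne_bot hq Q
  have hur := hun Q hQ0
  have he : q.ramificationIdxIn (𝓞 L) = 1 := by
    rw [Ideal.ramificationIdxIn_eq_ramificationIdx q Q Gal(L/F)]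
    exact Ideal.ramificationIdx_eq_one_of_isUnramifiedAt
  rw [he, one_mul] at h
  rw [h, IsGalois.card_aut_eq_finrank]

theorem cfb_relNorm_prime (q : Ideal (𝓞 F)) [q.IsPrime] (hq : q ≠ ⊥) (Q : Ideal (𝓞 L))
    [Q.IsPrime] [Q.LiesOver q] :
    Ideal.relNorm (𝓞 F) Q = q ^ q.inertiaDegIn (𝓞 L) := by
  have hG : IsGaloisGroup Gal(L/F) (𝓞 F) (𝓞 L) :=
    IsGaloisGroup.of_isFractionRing Gal(L/F) (𝓞 F) (𝓞 L) F L
  have hqmax : q.IsMaximal := Ring.DimensionLEOne.maximalOfPrime hq inferInstance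
  have hQ0 : Q ≠ ⊥ := Ideal.ne_bot_of_liesOver_of_ne_bot hq Q
  have hQmax : Q.IsMaximal := Ring.DimensionLEOne.maximalOfPrime hQ0 inferInstance
  rw [Ideal.relNorm_eq_pow_of_isMaximal Q q, Ideal.inertiaDegIn_eq_inertiaDeg q Q Gal(L/F)]

theorem cfb_absNorm_prime (q : Ideal (𝓞 F)) [q.IsPrime] (hq : q ≠ ⊥) (Q : Ideal (𝓞 L))
    [Q.IsPrime] [Q.LiesOver q] :
    absNorm Q = absNorm q ^ q.inertiaDegIn (𝓞 L) := by
  rw [← Ideal.absNorm_relNorm (R := 𝓞 F), cfb_relNorm_prime q hq Q, map_pow]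

theorem cfb_prod_fibre (𝔮 : HeightOneSpectrum (𝓞 F)) (φ : ℕ → ℝ) :
    ∏ 𝔔 : {𝔔 : HeightOneSpectrum (𝓞 L) // HeightOneSpectrum.under (𝓞 F) 𝔔 = 𝔮},
        φ (absNorm 𝔔.1.asIdeal) =
      φ (absNorm 𝔮.asIdeal ^ 𝔮.asIdeal.inertiaDegIn (𝓞 L)) ^
        (𝔮.asIdeal.primesOver (𝓞 L)).ncard := by
  classical
  have h0 : ∏ 𝔔 : {𝔔 : HeightOneSpectrum (𝓞 L) // HeightOneSpectrum.under (𝓞 F) 𝔔 = 𝔮},
      φ (absNorm 𝔔.1.asIdeal) = ∏ Q : 𝔮.asIdeal.primesOver (𝓞 L), φ (absNorm Q.1) :=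
    Fintype.prod_equiv (cfb_fibreEquiv (L := L) 𝔮) _ _ (fun _ => rfl)
  rw [h0]
  have : ∀ Q : 𝔮.asIdeal.primesOver (𝓞 L), φ (absNorm Q.1) =
      φ (absNorm 𝔮.asIdeal ^ 𝔮.asIdeal.inertiaDegIn (𝓞 L)) := by
    intro Q
    have := Q.2.1
    have := Q.2.2
    rw [cfb_absNorm_prime 𝔮.asIdeal 𝔮.ne_bot Q.1]
  simp_rw [this]
  rw [Finset.prod_const, Finset.card_univ, Set.fintypeCard_eq_ncard]

/-- a prime of degree one (`f = 1`) is a norm, so its class is a norm class -/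
theorem cfb_mem_normClasses_of_inertiaDegIn_eq_one (𝔮 : HeightOneSpectrum (𝓞 F))
    (h1 : 𝔮.asIdeal.inertiaDegIn (𝓞 L) = 1) :
    ClassGroup.mk0 (cfi_prime 𝔮) ∈ cft_normClasses F L := by
  obtain ⟨Q, hQ, hlo⟩ := (Ideal.nonempty_primesOver (S := 𝓞 L) 𝔮.asIdeal).some
  have hQ0 : Q ≠ ⊥ := Ideal.ne_bot_of_liesOver_of_ne_bot 𝔮.ne_bot Q
  have hrel := cfb_relNorm_prime 𝔮.asIdeal 𝔮.ne_bot Q
  rw [h1, pow_one] at hrel
  apply Subgroup.subset_closure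
  refine ⟨⟨Q, mem_nonZeroDivisors_of_ne_zero hQ0⟩, ?_⟩
  congr 1
  apply Subtype.ext
  exact hrel.symm

/-- **local Euler factors of `ζ_L` over a prime `𝔮` of `F`** (`L/F` Galois of prime degree `p`,
unramified): either `𝔮` splits completely (factor `(1 - x)^(-p)`, and the class of `𝔮` is a norm
class), or `𝔮` is inert (factor `(1 - x^p)^(-1)`), where `x = N(𝔮)^(-s)`. -/
theorem cfb_local_factor {p : ℕ} (hp : p.Prime) (hdeg : Module.finrank F L = p)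
    (hun : cft_Unram F L) (𝔮 : HeightOneSpectrum (𝓞 F)) (s : ℝ) :
    ((∏ 𝔔 : {𝔔 : HeightOneSpectrum (𝓞 L) // HeightOneSpectrum.under (𝓞 F) 𝔔 = 𝔮},
        (1 - (absNorm 𝔔.1.asIdeal : ℝ) ^ (-s))⁻¹) =
          ((1 - (absNorm 𝔮.asIdeal : ℝ) ^ (-s))⁻¹) ^ p ∧
        ClassGroup.mk0 (cfi_prime 𝔮) ∈ cft_normClasses F L) ∨
    ((∏ 𝔔 : {𝔔 : HeightOneSpectrum (𝓞 L) // HeightOneSpectrum.under (𝓞 F) 𝔔 = 𝔮},
        (1 - (absNorm 𝔔.1.asIdeal : ℝ) ^ (-s))⁻¹) =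
          (1 - ((absNorm 𝔮.asIdeal : ℝ) ^ (-s)) ^ p)⁻¹) := by
  have hgf := cfb_ncard_mul_inertiaDegIn hun 𝔮.asIdeal 𝔮.ne_bot
  rw [hdeg] at hgf
  have hprod := cfb_prod_fibre (L := L) 𝔮 (fun n => (1 - (n : ℝ) ^ (-s))⁻¹)
  beta_reduce at hprod
  have hpow : ∀ f : ℕ, (((absNorm 𝔮.asIdeal ^ f : ℕ) : ℝ)) ^ (-s) =
      ((absNorm 𝔮.asIdeal : ℝ) ^ (-s)) ^ f := by
    intro f
    rw [Nat.cast_pow, ← Real.rpow_natCast, ← Real.rpow_natCast, ← Real.rpow_mul (Nat.cast_nonneg _),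
      ← Real.rpow_mul (Nat.cast_nonneg _), mul_comm]
  rcases (Nat.dvd_prime hp).mp ⟨_, hgf.symm⟩ with hg | hg
  · -- g = 1, f = p
    right
    have hf : 𝔮.asIdeal.inertiaDegIn (𝓞 L) = p := by rw [hg, one_mul] at hgf; exact hgf
    rw [hprod, hg, hf, pow_one, hpow]
  · -- g = p, f = 1
    left
    have hf : 𝔮.asIdeal.inertiaDegIn (𝓞 L) = 1 := by
      rw [hg] at hgf
      exact Nat.eq_of_mul_eq_mul_left hp.pos (by rw [hgf, mul_one])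
    refine ⟨?_, cfb_mem_normClasses_of_inertiaDegIn_eq_one 𝔮 hf⟩
    rw [hprod, hg, hf, pow_one]

end Fermat.Agent.Lib.CFT
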