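import Fermat.Agent.Lib.CFT.SecondIneqL
import Fermat.Agent.Lib.CFT.SecondIneqLocal

/-!
# S14, WP-C3b: the second inequality of class field theory (unramified, prime degree)

`L/F` Galois of prime degree `p`, everywhere unramified.  Under the ideal-counting hypothesis
`cfb_CountHyp F` the subgroup `cft_normClasses F L` of the class group of `F` generated by the
norms of ideals of `L` has index at most `p` (`cfb_second_ineq`).

Proof: with `h` the index and `χ` running over the characters of `Cl_F / N`, the Euler factors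
give `ζ_L(s)^h ≤ ‖∏_χ L(s,χ)‖^p ζ_F(2)^h` (`cfb_global_ineq`), the `L(s,χ)`, `χ ≠ 1`, are bounded
on `(1,2]`, so `ζ_L(s)^h ≤ K ζ_F(s)^p`; compare the orders of the poles at `s = 1`.
-/

namespace Fermat.Agent.Lib.CFT

open NumberField Ideal IsDedekindDomain Filter Topology nonZeroDivisors

/-- the characters of a finite abelian group form a finite type -/
noncomputable def cfb_fintypeChar (Q : Type*) [CommGroup Q] [Finite Q] : Fintype (Q →* ℂˣ) :=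
  Fintype.ofFinite _

attribute [local instance] cfb_fintypeChar

/-- comparison of infinite products of nonnegative reals -/
theorem cfb_hasProd_le {ι : Type*} {f g : ι → ℝ} {a b : ℝ} (h0 : ∀ i, 0 ≤ f i)
    (h : ∀ i, f i ≤ g i) (hf : HasProd f a) (hg : HasProd g b) : a ≤ b :=
  le_of_tendsto_of_tendsto' hf hg fun _ =>
    Finset.prod_le_prod (fun i _ => h0 i) (fun i _ => h i)

variable {F : Type*} [Field F] [NumberField F]

theorem cfb_two_le_absNorm (𝔮 : HeightOneSpectrum (𝓞 F)) : 2 ≤ absNorm 𝔮.asIdeal := by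
  have h0 : absNorm 𝔮.asIdeal ≠ 0 := by
    rw [Ne, Ideal.absNorm_eq_zero_iff]; exact 𝔮.ne_bot
  have h1 : absNorm 𝔮.asIdeal ≠ 1 := by
    rw [Ne, Ideal.absNorm_eq_one_iff]; exact 𝔮.isPrime.ne_top
  omega

theorem cfb_x_pos (𝔮 : HeightOneSpectrum (𝓞 F)) (s : ℝ) :
    0 < (absNorm 𝔮.asIdeal : ℝ) ^ (-s) := by
  have := cfb_two_le_absNorm 𝔮
  apply Real.rpow_pos_of_pos
  exact_mod_cast (by omega : 0 < absNorm 𝔮.asIdeal)

theorem cfb_x_lt_one (𝔮 : HeightOneSpectrum (𝓞 F)) {s : ℝ} (hs : 0 < s) :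
    (absNorm 𝔮.asIdeal : ℝ) ^ (-s) < 1 := by
  have := cfb_two_le_absNorm 𝔮
  apply Real.rpow_lt_one_of_one_lt_of_neg
  · exact_mod_cast (by omega : 1 < absNorm 𝔮.asIdeal)
  · linarith

theorem cfb_x_le (𝔮 : HeightOneSpectrum (𝓞 F)) {s : ℝ} (hs : 1 ≤ s) :
    (absNorm 𝔮.asIdeal : ℝ) ^ (-s) ≤ (absNorm 𝔮.asIdeal : ℝ) ^ (-(1 : ℝ)) := by
  have := cfb_two_le_absNorm 𝔮
  apply Real.rpow_le_rpow_of_exponent_le
  · exact_mod_cast (by omega : 1 ≤ absNorm 𝔮.asIdeal)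
  · linarith

variable (H : Subgroup (ClassGroup (𝓞 F)))

/-- the Euler factor at `𝔮` of `∏_χ L(s, χ)` is `r⁻¹` with `0 < r ≤ 1` real -/
theorem cfb_euler_factor (𝔮 : HeightOneSpectrum (𝓞 F)) {s : ℝ} (hs : 0 < s) :
    ∃ r : ℝ, 0 < r ∧ r ≤ 1 ∧
      ∏ χ : (ClassGroup (𝓞 F) ⧸ H) →* ℂˣ, (1 - cfb_term F H χ s (cfi_prime 𝔮))⁻¹ = ((r⁻¹ : ℝ) : ℂ) ∧
      (ClassGroup.mk0 (cfi_prime 𝔮) ∈ H →
        r = (1 - (absNorm 𝔮.asIdeal : ℝ) ^ (-s)) ^ Nat.card (ClassGroup (𝓞 F) ⧸ H)) := by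
  obtain ⟨r, hr0, hr1, hr⟩ := cfb_prod_char (ClassGroup (𝓞 F) ⧸ H)
    (QuotientGroup.mk (ClassGroup.mk0 (cfi_prime 𝔮)) : ClassGroup (𝓞 F) ⧸ H)
    (cfb_x_pos 𝔮 s).le (cfb_x_lt_one 𝔮 hs)
  refine ⟨r, hr0, hr1, ?_, ?_⟩
  · rw [Finset.prod_inv_distrib]
    have : ∀ χ : (ClassGroup (𝓞 F) ⧸ H) →* ℂˣ, cfb_term F H χ s (cfi_prime 𝔮) =
        ((χ (QuotientGroup.mk (ClassGroup.mk0 (cfi_prime 𝔮))) : ℂˣ) : ℂ) *
          (((absNorm 𝔮.asIdeal : ℝ) ^ (-s) : ℝ) : ℂ) := fun χ => rfl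
    simp_rw [this]
    rw [hr]
    push_cast
    rfl
  · intro hmem
    have h1 : (QuotientGroup.mk (ClassGroup.mk0 (cfi_prime 𝔮)) : ClassGroup (𝓞 F) ⧸ H) = 1 :=
      (QuotientGroup.eq_one_iff _).mpr hmem
    rw [h1] at hr
    simp only [map_one, Units.val_one, one_mul, Finset.prod_const, Finset.card_univ] at hr
    rw [cfb_card_char] at hr
    have : (((1 - (absNorm 𝔮.asIdeal : ℝ) ^ (-s)) ^ Nat.card (ClassGroup (𝓞 F) ⧸ H) : ℝ) : ℂ)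
        = (r : ℂ) := by
      rw [← hr]; push_cast; rfl
    exact (Complex.ofReal_injective this).symm

/-- `‖∏_χ L(s, χ)‖ ≤ ζ_F(s) * B` on `(1, 2]` -/
theorem cfb_norm_prod_L_le (h : cfb_CountHyp F) (H : Subgroup (ClassGroup (𝓞 F))) :
    ∃ B : ℝ, 0 ≤ B ∧ ∀ s : ℝ, 1 < s → s ≤ 2 →
      ‖∏ χ : (ClassGroup (𝓞 F) ⧸ H) →* ℂˣ, cfb_L F H χ s‖ ≤ cfi_zeta F s * B := by
  classical
  choose B hB using fun χ : {χ : (ClassGroup (𝓞 F) ⧸ H) →* ℂˣ // χ ≠ 1} =>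
    cfb_norm_L_le F H h χ.1 χ.2
  set B' : ((ClassGroup (𝓞 F) ⧸ H) →* ℂˣ) → ℝ := fun χ =>
    if hχ : χ = 1 then 1 else B ⟨χ, hχ⟩ with hB'
  have hB'0 : ∀ χ, 0 ≤ B' χ := by
    intro χ
    simp only [hB']
    split_ifs with hχ
    · exact zero_le_one
    · exact le_trans (norm_nonneg _) (hB ⟨χ, hχ⟩ 2 (by norm_num) le_rfl)
  refine ⟨∏ χ ∈ (Finset.univ.erase (1 : (ClassGroup (𝓞 F) ⧸ H) →* ℂˣ)), B' χ,
    Finset.prod_nonneg fun χ _ => hB'0 χ, fun s hs1 hs2 => ?_⟩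
  rw [norm_prod, ← Finset.mul_prod_erase Finset.univ _ (Finset.mem_univ (1 : _ →* ℂˣ))]
  rw [cfb_L_one, Complex.norm_real, Real.norm_of_nonneg (cfi_zeta_pos F hs1).le]
  apply mul_le_mul_of_nonneg_left _ (cfi_zeta_pos F hs1).le
  apply Finset.prod_le_prod (fun χ _ => norm_nonneg _)
  intro χ hχ
  have hχ1 : χ ≠ 1 := (Finset.mem_erase.mp hχ).1
  simp only [hB']
  rw [dif_neg hχ1]
  exact hB ⟨χ, hχ1⟩ s hs1 hs2

variable {L : Type*} [Field L] [NumberField L] [Algebra F L] [IsGalois F L]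

/-- the local inequality `G_𝔮 ^ h ≤ ‖E_𝔮‖ ^ p * c_𝔮 ^ h` -/
theorem cfb_local_ineq {p : ℕ} (hp : p.Prime) (hdeg : Module.finrank F L = p)
    (hun : cft_Unram F L) (𝔮 : HeightOneSpectrum (𝓞 F)) {s : ℝ} (hs : 1 ≤ s) :
    (∏ 𝔔 : {𝔔 : HeightOneSpectrum (𝓞 L) // HeightOneSpectrum.under (𝓞 F) 𝔔 = 𝔮},
        (1 - (absNorm 𝔔.1.asIdeal : ℝ) ^ (-s))⁻¹) ^
          Nat.card (ClassGroup (𝓞 F) ⧸ cft_normClasses F L) ≤
      ‖∏ χ : (ClassGroup (𝓞 F) ⧸ cft_normClasses F L) →* ℂˣ,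
          (1 - cfb_term F (cft_normClasses F L) χ s (cfi_prime 𝔮))⁻¹‖ ^ p *
        ((1 - (absNorm 𝔮.asIdeal : ℝ) ^ (-(2 : ℝ)))⁻¹) ^
          Nat.card (ClassGroup (𝓞 F) ⧸ cft_normClasses F L) := by
  have hs0 : 0 < s := by linarith
  obtain ⟨r, hr0, hr1, hE, hmem⟩ := cfb_euler_factor (cft_normClasses F L) 𝔮 hs0
  rw [hE, Complex.norm_real, Real.norm_of_nonneg (inv_nonneg.mpr hr0.le)]
  set h := Nat.card (ClassGroup (𝓞 F) ⧸ cft_normClasses F L) with hh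
  set x := (absNorm 𝔮.asIdeal : ℝ) ^ (-s) with hx
  have hx0 : 0 < x := cfb_x_pos 𝔮 s
  have hx1 : x < 1 := cfb_x_lt_one 𝔮 hs0
  set y := (absNorm 𝔮.asIdeal : ℝ) ^ (-(2 : ℝ)) with hy
  have hy0 : 0 < y := cfb_x_pos 𝔮 2
  have hy1 : y < 1 := cfb_x_lt_one 𝔮 (by norm_num)
  have hc1 : 1 ≤ (1 - y)⁻¹ := by
    rw [one_le_inv₀ (by linarith)]; linarith
  have hrinv : 1 ≤ r⁻¹ := by
    rw [one_le_inv₀ hr0]; exact hr1
  rcases cfb_local_factor hp hdeg hun 𝔮 s with ⟨hG, hm⟩ | hG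
  · rw [hG, hmem hm]
    have e1 : (((1 - x)⁻¹) ^ p) ^ h = (((1 - x) ^ h)⁻¹) ^ p := by
      rw [← pow_mul, inv_pow, inv_pow, ← pow_mul, mul_comm]
    rw [e1]
    have hnn : 0 ≤ (((1 - x) ^ h)⁻¹) ^ p := by
      apply pow_nonneg; apply inv_nonneg.mpr; apply pow_nonneg; linarith
    calc (((1 - x) ^ h)⁻¹) ^ p = (((1 - x) ^ h)⁻¹) ^ p * 1 := (mul_one _).symm
      _ ≤ (((1 - x) ^ h)⁻¹) ^ p * ((1 - y)⁻¹) ^ h :=
        mul_le_mul_of_nonneg_left (one_le_pow₀ hc1) hnn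
  · rw [hG]
    have hxy : x ^ p ≤ y := by
      have h2 : x ^ p ≤ x ^ 2 := pow_le_pow_of_le_one hx0.le hx1.le hp.two_le
      have h3 : x ≤ (absNorm 𝔮.asIdeal : ℝ) ^ (-(1 : ℝ)) := cfb_x_le 𝔮 hs
      have h4 : x ^ 2 ≤ ((absNorm 𝔮.asIdeal : ℝ) ^ (-(1 : ℝ))) ^ 2 :=
        pow_le_pow_left₀ hx0.le h3 2
      have h5 : ((absNorm 𝔮.asIdeal : ℝ) ^ (-(1 : ℝ))) ^ 2 = y := by
        rw [hy, ← Real.rpow_natCast, ← Real.rpow_mul (Nat.cast_nonneg _)]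
        norm_num
      linarith
    have hG1 : (1 - x ^ p)⁻¹ ≤ (1 - y)⁻¹ := by
      apply inv_anti₀ (by linarith) (by linarith)
    have hG0 : 0 ≤ (1 - x ^ p)⁻¹ := by
      apply inv_nonneg.mpr
      have : x ^ p < 1 := pow_lt_one₀ hx0.le hx1 hp.pos.ne'
      linarith
    calc ((1 - x ^ p)⁻¹) ^ h ≤ ((1 - y)⁻¹) ^ h := pow_le_pow_left₀ hG0 hG1 h
      _ = 1 * ((1 - y)⁻¹) ^ h := (one_mul _).symm
      _ ≤ (r⁻¹) ^ p * ((1 - y)⁻¹) ^ h :=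
        mul_le_mul_of_nonneg_right (one_le_pow₀ hrinv) (pow_nonneg (by linarith) _)

/-- the global inequality `ζ_L(s)^h ≤ ‖∏_χ L(s,χ)‖^p ζ_F(2)^h` -/
theorem cfb_global_ineq {p : ℕ} (hp : p.Prime) (hdeg : Module.finrank F L = p)
    (hun : cft_Unram F L) {s : ℝ} (hs : 1 < s) :
    cfi_zeta L s ^ Nat.card (ClassGroup (𝓞 F) ⧸ cft_normClasses F L) ≤
      ‖∏ χ : (ClassGroup (𝓞 F) ⧸ cft_normClasses F L) →* ℂˣ,
          cfb_L F (cft_normClasses F L) χ s‖ ^ p *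
        cfi_zeta F 2 ^ Nat.card (ClassGroup (𝓞 F) ⧸ cft_normClasses F L) := by
  have hZL := cfb_hasProd_fibre (F := F) (cfi_zeta_hasProd L hs)
  have hP : HasProd (fun 𝔮 : HeightOneSpectrum (𝓞 F) =>
      ∏ χ : (ClassGroup (𝓞 F) ⧸ cft_normClasses F L) →* ℂˣ,
        (1 - cfb_term F (cft_normClasses F L) χ s (cfi_prime 𝔮))⁻¹)
      (∏ χ : (ClassGroup (𝓞 F) ⧸ cft_normClasses F L) →* ℂˣ,
        cfb_L F (cft_normClasses F L) χ s) :=
    hasProd_prod (fun χ _ => cfb_L_hasProd F (cft_normClasses F L) χ hs)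
  have hZ2 := cfi_zeta_hasProd F (by norm_num : (1 : ℝ) < 2)
  refine cfb_hasProd_le ?_ (fun 𝔮 => cfb_local_ineq hp hdeg hun 𝔮 hs.le)
    (hZL.pow _) ((hP.norm.pow p).mul (hZ2.pow _))
  intro 𝔮
  apply pow_nonneg
  apply Finset.prod_nonneg
  intro 𝔔 _
  apply inv_nonneg.mpr
  have := cfb_x_lt_one 𝔔.1 (by linarith : 0 < s)
  linarith

/-- **The second inequality** for an unramified Galois extension of prime degree, from the
ideal-counting hypothesis: the norm classes have index at most `p`. -/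
theorem cfb_second_ineq (hcount : cfb_CountHyp F) {p : ℕ} (hp : p.Prime)
    (hdeg : Module.finrank F L = p) (hun : cft_Unram F L) :
    (cft_normClasses F L).index ≤ p := by
  by_contra hlt
  rw [not_le] at hlt
  set h := Nat.card (ClassGroup (𝓞 F) ⧸ cft_normClasses F L) with hh
  have hidx : (cft_normClasses F L).index = h := rfl
  rw [hidx] at hlt
  obtain ⟨B, hB0, hB⟩ := cfb_norm_prod_L_le hcount (cft_normClasses F L)
  set K := B ^ p * cfi_zeta F 2 ^ h with hK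
  -- the inequality on (1, 2]
  have hineq : ∀ s : ℝ, 1 < s → s ≤ 2 →
      ((s - 1) * cfi_zeta L s) ^ h ≤ K * ((s - 1) * cfi_zeta F s) ^ p * (s - 1) ^ (h - p) := by
    intro s hs1 hs2
    have h1 := cfb_global_ineq hp hdeg hun hs1
    have h2 := hB s hs1 hs2
    have h3 : ‖∏ χ : (ClassGroup (𝓞 F) ⧸ cft_normClasses F L) →* ℂˣ,
          cfb_L F (cft_normClasses F L) χ s‖ ^ p ≤ (cfi_zeta F s * B) ^ p :=
      pow_le_pow_left₀ (norm_nonneg _) h2 p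
    have hz2 : 0 ≤ cfi_zeta F 2 ^ h := pow_nonneg (cfi_zeta_pos F (by norm_num)).le _
    have h4 : cfi_zeta L s ^ h ≤ (cfi_zeta F s * B) ^ p * cfi_zeta F 2 ^ h :=
      h1.trans (mul_le_mul_of_nonneg_right h3 hz2)
    have hs0 : 0 ≤ s - 1 := by linarith
    have h5 : (s - 1) ^ h = (s - 1) ^ p * (s - 1) ^ (h - p) := by
      rw [← pow_add]; congr 1; omega
    calc ((s - 1) * cfi_zeta L s) ^ h = (s - 1) ^ h * cfi_zeta L s ^ h := mul_pow _ _ _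
      _ ≤ (s - 1) ^ h * ((cfi_zeta F s * B) ^ p * cfi_zeta F 2 ^ h) :=
        mul_le_mul_of_nonneg_left h4 (pow_nonneg hs0 _)
      _ = K * ((s - 1) * cfi_zeta F s) ^ p * (s - 1) ^ (h - p) := by
        rw [h5, hK, mul_pow, mul_pow]; ring
  -- limits
  have hL := (cfi_tendsto_sub_one_mul_zeta L).pow h
  have hF := (cfi_tendsto_sub_one_mul_zeta F).pow p
  have h0 : Tendsto (fun s : ℝ => (s - 1) ^ (h - p)) (𝓝[>] 1) (𝓝 ((1 - 1 : ℝ) ^ (h - p))) := by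
    apply tendsto_nhdsWithin_of_tendsto_nhds
    exact ((continuous_id.sub continuous_const).pow _).tendsto _
  have hR := (hF.const_mul K).mul h0
  have hev : ∀ᶠ s in 𝓝[>] (1 : ℝ),
      ((s - 1) * cfi_zeta L s) ^ h ≤ K * ((s - 1) * cfi_zeta F s) ^ p * (s - 1) ^ (h - p) := by
    have : Set.Ioc (1 : ℝ) 2 ∈ 𝓝[>] (1 : ℝ) := Ioc_mem_nhdsGT one_lt_two
    filter_upwards [this] with s hs
    exact hineq s hs.1 hs.2
  have hle := le_of_tendsto_of_tendsto hL hR hev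
  have hne : h - p ≠ 0 := by omega
  rw [sub_self, zero_pow hne, mul_zero] at hle
  have hpos : 0 < dedekindZeta_residue L ^ h := pow_pos (dedekindZeta_residue_pos L) _
  linarith

end Fermat.Agent.Lib.CFT
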